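/-
MLT / stream Eta (helper1): basic definitions on the Betti lattices `L_M = tdmL M`.

* `mlteDegHom M q hq A` : `Hom(Γ₀(M), A) → Hom(Γ₀(M q), A)`, precomposition with the second
  degeneracy homomorphism `lraDeg M q hq : Γ₀(M q) →* Γ₀(M)` (`γ ↦ diag(q,1) γ diag(q,1)⁻¹`);
* `mlteDeg M q hq : L_M → L_{M q}` the induced map on parabolic integral classes;
* `mlteB1, mlteBq, mlteBqq N q : L_N → L_{N q q}` the three degeneracy maps of level `N → N q²`;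
* `mlteXi N q x y z = B_1 x + B_q y + B_{q²} z`;
* `mlteE N ℓ = T_ℓ - (ℓ + 1)` (the Eisenstein-killing operator).
-/
import Mathlib
import Fermat.Agent.Lib.LR.HeckeLat
import Fermat.Agent.Lib.LR.Amalgam.Main

set_option autoImplicit false
set_option linter.unusedSectionVars false
set_option linter.unusedVariables false

open Matrix MatrixGroups CongruenceSubgroup Fermat.Agent.T1 Fermat.Agent.T2 ModularCurve
  ModularCurve.Period Fermat.Agent.LR

namespace Fermat.Agent.MLT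

noncomputable section

/-- precomposition with the second degeneracy homomorphism `Γ₀(M q) →* Γ₀(M)` -/
def mlteDegHom (M q : ℕ) (hq : q ≠ 0) (A : Type*) [AddCommGroup A] :
    (Additive (Gamma0 M) →+ A) →+ (Additive (Gamma0 (M * q)) →+ A) where
  toFun φ := φ.comp (MonoidHom.toAdditive (lraDeg M q hq))
  map_zero' := rfl
  map_add' _ _ := rfl

theorem mlteDegHom_apply (M q : ℕ) (hq : q ≠ 0) (A : Type*) [AddCommGroup A]
    (φ : Additive (Gamma0 M) →+ A) (δ : Gamma0 (M * q)) :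
    mlteDegHom M q hq A φ (Additive.ofMul δ) = φ (Additive.ofMul (lraDeg M q hq δ)) := rfl

/-- the second degeneracy homomorphism preserves traces -/
theorem mlte_trace_lraDeg (M q : ℕ) (hq : q ≠ 0) (δ : Gamma0 (M * q)) :
    (((lraDeg M q hq δ : Gamma0 M) : SL(2, ℤ)) : Matrix (Fin 2) (Fin 2) ℤ).trace
      = ((δ : SL(2, ℤ)) : Matrix (Fin 2) (Fin 2) ℤ).trace := by
  obtain ⟨e00, -, -, e11⟩ := lraDeg_entries (N := M) hq δ
  rw [Matrix.trace_fin_two, Matrix.trace_fin_two]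
  exact congrArg₂ (· + ·) e00 e11

theorem mlteDegHom_parabolic (M q : ℕ) (hq : q ≠ 0) {A : Type*} [AddCommGroup A]
    {φ : Additive (Gamma0 M) →+ A} (hφ : IsParabolicHom (Gamma0 M) φ) :
    IsParabolicHom (Gamma0 (M * q)) (mlteDegHom M q hq A φ) := by
  intro δ hδ
  rw [mlteDegHom_apply]
  exact hφ _ (by rw [mlte_trace_lraDeg]; exact hδ)

/-- the second degeneracy map `L_M → L_{M q}` -/
def mlteDeg (M q : ℕ) (hq : q ≠ 0) : ↥(tdmL M) →ₗ[ℤ] ↥(tdmL (M * q)) where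
  toFun φ := ⟨mlteDegHom M q hq ℤ φ.1, mlteDegHom_parabolic M q hq φ.2⟩
  map_add' _ _ := rfl
  map_smul' _ _ := rfl

@[simp] theorem mlteDeg_coe (M q : ℕ) (hq : q ≠ 0) (φ : ↥(tdmL M)) :
    ((mlteDeg M q hq φ : ↥(tdmL (M * q))) : Additive (Gamma0 (M * q)) →+ ℤ)
      = mlteDegHom M q hq ℤ φ.1 := rfl

section Levels

variable (N q : ℕ) [NeZero N] [hq : Fact q.Prime]

instance mlte_neZero_mul : NeZero (N * q) := ⟨Nat.mul_ne_zero (NeZero.ne N) hq.out.ne_zero⟩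

instance mlte_neZero_mul_mul : NeZero (N * q * q) :=
  ⟨Nat.mul_ne_zero (Nat.mul_ne_zero (NeZero.ne N) hq.out.ne_zero) hq.out.ne_zero⟩

/-- `B_1 : L_N → L_{N q²}` (restriction twice) -/
def mlteB1 : ↥(tdmL N) →ₗ[ℤ] ↥(tdmL (N * q * q)) :=
  (lrhRes (N * q) q).comp (lrhRes N q)

/-- `B_q : L_N → L_{N q²}` (second degeneracy, then restriction) -/
def mlteBq : ↥(tdmL N) →ₗ[ℤ] ↥(tdmL (N * q * q)) :=
  (lrhRes (N * q) q).comp (mlteDeg N q hq.out.ne_zero)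

/-- `B_{q²} : L_N → L_{N q²}` (second degeneracy twice) -/
def mlteBqq : ↥(tdmL N) →ₗ[ℤ] ↥(tdmL (N * q * q)) :=
  (mlteDeg (N * q) q hq.out.ne_zero).comp (mlteDeg N q hq.out.ne_zero)

/-- `ξ(x, y, z) = B_1 x + B_q y + B_{q²} z` -/
def mlteXi (x y z : ↥(tdmL N)) : ↥(tdmL (N * q * q)) :=
  mlteB1 N q x + mlteBq N q y + mlteBqq N q z

/-- `ξ_v x = ξ(q x, -T_q x, x)` : the `U_q`-nilpotent old vector.  (In the normalisation of
`Hom(Γ, ℤ)` the second degeneracy is `q · B_q^{classical}`: `U_q ∘ res = res ∘ T_q - Deg`,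
`U_q ∘ Deg = q · res`; hence the kernel vector is `(q, -T_q, 1)`, not `(1, -T_q, q)`.) -/
def mlteXiV (h : ¬ q ∣ N) (x : ↥(tdmL N)) : ↥(tdmL (N * q * q)) :=
  mlteXi N q ((q : ℤ) • x) (-(lrhT N q hq.out h x)) x

end Levels

/-- `E_ℓ = T_ℓ - (ℓ + 1)` on `L_N` -/
def mlteE (N : ℕ) [NeZero N] (ℓ : ℕ) (hℓ : ℓ.Prime) (hℓN : ¬ ℓ ∣ N) :
    ↥(tdmL N) →ₗ[ℤ] ↥(tdmL N) :=
  lrhT N ℓ hℓ hℓN - ((ℓ : ℤ) + 1) • LinearMap.id

end

end Fermat.Agent.MLT
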