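/-
MLT (project S59) / (D) geometric inputs (helper1 for helper6): **(ES at `p`)** the Eichler–Shimura
relation at `p` on the Tate module of `J₀(N)` (`p ∤ N`), modulo the formal part of the level `N' p`.

* `mlte_pull_mem_C_pow` : helper4's `mltph_pull_mem_C` for the exponent `p ^ k`;
* `mlte_esTT : MltcEsTTContract`.
-/
import Mathlib
import Fermat.Agent.Lib.MLT.Contracts.FrobGeo
import Fermat.Agent.Lib.MLT.AtP.H.FormalPull
import Fermat.Agent.Lib.Delta.Wire.Eigen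
import Fermat.Agent.Lib.T1.S18.AllLevels
import Fermat.Agent.Lib.T1.Kron.K3Final

set_option autoImplicit false
set_option linter.unusedSectionVars false
set_option linter.unusedVariables false
set_option linter.style.haveILetI false
set_option synthInstance.maxHeartbeats 400000

open Fermat.Agent.T1 Fermat.Agent.T2 Fermat.Agent.TW Fermat.Agent.S33 Fermat.Agent.S33W
  Fermat.Agent.Alpha Fermat.Agent.Delta Fermat.Agent.T3 ModularCurve ModularCurve.Period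
  Fermat.Agent.S24Lib CongruenceSubgroup HahnSeries AlgebraicCurve

namespace Fermat.Agent.MLT

local notation "Qbar" => AlgebraicClosure ℚ
local notation "GQ" => (AlgebraicClosure ℚ ≃ₐ[ℚ] AlgebraicClosure ℚ)

attribute [local instance] t2gp_fact
attribute [local instance] s33g_neZero

noncomputable section

section Pull

variable (𝔓 : FFPlace) {N : ℕ} [NeZero N] (N' : ℕ) [NeZero N'] (h : ¬ 𝔓.p ∣ N') (hNN' : N ∣ N')

/-- **the pull-back of a formal class of exponent `p ^ k` of the good level lies in the formal part of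
the level `N' p`** -/
theorem mlte_pull_mem_C_pow (k : ℕ) (Z : (↥(modularFunctionFieldBar N))ˣ)
    (hZ : ∀ v : Place Qbar ↥(modularFunctionFieldBar N),
      ((𝔓.p ^ k : ℕ) : ℤ) ∣ v.ord (Z : ↥(modularFunctionFieldBar N)))
    (hinf : T2fInf N 𝔓.P Z) :
    dlwPullDvd (mltph_dvd_mul 𝔓 N' hNN') (alpfClass (s33g_pow_ne_zero 𝔓 k) Z hZ)
      ∈ s33gC 𝔓 N' h := by
  obtain ⟨c, hc⟩ := mltph_cong_of_inf 𝔓 N' h hNN' Z hinf
  have hm := s33g_pow_ne_zero 𝔓 k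
  have hdvd := mltph_dvd_mul 𝔓 N' hNN'
  have hZ' := dlw_dvd_ord_incl hdvd Z hZ
  obtain ⟨E, hE⟩ := mltph_const_mem_tWsub (N' * 𝔓.p) hm c
  have hcW : tkrConst (N' * 𝔓.p) c ∈ tWsub Qbar (N' * 𝔓.p) (𝔓.p ^ k) := by
    rw [hE]
    exact tkr_pow_mem_tWsub _ _ _
  have hcZ : tkrConst (N' * 𝔓.p) c * dlwInclU hdvd Z ∈ tWsub Qbar (N' * 𝔓.p) (𝔓.p ^ k) :=
    (tWsub Qbar (N' * 𝔓.p) (𝔓.p ^ k)).mul_mem hcW hZ'
  refine ⟨k, _, hcZ, hc, ?_⟩
  rw [dlwPullDvd_class hdvd hm Z hZ, ← mltph_class_const_mul hm c _ hZ' hcZ]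

end Pull

/-- **(ES at `p`)** -/
theorem mlte_esTT : MltcEsTTContract := by
  intro 𝔓 N _ hN N' _ h hNN' φ hφ x k
  have hm := s33g_pow_ne_zero 𝔓 k
  have hnorm : TkrNormal N 𝔓.P := tkr_normal_of_levelOK (𝔓 := 𝔓) (tbq_allLevelsOK 𝔓 N hN)
  set κ : JZero N := s33wKappa 𝔓.p N k x with hκ
  have hκtors : ((𝔓.p ^ k : ℕ) : ℤ) • κ = 0 := by
    have h1 := (alptKummer 𝔓.p N k x).2
    rw [Submodule.mem_torsionBy_iff] at h1
    rw [hκ, s33wKappa_apply, Nat.cast_pow]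
    exact h1
  obtain ⟨Z, hZ, hinf, hcls⟩ := mltph_ES_class N hnorm 𝔓.hp hN 𝔓.hP hφ hm κ hκtors
  have hgal : ∀ z : ↥(parabolicHoms ℤ_[𝔓.p] (Gamma0 N) ℤ_[𝔓.p]),
      s33wKappa 𝔓.p N k (alptGal 𝔓.p N φ z) = φ • s33wKappa 𝔓.p N k z := by
    intro z
    rw [s33wKappa_apply, s33wKappa_apply, alptKummer_gal]
    rfl
  have hT : ∀ z : ↥(parabolicHoms ℤ_[𝔓.p] (Gamma0 N) ℤ_[𝔓.p]),
      s33wKappa 𝔓.p N k (tdmHeckeP 𝔓.p N
        (CuspForm.heckeAlgebra.T 𝔓.hp hN (Set.notMem_empty 𝔓.p)) z)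
        = heckeOperatorBar N ⟨𝔓.p, 𝔓.hp⟩ (s33wKappa 𝔓.p N k z) := by
    intro z
    rw [s33wKappa_apply, s33wKappa_apply]
    exact dlw_kummer_hecke N 𝔓.p k 𝔓.hp hN z
  have hp : s33wKappa 𝔓.p N k ((𝔓.p : ℤ_[𝔓.p]) • x) = 𝔓.p • κ := by
    rw [Nat.cast_smul_eq_nsmul, map_nsmul]
  have hval : s33wKappa 𝔓.p N k
      (alptGal 𝔓.p N φ (alptGal 𝔓.p N φ x)
        - tdmHeckeP 𝔓.p N (CuspForm.heckeAlgebra.T 𝔓.hp hN (Set.notMem_empty 𝔓.p))
            (alptGal 𝔓.p N φ x)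
        + (𝔓.p : ℤ_[𝔓.p]) • x) = alpfClass hm Z hZ := by
    rw [map_add, map_sub, hgal, hgal, hT, hgal, hp, hcls]
    abel
  rw [hval]
  exact mlte_pull_mem_C_pow 𝔓 N' h hNN' k Z hZ hinf

end

end Fermat.Agent.MLT
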