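/-
MLT (project S59) / (D) geometric inputs (helper1 for helper6): **(KEY)** `Tinf ∩ w_p⁻¹ Tinf` lies in the
formal part.

* `mlte_key_fun` : function level, arbitrary exponent `m ≠ 0`: if `y s₁ ^ m` and `w_p(y) s₂ ^ m` are in
  `ℚ̄^× (1 + 𝔪)` at the Gauss valuation at `∞`, then `y η ^ m ≡ (1, 1)` for a suitable unit `η`
  (first half of `t2f_P4KGood_of_export` + normalisation of `t2ft_main` + `s33g_cong_of_gauss`);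
* `mlte_keyTT : MltcKeyTTContract`.
-/
import Mathlib
import Fermat.Agent.Lib.MLT.Contracts.FrobGeo
import Fermat.Agent.Lib.T2.F.ToricMain
import Fermat.Agent.Lib.S33.F12.Cong

set_option autoImplicit false
set_option linter.unusedSectionVars false
set_option linter.unusedVariables false
set_option linter.style.haveILetI false

open Fermat.Agent.T1 Fermat.Agent.T2 Fermat.Agent.TW Fermat.Agent.S33 Fermat.Agent.S33W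
  Fermat.Agent.Alpha Fermat.Agent.Delta ModularCurve ModularCurve.Period Fermat.Agent.S24Lib
  CongruenceSubgroup HahnSeries AlgebraicCurve

namespace Fermat.Agent.MLT

local notation "Qbar" => AlgebraicClosure ℚ
local notation "GQ" => (AlgebraicClosure ℚ ≃ₐ[ℚ] AlgebraicClosure ℚ)

attribute [local instance] t2gp_fact t2gp_dvr t2gp_isAlgClosed t2gp_charP
attribute [local instance] t2iAlgebra t2i_isScalarTower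
attribute [local instance] s33g_neZero

noncomputable section

set_option maxHeartbeats 16000000 in
/-- **(KEY), function level**: simultaneous normalisation to a unit `≡ (1, 1)`, arbitrary exponent -/
theorem mlte_key_fun (𝔓 : FFPlace) (N' : ℕ) [NeZero N'] (h : ¬ 𝔓.p ∣ N') {m : ℕ} (hm : m ≠ 0)
    (y s₁ s₂ : (↥(modularFunctionFieldBar (N' * 𝔓.p)))ˣ)
    (hI₁ : T2fInf (N' * 𝔓.p) 𝔓.P (y * s₁ ^ m))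
    (hI₂ : T2fInf (N' * 𝔓.p) 𝔓.P (s33gW 𝔓 N' h y * s₂ ^ m)) :
    ∃ η : (↥(modularFunctionFieldBar (N' * 𝔓.p)))ˣ, y * η ^ m ∈ s33gCong 𝔓 N' h := by
  classical
  obtain ⟨S₁, a₁, b₁, hab₁, hb₁, hrep₁⟩ := t2fg_absorb (N' * 𝔓.p) 𝔓.P hm y s₁ hI₁
  obtain ⟨S₂, a₂, b₂, hab₂, hb₂, hrep₂⟩ := t2fg_absorb (N' * 𝔓.p) 𝔓.P hm _ s₂ hI₂
  obtain ⟨H, hHfin, hHnorm, hstab, hT⟩ := t2fs_exists_level 𝔓 (N' * 𝔓.p)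
    {(y : ↥(modularFunctionFieldBar (N' * 𝔓.p))), (S₁ : ↥(modularFunctionFieldBar (N' * 𝔓.p))),
      (S₂ : ↥(modularFunctionFieldBar (N' * 𝔓.p)))}
  haveI := hHfin
  haveI := hHnorm
  obtain ⟨fy, hfy⟩ := hT (y : ↥(modularFunctionFieldBar (N' * 𝔓.p))) (by simp)
  obtain ⟨f₁, hf₁⟩ := hT (S₁ : ↥(modularFunctionFieldBar (N' * 𝔓.p))) (by simp)
  obtain ⟨f₂, hf₂⟩ := hT (S₂ : ↥(modularFunctionFieldBar (N' * 𝔓.p))) (by simp)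
  have hf₁0 : f₁ ≠ 0 := by
    rintro rfl
    rw [map_zero] at hf₁
    exact S₁.ne_zero hf₁.symm
  have hf₂0 : f₂ ≠ 0 := by
    rintro rfl
    rw [map_zero] at hf₂
    exact S₂.ne_zero hf₂.symm
  have hfy0 : fy ≠ 0 := by
    rintro rfl
    rw [map_zero] at hfy
    exact y.ne_zero hfy.symm
  -- Gauss descent
  have hΦ₁ : tbPhiF 𝔓 (N' * 𝔓.p) H (fy * f₁ ^ m)
      = ((y * S₁ ^ m : (↥(modularFunctionFieldBar (N' * 𝔓.p)))ˣ) :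
          ↥(modularFunctionFieldBar (N' * 𝔓.p))) := by
    rw [map_mul, map_pow, hfy, hf₁, Units.val_mul, Units.val_pow_eq_pow_val]
  have hΦ₂ : tbPhiF 𝔓 (N' * 𝔓.p) H (t2wLev 𝔓 H N' 𝔓.p h fy * f₂ ^ m)
      = ((s33gW 𝔓 N' h y * S₂ ^ m : (↥(modularFunctionFieldBar (N' * 𝔓.p)))ˣ) :
          ↥(modularFunctionFieldBar (N' * 𝔓.p))) := by
    rw [map_mul, map_pow, tbPhiF_t2wLev, hfy, hf₂, Units.val_mul, Units.val_pow_eq_pow_val]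
    rfl
  have hrep₁' : TkrRep 𝔓.P ((tbPhiF 𝔓 (N' * 𝔓.p) H (fy * f₁ ^ m) :
      ↥(modularFunctionFieldBar (N' * 𝔓.p))) : LaurentSeries Qbar) a₁ b₁ := by
    rw [hΦ₁]; exact hrep₁
  have hrep₂' : TkrRep 𝔓.P ((tbPhiF 𝔓 (N' * 𝔓.p) H (t2wLev 𝔓 H N' 𝔓.p h fy * f₂ ^ m) :
      ↥(modularFunctionFieldBar (N' * 𝔓.p))) : LaurentSeries Qbar) a₂ b₂ := by
    rw [hΦ₂]; exact hrep₂
  have hG₁ : TbGauss (tbFixO 𝔓 H) (tbFixRes 𝔓 H)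
      ((fy * f₁ ^ m : ↥(tbLevF 𝔓 (N' * 𝔓.p) H)) : LaurentSeries ↥(tbFix 𝔓 H)) :=
    t2fg_gauss_descend 𝔓 (N' * 𝔓.p) H (t2ft_hnorm 𝔓 N' h H) _ ⟨a₁, b₁, hb₁, hrep₁'⟩
  have hG₂ : TbGauss (tbFixO 𝔓 H) (tbFixRes 𝔓 H)
      ((t2wLev 𝔓 H N' 𝔓.p h fy * f₂ ^ m : ↥(tbLevF 𝔓 (N' * 𝔓.p) H)) :
        LaurentSeries ↥(tbFix 𝔓 H)) :=
    t2fg_gauss_descend 𝔓 (N' * 𝔓.p) H (t2ft_hnorm 𝔓 N' h H) _ ⟨a₂, b₂, hb₂, hrep₂'⟩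
  have hρ₁ := t2fg_rho_descend 𝔓 (N' * 𝔓.p) H hG₁ hb₁ hab₁ hrep₁'
  have hρ₂ := t2fg_rho_descend 𝔓 (N' * 𝔓.p) H hG₂ hb₂ hab₂ hrep₂'
  -- the Kronecker input and its two Gauss rings
  have hnorm : ∀ f : ↥(tbLevF 𝔓 (N' * 𝔓.p) H), f ≠ 0 → ∃ c : ↥(tbFix 𝔓 H), c ≠ 0 ∧
      ∃ hc : c • f ∈ (t2gpInput 𝔓 N' h H (t2gmFrob 𝔓 N')).G,
        (t2gpInput 𝔓 N' h H (t2gmFrob 𝔓 N')).ρ ⟨c • f, hc⟩ ≠ 0 :=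
    t2gp_norm (tbFixO 𝔓 H) (tbFixRes 𝔓 H) (tbFixRes_surjective 𝔓 H)
      (t2gp_natCast_ne_zero 𝔓 N' h) (t2gpW 𝔓 N' h H) (t2gmFrob 𝔓 N')
  obtain ⟨e, he₁, he₂, hρe₁, hρe₂⟩ : ∃ (e : ↥(tbLevF 𝔓 (N' * 𝔓.p) H))
      (he₁ : e ∈ (t2gpInput 𝔓 N' h H (t2gmFrob 𝔓 N')).G)
      (he₂ : e ∈ (t2gpInput 𝔓 N' h H (t2gmFrob 𝔓 N')).G₂),
      (t2gpInput 𝔓 N' h H (t2gmFrob 𝔓 N')).ρ ⟨e, he₁⟩ = 1 ∧
        (t2gpInput 𝔓 N' h H (t2gmFrob 𝔓 N')).ρG₂ ⟨e, he₂⟩ = 0 :=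
    t2gp_exists_e (tbFixO 𝔓 H) (tbFixRes 𝔓 H)
      (tbFixRes_surjective 𝔓 H) (t2gp_natCast_ne_zero 𝔓 N' h) (t2gpW 𝔓 N' h H) (t2gmFrob 𝔓 N')
  have h₁ : fy * f₁ ^ m ∈ (t2gpInput 𝔓 N' h H (t2gmFrob 𝔓 N')).G := hG₁
  have hρ₁' : (t2gpInput 𝔓 N' h H (t2gmFrob 𝔓 N')).ρ ⟨fy * f₁ ^ m, h₁⟩ = 1 := by
    show taRhoFun (tbFixO 𝔓 H) (tbFixRes 𝔓 H)
      ((fy * f₁ ^ m : ↥(tbLevF 𝔓 (N' * 𝔓.p) H)) : LaurentSeries ↥(tbFix 𝔓 H)) = 1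
    rw [← tbf_rhoFun_eq]
    exact hρ₁
  have hw2 : (t2gpInput 𝔓 N' h H (t2gmFrob 𝔓 N')).w (fy * t2wLev 𝔓 H N' 𝔓.p h f₂ ^ m)
      = t2wLev 𝔓 H N' 𝔓.p h fy * f₂ ^ m := by
    show t2wLev 𝔓 H N' 𝔓.p h (fy * t2wLev 𝔓 H N' 𝔓.p h f₂ ^ m) = _
    rw [map_mul, map_pow, t2wLev_t2wLev]
  have h₂ : fy * t2wLev 𝔓 H N' 𝔓.p h f₂ ^ m ∈ (t2gpInput 𝔓 N' h H (t2gmFrob 𝔓 N')).G₂ := by
    rw [T2kInput.mem_G₂, hw2]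
    exact hG₂
  have hρ₂' : (t2gpInput 𝔓 N' h H (t2gmFrob 𝔓 N')).ρG₂
      ⟨fy * t2wLev 𝔓 H N' 𝔓.p h f₂ ^ m, h₂⟩ = 1 := by
    rw [T2kInput.ρG₂_apply]
    show taRhoFun (tbFixO 𝔓 H) (tbFixRes 𝔓 H)
      (((t2gpInput 𝔓 N' h H (t2gmFrob 𝔓 N')).w (fy * t2wLev 𝔓 H N' 𝔓.p h f₂ ^ m) :
        ↥(tbLevF 𝔓 (N' * 𝔓.p) H)) : LaurentSeries ↥(tbFix 𝔓 H)) = 1
    rw [hw2, ← tbf_rhoFun_eq]
    exact hρ₂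
  have hwf₂ : t2wLev 𝔓 H N' 𝔓.p h f₂ ≠ 0 := (map_ne_zero _).mpr hf₂0
  -- simultaneous normalisation
  obtain ⟨η, hη0, hz₁, hz₂, hρz₁, hρz₂⟩ :=
    t2ft_normalise (t2iBase2Fix 𝔓 H N' h).A (t2iBase2Fix 𝔓 H N' h).resA
      (t2iBase2Fix 𝔓 H N' h).arch (t2iBase2Fix 𝔓 H N' h).resA_eq_zero_iff
      (t2gpInput 𝔓 N' h H (t2gmFrob 𝔓 N')).G (t2gpInput 𝔓 N' h H (t2gmFrob 𝔓 N')).ρ
      (t2gpInput 𝔓 N' h H (t2gmFrob 𝔓 N')).G₂ (t2gpInput 𝔓 N' h H (t2gmFrob 𝔓 N')).ρG₂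
      (fun a => ((t2gpInput 𝔓 N' h H (t2gmFrob 𝔓 N')).algebraMap_mem_Ov a).1)
      (fun a => (t2gpInput 𝔓 N' h H (t2gmFrob 𝔓 N')).ρ_algebraMap a _)
      hnorm
      (fun a => (t2gpInput 𝔓 N' h H (t2gmFrob 𝔓 N')).algebraMap_mem_G₂ a)
      (fun a => (t2gpInput 𝔓 N' h H (t2gmFrob 𝔓 N')).ρG₂_algebraMap a)
      ((t2gpInput 𝔓 N' h H (t2gmFrob 𝔓 N')).normalize_G₂ hnorm)
      e he₁ he₂ hρe₁ hρe₂ m fy f₁ (t2wLev 𝔓 H N' 𝔓.p h f₂) hf₁0 hwf₂ h₁ hρ₁' h₂ hρ₂'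
  generalize hz : fy * η ^ m = z at hz₁ hz₂ hρz₁ hρz₂
  have hz0 : z ≠ 0 := by
    rw [← hz]
    exact mul_ne_zero hfy0 (pow_ne_zero _ hη0)
  have hΦz0 : tbPhiF 𝔓 (N' * 𝔓.p) H z ≠ 0 :=
    fun h0 => hz0 (tbPhiF_injective 𝔓 (N' * 𝔓.p) H (by rw [h0, map_zero]))
  have hη0' : tbPhiF 𝔓 (N' * 𝔓.p) H η ≠ 0 :=
    fun h0 => hη0 (tbPhiF_injective 𝔓 (N' * 𝔓.p) H (by rw [h0, map_zero]))
  have hmem := s33g_cong_of_gauss 𝔓 N' h H (t2gmFrob 𝔓 N') z hΦz0 hz₁ hz₂ hρz₁ hρz₂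
  refine ⟨Units.mk0 _ hη0', ?_⟩
  have heq : y * Units.mk0 _ hη0' ^ m = Units.mk0 (tbPhiF 𝔓 (N' * 𝔓.p) H z) hΦz0 := by
    apply Units.ext
    rw [Units.val_mk0, ← hz, map_mul, map_pow, hfy, Units.val_mul, Units.val_pow_eq_pow_val,
      Units.val_mk0]
  rw [heq]
  exact hmem

/-- **(KEY)** -/
theorem mlte_keyTT : MltcKeyTTContract := by
  intro 𝔓 N' _ h x hx hwx k
  have hm := tdm_prime_pow_ne_zero 𝔓.p k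
  have hDK := tddDict_toMer Qbar (N' * 𝔓.p)
  obtain ⟨y₁, hy₁, hI₁⟩ := hx k
  obtain ⟨y₂, hy₂, hI₂⟩ := hwx k
  rw [t2fW_ι] at hy₂
  obtain ⟨hw1, hW⟩ := (tddDict Qbar (N' * 𝔓.p)).psi_op (t2fSysW N' 𝔓.p h) hm (t2fWU N' 𝔓.p h)
    (t2f_fn_t2w N' 𝔓.p h (tddDict Qbar (N' * 𝔓.p)) hDK) y₁
  have e : (tddDict Qbar (N' * 𝔓.p)).psi hm (⟨t2fWU N' 𝔓.p h y₁.1, hw1⟩ * y₂⁻¹) = 1 := by
    rw [map_mul, map_inv, hW, hy₁, hy₂]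
    exact mul_inv_cancel _
  obtain ⟨t, ht⟩ := mem_tdmPowSub.mp ((tddDescent (N' * 𝔓.p)).psi_ker hm _ e)
  have ht2 : t2fWU N' 𝔓.p h y₁.1 * (t⁻¹) ^ (𝔓.p ^ k) = y₂.1 := by
    rw [inv_pow, ht]
    show t2fWU N' 𝔓.p h y₁.1 * (t2fWU N' 𝔓.p h y₁.1 * (y₂.1)⁻¹)⁻¹ = y₂.1
    rw [mul_inv, inv_inv, ← mul_assoc, mul_inv_cancel, one_mul]
  obtain ⟨η, hη⟩ := mlte_key_fun 𝔓 N' h hm y₁.1 1 t⁻¹
    (by rw [one_pow, mul_one]; exact hI₁)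
    (by
      show T2fInf (N' * 𝔓.p) 𝔓.P (t2fWU N' 𝔓.p h y₁.1 * (t⁻¹) ^ (𝔓.p ^ k))
      rw [ht2]; exact hI₂)
  have hηW : η ^ 𝔓.p ^ k ∈ tWsub Qbar (N' * 𝔓.p) (𝔓.p ^ k) := tkr_pow_mem_tWsub _ _ η
  have hZW : y₁.1 * η ^ 𝔓.p ^ k ∈ tWsub Qbar (N' * 𝔓.p) (𝔓.p ^ k) :=
    Subgroup.mul_mem _ y₁.2 hηW
  refine ⟨k, y₁.1 * η ^ 𝔓.p ^ k, hZW, hη, ?_⟩
  rw [alpfClass_mul (s33g_pow_ne_zero 𝔓 k) y₁.1 (η ^ 𝔓.p ^ k) y₁.2 hηW hZW,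
    alpfClass_pow (s33g_pow_ne_zero 𝔓 k) η hηW, add_zero, s33wKappa_apply, alptKummer_apply,
    alptCast_coe, ← hy₁, alptKumX_psi, alptKumW_coe]

end

end Fermat.Agent.MLT
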