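/-
MLT / stream Eta (helper1): **the Fricke involution** `w_M` of `Γ₀(M)`.

* `mlteWMat M = [[0, -1], [M, 0]]`, `mlteFricke M : Γ₀(M) ≃* Γ₀(M)`, `γ ↦ W γ W⁻¹ = [[d, -c/M], [-M b, a]]`;
  it is an involution, preserves traces and positive parabolic elements;
* `mlteWHom M A`, `mlteWPar M R A` : the induced involution `φ ↦ φ ∘ θ` on `Hom(Γ₀(M), A)` and on the
  parabolic classes; `mlteW M` on the lattice `L_M`;
* `mlte_lrdBN_W` : `w_M` is an isometry of the Poincaré pairing `lrdBN M`;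
* `mlteDegHom_eq_W_res_W` : the second degeneracy is `w_{M s} ∘ res ∘ w_M`.
-/
import Mathlib
import Fermat.Agent.Lib.MLT.Eta.Defs
import Fermat.Agent.Lib.LR.Dual.Main

set_option autoImplicit false
set_option linter.unusedSectionVars false
set_option linter.unusedVariables false
set_option linter.style.haveILetI false

open Matrix MatrixGroups CongruenceSubgroup Fermat.Agent.T1 Fermat.Agent.T2 ModularCurve
  ModularCurve.Period Fermat.Agent.LR

namespace Fermat.Agent.MLT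

noncomputable section

/-- the Fricke matrix `[[0, -1], [M, 0]]` -/
def mlteWMat (M : ℕ) : Matrix (Fin 2) (Fin 2) ℤ := !![0, -1; (M : ℤ), 0]

theorem mlteWMat_det (M : ℕ) : (mlteWMat M).det = (M : ℤ) := by
  rw [mlteWMat, Matrix.det_fin_two_of]
  ring

theorem mlteWMat_det_pos (M : ℕ) [NeZero M] : 0 < (mlteWMat M).det := by
  rw [mlteWMat_det]
  exact_mod_cast Nat.pos_of_ne_zero (NeZero.ne M)

theorem mlteWMat_det_ne (M : ℕ) [NeZero M] : (mlteWMat M).det ≠ 0 := (mlteWMat_det_pos M).ne'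

/-- `W * W = -M` -/
theorem mlteWMat_sq (M : ℕ) : mlteWMat M * mlteWMat M = (-(M : ℤ)) • (1 : Matrix (Fin 2) (Fin 2) ℤ) := by
  rw [mlteWMat]
  ext i j
  fin_cases i <;> fin_cases j <;> simp [Matrix.mul_apply, Fin.sum_univ_two]

/-- the conjugate `[[d, -c', ], [-M b, a]]` of `γ = [[a, b], [M c', d]]` -/
def mlteFrickeSL (M : ℕ) (γ : SL(2, ℤ)) (c' : ℤ) (hc : γ 1 0 = (M : ℤ) * c') : SL(2, ℤ) :=
  ⟨!![γ 1 1, -c'; -((M : ℤ) * γ 0 1), γ 0 0], by
    have hdet := γ.det_coe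
    rw [Matrix.det_fin_two] at hdet
    rw [Matrix.det_fin_two_of]
    rw [hc] at hdet
    linear_combination hdet⟩

theorem mlteFrickeSL_rel (M : ℕ) (γ : SL(2, ℤ)) (c' : ℤ) (hc : γ 1 0 = (M : ℤ) * c') :
    mlteWMat M * (γ : Matrix (Fin 2) (Fin 2) ℤ)
      = ((mlteFrickeSL M γ c' hc : SL(2, ℤ)) : Matrix (Fin 2) (Fin 2) ℤ) * mlteWMat M := by
  have e : ((mlteFrickeSL M γ c' hc : SL(2, ℤ)) : Matrix (Fin 2) (Fin 2) ℤ)
      = !![γ 1 1, -c'; -((M : ℤ) * γ 0 1), γ 0 0] := rfl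
  rw [e, mlteWMat]
  ext i j
  fin_cases i <;> fin_cases j <;> simp [Matrix.mul_apply, Fin.sum_univ_two, hc] <;> ring

theorem mlte_eq_mul_ediv {M : ℕ} {γ : SL(2, ℤ)} (hγ : γ ∈ Gamma0 M) :
    γ 1 0 = (M : ℤ) * (γ 1 0 / (M : ℤ)) := by
  rw [lra_Gamma0_mem_iff_dvd] at hγ
  exact (Int.mul_ediv_cancel' hγ).symm

/-- the Fricke conjugation as a function -/
def mlteFrickeFun (M : ℕ) (γ : Gamma0 M) : Gamma0 M :=
  ⟨mlteFrickeSL M γ.1 (γ.1 1 0 / (M : ℤ)) (mlte_eq_mul_ediv γ.2), by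
    rw [lra_Gamma0_mem_iff_dvd]
    exact ⟨-(γ.1 0 1), by
      show -((M : ℤ) * γ.1 0 1) = _
      ring⟩⟩

/-- the defining relation `W γ = θ(γ) W` -/
theorem mlteFrickeFun_rel (M : ℕ) (γ : Gamma0 M) :
    mlteWMat M * ((γ : SL(2, ℤ)) : Matrix (Fin 2) (Fin 2) ℤ)
      = (((mlteFrickeFun M γ : Gamma0 M) : SL(2, ℤ)) : Matrix (Fin 2) (Fin 2) ℤ) * mlteWMat M :=
  mlteFrickeSL_rel M γ.1 (γ.1 1 0 / (M : ℤ)) (mlte_eq_mul_ediv γ.2)

/-- uniqueness in the defining relation -/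
theorem mlteFrickeFun_unique (M : ℕ) [NeZero M] {γ ε : Gamma0 M}
    (h : mlteWMat M * ((γ : SL(2, ℤ)) : Matrix (Fin 2) (Fin 2) ℤ)
      = ((ε : SL(2, ℤ)) : Matrix (Fin 2) (Fin 2) ℤ) * mlteWMat M) :
    ε = mlteFrickeFun M γ := by
  have h1 := mlteFrickeFun_rel M γ
  rw [h] at h1
  exact Subtype.ext (Subtype.ext (tdm_mul_right_cancel (mlteWMat_det_ne M) h1))

/-- the Fricke conjugation as an endomorphism -/
def mlteFrickeHom (M : ℕ) [NeZero M] : Gamma0 M →* Gamma0 M where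
  toFun := mlteFrickeFun M
  map_one' := by
    symm
    apply mlteFrickeFun_unique
    simp
  map_mul' γ γ' := by
    symm
    apply mlteFrickeFun_unique
    rw [Subgroup.coe_mul, Subgroup.coe_mul, Matrix.SpecialLinearGroup.coe_mul,
      Matrix.SpecialLinearGroup.coe_mul, ← Matrix.mul_assoc, mlteFrickeFun_rel, Matrix.mul_assoc,
      mlteFrickeFun_rel, Matrix.mul_assoc]

theorem mlteFrickeFun_invol (M : ℕ) [NeZero M] (γ : Gamma0 M) :
    mlteFrickeFun M (mlteFrickeFun M γ) = γ := by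
  symm
  apply mlteFrickeFun_unique
  have h1 := mlteFrickeFun_rel M γ
  -- `W θ(γ) W = W W γ`
  have hM : (-(M : ℤ)) ≠ 0 := by
    rw [neg_ne_zero]
    exact_mod_cast NeZero.ne M
  apply tdm_mul_right_cancel (mlteWMat_det_ne M)
  rw [Matrix.mul_assoc, Matrix.mul_assoc, mlteWMat_sq, ← h1, ← Matrix.mul_assoc, mlteWMat_sq]
  rw [Matrix.smul_mul, Matrix.one_mul, Matrix.mul_smul, Matrix.mul_one]

/-- **the Fricke involution** of `Γ₀(M)` -/
def mlteFricke (M : ℕ) [NeZero M] : Gamma0 M ≃* Gamma0 M where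
  toFun := mlteFrickeFun M
  invFun := mlteFrickeFun M
  left_inv := mlteFrickeFun_invol M
  right_inv := mlteFrickeFun_invol M
  map_mul' := (mlteFrickeHom M).map_mul

theorem mlteFricke_rel (M : ℕ) [NeZero M] (γ : Gamma0 M) :
    mlteWMat M * ((γ : SL(2, ℤ)) : Matrix (Fin 2) (Fin 2) ℤ)
      = (((mlteFricke M γ : Gamma0 M) : SL(2, ℤ)) : Matrix (Fin 2) (Fin 2) ℤ) * mlteWMat M :=
  mlteFrickeFun_rel M γ

theorem mlteFricke_unique (M : ℕ) [NeZero M] {γ ε : Gamma0 M}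
    (h : mlteWMat M * ((γ : SL(2, ℤ)) : Matrix (Fin 2) (Fin 2) ℤ)
      = ((ε : SL(2, ℤ)) : Matrix (Fin 2) (Fin 2) ℤ) * mlteWMat M) :
    ε = mlteFricke M γ := mlteFrickeFun_unique M h

@[simp] theorem mlteFricke_invol (M : ℕ) [NeZero M] (γ : Gamma0 M) :
    mlteFricke M (mlteFricke M γ) = γ := mlteFrickeFun_invol M γ

theorem mlteFricke_entries (M : ℕ) [NeZero M] (γ : Gamma0 M) :
    (mlteFricke M γ).1 0 0 = γ.1 1 1 ∧ (M : ℤ) * (mlteFricke M γ).1 0 1 = -(γ.1 1 0) ∧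
      (mlteFricke M γ).1 1 0 = -((M : ℤ) * γ.1 0 1) ∧ (mlteFricke M γ).1 1 1 = γ.1 0 0 := by
  refine ⟨rfl, ?_, rfl, rfl⟩
  show (M : ℤ) * -(γ.1 1 0 / (M : ℤ)) = _
  have := mlte_eq_mul_ediv γ.2
  linarith

theorem mlteFricke_trace (M : ℕ) [NeZero M] (γ : Gamma0 M) :
    (((mlteFricke M γ : Gamma0 M) : SL(2, ℤ)) : Matrix (Fin 2) (Fin 2) ℤ).trace
      = ((γ : SL(2, ℤ)) : Matrix (Fin 2) (Fin 2) ℤ).trace :=
  tdm_trace_eq_of_conj (mlteWMat_det_ne M) (mlteFricke_rel M γ)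

/-- the Fricke involution preserves positive parabolic elements, in both directions -/
theorem mlteFricke_pospar (M : ℕ) [NeZero M] (γ : Gamma0 M) :
    LrdPosPar (γ : SL(2, ℤ)) ↔ LrdPosPar ((mlteFricke M γ : Gamma0 M) : SL(2, ℤ)) := by
  constructor
  · exact lrdc_posPar_conj (mlteWMat M) (mlteWMat_det_pos M) (mlteFricke_rel M γ)
  · intro h
    have := lrdc_posPar_conj (mlteWMat M) (mlteWMat_det_pos M)
      (mlteFricke_rel M (mlteFricke M γ)) h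
    rwa [mlteFricke_invol] at this

/-! ### The induced involution on homomorphisms -/

/-- `φ ↦ φ ∘ θ_M` on `Hom(Γ₀(M), A)` -/
def mlteWHom (M : ℕ) [NeZero M] (A : Type*) [AddCommGroup A] :
    (Additive (Gamma0 M) →+ A) →+ (Additive (Gamma0 M) →+ A) where
  toFun φ := φ.comp (MonoidHom.toAdditive (mlteFricke M).toMonoidHom)
  map_zero' := rfl
  map_add' _ _ := rfl

theorem mlteWHom_apply (M : ℕ) [NeZero M] (A : Type*) [AddCommGroup A]
    (φ : Additive (Gamma0 M) →+ A) (δ : Gamma0 M) :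
    mlteWHom M A φ (Additive.ofMul δ) = φ (Additive.ofMul (mlteFricke M δ)) := rfl

@[simp] theorem mlteWHom_invol (M : ℕ) [NeZero M] (A : Type*) [AddCommGroup A]
    (φ : Additive (Gamma0 M) →+ A) : mlteWHom M A (mlteWHom M A φ) = φ := by
  refine AddMonoidHom.ext fun δ' => ?_
  obtain ⟨δ, rfl⟩ := Additive.ofMul.surjective δ'
  rw [mlteWHom_apply, mlteWHom_apply, mlteFricke_invol]

theorem mlteWHom_parabolic (M : ℕ) [NeZero M] {A : Type*} [AddCommGroup A]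
    {φ : Additive (Gamma0 M) →+ A} (hφ : IsParabolicHom (Gamma0 M) φ) :
    IsParabolicHom (Gamma0 M) (mlteWHom M A φ) := by
  intro δ hδ
  rw [mlteWHom_apply]
  exact hφ _ (by rw [mlteFricke_trace]; exact hδ)

theorem mlteWHom_comp (M : ℕ) [NeZero M] {A B : Type*} [AddCommGroup A] [AddCommGroup B]
    (f : A →+ B) (φ : Additive (Gamma0 M) →+ A) :
    mlteWHom M B (f.comp φ) = f.comp (mlteWHom M A φ) := rfl

/-- the Fricke involution on the parabolic classes -/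
def mlteWPar (M : ℕ) [NeZero M] (R : Type*) [Semiring R] (A : Type*) [AddCommGroup A] [Module R A] :
    ↥(parabolicHoms R (Gamma0 M) A) →ₗ[R] ↥(parabolicHoms R (Gamma0 M) A) where
  toFun φ := ⟨mlteWHom M A φ.1, mem_parabolicHoms_iff.2 (mlteWHom_parabolic M
    (mem_parabolicHoms_iff.1 φ.2))⟩
  map_add' _ _ := rfl
  map_smul' _ _ := rfl

@[simp] theorem mlteWPar_coe (M : ℕ) [NeZero M] (R : Type*) [Semiring R] (A : Type*)
    [AddCommGroup A] [Module R A] (φ : ↥(parabolicHoms R (Gamma0 M) A)) :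
    ((mlteWPar M R A φ : ↥(parabolicHoms R (Gamma0 M) A)) : Additive (Gamma0 M) →+ A)
      = mlteWHom M A φ.1 := rfl

@[simp] theorem mlteWPar_invol (M : ℕ) [NeZero M] (R : Type*) [Semiring R] (A : Type*)
    [AddCommGroup A] [Module R A] (φ : ↥(parabolicHoms R (Gamma0 M) A)) :
    mlteWPar M R A (mlteWPar M R A φ) = φ :=
  Subtype.ext (mlteWHom_invol M A φ.1)

/-- the Fricke involution on the lattice `L_M` -/
abbrev mlteW (M : ℕ) [NeZero M] : ↥(tdmL M) →ₗ[ℤ] ↥(tdmL M) := mlteWPar M ℤ ℤ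

/-- **`w_M` is an isometry of the Poincaré pairing** -/
theorem mlte_lrdBN_W (M : ℕ) [NeZero M] (x y : ↥(tdmL M)) :
    lrdBN M (mlteW M x) (mlteW M y) = lrdBN M x y := by
  letI : Fintype (SL(2, ℤ) ⧸ Gamma0 M) := Subgroup.fintypeQuotientOfFiniteIndex
  exact lrdk_lrdB_invariant (lrdzSys M) (mlteFricke M) (mlteFricke_pospar M) x y
    (mlteW M x) (mlteW M y) (fun γ => rfl) (fun γ => rfl)

/-- `w_M` is self-adjoint for the Poincaré pairing -/
theorem mlte_lrdBN_W_adj (M : ℕ) [NeZero M] (x y : ↥(tdmL M)) :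
    lrdBN M (mlteW M x) y = lrdBN M x (mlteW M y) := by
  have := mlte_lrdBN_W M x (mlteW M y)
  rw [mlteWPar_invol] at this
  exact this

/-! ### The second degeneracy is `w_{M s} ∘ res ∘ w_M` -/

section Deg

variable (M s : ℕ) [NeZero M] [NeZero s]

theorem mlte_Gamma0_mul_le : Gamma0 (M * s) ≤ Gamma0 M := by
  intro γ hγ
  rw [lra_Gamma0_mem_iff_dvd] at hγ ⊢
  exact dvd_trans ⟨(s : ℤ), by push_cast; ring⟩ hγ

/-- `diag(s, 1) γ = lraDeg(γ) diag(s, 1)` -/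
theorem mlte_lraDeg_rel (γ : Gamma0 (M * s)) :
    !![(s : ℤ), 0; 0, 1] * ((γ : SL(2, ℤ)) : Matrix (Fin 2) (Fin 2) ℤ)
      = (((lraDeg M s (NeZero.ne s) γ : Gamma0 M) : SL(2, ℤ)) : Matrix (Fin 2) (Fin 2) ℤ)
        * !![(s : ℤ), 0; 0, 1] := by
  obtain ⟨e00, e01, e10, e11⟩ := lraDeg_entries (N := M) (NeZero.ne s) γ
  ext i j
  fin_cases i <;> fin_cases j <;>
    simp [Matrix.mul_apply, Fin.sum_univ_two, e00, e01, e11, mul_comm]
  exact e10.symm

theorem mlte_lraDeg_unique {γ : Gamma0 (M * s)} {ε : Gamma0 M}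
    (h : !![(s : ℤ), 0; 0, 1] * ((γ : SL(2, ℤ)) : Matrix (Fin 2) (Fin 2) ℤ)
      = ((ε : SL(2, ℤ)) : Matrix (Fin 2) (Fin 2) ℤ) * !![(s : ℤ), 0; 0, 1]) :
    ε = lraDeg M s (NeZero.ne s) γ := by
  have h1 := mlte_lraDeg_rel M s γ
  rw [h] at h1
  have hdet : (!![(s : ℤ), 0; 0, 1] : Matrix (Fin 2) (Fin 2) ℤ).det ≠ 0 := by
    rw [Matrix.det_fin_two_of]
    simpa using NeZero.ne s
  exact Subtype.ext (Subtype.ext (tdm_mul_right_cancel hdet h1))

theorem mlteWMat_mul (M s : ℕ) :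
    mlteWMat M * mlteWMat (M * s) = (-(M : ℤ)) • !![(s : ℤ), 0; 0, 1] := by
  rw [mlteWMat, mlteWMat]
  ext i j
  fin_cases i <;> fin_cases j <;> simp [Matrix.mul_apply, Fin.sum_univ_two]

/-- `θ_M (θ_{M s} γ) = lraDeg γ` -/
theorem mlteFricke_Fricke (γ : Gamma0 (M * s)) :
    mlteFricke M (Subgroup.inclusion (mlte_Gamma0_mul_le M s) (mlteFricke (M * s) γ))
      = lraDeg M s (NeZero.ne s) γ := by
  apply mlte_lraDeg_unique
  have h1 := mlteFricke_rel (M * s) γ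
  have h2 := mlteFricke_rel M (Subgroup.inclusion (mlte_Gamma0_mul_le M s) (mlteFricke (M * s) γ))
  have h3 : ((Subgroup.inclusion (mlte_Gamma0_mul_le M s) (mlteFricke (M * s) γ) : Gamma0 M) :
      SL(2, ℤ)) = ((mlteFricke (M * s) γ : Gamma0 (M * s)) : SL(2, ℤ)) := rfl
  rw [h3] at h2
  have hM : (-(M : ℤ)) ≠ 0 := by
    rw [neg_ne_zero]
    exact_mod_cast NeZero.ne M
  apply smul_right_injective (Matrix (Fin 2) (Fin 2) ℤ) hM
  show (-(M : ℤ)) • (_ * _) = (-(M : ℤ)) • (_ * _)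
  rw [← Matrix.smul_mul, ← Matrix.mul_smul, ← mlteWMat_mul, Matrix.mul_assoc, h1,
    ← Matrix.mul_assoc, h2, Matrix.mul_assoc]

/-- **the second degeneracy is `w_{M s} ∘ res ∘ w_M`** -/
theorem mlteDegHom_eq_W_res_W {A : Type*} [AddCommGroup A] (φ : Additive (Gamma0 M) →+ A) :
    mlteDegHom M s (NeZero.ne s) A φ
      = mlteWHom (M * s) A (t2fRes (mlte_Gamma0_mul_le M s) A (mlteWHom M A φ)) := by
  refine AddMonoidHom.ext fun δ' => ?_
  obtain ⟨δ, rfl⟩ := Additive.ofMul.surjective δ'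
  rw [mlteDegHom_apply, mlteWHom_apply, t2fRes_apply, mlteWHom_apply, mlteFricke_Fricke]

/-- `w_{M s} ∘ res = Deg ∘ w_M` -/
theorem mlteWHom_res {A : Type*} [AddCommGroup A] (φ : Additive (Gamma0 M) →+ A) :
    mlteWHom (M * s) A (t2fRes (mlte_Gamma0_mul_le M s) A φ)
      = mlteDegHom M s (NeZero.ne s) A (mlteWHom M A φ) := by
  rw [mlteDegHom_eq_W_res_W, mlteWHom_invol]

/-- `w_{M s} ∘ Deg = res ∘ w_M` -/
theorem mlteWHom_deg {A : Type*} [AddCommGroup A] (φ : Additive (Gamma0 M) →+ A) :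
    mlteWHom (M * s) A (mlteDegHom M s (NeZero.ne s) A φ)
      = t2fRes (mlte_Gamma0_mul_le M s) A (mlteWHom M A φ) := by
  rw [mlteDegHom_eq_W_res_W, mlteWHom_invol]

end Deg

end

end Fermat.Agent.MLT
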