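/-
MLT / stream Eta (helper1): **the transfer `Γ₀(M s) ⊂ Γ₀(M)` for `s ∣ M`** (index `s`) and the
coset identities relating `U_s`, the second degeneracy and the Fricke involution.

* `mlteSysC M s hs` : the two-group coset system with representatives `[[1, 0], [-M j, 1]]`, `j < s`;
* `mlte_corS_res`   : `cor ∘ res = s`;
* `mlte_U_deg`      : `U_s ∘ Deg = s · res` on `Hom(Γ₀(M), A) → Hom(Γ₀(M s), A)` (any `s ≠ 0`);
* `mlte_U_W`        : `U_s ∘ w_M = w_M ∘ cor ∘ Deg` on `Hom(Γ₀(M), A)` (`s ∣ M`).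
-/
import Mathlib
import Fermat.Agent.Lib.MLT.Eta.Fricke

set_option autoImplicit false
set_option linter.unusedSectionVars false
set_option linter.unusedVariables false
set_option linter.style.haveILetI false

open Matrix MatrixGroups CongruenceSubgroup Fermat.Agent.T1 Fermat.Agent.T2 ModularCurve
  ModularCurve.Period Fermat.Agent.LR

namespace Fermat.Agent.MLT

noncomputable section

section Reps

variable (M s : ℕ) [NeZero M] [NeZero s]

/-- the representatives `[[1, 0], [-M j, 1]]` of `Γ₀(M s) \ Γ₀(M)` (`s ∣ M`) -/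
def mlteRepC (j : Fin s) : Gamma0 M :=
  ⟨⟨!![1, 0; -((M : ℤ) * ((j : ℕ) : ℤ)), 1], by
    rw [Matrix.det_fin_two_of]
    ring⟩, by
    rw [lra_Gamma0_mem_iff_dvd]
    exact ⟨-((j : ℕ) : ℤ), by
      show -((M : ℤ) * ((j : ℕ) : ℤ)) = _
      ring⟩⟩

theorem mlteRepC_coe (j : Fin s) :
    (((mlteRepC M s j : Gamma0 M) : SL(2, ℤ)) : Matrix (Fin 2) (Fin 2) ℤ)
      = !![1, 0; -((M : ℤ) * ((j : ℕ) : ℤ)), 1] := rfl

theorem mlteRepC_inequiv (i j : Fin s) (γ : Gamma0 (M * s))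
    (hγ : ((γ : SL(2, ℤ)) : Matrix (Fin 2) (Fin 2) ℤ)
      * (((mlteRepC M s i : Gamma0 M) : SL(2, ℤ)) : Matrix (Fin 2) (Fin 2) ℤ)
      = (((mlteRepC M s j : Gamma0 M) : SL(2, ℤ)) : Matrix (Fin 2) (Fin 2) ℤ)) : i = j := by
  obtain ⟨t, ht⟩ : ((M * s : ℕ) : ℤ) ∣ ((γ : SL(2, ℤ)) : Matrix (Fin 2) (Fin 2) ℤ) 1 0 :=
    (tdm_mem_Gamma0_iff _).mp γ.2
  set G := ((γ : SL(2, ℤ)) : Matrix (Fin 2) (Fin 2) ℤ) with hG
  rw [mlteRepC_coe, mlteRepC_coe] at hγ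
  have h10 := congrFun (congrFun hγ 1) 0
  have h11 := congrFun (congrFun hγ 1) 1
  simp [Matrix.mul_apply, Fin.sum_univ_two] at h10 h11
  rw [ht, h11] at h10
  have hM : (M : ℤ) ≠ 0 := by exact_mod_cast NeZero.ne M
  symm
  refine tdm_fin_eq_of_emod j i t ?_
  apply mul_left_cancel₀ hM
  push_cast at h10
  linear_combination -h10

variable {M s} in
theorem mlteRepC_exists (hs : s ∣ M) (δ : Gamma0 M) (i : Fin s) :
    ∃ j : Fin s, ∃ ε : Gamma0 (M * s),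
      (((mlteRepC M s i : Gamma0 M) : SL(2, ℤ)) : Matrix (Fin 2) (Fin 2) ℤ)
          * ((δ : SL(2, ℤ)) : Matrix (Fin 2) (Fin 2) ℤ)
        = ((ε : SL(2, ℤ)) : Matrix (Fin 2) (Fin 2) ℤ)
          * (((mlteRepC M s j : Gamma0 M) : SL(2, ℤ)) : Matrix (Fin 2) (Fin 2) ℤ) := by
  set g : Gamma0 M := mlteRepC M s i * δ with hg
  obtain ⟨m, hm⟩ : (M : ℤ) ∣ (g : SL(2, ℤ)) 1 0 := (tdm_mem_Gamma0_iff _).mp g.2
  obtain ⟨M', hM'⟩ := hs
  have hdet := (g : SL(2, ℤ)).det_coe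
  rw [Matrix.det_fin_two] at hdet
  have hcop : IsCoprime ((g : SL(2, ℤ)) 1 1) (s : ℤ) := by
    refine ⟨(g : SL(2, ℤ)) 0 0, -((g : SL(2, ℤ)) 0 1 * M' * m), ?_⟩
    have hMs : (M : ℤ) = (s : ℤ) * (M' : ℤ) := by exact_mod_cast hM'
    rw [hm] at hdet
    linear_combination hdet + ((g : SL(2, ℤ)) 0 1 * m) * hMs
  obtain ⟨j, k, hk⟩ := tdm_exists_aff_sol (NeZero.ne s) hcop (-m)
  set c := (mlteRepC M s j : SL(2, ℤ)) with hc
  refine ⟨j, ⟨(g : SL(2, ℤ)) * c⁻¹, (tdm_mem_Gamma0_iff _).mpr ?_⟩, ?_⟩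
  · have h10 : ((g : SL(2, ℤ)) * c⁻¹) 1 0
        = (g : SL(2, ℤ)) 1 0 + (M : ℤ) * ((j : ℕ) : ℤ) * (g : SL(2, ℤ)) 1 1 := by
      rw [Matrix.SpecialLinearGroup.coe_mul, Matrix.SpecialLinearGroup.coe_inv,
        Matrix.adjugate_fin_two]
      have e11 : c.1 1 1 = 1 := rfl
      have e10 : c.1 1 0 = -((M : ℤ) * ((j : ℕ) : ℤ)) := rfl
      simp only [Matrix.mul_apply, Fin.sum_univ_two]
      simp [e11, e10]
      ring
    rw [h10, hm]
    push_cast
    refine ⟨-k, ?_⟩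
    linear_combination (-(M : ℤ)) * hk
  · show (mlteRepC M s i : SL(2, ℤ)).1 * (δ : SL(2, ℤ)).1 = ((g : SL(2, ℤ)) * c⁻¹).1 * c.1
    rw [← Matrix.SpecialLinearGroup.coe_mul, ← Matrix.SpecialLinearGroup.coe_mul,
      inv_mul_cancel_right]
    rfl

/-- **the two-group coset system of `Γ₀(M s) ⊂ Γ₀(M)`, `s ∣ M`** -/
def mlteSysC (hs : s ∣ M) : T2fSys₂ (Gamma0 (M * s)) (Gamma0 M) (Fin s) :=
  T2fSys₂.ofInequiv
    (fun j => (((mlteRepC M s j : Gamma0 M) : SL(2, ℤ)) : Matrix (Fin 2) (Fin 2) ℤ))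
    (fun j => by rw [(mlteRepC M s j : SL(2, ℤ)).2]; exact one_pos)
    (mlteRepC_inequiv M s)
    (mlteRepC_exists hs)

@[simp] theorem mlteSysC_rep (hs : s ∣ M) (j : Fin s) :
    (mlteSysC M s hs).rep j
      = (((mlteRepC M s j : Gamma0 M) : SL(2, ℤ)) : Matrix (Fin 2) (Fin 2) ℤ) := rfl

end Reps

section Identities

variable (M s : ℕ) [NeZero M] [NeZero s] {A : Type*} [AddCommGroup A]

/-- **`cor ∘ res = s`** for `Γ₀(M s) ⊂ Γ₀(M)`, `s ∣ M` -/
theorem mlte_corS_res (hs : s ∣ M) (φ : Additive (Gamma0 M) →+ A) :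
    (mlteSysC M s hs).cor A (t2fRes (mlte_Gamma0_mul_le M s) A φ) = s • φ := by
  set C := mlteSysC M s hs with hC
  refine AddMonoidHom.ext fun δ' => ?_
  obtain ⟨δ, rfl⟩ := Additive.ofMul.surjective δ'
  rw [T2fSys₂.cor_apply]
  have key : ∀ i, t2fRes (mlte_Gamma0_mul_le M s) A φ (Additive.ofMul (C.eps δ i))
      = (φ (Additive.ofMul (mlteRepC M s i)) + φ (Additive.ofMul δ))
        - φ (Additive.ofMul (mlteRepC M s (C.sigma δ i))) := by
    intro i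
    rw [t2fRes_apply]
    have h1 : mlteRepC M s i * δ
        = Subgroup.inclusion (mlte_Gamma0_mul_le M s) (C.eps δ i) * mlteRepC M s (C.sigma δ i) := by
      apply Subtype.ext
      apply Subtype.ext
      rw [Subgroup.coe_mul, Subgroup.coe_mul, Matrix.SpecialLinearGroup.coe_mul,
        Matrix.SpecialLinearGroup.coe_mul]
      exact C.rep_mul δ i
    have h2 := congrArg (fun g : Gamma0 M => φ (Additive.ofMul g)) h1
    simp only [ofMul_mul, map_add] at h2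
    rw [eq_sub_iff_add_eq]
    exact h2.symm
  rw [Finset.sum_congr rfl fun i _ => key i, Finset.sum_sub_distrib, Finset.sum_add_distrib,
    Equiv.sum_comp (C.sigma δ) (fun i => φ (Additive.ofMul (mlteRepC M s i))),
    add_sub_cancel_left, Finset.sum_const, Finset.card_univ, Fintype.card_fin]
  rfl

/-- the translation `[[1, j], [0, 1]] ∈ Γ₀(M)` -/
def mlteTr (j : ℤ) : Gamma0 M :=
  ⟨⟨!![1, j; 0, 1], by rw [Matrix.det_fin_two_of]; ring⟩, by
    rw [lra_Gamma0_mem_iff_dvd]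
    exact ⟨0, by
      show (0 : ℤ) = _
      ring⟩⟩

theorem mlteTr_coe (j : ℤ) :
    (((mlteTr M j : Gamma0 M) : SL(2, ℤ)) : Matrix (Fin 2) (Fin 2) ℤ) = !![1, j; 0, 1] := rfl

/-- `diag(s, 1) [[1, j], [0, s]] = s · [[1, j], [0, 1]]` -/
theorem mlte_diag_mul_repU (j : Fin s) :
    !![(s : ℤ), 0; 0, 1] * tdmRepU s j = (s : ℤ) • !![1, ((j : ℕ) : ℤ); 0, 1] := by
  rw [tdmRepU]
  ext a b
  fin_cases a <;> fin_cases b <;> simp [Matrix.mul_apply, Fin.sum_univ_two]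

/-- **`U_s ∘ Deg = s · res`** on `Hom(Γ₀(M), A) → Hom(Γ₀(M s), A)` -/
theorem mlte_U_deg (φ : Additive (Gamma0 M) →+ A) :
    (tdmSysU (M * s) s (Dvd.intro_left M rfl) (NeZero.ne s)).hom A
        (mlteDegHom M s (NeZero.ne s) A φ)
      = s • t2fRes (mlte_Gamma0_mul_le M s) A φ := by
  set U := tdmSysU (M * s) s (Dvd.intro_left M rfl) (NeZero.ne s) with hU
  refine AddMonoidHom.ext fun δ' => ?_
  obtain ⟨δ, rfl⟩ := Additive.ofMul.surjective δ'
  rw [tdmCosetSys.hom_apply]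
  have hs0 : (s : ℤ) ≠ 0 := by exact_mod_cast NeZero.ne s
  have key : ∀ j, mlteDegHom M s (NeZero.ne s) A φ (Additive.ofMul (U.eps δ j))
      = (φ (Additive.ofMul (mlteTr M ((j : ℕ) : ℤ)))
          + φ (Additive.ofMul (Subgroup.inclusion (mlte_Gamma0_mul_le M s) δ)))
        - φ (Additive.ofMul (mlteTr M (((U.sigma δ j : Fin s) : ℕ) : ℤ))) := by
    intro j
    rw [mlteDegHom_apply]
    have hU1 : tdmRepU s j * ((δ : SL(2, ℤ)) : Matrix (Fin 2) (Fin 2) ℤ)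
        = ((U.eps δ j : SL(2, ℤ)) : Matrix (Fin 2) (Fin 2) ℤ) * tdmRepU s (U.sigma δ j) :=
      U.rep_mul δ j
    have hD := mlte_lraDeg_rel M s (U.eps δ j)
    have h1 : mlteTr M ((j : ℕ) : ℤ) * Subgroup.inclusion (mlte_Gamma0_mul_le M s) δ
        = lraDeg M s (NeZero.ne s) (U.eps δ j)
          * mlteTr M (((U.sigma δ j : Fin s) : ℕ) : ℤ) := by
      apply Subtype.ext
      apply Subtype.ext
      rw [Subgroup.coe_mul, Subgroup.coe_mul, Matrix.SpecialLinearGroup.coe_mul,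
        Matrix.SpecialLinearGroup.coe_mul, mlteTr_coe, mlteTr_coe]
      apply smul_right_injective (Matrix (Fin 2) (Fin 2) ℤ) hs0
      show (s : ℤ) • (_ * _) = (s : ℤ) • (_ * _)
      rw [← Matrix.smul_mul, ← mlte_diag_mul_repU, ← Matrix.mul_smul, ← mlte_diag_mul_repU,
        ← Matrix.mul_assoc, ← hD, Matrix.mul_assoc, Matrix.mul_assoc]
      congr 1
    have h2 := congrArg (fun g : Gamma0 M => φ (Additive.ofMul g)) h1
    simp only [ofMul_mul, map_add] at h2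
    rw [eq_sub_iff_add_eq]
    exact h2.symm
  rw [Finset.sum_congr rfl fun i _ => key i, Finset.sum_sub_distrib, Finset.sum_add_distrib,
    Equiv.sum_comp (U.sigma δ) (fun i : Fin s => φ (Additive.ofMul (mlteTr M ((i : ℕ) : ℤ)))),
    add_sub_cancel_left, Finset.sum_const, Finset.card_univ, Fintype.card_fin]
  rfl

/-- `W [[1, j], [0, s]] = diag(s, 1) [[1, 0], [-M j, 1]] W` -/
theorem mlte_W_mul_repU (j : Fin s) :
    mlteWMat M * tdmRepU s j
      = !![(s : ℤ), 0; 0, 1]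
        * (((mlteRepC M s j : Gamma0 M) : SL(2, ℤ)) : Matrix (Fin 2) (Fin 2) ℤ) * mlteWMat M := by
  rw [tdmRepU, mlteRepC_coe, mlteWMat]
  ext a b
  fin_cases a <;> fin_cases b <;> simp [Matrix.mul_apply, Fin.sum_univ_two]

/-- **`U_s ∘ w_M = w_M ∘ cor ∘ Deg`** on `Hom(Γ₀(M), A)`, `s ∣ M` -/
theorem mlte_U_W (hs : s ∣ M) (ψ : Additive (Gamma0 M) →+ A) :
    (tdmSysU M s hs (NeZero.ne s)).hom A (mlteWHom M A ψ)
      = mlteWHom M A ((mlteSysC M s hs).cor A (mlteDegHom M s (NeZero.ne s) A ψ)) := by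
  set U := tdmSysU M s hs (NeZero.ne s) with hU
  set C := mlteSysC M s hs with hC
  refine AddMonoidHom.ext fun δ' => ?_
  obtain ⟨δ, rfl⟩ := Additive.ofMul.surjective δ'
  rw [tdmCosetSys.hom_apply, mlteWHom_apply, T2fSys₂.cor_apply]
  set δ₁ := mlteFricke M δ with hδ₁
  have key : ∀ j, U.eps δ j = mlteFricke M (lraDeg M s (NeZero.ne s) (C.eps δ₁ j)) := by
    intro j
    set e := C.eps δ₁ j with he
    set j' := C.sigma δ₁ j with hj'
    have hC1 : (((mlteRepC M s j : Gamma0 M) : SL(2, ℤ)) : Matrix (Fin 2) (Fin 2) ℤ)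
          * ((δ₁ : SL(2, ℤ)) : Matrix (Fin 2) (Fin 2) ℤ)
        = ((e : SL(2, ℤ)) : Matrix (Fin 2) (Fin 2) ℤ)
          * (((mlteRepC M s j' : Gamma0 M) : SL(2, ℤ)) : Matrix (Fin 2) (Fin 2) ℤ) :=
      C.rep_mul δ₁ j
    have hD := mlte_lraDeg_rel M s e
    have hW := mlteFricke_rel M δ
    rw [← hδ₁] at hW
    have hW2 := mlteFricke_rel M (mlteFricke M (lraDeg M s (NeZero.ne s) e))
    rw [mlteFricke_invol] at hW2
    set Wm := mlteWMat M with hWm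
    set Dm : Matrix (Fin 2) (Fin 2) ℤ := !![(s : ℤ), 0; 0, 1] with hDm
    set Lm := (((lraDeg M s (NeZero.ne s) e : Gamma0 M) : SL(2, ℤ)) :
      Matrix (Fin 2) (Fin 2) ℤ) with hLm
    set Tm := (((mlteFricke M (lraDeg M s (NeZero.ne s) e) : Gamma0 M) : SL(2, ℤ)) :
      Matrix (Fin 2) (Fin 2) ℤ) with hTm
    set cj := (((mlteRepC M s j : Gamma0 M) : SL(2, ℤ)) : Matrix (Fin 2) (Fin 2) ℤ) with hcj
    set cj' := (((mlteRepC M s j' : Gamma0 M) : SL(2, ℤ)) : Matrix (Fin 2) (Fin 2) ℤ) with hcj'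
    set dm := ((δ : SL(2, ℤ)) : Matrix (Fin 2) (Fin 2) ℤ) with hdm
    set d1 := ((δ₁ : SL(2, ℤ)) : Matrix (Fin 2) (Fin 2) ℤ) with hd1
    set em := ((e : SL(2, ℤ)) : Matrix (Fin 2) (Fin 2) ℤ) with hem
    have hR : Wm * tdmRepU s j = Dm * cj * Wm := mlte_W_mul_repU M s j
    have hR' : Wm * tdmRepU s j' = Dm * cj' * Wm := mlte_W_mul_repU M s j'
    have h1 : Wm * (tdmRepU s j * dm) = Wm * (Tm * tdmRepU s j') := by
      calc Wm * (tdmRepU s j * dm) = (Wm * tdmRepU s j) * dm := by rw [Matrix.mul_assoc]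
        _ = Dm * cj * (Wm * dm) := by rw [hR, Matrix.mul_assoc]
        _ = Dm * (cj * d1) * Wm := by rw [hW]; simp only [Matrix.mul_assoc]
        _ = (Dm * em) * cj' * Wm := by rw [hC1]; simp only [Matrix.mul_assoc]
        _ = Lm * (Dm * cj' * Wm) := by rw [hD]; simp only [Matrix.mul_assoc]
        _ = (Lm * Wm) * tdmRepU s j' := by rw [← hR', Matrix.mul_assoc]
        _ = Wm * (Tm * tdmRepU s j') := by rw [← hW2, Matrix.mul_assoc]
    have h2 := tdm_mul_left_cancel (mlteWMat_det_ne M) h1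
    exact ((U.eq_of_rep_mul h2).2).symm
  refine Finset.sum_congr rfl fun j _ => ?_
  rw [mlteWHom_apply, key j, mlteFricke_invol, mlteDegHom_apply]

end Identities

end

end Fermat.Agent.MLT
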