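/-
MLT / stream Eta (helper1): **splitting of the congruence extension at `q`** (abstract form).

`Γ` a group with a homomorphism `red : Γ →* SL₂(ℤ/q)` (`q` prime), `K = ker red`, `Z = ℤ/p`
(`p` an odd prime).  Two subgroups `A, B ≤ Γ` with `K ≤ A ⊓ B`, `A ⊔ B = ⊤`, and characters
`U : A →* Z`, `V : B →* Z` which agree on `K`.  If `Γ` contains lifts `xp t ∈ A`, `xm t ∈ B` of the
elementary matrices killed by `U` resp. `V`, and `V` kills the conjugates `w(u) xp(t) w(u)⁻¹ ∈ B`,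
then there is `F : Γ →* Z` with `F = U = V` on `K`.

Proof: `h := U|K` is `Γ`-invariant; `Y := Γ / ker h` is a central extension of (a subgroup of)
`SL₂(ℤ/q)` by `h(K) ≤ ℤ/p` carrying Steinberg data; by `lrt_kerProp_zmod` (Lib/LR/CSP: the Schur
multiplier of `SL₂(ℤ/q)` has no `p`-torsion) the subgroup generated by the Steinberg data meets
`K / ker h` trivially, hence is a complement, and `F` is the projection onto `K / ker h`.
-/
import Mathlib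
import Fermat.Agent.Lib.LR.CSP.Product

set_option autoImplicit false
set_option linter.unusedSectionVars false
set_option linter.unusedVariables false
set_option linter.style.haveILetI false

open Matrix MatrixGroups Fermat.Agent.LR

namespace Fermat.Agent.MLT

/-- `SL₂` of a field is generated by the elementary matrices -/
theorem mlte_sl2_field_gen {F : Type*} [Field F] (g : SL(2, F)) :
    g ∈ Subgroup.closure (Set.range (lrsXp : F → SL(2, F)) ∪ Set.range (lrsXm : F → SL(2, F))) := by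
  have hp : ∀ t : F, lrsXp t ∈
      Subgroup.closure (Set.range (lrsXp : F → SL(2, F)) ∪ Set.range (lrsXm : F → SL(2, F))) :=
    fun t => Subgroup.subset_closure (Or.inl ⟨t, rfl⟩)
  have hm : ∀ t : F, lrsXm t ∈
      Subgroup.closure (Set.range (lrsXp : F → SL(2, F)) ∪ Set.range (lrsXm : F → SL(2, F))) :=
    fun t => Subgroup.subset_closure (Or.inr ⟨t, rfl⟩)
  have hdet := g.det_coe
  rw [Matrix.det_fin_two] at hdet
  have key : ∀ g : SL(2, F), g 1 0 ≠ 0 → g ∈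
      Subgroup.closure (Set.range (lrsXp : F → SL(2, F)) ∪ Set.range (lrsXm : F → SL(2, F))) := by
    intro g hc
    have hdet := g.det_coe
    rw [Matrix.det_fin_two] at hdet
    have : g = lrsXp ((g 0 0 - 1) / g 1 0) * lrsXm (g 1 0) * lrsXp ((g 1 1 - 1) / g 1 0) := by
      ext i j
      fin_cases i <;> fin_cases j <;>
        simp [lrsXp, lrsXm, Matrix.mul_apply, Fin.sum_univ_two] <;> field_simp <;>
        first | linear_combination hdet | linear_combination -hdet | ring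
    rw [this]
    exact Subgroup.mul_mem _ (Subgroup.mul_mem _ (hp _) (hm _)) (hp _)
  by_cases hc : g 1 0 = 0
  · have ha : g 0 0 ≠ 0 := by
      intro ha
      rw [ha, hc] at hdet
      simp at hdet
    have h1 : (lrsXm (1 : F) * g) 1 0 ≠ 0 := by
      simp [lrsXm, Matrix.mul_apply, Fin.sum_univ_two, hc, ha]
    have h2 : g = (lrsXm (1 : F))⁻¹ * (lrsXm (1 : F) * g) := by group
    rw [h2]
    exact Subgroup.mul_mem _ (Subgroup.inv_mem _ (hm 1)) (key _ h1)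
  · exact key g hc


section Split

variable {Γ : Type} [Group Γ] {q p : ℕ} [hq : Fact q.Prime] [hp : Fact p.Prime]
  (red : Γ →* SL(2, ZMod q))
  (A B : Subgroup Γ) (U : A →* Multiplicative (ZMod p)) (V : B →* Multiplicative (ZMod p))
  (hKA : red.ker ≤ A) (hKB : red.ker ≤ B)
  (hUV : ∀ (κ : Γ) (hκ : κ ∈ red.ker), U ⟨κ, hKA hκ⟩ = V ⟨κ, hKB hκ⟩)
  (hAB : A ⊔ B = ⊤)

/-- the subgroup of `γ` whose conjugation fixes `U|K` -/
def mlteStab : Subgroup Γ where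
  carrier := {γ | ∀ (κ : Γ) (hκ : κ ∈ red.ker),
    U ⟨γ * κ * γ⁻¹, hKA (red.normal_ker.conj_mem κ hκ γ)⟩ = U ⟨κ, hKA hκ⟩}
  one_mem' := by
    intro κ hκ
    congr 1
    apply Subtype.ext
    simp
  mul_mem' := by
    intro a b ha hb κ hκ
    have h1 := hb κ hκ
    have h2 := ha (b * κ * b⁻¹) (red.normal_ker.conj_mem κ hκ b)
    rw [← h1, ← h2]
    congr 1
    apply Subtype.ext
    simp [mul_assoc]
  inv_mem' := by
    intro a ha κ hκ
    have h2 := ha (a⁻¹ * κ * a⁻¹⁻¹) (red.normal_ker.conj_mem κ hκ a⁻¹)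
    rw [← h2]
    congr 1
    apply Subtype.ext
    simp [mul_assoc]

include hUV hAB in
theorem mlteStab_eq_top : mlteStab red A U hKA = ⊤ := by
  rw [eq_top_iff, ← hAB]
  refine sup_le ?_ ?_
  · intro a ha κ hκ
    have : (⟨a * κ * a⁻¹, hKA (red.normal_ker.conj_mem κ hκ a)⟩ : A)
        = ⟨a, ha⟩ * ⟨κ, hKA hκ⟩ * ⟨a, ha⟩⁻¹ := rfl
    rw [this, map_mul, map_mul, map_inv, mul_comm, inv_mul_cancel_left]
  · intro b hb κ hκ
    rw [hUV _ (red.normal_ker.conj_mem κ hκ b), hUV κ hκ]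
    have : (⟨b * κ * b⁻¹, hKB (red.normal_ker.conj_mem κ hκ b)⟩ : B)
        = ⟨b, hb⟩ * ⟨κ, hKB hκ⟩ * ⟨b, hb⟩⁻¹ := rfl
    rw [this, map_mul, map_mul, map_inv, mul_comm, inv_mul_cancel_left]

include hUV hAB in
theorem mlte_conj_inv (γ κ : Γ) (hκ : κ ∈ red.ker) :
    U ⟨γ * κ * γ⁻¹, hKA (red.normal_ker.conj_mem κ hκ γ)⟩ = U ⟨κ, hKA hκ⟩ := by
  have : γ ∈ mlteStab red A U hKA := by
    rw [mlteStab_eq_top red A B U V hKA hKB hUV hAB]; exact Subgroup.mem_top γ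
  exact this κ hκ

/-- the kernel of `U|K`, as a subgroup of `Γ` -/
def mlteKh : Subgroup Γ where
  carrier := {γ | ∃ hγ : γ ∈ red.ker, U ⟨γ, hKA hγ⟩ = 1}
  one_mem' := ⟨red.ker.one_mem, by
    have : (⟨1, hKA red.ker.one_mem⟩ : A) = 1 := rfl
    rw [this, map_one]⟩
  mul_mem' := by
    rintro a b ⟨ha, ha'⟩ ⟨hb, hb'⟩
    refine ⟨red.ker.mul_mem ha hb, ?_⟩
    have : (⟨a * b, hKA (red.ker.mul_mem ha hb)⟩ : A) = ⟨a, hKA ha⟩ * ⟨b, hKA hb⟩ := rfl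
    rw [this, map_mul, ha', hb', one_mul]
  inv_mem' := by
    rintro a ⟨ha, ha'⟩
    refine ⟨red.ker.inv_mem ha, ?_⟩
    have : (⟨a⁻¹, hKA (red.ker.inv_mem ha)⟩ : A) = ⟨a, hKA ha⟩⁻¹ := rfl
    rw [this, map_inv, ha', inv_one]

theorem mlte_mem_Kh {γ : Γ} :
    γ ∈ mlteKh red A U hKA ↔ ∃ hγ : γ ∈ red.ker, U ⟨γ, hKA hγ⟩ = 1 := Iff.rfl

include hUV hAB in
theorem mlteKh_normal : (mlteKh red A U hKA).Normal := by
  constructor
  rintro κ ⟨hκ, hκ'⟩ γ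
  exact ⟨red.normal_ker.conj_mem κ hκ γ, by
    rw [mlte_conj_inv red A B U V hKA hKB hUV hAB γ κ hκ, hκ']⟩

end Split


section Elem

variable {R : Type*} [CommRing R]

theorem mlte_lrsXp_add (s t : R) : lrsXp (s + t) = lrsXp s * lrsXp t := by
  ext i j
  fin_cases i <;> fin_cases j <;> simp [lrsXp, Matrix.mul_apply, Fin.sum_univ_two, add_comm]

theorem mlte_lrsXm_add (s t : R) : lrsXm (s + t) = lrsXm s * lrsXm t := by
  ext i j
  fin_cases i <;> fin_cases j <;> simp [lrsXm, Matrix.mul_apply, Fin.sum_univ_two, add_comm]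

/-- the Steinberg relation in `SL₂(R)` -/
theorem mlte_lrs_rel (u : Rˣ) (t : R) :
    (lrsXp (u : R) * lrsXm (-(↑u⁻¹ : R)) * lrsXp (u : R)) * lrsXp t *
      (lrsXp (u : R) * lrsXm (-(↑u⁻¹ : R)) * lrsXp (u : R))⁻¹
      = lrsXm (-((↑u⁻¹ : R) ^ 2) * t) := by
  rw [lrsWm_eq]
  have h1 : (u : R) * (↑u⁻¹ : R) = 1 := Units.mul_inv u
  ext i j
  fin_cases i <;> fin_cases j <;>
    simp [lrsWm, lrsXp, lrsXm, Matrix.mul_apply, Fin.sum_univ_two,
      Matrix.SpecialLinearGroup.coe_inv, Matrix.adjugate_fin_two]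
  ring

end Elem


section Main

variable {Γ : Type} [Group Γ] {q p : ℕ} [hq : Fact q.Prime] [hp : Fact p.Prime]
  (red : Γ →* SL(2, ZMod q))
  (A B : Subgroup Γ) (U : A →* Multiplicative (ZMod p)) (V : B →* Multiplicative (ZMod p))
  (hKA : red.ker ≤ A) (hKB : red.ker ≤ B)
  (hUV : ∀ (κ : Γ) (hκ : κ ∈ red.ker), U ⟨κ, hKA hκ⟩ = V ⟨κ, hKB hκ⟩)
  (hAB : A ⊔ B = ⊤)
  (xp xm : ZMod q → Γ)
  (hxpA : ∀ t, xp t ∈ A) (hxmB : ∀ t, xm t ∈ B)
  (hredp : ∀ t, red (xp t) = lrsXp t) (hredm : ∀ t, red (xm t) = lrsXm t)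
  (hUxp : ∀ t, U ⟨xp t, hxpA t⟩ = 1) (hVxm : ∀ t, V ⟨xm t, hxmB t⟩ = 1)
  (hrelB : ∀ (u : (ZMod q)ˣ) (t : ZMod q),
    ∃ hmem : (xp (u : ZMod q) * xm (-(↑u⁻¹ : ZMod q)) * xp (u : ZMod q)) * xp t *
      (xp (u : ZMod q) * xm (-(↑u⁻¹ : ZMod q)) * xp (u : ZMod q))⁻¹ ∈ B,
      V ⟨_, hmem⟩ = 1)

include hUV hAB hredp hredm hUxp hVxm hrelB in
/-- **splitting**: `U|K` extends to a character of `Γ` -/
theorem mlte_split (hp2 : p ≠ 2) :
    ∃ F : Γ →* Multiplicative (ZMod p), ∀ (κ : Γ) (hκ : κ ∈ red.ker), F κ = U ⟨κ, hKA hκ⟩ := by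
  classical
  haveI hN : (mlteKh red A U hKA).Normal := mlteKh_normal red A B U V hKA hKB hUV hAB
  set Kh := mlteKh red A U hKA with hKh
  have hKhK : Kh ≤ red.ker := fun γ hγ => hγ.1
  -- elements of `K` killed by `U` are in `Kh`
  have hmemKh : ∀ (κ : Γ) (hκ : κ ∈ red.ker), U ⟨κ, hKA hκ⟩ = 1 → κ ∈ Kh := fun κ hκ h => ⟨hκ, h⟩
  let mk : Γ →* Γ ⧸ Kh := QuotientGroup.mk' Kh
  have hmk_eq : ∀ a b : Γ, a⁻¹ * b ∈ Kh → mk a = mk b := fun a b h => QuotientGroup.eq.2 h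
  let π : Γ ⧸ Kh →* SL(2, ZMod q) := QuotientGroup.lift Kh red (fun γ hγ => hKhK hγ)
  have hπmk : ∀ γ : Γ, π (mk γ) = red γ := fun γ => rfl
  -- `U` on products of elements of `A`, `V` on products of elements of `B`
  have hUA : ∀ (a b : Γ) (ha : a ∈ A) (hb : b ∈ A) (hab : a⁻¹ * b ∈ red.ker),
      U ⟨a⁻¹ * b, hKA hab⟩ = (U ⟨a, ha⟩)⁻¹ * U ⟨b, hb⟩ := by
    intro a b ha hb hab
    have : (⟨a⁻¹ * b, hKA hab⟩ : A) = ⟨a, ha⟩⁻¹ * ⟨b, hb⟩ := rfl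
    rw [this, map_mul, map_inv]
  have hVB : ∀ (a b : Γ) (ha : a ∈ B) (hb : b ∈ B) (hab : a⁻¹ * b ∈ red.ker),
      U ⟨a⁻¹ * b, hKA hab⟩ = (V ⟨a, ha⟩)⁻¹ * V ⟨b, hb⟩ := by
    intro a b ha hb hab
    rw [hUV _ hab]
    have : (⟨a⁻¹ * b, hKB hab⟩ : B) = ⟨a, ha⟩⁻¹ * ⟨b, hb⟩ := rfl
    rw [this, map_mul, map_inv]
  -- the Steinberg data
  have hdp : ∀ s t : ZMod q, mk (xp (s + t)) = mk (xp s) * mk (xp t) := by
    intro s t
    rw [← map_mul]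
    apply hmk_eq
    have hker : (xp (s + t))⁻¹ * (xp s * xp t) ∈ red.ker := by
      rw [MonoidHom.mem_ker, map_mul, map_inv, map_mul, hredp, hredp, hredp, mlte_lrsXp_add,
        inv_mul_cancel]
    refine hmemKh _ hker ?_
    rw [hUA _ _ (hxpA _) (A.mul_mem (hxpA _) (hxpA _)) hker, hUxp]
    have : (⟨xp s * xp t, A.mul_mem (hxpA _) (hxpA _)⟩ : A) = ⟨xp s, hxpA s⟩ * ⟨xp t, hxpA t⟩ := rfl
    rw [this, map_mul, hUxp, hUxp]
    simp
  have hdm : ∀ s t : ZMod q, mk (xm (s + t)) = mk (xm s) * mk (xm t) := by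
    intro s t
    rw [← map_mul]
    apply hmk_eq
    have hker : (xm (s + t))⁻¹ * (xm s * xm t) ∈ red.ker := by
      rw [MonoidHom.mem_ker, map_mul, map_inv, map_mul, hredm, hredm, hredm, mlte_lrsXm_add,
        inv_mul_cancel]
    refine hmemKh _ hker ?_
    rw [hVB _ _ (hxmB _) (B.mul_mem (hxmB _) (hxmB _)) hker, hVxm]
    have : (⟨xm s * xm t, B.mul_mem (hxmB _) (hxmB _)⟩ : B) = ⟨xm s, hxmB s⟩ * ⟨xm t, hxmB t⟩ := rfl
    rw [this, map_mul, hVxm, hVxm]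
    simp
  have hrel : ∀ (u : (ZMod q)ˣ) (t : ZMod q),
      (mk (xp (u : ZMod q)) * mk (xm (-(↑u⁻¹ : ZMod q))) * mk (xp (u : ZMod q))) * mk (xp t) *
        (mk (xp (u : ZMod q)) * mk (xm (-(↑u⁻¹ : ZMod q))) * mk (xp (u : ZMod q)))⁻¹
        = mk (xm (-((↑u⁻¹ : ZMod q) ^ 2) * t)) := by
    intro u t
    obtain ⟨hmem, hV1⟩ := hrelB u t
    rw [← map_mul, ← map_mul, ← map_mul, ← map_inv, ← map_mul]
    apply hmk_eq
    have hker : ((xp (u : ZMod q) * xm (-(↑u⁻¹ : ZMod q)) * xp (u : ZMod q)) * xp t *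
        (xp (u : ZMod q) * xm (-(↑u⁻¹ : ZMod q)) * xp (u : ZMod q))⁻¹)⁻¹ *
        xm (-((↑u⁻¹ : ZMod q) ^ 2) * t) ∈ red.ker := by
      rw [MonoidHom.mem_ker, map_mul, map_inv, map_mul, map_mul, map_inv, map_mul, map_mul,
        hredp, hredp, hredm, hredm, mlte_lrs_rel, inv_mul_cancel]
    refine hmemKh _ hker ?_
    rw [hVB _ _ hmem (hxmB _) hker, hV1, hVxm]
    simp
  let D : LrsData (ZMod q) (Γ ⧸ Kh) :=
    { yp := fun t => mk (xp t)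
      ym := fun t => mk (xm t)
      yp_add := hdp
      ym_add := hdm
      rel := hrel }
  -- the subgroup generated by the Steinberg data
  set H : Subgroup (Γ ⧸ Kh) := Subgroup.closure (Set.range D.yp ∪ Set.range D.ym) with hH
  have hpH : ∀ t, D.yp t ∈ H := fun t => Subgroup.subset_closure (Or.inl ⟨t, rfl⟩)
  have hmH : ∀ t, D.ym t ∈ H := fun t => Subgroup.subset_closure (Or.inr ⟨t, rfl⟩)
  let D' : LrsData (ZMod q) H := lrtRestrict D H hpH hmH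
  let π' : H →* SL(2, ZMod q) := π.comp H.subtype
  have hπ'p : ∀ t, π' (D'.yp t) = lrsXp t := fun t => (hπmk (xp t)).trans (hredp t)
  have hπ'm : ∀ t, π' (D'.ym t) = lrsXm t := fun t => (hπmk (xm t)).trans (hredm t)
  have hgen : Subgroup.closure (Set.range D'.yp ∪ Set.range D'.ym) = ⊤ := by
    have h1 : Set.range D'.yp ∪ Set.range D'.ym
        = H.subtype ⁻¹' (Set.range D.yp ∪ Set.range D.ym) := by
      ext y
      constructor
      · rintro (⟨t, rfl⟩ | ⟨t, rfl⟩)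
        · exact Or.inl ⟨t, rfl⟩
        · exact Or.inr ⟨t, rfl⟩
      · rintro (⟨t, ht⟩ | ⟨t, ht⟩)
        · exact Or.inl ⟨t, Subtype.ext ht⟩
        · exact Or.inr ⟨t, Subtype.ext ht⟩
    rw [h1]
    exact Subgroup.closure_closure_coe_preimage
  -- the kernel of `π` is central
  have hcenY : ∀ c : Γ ⧸ Kh, π c = 1 → ∀ y : Γ ⧸ Kh, y * c = c * y := by
    intro c hc y
    obtain ⟨κ, rfl⟩ := QuotientGroup.mk'_surjective Kh c
    obtain ⟨γ, rfl⟩ := QuotientGroup.mk'_surjective Kh y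
    have hκ : κ ∈ red.ker := hc
    show mk γ * mk κ = mk κ * mk γ
    rw [← map_mul, ← map_mul]
    apply hmk_eq
    have hconj : γ⁻¹ * κ * γ⁻¹⁻¹ ∈ red.ker := red.normal_ker.conj_mem _ hκ _
    have e1 : (γ * κ)⁻¹ * (κ * γ) = κ⁻¹ * (γ⁻¹ * κ * γ⁻¹⁻¹) := by group
    rw [e1]
    have hker : κ⁻¹ * (γ⁻¹ * κ * γ⁻¹⁻¹) ∈ red.ker := red.ker.mul_mem (red.ker.inv_mem hκ) hconj
    refine hmemKh _ hker ?_
    rw [hUA _ _ (hKA hκ) (hKA hconj) hker, mlte_conj_inv red A B U V hKA hKB hUV hAB γ⁻¹ κ hκ,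
      inv_mul_cancel]
  have hcen : π'.ker ≤ Subgroup.center H := by
    intro c hc
    rw [Subgroup.mem_center_iff]
    intro y
    apply Subtype.ext
    exact hcenY c.1 hc y.1
  -- the kernel of `π'` is trivial
  have hq0 : q ≠ 0 := hq.out.ne_zero
  have hinj : Function.Injective π' := by
    rw [injective_iff_map_eq_one]
    intro c hc
    obtain ⟨m, hm1, hm2⟩ := lrt_kerProp_zmod p hp2 q hq0 H D' π' hπ'p hπ'm hgen hcen c hc
    obtain ⟨κ, hκc⟩ := QuotientGroup.mk'_surjective Kh c.1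
    have hκ : κ ∈ red.ker := by
      rw [MonoidHom.mem_ker, ← hπmk κ]
      show π (QuotientGroup.mk' Kh κ) = 1
      rw [hκc]
      exact hc
    have h1 : κ ^ m ∈ Kh := by
      rw [← QuotientGroup.eq_one_iff]
      have : ((κ ^ m : Γ) : Γ ⧸ Kh) = (c.1) ^ m := by
        rw [← hκc]; rfl
      rw [this, ← Subgroup.coe_pow, hm2]; rfl
    obtain ⟨hκm, hU⟩ := h1
    have h2 : (U ⟨κ, hKA hκ⟩) ^ m = 1 := by
      rw [← map_pow]
      exact hU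
    have h3 : (U ⟨κ, hKA hκ⟩) ^ p = 1 := by
      apply Multiplicative.toAdd.injective
      rw [toAdd_pow, toAdd_one, nsmul_eq_mul, ZMod.natCast_self, zero_mul]
    have h4 := pow_gcd_eq_one.2 ⟨h2, h3⟩
    have hcop : Nat.gcd m p = 1 := by
      rw [Nat.gcd_comm]
      exact (Nat.Prime.coprime_iff_not_dvd hp.out).2 hm1
    rw [hcop, pow_one] at h4
    have h5 : κ ∈ Kh := hmemKh κ hκ h4
    apply Subtype.ext
    rw [← hκc]
    exact (QuotientGroup.eq_one_iff κ).2 h5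
  have hsurj : Function.Surjective π' := by
    intro g
    have hg := mlte_sl2_field_gen g
    have hle : Subgroup.closure (Set.range (lrsXp : ZMod q → SL(2, ZMod q)) ∪
        Set.range (lrsXm : ZMod q → SL(2, ZMod q))) ≤ π'.range := by
      rw [Subgroup.closure_le]
      rintro x (⟨t, rfl⟩ | ⟨t, rfl⟩)
      · exact ⟨D'.yp t, hπ'p t⟩
      · exact ⟨D'.ym t, hπ'm t⟩
    exact hle hg
  let e : H ≃* SL(2, ZMod q) := MulEquiv.ofBijective π' ⟨hinj, hsurj⟩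
  -- a set-theoretic section `SL₂(ℤ/q) → Γ` through `H`
  let s : SL(2, ZMod q) → Γ := fun g => Quotient.out ((e.symm g : H) : Γ ⧸ Kh)
  have hs : ∀ g, mk (s g) = ((e.symm g : H) : Γ ⧸ Kh) := fun g => Quotient.out_eq _
  have hreds : ∀ g, red (s g) = g := by
    intro g
    rw [← hπmk, hs]
    exact e.apply_symm_apply g
  have hsmul : ∀ g₁ g₂, (s (g₁ * g₂))⁻¹ * (s g₁ * s g₂) ∈ Kh := by
    intro g₁ g₂
    rw [← QuotientGroup.eq]
    show mk (s (g₁ * g₂)) = mk (s g₁ * s g₂)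
    rw [map_mul, hs, hs, hs, map_mul]
    rfl
  have hmemK : ∀ γ : Γ, γ * (s (red γ))⁻¹ ∈ red.ker := by
    intro γ
    rw [MonoidHom.mem_ker, map_mul, map_inv, hreds, mul_inv_cancel]
  have hmulF : ∀ γ₁ γ₂ : Γ,
      U ⟨(γ₁ * γ₂) * (s (red (γ₁ * γ₂)))⁻¹, hKA (hmemK (γ₁ * γ₂))⟩
        = U ⟨γ₁ * (s (red γ₁))⁻¹, hKA (hmemK γ₁)⟩ * U ⟨γ₂ * (s (red γ₂))⁻¹, hKA (hmemK γ₂)⟩ := by
    intro γ₁ γ₂
    set κ₁ := γ₁ * (s (red γ₁))⁻¹ with hκ₁
    set κ₂ := γ₂ * (s (red γ₂))⁻¹ with hκ₂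
    have h1 : κ₁ ∈ red.ker := hmemK γ₁
    have h2 : κ₂ ∈ red.ker := hmemK γ₂
    set c := s (red γ₁) * κ₂ * (s (red γ₁))⁻¹ with hc
    have h3 : c ∈ red.ker := red.normal_ker.conj_mem κ₂ h2 _
    set δ := s (red γ₁ * red γ₂) * ((s (red γ₁ * red γ₂))⁻¹ * (s (red γ₁) * s (red γ₂))) *
      (s (red γ₁ * red γ₂))⁻¹ with hδ
    have h4 : δ ∈ Kh := hN.conj_mem _ (hsmul _ _) _
    have e1 : (γ₁ * γ₂) * (s (red (γ₁ * γ₂)))⁻¹ = κ₁ * c * δ := by
      rw [map_mul, hκ₁, hc, hκ₂, hδ]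
      group
    have hm : κ₁ * c * δ ∈ red.ker := red.ker.mul_mem (red.ker.mul_mem h1 h3) (hKhK h4)
    have e2 : (⟨(γ₁ * γ₂) * (s (red (γ₁ * γ₂)))⁻¹, hKA (hmemK (γ₁ * γ₂))⟩ : A)
        = ⟨κ₁, hKA h1⟩ * ⟨c, hKA h3⟩ * ⟨δ, hKA (hKhK h4)⟩ := Subtype.ext e1
    rw [e2, map_mul, map_mul, h4.2, mul_one,
      mlte_conj_inv red A B U V hKA hKB hUV hAB (s (red γ₁)) κ₂ h2]
  refine ⟨MonoidHom.mk' (fun γ => U ⟨γ * (s (red γ))⁻¹, hKA (hmemK γ)⟩) hmulF, ?_⟩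
  intro κ hκ
  show U ⟨κ * (s (red κ))⁻¹, hKA (hmemK κ)⟩ = U ⟨κ, hKA hκ⟩
  have h1 : s (red κ) ∈ Kh := by
    rw [MonoidHom.mem_ker] at hκ
    rw [hκ, ← QuotientGroup.eq_one_iff]
    show mk (s 1) = 1
    rw [hs, map_one]
    rfl
  have e2 : (⟨κ * (s (red κ))⁻¹, hKA (hmemK κ)⟩ : A)
      = ⟨κ, hKA hκ⟩ * ⟨s (red κ), hKA (hKhK h1)⟩⁻¹ := rfl
  rw [e2, map_mul, map_inv, h1.2, inv_one, mul_one]

end Main

end Fermat.Agent.MLT
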