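/-
MLT / stream Eta (helper1): **the `q²`-step lemma** for `Γ = Γ₀(N)`, `q ∤ N`.

Two parabolic characters `u, v : Γ₀(N q) → ℤ/p` (`p` odd, `p ≠ q`) with
`u (δ γ δ⁻¹) = v γ` for `γ ∈ Γ₀(N q²)` (`δ = diag(q, 1)`) come from ONE parabolic character
`F : Γ₀(N) → ℤ/p` up to characters through `d mod q`:
`u = F` on `{α ∈ Γ₀(N q) : d ≡ 1 mod q}` and `v = F ∘ lraDeg` on the same set.
-/
import Mathlib
import Fermat.Agent.Lib.MLT.Eta.SplitExt
import Fermat.Agent.Lib.LR.Amalgam.Main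
import Fermat.Prelude.Def_ModularCurve_PeriodMap

set_option autoImplicit false
set_option linter.unusedSectionVars false
set_option linter.unusedVariables false
set_option linter.style.haveILetI false

open Matrix MatrixGroups CongruenceSubgroup ModularCurve.Period Fermat.Agent.LR

namespace Fermat.Agent.MLT

section Red

variable (N q : ℕ)

/-- reduction modulo `q` on `Γ₀(N)` -/
def mlteRed : Gamma0 N →* SL(2, ZMod q) :=
  (Matrix.SpecialLinearGroup.map (Int.castRingHom (ZMod q))).comp (Gamma0 N).subtype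

theorem mlteRed_apply (γ : Gamma0 N) (i j : Fin 2) :
    (mlteRed N q γ) i j = ((γ.1 i j : ℤ) : ZMod q) := rfl

theorem mlte_mem_ker_red {γ : Gamma0 N} : γ ∈ (mlteRed N q).ker ↔
    ((γ.1 0 0 : ℤ) : ZMod q) = 1 ∧ ((γ.1 0 1 : ℤ) : ZMod q) = 0 ∧
      ((γ.1 1 0 : ℤ) : ZMod q) = 0 ∧ ((γ.1 1 1 : ℤ) : ZMod q) = 1 := by
  rw [MonoidHom.mem_ker]
  constructor
  · intro h
    have := fun i j => congrArg (fun g : SL(2, ZMod q) => g i j) h
    exact ⟨by simpa [mlteRed_apply] using this 0 0, by simpa [mlteRed_apply] using this 0 1,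
      by simpa [mlteRed_apply] using this 1 0, by simpa [mlteRed_apply] using this 1 1⟩
  · rintro ⟨h00, h01, h10, h11⟩
    ext i j
    fin_cases i <;> fin_cases j <;> simp [mlteRed_apply, h00, h01, h10, h11]

/-- the upper unipotent `[[1, n], [0, 1]] ∈ Γ₀(N)` -/
def mlteXp (n : ℤ) : Gamma0 N :=
  ⟨⟨!![1, n; 0, 1], by simp [Matrix.det_fin_two_of]⟩, by rw [Gamma0_mem]; simp⟩

/-- the lower unipotent `[[1, 0], [N n, 1]] ∈ Γ₀(N)` -/
def mlteXm (n : ℤ) : Gamma0 N :=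
  ⟨⟨!![1, 0; (N : ℤ) * n, 1], by simp [Matrix.det_fin_two_of]⟩, by rw [Gamma0_mem]; simp⟩

theorem mlteRed_Xp (n : ℤ) : mlteRed N q (mlteXp N n) = lrsXp ((n : ℤ) : ZMod q) := by
  ext i j
  fin_cases i <;> fin_cases j <;> simp [mlteRed_apply, mlteXp, lrsXp]

theorem mlteRed_Xm (n : ℤ) :
    mlteRed N q (mlteXm N n) = lrsXm (((N : ℤ) : ZMod q) * ((n : ℤ) : ZMod q)) := by
  ext i j
  fin_cases i <;> fin_cases j <;> simp [mlteRed_apply, mlteXm, lrsXm]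

end Red


section Deg

variable {N q : ℕ}

theorem mlte_lraDeg_injective (hq : q ≠ 0) : Function.Injective (lraDeg N q hq) := by
  intro β β' h
  obtain ⟨e00, e01, e10, e11⟩ := lraDeg_entries (N := N) hq β
  obtain ⟨f00, f01, f10, f11⟩ := lraDeg_entries (N := N) hq β'
  have hq' : (q : ℤ) ≠ 0 := by exact_mod_cast hq
  apply Subtype.ext
  ext i j
  fin_cases i <;> fin_cases j
  · show β.1 0 0 = β'.1 0 0
    rw [← e00, ← f00, h]
  · show β.1 0 1 = β'.1 0 1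
    have : (q : ℤ) * β.1 0 1 = q * β'.1 0 1 := by rw [← e01, ← f01, h]
    exact mul_left_cancel₀ hq' this
  · show β.1 1 0 = β'.1 1 0
    rw [← e10, ← f10, h]
  · show β.1 1 1 = β'.1 1 1
    rw [← e11, ← f11, h]

/-- every `γ ∈ Γ₀(N)` with `q ∣ b` is a second degeneracy -/
theorem mlte_exists_lraDeg_eq (hq : q ≠ 0) (γ : Gamma0 N) (h : (q : ℤ) ∣ γ.1 0 1) :
    ∃ β : Gamma0 (N * q), lraDeg N q hq β = γ := by
  obtain ⟨b', hb'⟩ := h
  have hN : (N : ℤ) ∣ γ.1 1 0 := lra_Gamma0_mem_iff_dvd.1 γ.2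
  have hdet := γ.1.det_coe
  rw [Matrix.det_fin_two] at hdet
  let β₀ : SL(2, ℤ) := ⟨!![γ.1 0 0, b'; (q : ℤ) * γ.1 1 0, γ.1 1 1], by
    rw [Matrix.det_fin_two_of]
    rw [hb'] at hdet
    linear_combination hdet⟩
  have hβ₀ : β₀ ∈ Gamma0 (N * q) := by
    rw [lra_Gamma0_mem_iff_dvd]
    obtain ⟨c', hc'⟩ := hN
    refine ⟨c', ?_⟩
    show (q : ℤ) * γ.1 1 0 = ((N * q : ℕ) : ℤ) * c'
    rw [hc']
    push_cast
    ring
  refine ⟨⟨β₀, hβ₀⟩, ?_⟩
  obtain ⟨e00, e01, e10, e11⟩ := lraDeg_entries (N := N) hq ⟨β₀, hβ₀⟩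
  have hq' : (q : ℤ) ≠ 0 := by exact_mod_cast hq
  apply Subtype.ext
  ext i j
  fin_cases i <;> fin_cases j
  · exact e00
  · show (lraDeg N q hq ⟨β₀, hβ₀⟩).1 0 1 = γ.1 0 1
    rw [e01, hb']
    rfl
  · show (lraDeg N q hq ⟨β₀, hβ₀⟩).1 1 0 = γ.1 1 0
    exact mul_left_cancel₀ hq' e10
  · exact e11

theorem mlte_lraDeg_01 (hq : q ≠ 0) (β : Gamma0 (N * q)) : (q : ℤ) ∣ (lraDeg N q hq β).1 0 1 := by
  obtain ⟨-, e01, -, -⟩ := lraDeg_entries (N := N) hq β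
  exact ⟨_, e01⟩

theorem mlte_mem_range_lraDeg (hq : q ≠ 0) (γ : Gamma0 N) :
    γ ∈ (lraDeg N q hq).range ↔ (q : ℤ) ∣ γ.1 0 1 :=
  ⟨fun ⟨β, hβ⟩ => hβ ▸ mlte_lraDeg_01 hq β, fun h => mlte_exists_lraDeg_eq hq γ h⟩

end Deg


section Gen

variable {N q : ℕ}

/-- `A = Γ₀(N q)` as a subgroup of `Γ₀(N)` -/
def mlteA (N q : ℕ) : Subgroup (Gamma0 N) := (Gamma0 (N * q)).subgroupOf (Gamma0 N)

theorem mlte_mem_A {γ : Gamma0 N} : γ ∈ mlteA N q ↔ ((N * q : ℕ) : ℤ) ∣ γ.1 1 0 := by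
  unfold mlteA
  rw [Subgroup.mem_subgroupOf, lra_Gamma0_mem_iff_dvd]

theorem mlte_mem_A_of_dvd (hNq : N.Coprime q) {γ : Gamma0 N} (h : (q : ℤ) ∣ γ.1 1 0) :
    γ ∈ mlteA N q := by
  rw [mlte_mem_A]
  have hN : (N : ℤ) ∣ γ.1 1 0 := lra_Gamma0_mem_iff_dvd.1 γ.2
  have hcop : IsCoprime (N : ℤ) (q : ℤ) := Nat.isCoprime_iff_coprime.2 hNq
  push_cast
  exact hcop.mul_dvd hN h

theorem mlteXp_mem_A (n : ℤ) : mlteXp N n ∈ mlteA N q := by
  rw [mlte_mem_A]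
  simp [mlteXp]

theorem mlteXm_mem_range (hq : q ≠ 0) (n : ℤ) : mlteXm N n ∈ (lraDeg N q hq).range := by
  rw [mlte_mem_range_lraDeg]
  simp [mlteXm]

theorem mlte_sup_eq_top (hq : q.Prime) (hNq : N.Coprime q) :
    mlteA N q ⊔ (lraDeg N q hq.ne_zero).range = ⊤ := by
  rw [eq_top_iff]
  intro γ _
  have hqZ : Prime (q : ℤ) := Nat.prime_iff_prime_int.1 hq
  -- step 1: `q ∤ d`
  have step1 : ∀ γ : Gamma0 N, ¬ (q : ℤ) ∣ γ.1 1 1 →
      γ ∈ mlteA N q ⊔ (lraDeg N q hq.ne_zero).range := by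
    intro γ hd
    have hcop : IsCoprime (γ.1 1 1 * (N : ℤ)) (q : ℤ) := by
      refine IsCoprime.mul_left ?_ (Nat.isCoprime_iff_coprime.2 hNq)
      exact ((Prime.coprime_iff_not_dvd hqZ).2 hd).symm
    obtain ⟨u, v, huv⟩ := hcop
    set k : ℤ := -(γ.1 1 0) * u with hk
    have hmem : γ * mlteXm N k ∈ mlteA N q := by
      apply mlte_mem_A_of_dvd hNq
      refine ⟨γ.1 1 0 * v, ?_⟩
      show (γ.1 * (mlteXm N k).1) 1 0 = _
      rw [Matrix.SpecialLinearGroup.coe_mul, Matrix.mul_apply, Fin.sum_univ_two]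
      simp only [mlteXm]
      simp
      rw [hk]
      linear_combination (-(γ.1 1 0)) * huv
    have h2 : γ = (γ * mlteXm N k) * (mlteXm N k)⁻¹ := by group
    rw [h2]
    exact Subgroup.mul_mem _ (Subgroup.mem_sup_left hmem)
      (Subgroup.inv_mem _ (Subgroup.mem_sup_right (mlteXm_mem_range hq.ne_zero k)))
  by_cases hd : (q : ℤ) ∣ γ.1 1 1
  · by_cases hc : (q : ℤ) ∣ γ.1 1 0
    · exact Subgroup.mem_sup_left (mlte_mem_A_of_dvd hNq hc)
    · have h1 : ¬ (q : ℤ) ∣ (γ * mlteXp N 1).1 1 1 := by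
        have : (γ * mlteXp N 1).1 1 1 = γ.1 1 0 + γ.1 1 1 := by
          show (γ.1 * (mlteXp N 1).1) 1 1 = _
          rw [Matrix.SpecialLinearGroup.coe_mul, Matrix.mul_apply, Fin.sum_univ_two]
          simp [mlteXp]
        rw [this]
        intro h
        exact hc ((dvd_add_left hd).1 h)
      have h2 : γ = (γ * mlteXp N 1) * (mlteXp N 1)⁻¹ := by group
      rw [h2]
      exact Subgroup.mul_mem _ (step1 _ h1)
        (Subgroup.inv_mem _ (Subgroup.mem_sup_left (mlteXp_mem_A 1)))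
  · exact step1 γ hd

end Gen


section UV

variable {N q p : ℕ}

/-- the character `u` of `Γ₀(N q)`, on `A ≤ Γ₀(N)` -/
def mlteU (u : Additive (Gamma0 (N * q)) →+ ZMod p) : mlteA N q →* Multiplicative (ZMod p) where
  toFun a := Multiplicative.ofAdd (u (Additive.ofMul ⟨a.1.1, Subgroup.mem_subgroupOf.1 a.2⟩))
  map_one' := by
    have : (⟨(1 : mlteA N q).1.1, Subgroup.mem_subgroupOf.1 (1 : mlteA N q).2⟩ : Gamma0 (N * q))
        = 1 := rfl
    rw [this, ofMul_one, map_zero, ofAdd_zero]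
  map_mul' a b := by
    have : (⟨(a * b).1.1, Subgroup.mem_subgroupOf.1 (a * b).2⟩ : Gamma0 (N * q))
        = ⟨a.1.1, Subgroup.mem_subgroupOf.1 a.2⟩ * ⟨b.1.1, Subgroup.mem_subgroupOf.1 b.2⟩ := rfl
    rw [this, ofMul_mul, map_add, ofAdd_add]

theorem mlteU_apply (u : Additive (Gamma0 (N * q)) →+ ZMod p) (γ : Gamma0 N)
    (hγ : γ ∈ mlteA N q) :
    mlteU u ⟨γ, hγ⟩ = Multiplicative.ofAdd
      (u (Additive.ofMul ⟨γ.1, Subgroup.mem_subgroupOf.1 hγ⟩)) := rfl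

/-- the character `v` of `Γ₀(N q)`, transported to `B = lraDeg (Γ₀(N q)) ≤ Γ₀(N)` -/
noncomputable def mlteV (hq : q ≠ 0) (v : Additive (Gamma0 (N * q)) →+ ZMod p) :
    (lraDeg N q hq).range →* Multiplicative (ZMod p) where
  toFun b := Multiplicative.ofAdd (v (Additive.ofMul (Classical.choose b.2)))
  map_one' := by
    have h := Classical.choose_spec (1 : (lraDeg N q hq).range).2
    have : Classical.choose (1 : (lraDeg N q hq).range).2 = 1 :=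
      mlte_lraDeg_injective hq (h.trans (map_one _).symm)
    rw [this, ofMul_one, map_zero, ofAdd_zero]
  map_mul' a b := by
    have h := Classical.choose_spec (a * b).2
    have ha := Classical.choose_spec a.2
    have hb := Classical.choose_spec b.2
    have : Classical.choose (a * b).2 = Classical.choose a.2 * Classical.choose b.2 := by
      apply mlte_lraDeg_injective hq
      rw [h, map_mul, ha, hb]
      rfl
    rw [this, ofMul_mul, map_add, ofAdd_add]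

theorem mlteV_apply (hq : q ≠ 0) (v : Additive (Gamma0 (N * q)) →+ ZMod p)
    (β : Gamma0 (N * q)) (hβ : lraDeg N q hq β ∈ (lraDeg N q hq).range) :
    mlteV hq v ⟨lraDeg N q hq β, hβ⟩ = Multiplicative.ofAdd (v (Additive.ofMul β)) := by
  have h := Classical.choose_spec hβ
  have : Classical.choose hβ = β := mlte_lraDeg_injective hq h
  show Multiplicative.ofAdd (v (Additive.ofMul (Classical.choose hβ))) = _
  rw [this]

theorem mlteV_apply' (hq : q ≠ 0) (v : Additive (Gamma0 (N * q)) →+ ZMod p)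
    (γ : Gamma0 N) (hγ : γ ∈ (lraDeg N q hq).range) (β : Gamma0 (N * q))
    (hβ : lraDeg N q hq β = γ) :
    mlteV hq v ⟨γ, hγ⟩ = Multiplicative.ofAdd (v (Additive.ofMul β)) := by
  subst hβ
  exact mlteV_apply hq v β hγ

end UV


section Apply

variable {N q p : ℕ} [hq : Fact q.Prime] [hp : Fact p.Prime]

theorem mlte_trace_lraDeg' (hq0 : q ≠ 0) (β : Gamma0 (N * q)) :
    (((lraDeg N q hq0 β : Gamma0 N) : SL(2, ℤ)) : Matrix (Fin 2) (Fin 2) ℤ).trace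
      = ((β : SL(2, ℤ)) : Matrix (Fin 2) (Fin 2) ℤ).trace := by
  obtain ⟨e00, -, -, e11⟩ := lraDeg_entries (N := N) hq0 β
  rw [Matrix.trace_fin_two, Matrix.trace_fin_two]
  exact congrArg₂ (· + ·) e00 e11

theorem mlte_ker_le_A (hNq : N.Coprime q) : (mlteRed N q).ker ≤ mlteA N q := by
  intro κ hκ
  rw [mlte_mem_ker_red] at hκ
  exact mlte_mem_A_of_dvd hNq ((ZMod.intCast_zmod_eq_zero_iff_dvd _ _).1 hκ.2.2.1)

theorem mlte_ker_le_B : (mlteRed N q).ker ≤ (lraDeg N q hq.out.ne_zero).range := by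
  intro κ hκ
  rw [mlte_mem_ker_red] at hκ
  rw [mlte_mem_range_lraDeg]
  exact (ZMod.intCast_zmod_eq_zero_iff_dvd _ _).1 hκ.2.1

/-- a parabolic character of `Γ₀(N q)` is killed by `V` on trace-`±2` elements of `B` -/
theorem mlteV_parabolic (v : Additive (Gamma0 (N * q)) →+ ZMod p)
    (hv : IsParabolicHom (Gamma0 (N * q)) v) (γ : Gamma0 N)
    (hγ : γ ∈ (lraDeg N q hq.out.ne_zero).range)
    (htr : ((γ : SL(2, ℤ)) : Matrix (Fin 2) (Fin 2) ℤ).trace ^ 2 = 4) :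
    mlteV hq.out.ne_zero v ⟨γ, hγ⟩ = 1 := by
  obtain ⟨β, hβ⟩ := hγ
  rw [mlteV_apply' hq.out.ne_zero v γ _ β hβ]
  have : v (Additive.ofMul β) = 0 := by
    apply hv
    rw [← mlte_trace_lraDeg' hq.out.ne_zero β, hβ]
    exact htr
  rw [this]
  rfl

theorem mlteU_parabolic (u : Additive (Gamma0 (N * q)) →+ ZMod p)
    (hu : IsParabolicHom (Gamma0 (N * q)) u) (γ : Gamma0 N) (hγ : γ ∈ mlteA N q)
    (htr : ((γ : SL(2, ℤ)) : Matrix (Fin 2) (Fin 2) ℤ).trace ^ 2 = 4) :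
    mlteU u ⟨γ, hγ⟩ = 1 := by
  rw [mlteU_apply]
  have : u (Additive.ofMul ⟨γ.1, Subgroup.mem_subgroupOf.1 hγ⟩) = 0 := hu _ htr
  rw [this]
  rfl

theorem mlte_trace_Xp (n : ℤ) :
    (((mlteXp N n : Gamma0 N) : SL(2, ℤ)) : Matrix (Fin 2) (Fin 2) ℤ).trace ^ 2 = 4 := by
  rw [Matrix.trace_fin_two]
  simp [mlteXp]

theorem mlte_trace_Xm (n : ℤ) :
    (((mlteXm N n : Gamma0 N) : SL(2, ℤ)) : Matrix (Fin 2) (Fin 2) ℤ).trace ^ 2 = 4 := by
  rw [Matrix.trace_fin_two]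
  simp [mlteXm]

theorem mlte_trace_conj (g x : Gamma0 N) :
    (((g * x * g⁻¹ : Gamma0 N) : SL(2, ℤ)) : Matrix (Fin 2) (Fin 2) ℤ).trace
      = ((x : SL(2, ℤ)) : Matrix (Fin 2) (Fin 2) ℤ).trace := by
  have : (((g * x * g⁻¹ : Gamma0 N) : SL(2, ℤ)) : Matrix (Fin 2) (Fin 2) ℤ)
      = (g.1 : Matrix (Fin 2) (Fin 2) ℤ) * (x.1 : Matrix (Fin 2) (Fin 2) ℤ) *
        ((g.1⁻¹ : SL(2, ℤ)) : Matrix (Fin 2) (Fin 2) ℤ) := by
    simp [Subgroup.coe_mul, Matrix.SpecialLinearGroup.coe_mul]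
  rw [this, Matrix.trace_mul_comm, ← Matrix.mul_assoc, ← Matrix.SpecialLinearGroup.coe_mul,
    inv_mul_cancel, Matrix.SpecialLinearGroup.coe_one, Matrix.one_mul]

end Apply


section Exists

variable {N q p : ℕ} [hq : Fact q.Prime] [hp : Fact p.Prime]

theorem mlte_Gamma0_le (M q : ℕ) : Gamma0 (M * q) ≤ Gamma0 M := by
  intro γ hγ
  rw [lra_Gamma0_mem_iff_dvd] at hγ ⊢
  exact dvd_trans ⟨(q : ℤ), by push_cast; ring⟩ hγ

/-- the lift of `t ∈ ℤ/q` used for `xm` -/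
noncomputable def mlteMlift (N q : ℕ) (t : ZMod q) : ℤ := ((t * ((N : ZMod q))⁻¹).val : ℤ)

theorem mlte_red_Xp_val (t : ZMod q) :
    mlteRed N q (mlteXp N (t.val : ℤ)) = lrsXp t := by
  haveI : NeZero q := ⟨hq.out.ne_zero⟩
  rw [mlteRed_Xp]
  congr 1
  rw [Int.cast_natCast, ZMod.natCast_zmod_val]

theorem mlte_red_Xm_lift (hNq : N.Coprime q) (t : ZMod q) :
    mlteRed N q (mlteXm N (mlteMlift N q t)) = lrsXm t := by
  haveI : NeZero q := ⟨hq.out.ne_zero⟩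
  rw [mlteRed_Xm]
  congr 1
  unfold mlteMlift
  rw [Int.cast_natCast, Int.cast_natCast, ZMod.natCast_zmod_val]
  have hN : (N : ZMod q) ≠ 0 := by
    intro h
    rw [ZMod.natCast_eq_zero_iff] at h
    have := Nat.Coprime.eq_one_of_dvd hNq.symm h
    exact hq.out.one_lt.ne' this
  field_simp

/-- `U = V` on the kernel of reduction -/
theorem mlte_U_eq_V (hNq : N.Coprime q)
    (u v : Additive (Gamma0 (N * q)) →+ ZMod p)
    (hcompat : ∀ β : Gamma0 (N * q * q),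
      u (Additive.ofMul (lraDeg (N * q) q hq.out.ne_zero β))
        = v (Additive.ofMul (Subgroup.inclusion (mlte_Gamma0_le (N * q) q) β)))
    (κ : Gamma0 N) (hκ : κ ∈ (mlteRed N q).ker) :
    mlteU u ⟨κ, mlte_ker_le_A hNq hκ⟩ = mlteV hq.out.ne_zero v ⟨κ, mlte_ker_le_B hκ⟩ := by
  have hq0 : q ≠ 0 := hq.out.ne_zero
  obtain ⟨β, hβ⟩ := mlte_ker_le_B hκ
  rw [mlteV_apply' hq0 v κ _ β hβ, mlteU_apply]
  congr 1
  have hκA : ((N * q : ℕ) : ℤ) ∣ κ.1 1 0 := mlte_mem_A.1 (mlte_ker_le_A hNq hκ)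
  obtain ⟨e00, e01, e10, e11⟩ := lraDeg_entries (N := N) hq0 β
  have hmem : β.1 ∈ Gamma0 (N * q * q) := by
    rw [lra_Gamma0_mem_iff_dvd]
    obtain ⟨c', hc'⟩ := hκA
    refine ⟨c', ?_⟩
    rw [← e10, hβ, hc']
    push_cast
    ring
  have h1 := hcompat ⟨β.1, hmem⟩
  have h2 : (Subgroup.inclusion (mlte_Gamma0_le (N * q) q) ⟨β.1, hmem⟩ : Gamma0 (N * q)) = β :=
    Subtype.ext rfl
  have h3 : (lraDeg (N * q) q hq0 ⟨β.1, hmem⟩ : Gamma0 (N * q))
      = ⟨κ.1, Subgroup.mem_subgroupOf.1 (mlte_ker_le_A hNq hκ)⟩ := by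
    apply Subtype.ext
    have : (lraDeg N q hq0 β).1 = κ.1 := congrArg Subtype.val hβ
    rw [← this]
    rfl
  rw [h2, h3] at h1
  exact h1

theorem mlte_exists_F0 (hp2 : p ≠ 2) (hNq : N.Coprime q)
    (u v : Additive (Gamma0 (N * q)) →+ ZMod p)
    (hu : IsParabolicHom (Gamma0 (N * q)) u) (hv : IsParabolicHom (Gamma0 (N * q)) v)
    (hcompat : ∀ β : Gamma0 (N * q * q),
      u (Additive.ofMul (lraDeg (N * q) q hq.out.ne_zero β))
        = v (Additive.ofMul (Subgroup.inclusion (mlte_Gamma0_le (N * q) q) β))) :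
    ∃ F : Gamma0 N →* Multiplicative (ZMod p), ∀ (κ : Gamma0 N) (hκ : κ ∈ (mlteRed N q).ker),
      F κ = mlteU u ⟨κ, mlte_ker_le_A hNq hκ⟩ := by
  have hq0 : q ≠ 0 := hq.out.ne_zero
  refine mlte_split (mlteRed N q) (mlteA N q) (lraDeg N q hq0).range (mlteU u) (mlteV hq0 v)
    (mlte_ker_le_A hNq) mlte_ker_le_B ?_ (mlte_sup_eq_top hq.out hNq)
    (fun t => mlteXp N (t.val : ℤ)) (fun t => mlteXm N (mlteMlift N q t))
    (fun t => mlteXp_mem_A _) (fun t => mlteXm_mem_range hq0 _)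
    (fun t => mlte_red_Xp_val t) (fun t => mlte_red_Xm_lift hNq t)
    (fun t => mlteU_parabolic u hu _ _ (mlte_trace_Xp _))
    (fun t => mlteV_parabolic v hv _ _ (mlte_trace_Xm _)) ?_ hp2
  · exact fun κ hκ => mlte_U_eq_V hNq u v hcompat κ hκ
  · -- the conjugates `w(u) xp(t) w(u)⁻¹` lie in `B` and are killed by `V`
    intro u' t
    set W := mlteXp N ((u' : ZMod q).val : ℤ) * mlteXm N (mlteMlift N q (-(↑u'⁻¹ : ZMod q))) *
      mlteXp N ((u' : ZMod q).val : ℤ) with hW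
    set E := W * mlteXp N (t.val : ℤ) * W⁻¹ with hE
    have hred : mlteRed N q E = lrsXm (-((↑u'⁻¹ : ZMod q) ^ 2) * t) := by
      rw [hE, hW, map_mul, map_mul, map_inv, map_mul, map_mul, mlte_red_Xp_val, mlte_red_Xp_val,
        mlte_red_Xm_lift hNq, mlte_lrs_rel]
    have h01 : (q : ℤ) ∣ E.1 0 1 := by
      rw [← ZMod.intCast_zmod_eq_zero_iff_dvd, ← mlteRed_apply N q E 0 1, hred]
      rfl
    have hmem : E ∈ (lraDeg N q hq0).range := (mlte_mem_range_lraDeg hq0 E).2 h01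
    refine ⟨hmem, mlteV_parabolic v hv E hmem ?_⟩
    rw [hE, mlte_trace_conj]
    exact mlte_trace_Xp _

end Exists


section Props

variable {N q p : ℕ} [hq : Fact q.Prime] [hp : Fact p.Prime]

theorem mlte_lrsXp_pow {R : Type*} [CommRing R] (t : R) (n : ℕ) :
    lrsXp t ^ n = lrsXp (n • t) := by
  induction n with
  | zero =>
    rw [pow_zero, zero_smul]
    ext i j
    fin_cases i <;> fin_cases j <;> simp [lrsXp]
  | succ n ih => rw [pow_succ, ih, succ_nsmul, mlte_lrsXp_add]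

theorem mlte_lrsXm_pow {R : Type*} [CommRing R] (t : R) (n : ℕ) :
    lrsXm t ^ n = lrsXm (n • t) := by
  induction n with
  | zero =>
    rw [pow_zero, zero_smul]
    ext i j
    fin_cases i <;> fin_cases j <;> simp [lrsXm]
  | succ n ih => rw [pow_succ, ih, succ_nsmul, mlte_lrsXm_add]

/-- in `ℤ/p` (written multiplicatively), `q`-th powers determine the element (`p ≠ q` primes) -/
theorem mlte_eq_of_pow_eq (hpq : p ≠ q) {x y : Multiplicative (ZMod p)} (h : x ^ q = y ^ q) :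
    x = y := by
  have h1 : (x * y⁻¹) ^ q = 1 := by rw [mul_pow, inv_pow, h, mul_inv_cancel]
  have h2 : (x * y⁻¹) ^ p = 1 := by
    apply Multiplicative.toAdd.injective
    rw [toAdd_pow, toAdd_one, nsmul_eq_mul, ZMod.natCast_self, zero_mul]
  have h3 := pow_gcd_eq_one.2 ⟨h1, h2⟩
  have hcop : Nat.gcd q p = 1 := by
    rw [Nat.gcd_comm]
    exact (Nat.coprime_primes hp.out hq.out).2 hpq
  rw [hcop, pow_one] at h3
  exact mul_inv_eq_one.1 h3

/-- `γ ∈ Γ₀(N)` with `q ∣ c` and `d ≡ 1`: `γ^q` is in the kernel of reduction -/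
theorem mlte_pow_mem_ker_of_A {γ : Gamma0 N} (hc : ((γ.1 1 0 : ℤ) : ZMod q) = 0)
    (hd : ((γ.1 1 1 : ℤ) : ZMod q) = 1) : γ ^ q ∈ (mlteRed N q).ker := by
  have hdet := γ.1.det_coe
  rw [Matrix.det_fin_two] at hdet
  have hdet' := congrArg (fun z : ℤ => (z : ZMod q)) hdet
  simp only [Int.cast_sub, Int.cast_mul, Int.cast_one, hc, hd, mul_one, mul_zero, sub_zero]
    at hdet'
  have : mlteRed N q γ = lrsXp ((γ.1 0 1 : ℤ) : ZMod q) := by
    ext i j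
    fin_cases i <;> fin_cases j <;> simp [mlteRed_apply, lrsXp, hc, hd, hdet']
  rw [MonoidHom.mem_ker, map_pow, this, mlte_lrsXp_pow, nsmul_eq_mul, ZMod.natCast_self, zero_mul]
  ext i j
  fin_cases i <;> fin_cases j <;> simp [lrsXp]

/-- `γ ∈ Γ₀(N)` with `q ∣ b` and `d ≡ 1`: `γ^q` is in the kernel of reduction -/
theorem mlte_pow_mem_ker_of_B {γ : Gamma0 N} (hb : ((γ.1 0 1 : ℤ) : ZMod q) = 0)
    (hd : ((γ.1 1 1 : ℤ) : ZMod q) = 1) : γ ^ q ∈ (mlteRed N q).ker := by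
  have hdet := γ.1.det_coe
  rw [Matrix.det_fin_two] at hdet
  have hdet' := congrArg (fun z : ℤ => (z : ZMod q)) hdet
  simp only [Int.cast_sub, Int.cast_mul, Int.cast_one, hb, hd, mul_one, zero_mul, sub_zero]
    at hdet'
  have : mlteRed N q γ = lrsXm ((γ.1 1 0 : ℤ) : ZMod q) := by
    ext i j
    fin_cases i <;> fin_cases j <;> simp [mlteRed_apply, lrsXm, hb, hd, hdet']
  rw [MonoidHom.mem_ker, map_pow, this, mlte_lrsXm_pow, nsmul_eq_mul, ZMod.natCast_self, zero_mul]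
  ext i j
  fin_cases i <;> fin_cases j <;> simp [lrsXm]

variable (hNq : N.Coprime q) (u v : Additive (Gamma0 (N * q)) →+ ZMod p)
  (hcompat : ∀ β : Gamma0 (N * q * q),
    u (Additive.ofMul (lraDeg (N * q) q hq.out.ne_zero β))
      = v (Additive.ofMul (Subgroup.inclusion (mlte_Gamma0_le (N * q) q) β)))
  (F : Gamma0 N →* Multiplicative (ZMod p))
  (hF : ∀ (κ : Gamma0 N) (hκ : κ ∈ (mlteRed N q).ker), F κ = mlteU u ⟨κ, mlte_ker_le_A hNq hκ⟩)

include hF in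
/-- `F = U` on the elements of `A` with `d ≡ 1 mod q` -/
theorem mlte_F_eq_U (hpq : p ≠ q) (γ : Gamma0 N) (hγ : γ ∈ mlteA N q)
    (hd : ((γ.1 1 1 : ℤ) : ZMod q) = 1) : F γ = mlteU u ⟨γ, hγ⟩ := by
  have hc : ((γ.1 1 0 : ℤ) : ZMod q) = 0 := by
    rw [ZMod.intCast_zmod_eq_zero_iff_dvd]
    exact dvd_trans ⟨(N : ℤ), by push_cast; ring⟩ (mlte_mem_A.1 hγ)
  have hk := mlte_pow_mem_ker_of_A hc hd
  apply mlte_eq_of_pow_eq hpq
  rw [← map_pow, ← map_pow, hF _ hk]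
  rfl

include hF hcompat in
/-- `F = V` on the elements of `B` with `d ≡ 1 mod q` -/
theorem mlte_F_eq_V (hpq : p ≠ q) (γ : Gamma0 N) (hγ : γ ∈ (lraDeg N q hq.out.ne_zero).range)
    (hd : ((γ.1 1 1 : ℤ) : ZMod q) = 1) : F γ = mlteV hq.out.ne_zero v ⟨γ, hγ⟩ := by
  have hb : ((γ.1 0 1 : ℤ) : ZMod q) = 0 := by
    rw [ZMod.intCast_zmod_eq_zero_iff_dvd]
    exact (mlte_mem_range_lraDeg hq.out.ne_zero γ).1 hγ
  have hk := mlte_pow_mem_ker_of_B hb hd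
  apply mlte_eq_of_pow_eq hpq
  rw [← map_pow, ← map_pow, hF _ hk, mlte_U_eq_V hNq u v hcompat _ hk]
  rfl

end Props


section Parabolic

variable {N q p : ℕ} [hq : Fact q.Prime] [hp : Fact p.Prime]

theorem mlte_eq_of_sq_eq (hp2 : p ≠ 2) {x y : Multiplicative (ZMod p)} (h : x ^ 2 = y ^ 2) :
    x = y := by
  haveI : Fact (Nat.Prime 2) := ⟨Nat.prime_two⟩
  exact mlte_eq_of_pow_eq (q := 2) hp2 h

/-- trace `±2`: `tr = 2ε` with `ε² = 1` -/
theorem mlte_exists_eps (π : Gamma0 N)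
    (htr : ((π : SL(2, ℤ)) : Matrix (Fin 2) (Fin 2) ℤ).trace ^ 2 = 4) :
    ∃ ε : ℤ, ε ^ 2 = 1 ∧ π.1 0 0 + π.1 1 1 = 2 * ε := by
  rw [Matrix.trace_fin_two] at htr
  have h : (π.1 0 0 + π.1 1 1) ^ 2 = 2 ^ 2 := by rw [htr]; norm_num
  rcases eq_or_eq_neg_of_sq_eq_sq _ _ h with h | h
  · exact ⟨1, by norm_num, by rw [h]; norm_num⟩
  · exact ⟨-1, by norm_num, by rw [h]; norm_num⟩

/-- for a trace-`±2` element with `q ∣ c` (resp. `q ∣ b`), the square has `d ≡ 1 mod q` -/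
theorem mlte_sq_d_of_c (π : Gamma0 N)
    (htr : ((π : SL(2, ℤ)) : Matrix (Fin 2) (Fin 2) ℤ).trace ^ 2 = 4)
    (hc : ((π.1 1 0 : ℤ) : ZMod q) = 0) : (((π ^ 2).1 1 1 : ℤ) : ZMod q) = 1 := by
  obtain ⟨ε, hε, hε2⟩ := mlte_exists_eps π htr
  have hdet := π.1.det_coe
  rw [Matrix.det_fin_two] at hdet
  have h1 : (π ^ 2).1 1 1 = π.1 1 0 * π.1 0 1 + π.1 1 1 * π.1 1 1 := by
    rw [pow_two]
    show (π.1 * π.1) 1 1 = _
    rw [Matrix.SpecialLinearGroup.coe_mul, Matrix.mul_apply, Fin.sum_univ_two]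
  have h2 : (π.1 1 1 - ε) ^ 2 = -(π.1 0 1 * π.1 1 0) := by
    have : π.1 0 0 = 2 * ε - π.1 1 1 := by linarith
    rw [this] at hdet
    linear_combination hε - hdet
  have h3 : (((π.1 1 1 : ℤ) : ZMod q) - (ε : ZMod q)) ^ 2 = 0 := by
    have := congrArg (fun z : ℤ => (z : ZMod q)) h2
    simp only [Int.cast_pow, Int.cast_sub, Int.cast_neg, Int.cast_mul, hc, mul_zero, neg_zero]
      at this
    exact this
  have h4 : ((π.1 1 1 : ℤ) : ZMod q) = (ε : ZMod q) := by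
    have := pow_eq_zero_iff (two_ne_zero) |>.1 h3
    exact sub_eq_zero.1 this
  rw [h1]
  push_cast
  rw [hc, zero_mul, zero_add, h4, ← pow_two, ← Int.cast_pow, hε, Int.cast_one]

theorem mlte_sq_d_of_b (π : Gamma0 N)
    (htr : ((π : SL(2, ℤ)) : Matrix (Fin 2) (Fin 2) ℤ).trace ^ 2 = 4)
    (hb : ((π.1 0 1 : ℤ) : ZMod q) = 0) : (((π ^ 2).1 1 1 : ℤ) : ZMod q) = 1 := by
  obtain ⟨ε, hε, hε2⟩ := mlte_exists_eps π htr
  have hdet := π.1.det_coe
  rw [Matrix.det_fin_two] at hdet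
  have h1 : (π ^ 2).1 1 1 = π.1 1 0 * π.1 0 1 + π.1 1 1 * π.1 1 1 := by
    rw [pow_two]
    show (π.1 * π.1) 1 1 = _
    rw [Matrix.SpecialLinearGroup.coe_mul, Matrix.mul_apply, Fin.sum_univ_two]
  have h2 : (π.1 1 1 - ε) ^ 2 = -(π.1 0 1 * π.1 1 0) := by
    have : π.1 0 0 = 2 * ε - π.1 1 1 := by linarith
    rw [this] at hdet
    linear_combination hε - hdet
  have h3 : (((π.1 1 1 : ℤ) : ZMod q) - (ε : ZMod q)) ^ 2 = 0 := by
    have := congrArg (fun z : ℤ => (z : ZMod q)) h2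
    simp only [Int.cast_pow, Int.cast_sub, Int.cast_neg, Int.cast_mul, hb, zero_mul, neg_zero]
      at this
    exact this
  have h4 : ((π.1 1 1 : ℤ) : ZMod q) = (ε : ZMod q) := by
    have := pow_eq_zero_iff (two_ne_zero) |>.1 h3
    exact sub_eq_zero.1 this
  rw [h1]
  push_cast
  rw [hb, mul_zero, zero_add, h4, ← pow_two, ← Int.cast_pow, hε, Int.cast_one]

theorem mlte_trace_sq (π : Gamma0 N)
    (htr : ((π : SL(2, ℤ)) : Matrix (Fin 2) (Fin 2) ℤ).trace ^ 2 = 4) :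
    (((π ^ 2 : Gamma0 N) : SL(2, ℤ)) : Matrix (Fin 2) (Fin 2) ℤ).trace ^ 2 = 4 := by
  obtain ⟨ε, hε, hε2⟩ := mlte_exists_eps π htr
  have hdet := π.1.det_coe
  rw [Matrix.det_fin_two] at hdet
  have h1 : (((π ^ 2 : Gamma0 N) : SL(2, ℤ)) : Matrix (Fin 2) (Fin 2) ℤ)
      = (π.1 : Matrix (Fin 2) (Fin 2) ℤ) * (π.1 : Matrix (Fin 2) (Fin 2) ℤ) := by
    rw [pow_two]; rfl
  rw [h1, Matrix.trace_fin_two, Matrix.mul_apply, Matrix.mul_apply, Fin.sum_univ_two,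
    Fin.sum_univ_two]
  have : π.1 0 0 = 2 * ε - π.1 1 1 := by linarith
  have e : (π.1 0 0 * π.1 0 0 + π.1 0 1 * π.1 1 0 + (π.1 1 0 * π.1 0 1 + π.1 1 1 * π.1 1 1))
      = (π.1 0 0 + π.1 1 1) ^ 2 - 2 := by linear_combination (-2 : ℤ) * hdet
  rw [e, hε2]
  have : (2 * ε) ^ 2 = 4 := by rw [mul_pow, hε]; norm_num
  rw [this]; norm_num

end Parabolic


section ParabolicF

variable {N q p : ℕ} [hq : Fact q.Prime] [hp : Fact p.Prime]
  (hNq : N.Coprime q) (u v : Additive (Gamma0 (N * q)) →+ ZMod p)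
  (hu : IsParabolicHom (Gamma0 (N * q)) u) (hv : IsParabolicHom (Gamma0 (N * q)) v)
  (hcompat : ∀ β : Gamma0 (N * q * q),
    u (Additive.ofMul (lraDeg (N * q) q hq.out.ne_zero β))
      = v (Additive.ofMul (Subgroup.inclusion (mlte_Gamma0_le (N * q) q) β)))
  (F : Gamma0 N →* Multiplicative (ZMod p))
  (hF : ∀ (κ : Gamma0 N) (hκ : κ ∈ (mlteRed N q).ker), F κ = mlteU u ⟨κ, mlte_ker_le_A hNq hκ⟩)

include hu hF in
theorem mlte_F_parabolic_A (hp2 : p ≠ 2) (hpq : p ≠ q) (π : Gamma0 N) (hπ : π ∈ mlteA N q)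
    (htr : ((π : SL(2, ℤ)) : Matrix (Fin 2) (Fin 2) ℤ).trace ^ 2 = 4) : F π = 1 := by
  have hc : ((π.1 1 0 : ℤ) : ZMod q) = 0 := by
    rw [ZMod.intCast_zmod_eq_zero_iff_dvd]
    exact dvd_trans ⟨(N : ℤ), by push_cast; ring⟩ (mlte_mem_A.1 hπ)
  have h1 := mlte_F_eq_U hNq u F hF hpq (π ^ 2) ((mlteA N q).pow_mem hπ 2)
    (mlte_sq_d_of_c π htr hc)
  rw [mlteU_parabolic u hu _ _ (mlte_trace_sq π htr), map_pow] at h1
  apply mlte_eq_of_sq_eq hp2
  rw [h1, one_pow]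

include hv hF hcompat in
theorem mlte_F_parabolic_B (hp2 : p ≠ 2) (hpq : p ≠ q) (π : Gamma0 N)
    (hπ : π ∈ (lraDeg N q hq.out.ne_zero).range)
    (htr : ((π : SL(2, ℤ)) : Matrix (Fin 2) (Fin 2) ℤ).trace ^ 2 = 4) : F π = 1 := by
  have hb : ((π.1 0 1 : ℤ) : ZMod q) = 0 := by
    rw [ZMod.intCast_zmod_eq_zero_iff_dvd]
    exact (mlte_mem_range_lraDeg hq.out.ne_zero π).1 hπ
  have h1 := mlte_F_eq_V hNq u v hcompat F hF hpq (π ^ 2)
    ((lraDeg N q hq.out.ne_zero).range.pow_mem hπ 2) (mlte_sq_d_of_b π htr hb)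
  rw [mlteV_parabolic v hv _ _ (mlte_trace_sq π htr), map_pow] at h1
  apply mlte_eq_of_sq_eq hp2
  rw [h1, one_pow]

theorem mlteXp_neg_mul (t : ℤ) : mlteXp N (-t) * mlteXp N t = 1 := by
  apply Subtype.ext
  apply Subtype.ext
  show (mlteXp N (-t)).1.1 * (mlteXp N t).1.1 = 1
  ext i j
  fin_cases i <;> fin_cases j <;> simp [mlteXp, Matrix.mul_apply, Fin.sum_univ_two]

include hu hv hF hcompat in
/-- **`F` is parabolic** -/
theorem mlte_F_parabolic (hp2 : p ≠ 2) (hpq : p ≠ q) (π : Gamma0 N)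
    (htr : ((π : SL(2, ℤ)) : Matrix (Fin 2) (Fin 2) ℤ).trace ^ 2 = 4) : F π = 1 := by
  have hqZ : Prime (q : ℤ) := Nat.prime_iff_prime_int.1 hq.out
  by_cases hc : (q : ℤ) ∣ π.1 1 0
  · exact mlte_F_parabolic_A hNq u hu F hF hp2 hpq π (mlte_mem_A_of_dvd hNq hc) htr
  · obtain ⟨ε, hε, hε2⟩ := mlte_exists_eps π htr
    have hdet := π.1.det_coe
    rw [Matrix.det_fin_two] at hdet
    have hcop : IsCoprime (π.1 1 0) (q : ℤ) := ((Prime.coprime_iff_not_dvd hqZ).2 hc).symm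
    obtain ⟨x, y, hxy⟩ := hcop
    -- `c t = ε - d + q m`
    set t : ℤ := x * (ε - π.1 1 1) with ht
    set m : ℤ := -(y * (ε - π.1 1 1)) with hm
    have hct : π.1 1 0 * t = ε - π.1 1 1 + q * m := by
      rw [ht, hm]; linear_combination (ε - π.1 1 1) * hxy
    set π' : Gamma0 N := mlteXp N (-t) * π * mlteXp N t with hπ'
    have hb' : π'.1 0 1 = (π.1 0 0 - t * π.1 1 0) * t + π.1 0 1 - t * π.1 1 1 := by
      show ((mlteXp N (-t)).1.1 * π.1.1 * (mlteXp N t).1.1) 0 1 = _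
      rw [Matrix.mul_apply, Fin.sum_univ_two, Matrix.mul_apply, Matrix.mul_apply,
        Fin.sum_univ_two, Fin.sum_univ_two]
      have e1 : (mlteXp N (-t)).1.1 0 0 = 1 := rfl
      have e2 : (mlteXp N (-t)).1.1 0 1 = -t := rfl
      have e3 : (mlteXp N t).1.1 0 1 = t := rfl
      have e4 : (mlteXp N t).1.1 1 1 = 1 := rfl
      rw [e1, e2, e3, e4]
      ring
    have hdvd : (q : ℤ) ∣ π.1 1 0 * π'.1 0 1 := by
      refine ⟨-(q * m ^ 2), ?_⟩
      rw [hb']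
      have ha : π.1 0 0 = 2 * ε - π.1 1 1 := by linarith
      have e1 : π.1 1 0 * ((π.1 0 0 - t * π.1 1 0) * t + π.1 0 1 - t * π.1 1 1)
          = (π.1 1 0 * t) * (π.1 0 0 - π.1 1 1 - π.1 1 0 * t) + π.1 0 1 * π.1 1 0 := by ring
      rw [e1, hct, ha]
      rw [ha] at hdet
      linear_combination hε - hdet
    have hb'q : (q : ℤ) ∣ π'.1 0 1 := (hqZ.dvd_or_dvd hdvd).resolve_left hc
    have hmem : π' ∈ (lraDeg N q hq.out.ne_zero).range :=
      (mlte_mem_range_lraDeg hq.out.ne_zero π').2 hb'q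
    have hinv : mlteXp N (-t) = (mlteXp N t)⁻¹ := eq_inv_of_mul_eq_one_left (mlteXp_neg_mul t)
    have htr' : ((π' : SL(2, ℤ)) : Matrix (Fin 2) (Fin 2) ℤ).trace ^ 2 = 4 := by
      have : π' = (mlteXp N t)⁻¹ * π * (mlteXp N t)⁻¹⁻¹ := by rw [hπ', hinv, inv_inv]
      rw [this, mlte_trace_conj]
      exact htr
    have h1 := mlte_F_parabolic_B hNq u v hv hcompat F hF hp2 hpq π' hmem htr'
    rw [hπ', map_mul, map_mul, hinv, map_inv, mul_comm, ← mul_assoc, mul_inv_cancel, one_mul] at h1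
    exact h1

end ParabolicF


section Final

variable {N q p : ℕ} [hq : Fact q.Prime] [hp : Fact p.Prime]

/-- **the `q²`-step lemma** -/
theorem mlte_qsq_step (hp2 : p ≠ 2) (hpq : p ≠ q) (hNq : N.Coprime q)
    (u v : Additive (Gamma0 (N * q)) →+ ZMod p)
    (hu : IsParabolicHom (Gamma0 (N * q)) u) (hv : IsParabolicHom (Gamma0 (N * q)) v)
    (hcompat : ∀ β : Gamma0 (N * q * q),
      u (Additive.ofMul (lraDeg (N * q) q hq.out.ne_zero β))
        = v (Additive.ofMul (Subgroup.inclusion (mlte_Gamma0_le (N * q) q) β))) :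
    ∃ F : Additive (Gamma0 N) →+ ZMod p, IsParabolicHom (Gamma0 N) F ∧
      (∀ α : Gamma0 (N * q), ((α.1 1 1 : ℤ) : ZMod q) = 1 →
        u (Additive.ofMul α) = F (Additive.ofMul (Subgroup.inclusion (mlte_Gamma0_le N q) α))) ∧
      (∀ β : Gamma0 (N * q), ((β.1 1 1 : ℤ) : ZMod q) = 1 →
        v (Additive.ofMul β) = F (Additive.ofMul (lraDeg N q hq.out.ne_zero β))) := by
  obtain ⟨F₀, hF₀⟩ := mlte_exists_F0 hp2 hNq u v hu hv hcompat
  refine ⟨MonoidHom.toAdditiveLeft F₀, ?_, ?_, ?_⟩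
  · intro π htr
    have := mlte_F_parabolic hNq u v hu hv hcompat F₀ hF₀ hp2 hpq π htr
    show Multiplicative.toAdd (F₀ π) = 0
    rw [this]
    rfl
  · intro α hd
    have hmem : Subgroup.inclusion (mlte_Gamma0_le N q) α ∈ mlteA N q := by
      unfold mlteA
      rw [Subgroup.mem_subgroupOf]
      exact α.2
    have := mlte_F_eq_U hNq u F₀ hF₀ hpq _ hmem hd
    show u (Additive.ofMul α) =
      Multiplicative.toAdd (F₀ (Subgroup.inclusion (mlte_Gamma0_le N q) α))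
    rw [this, mlteU_apply]
    rfl
  · intro β hd
    have hmem : lraDeg N q hq.out.ne_zero β ∈ (lraDeg N q hq.out.ne_zero).range := ⟨β, rfl⟩
    have hd' : (((lraDeg N q hq.out.ne_zero β).1 1 1 : ℤ) : ZMod q) = 1 := by
      obtain ⟨-, -, -, e11⟩ := lraDeg_entries (N := N) hq.out.ne_zero β
      rw [e11]
      exact hd
    have := mlte_F_eq_V hNq u v hcompat F₀ hF₀ hpq _ hmem hd'
    show v (Additive.ofMul β) = Multiplicative.toAdd (F₀ (lraDeg N q hq.out.ne_zero β))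
    rw [this, mlteV_apply]
    rfl

end Final

end Fermat.Agent.MLT
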