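/-
MLT / stream Eta (helper1): **(E1) Ihara's lemma for the level `N → N q²`**.

* `mlteDegHom_eq_W_res`, `mlteDegHom_T` : the second degeneracy is `w_q ∘ res` on `Hom(Γ₀(N), A)`, hence
  commutes with `T_ℓ` (`ℓ ∤ N q`);
* `mlte_ihara_sq_hom` : three parabolic classes `x, y, z : Γ₀(N) → ℤ/p` with
  `B_1 x + B_q y + B_{q²} z = 0` on `Γ₀(N q²)` satisfy `E_ℓ² x = E_ℓ² y = E_ℓ² z = 0`,
  `E_ℓ = T_ℓ - (ℓ + 1)`;
* `mlte_iharaSq : MltEtaIharaSq` : the lattice form (contract (E1)).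
-/
import Mathlib
import Fermat.Agent.Lib.MLT.Eta.SplitGamma
import Fermat.Agent.Lib.MLT.Contracts.Eta
import Fermat.Agent.Lib.LR.Ihara

set_option autoImplicit false
set_option linter.unusedSectionVars false
set_option linter.unusedVariables false
set_option linter.style.haveILetI false

open Matrix MatrixGroups CongruenceSubgroup Fermat.Agent.T1 Fermat.Agent.T2 ModularCurve
  ModularCurve.Period Fermat.Agent.LR

namespace Fermat.Agent.MLT

section Deg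

variable (N q : ℕ) [NeZero N] [hq : Fact q.Prime] (h : ¬ q ∣ N)
  {A : Type*} [AddCommGroup A]

/-- the second degeneracy is `w_q ∘ res` on `Hom(Γ₀(N), A)` -/
theorem mlteDegHom_eq_W_res (φ : Additive (Gamma0 N) →+ A) :
    mlteDegHom N q hq.out.ne_zero A φ
      = (t2fSysW N q h).hom A (t2fRes (t2f5_Gamma0_le N q) A φ) := by
  refine AddMonoidHom.ext fun δ' => ?_
  obtain ⟨δ, rfl⟩ := Additive.ofMul.surjective δ'
  rw [tdmCosetSys.hom_apply, Finset.univ_unique, Finset.sum_singleton, t2fRes_apply,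
    mlteDegHom_apply]
  have := lrj_W_eps N q h δ
  have e : (default : Unit) = () := rfl
  rw [e, this, ofMul_mul, ofMul_mul, ofMul_inv, map_add, map_add, map_neg]
  abel

include h in
/-- the second degeneracy commutes with `T_ℓ` -/
theorem mlteDegHom_T (l : ℕ) (hl : l.Prime) (hlNq : ¬ l ∣ N * q) (hlN : ¬ l ∣ N)
    (φ : Additive (Gamma0 N) →+ A) :
    mlteDegHom N q hq.out.ne_zero A ((tdmSysT N l hl hlN).hom A φ)
      = (tdmSysT (N * q) l hl hlNq).hom A (mlteDegHom N q hq.out.ne_zero A φ) := by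
  rw [mlteDegHom_eq_W_res N q h, mlteDegHom_eq_W_res N q h, t2f5_res_T N q l hl hlNq hlN,
    t2f5_W_T_comm N q h l hl hlNq]

end Deg

/-! ### The operator `E_ℓ = T_ℓ - (ℓ + 1)` on `Hom(Γ₀(M), A)` -/

section EHom

/-- `E_ℓ = T_ℓ - (ℓ + 1)` on `Hom(Γ₀(M), A)` -/
noncomputable def mlteEHom (M : ℕ) [NeZero M] (ℓ : ℕ) (hℓ : ℓ.Prime) (hℓM : ¬ ℓ ∣ M)
    (A : Type*) [AddCommGroup A] :
    (Additive (Gamma0 M) →+ A) →+ (Additive (Gamma0 M) →+ A) :=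
  (tdmSysT M ℓ hℓ hℓM).hom A - (ℓ + 1) • AddMonoidHom.id _

theorem mlteEHom_apply (M : ℕ) [NeZero M] (ℓ : ℕ) (hℓ : ℓ.Prime) (hℓM : ¬ ℓ ∣ M)
    (A : Type*) [AddCommGroup A] (φ : Additive (Gamma0 M) →+ A) :
    mlteEHom M ℓ hℓ hℓM A φ = (tdmSysT M ℓ hℓ hℓM).hom A φ - (ℓ + 1) • φ := rfl

theorem mlteEHom_parabolic (M : ℕ) [NeZero M] (ℓ : ℕ) (hℓ : ℓ.Prime) (hℓM : ¬ ℓ ∣ M)
    {A : Type*} [AddCommGroup A] {φ : Additive (Gamma0 M) →+ A}
    (hφ : IsParabolicHom (Gamma0 M) φ) : IsParabolicHom (Gamma0 M) (mlteEHom M ℓ hℓ hℓM A φ) := by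
  intro δ hδ
  rw [mlteEHom_apply, AddMonoidHom.sub_apply, AddMonoidHom.smul_apply,
    (tdmSysT M ℓ hℓ hℓM).hom_parabolic hφ δ hδ, hφ δ hδ, smul_zero, sub_zero]

/-- the Eisenstein computation: `E_ℓ` kills the classes factoring through `d mod M` -/
theorem mlteEHom_eisenstein (M : ℕ) [NeZero M] (ℓ : ℕ) (hℓ : ℓ.Prime) (hℓM : ¬ ℓ ∣ M)
    {A : Type*} [AddCommGroup A] (φ : Additive (Gamma0 M) →+ A)
    (hφ : ∀ γ : Gamma0 M, ((γ.1 1 1 : ℤ) : ZMod M) = 1 → φ (Additive.ofMul γ) = 0) :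
    mlteEHom M ℓ hℓ hℓM A φ = 0 := by
  rw [mlteEHom_apply, lrj_eisenstein hℓ hℓM φ hφ, sub_self]

variable (N q : ℕ) [NeZero N] [hq : Fact q.Prime] (h : ¬ q ∣ N)
  {A : Type*} [AddCommGroup A]

theorem mlteEHom_res (l : ℕ) (hl : l.Prime) (hlNq : ¬ l ∣ N * q) (hlN : ¬ l ∣ N)
    (φ : Additive (Gamma0 N) →+ A) :
    mlteEHom (N * q) l hl hlNq A (t2fRes (t2f5_Gamma0_le N q) A φ)
      = t2fRes (t2f5_Gamma0_le N q) A (mlteEHom N l hl hlN A φ) := by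
  rw [mlteEHom_apply, mlteEHom_apply, map_sub, t2f5_res_T N q l hl hlNq hlN, map_nsmul]

include h in
theorem mlteEHom_deg (l : ℕ) (hl : l.Prime) (hlNq : ¬ l ∣ N * q) (hlN : ¬ l ∣ N)
    (φ : Additive (Gamma0 N) →+ A) :
    mlteEHom (N * q) l hl hlNq A (mlteDegHom N q hq.out.ne_zero A φ)
      = mlteDegHom N q hq.out.ne_zero A (mlteEHom N l hl hlN A φ) := by
  rw [mlteEHom_apply, mlteEHom_apply, map_sub, mlteDegHom_T N q h l hl hlNq hlN, map_nsmul]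

end EHom

/-! ### Ihara's lemma for `N → N q²`, homomorphism form -/

section Main

/-- the hom-level `ξ(x, y, z) = B_1 x + B_q y + B_{q²} z` -/
noncomputable def mlteXiHom (N q : ℕ) [NeZero N] [hq : Fact q.Prime] (A : Type*) [AddCommGroup A]
    (x y z : Additive (Gamma0 N) →+ A) : Additive (Gamma0 (N * q * q)) →+ A :=
  t2fRes (t2f5_Gamma0_le (N * q) q) A (t2fRes (t2f5_Gamma0_le N q) A x)
    + t2fRes (t2f5_Gamma0_le (N * q) q) A (mlteDegHom N q hq.out.ne_zero A y)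
    + mlteDegHom (N * q) q hq.out.ne_zero A (mlteDegHom N q hq.out.ne_zero A z)

theorem mlteXiHom_apply (N q : ℕ) [NeZero N] [hq : Fact q.Prime] (A : Type*) [AddCommGroup A]
    (x y z : Additive (Gamma0 N) →+ A) (β : Gamma0 (N * q * q)) :
    mlteXiHom N q A x y z (Additive.ofMul β)
      = x (Additive.ofMul (Subgroup.inclusion (t2f5_Gamma0_le N q)
            (Subgroup.inclusion (t2f5_Gamma0_le (N * q) q) β)))
        + y (Additive.ofMul (lraDeg N q hq.out.ne_zero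
            (Subgroup.inclusion (t2f5_Gamma0_le (N * q) q) β)))
        + z (Additive.ofMul (lraDeg N q hq.out.ne_zero (lraDeg (N * q) q hq.out.ne_zero β))) := rfl

variable {N q p : ℕ} [NeZero N] [hq : Fact q.Prime] [hpp : Fact p.Prime]

theorem mlte_cast_one_of_mul {N q : ℕ} {d : ℤ} (hd : (d : ZMod (N * q)) = 1) :
    (d : ZMod q) = 1 := by
  have := congrArg (ZMod.castHom (dvd_mul_left q N) (ZMod q)) hd
  simpa using this

/-- **Ihara's lemma for the level `N → N q²`** (`ℤ/p`-coefficients): if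
`B_1 x + B_q y + B_{q²} z = 0` on `Γ₀(N q²)` then `E_ℓ² x = E_ℓ² y = E_ℓ² z = 0`. -/
theorem mlte_ihara_sq_hom (hp2 : p ≠ 2) (hpq : p ≠ q) (h : ¬ q ∣ N)
    {ℓ : ℕ} (hℓ : ℓ.Prime) (hℓN : ¬ ℓ ∣ N) (hℓq : ℓ ≠ q)
    (x y z : Additive (Gamma0 N) →+ ZMod p)
    (hx : IsParabolicHom (Gamma0 N) x) (hy : IsParabolicHom (Gamma0 N) y)
    (hz : IsParabolicHom (Gamma0 N) z)
    (hxyz : mlteXiHom N q (ZMod p) x y z = 0) :
    mlteEHom N ℓ hℓ hℓN (ZMod p) (mlteEHom N ℓ hℓ hℓN (ZMod p) x) = 0 ∧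
    mlteEHom N ℓ hℓ hℓN (ZMod p) (mlteEHom N ℓ hℓ hℓN (ZMod p) y) = 0 ∧
    mlteEHom N ℓ hℓ hℓN (ZMod p) (mlteEHom N ℓ hℓ hℓN (ZMod p) z) = 0 := by
  have hN : N ≠ 0 := NeZero.ne N
  have hNq : N.Coprime q := ((Nat.Prime.coprime_iff_not_dvd hq.out).2 h).symm
  have hℓNq : ¬ ℓ ∣ N * q := fun hd => (hℓ.dvd_mul.1 hd).elim hℓN
    (fun hd' => hℓq ((Nat.prime_dvd_prime_iff_eq hℓ hq.out).1 hd'))
  set Res := t2fRes (t2f5_Gamma0_le N q) (ZMod p) with hRes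
  set Deg := mlteDegHom N q hq.out.ne_zero (ZMod p) with hDeg
  set E := mlteEHom N ℓ hℓ hℓN (ZMod p) with hE
  set E' := mlteEHom (N * q) ℓ hℓ hℓNq (ZMod p) with hE'
  have hEpar : ∀ {φ : Additive (Gamma0 N) →+ ZMod p}, IsParabolicHom (Gamma0 N) φ →
      IsParabolicHom (Gamma0 N) (E φ) := fun hφ => mlteEHom_parabolic N ℓ hℓ hℓN hφ
  have hResE : ∀ φ, E' (Res φ) = Res (E φ) := fun φ => mlteEHom_res N q ℓ hℓ hℓNq hℓN φ
  have hDegE : ∀ φ, E' (Deg φ) = Deg (E φ) := fun φ => mlteEHom_deg N q h ℓ hℓ hℓNq hℓN φ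
  -- step 1: the `q²`-step
  set u : Additive (Gamma0 (N * q)) →+ ZMod p := -(Deg z) with hu
  set v : Additive (Gamma0 (N * q)) →+ ZMod p := Res x + Deg y with hv
  have hupar : IsParabolicHom (Gamma0 (N * q)) u := by
    intro δ hδ
    rw [hu, AddMonoidHom.neg_apply, mlteDegHom_parabolic N q hq.out.ne_zero hz δ hδ, neg_zero]
  have hvpar : IsParabolicHom (Gamma0 (N * q)) v := by
    intro δ hδ
    rw [hv, AddMonoidHom.add_apply, mlteDegHom_parabolic N q hq.out.ne_zero hy δ hδ,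
      t2fRes_parabolic (t2f5_Gamma0_le N q) hx δ hδ, add_zero]
  have hcompat : ∀ β : Gamma0 (N * q * q),
      u (Additive.ofMul (lraDeg (N * q) q hq.out.ne_zero β))
        = v (Additive.ofMul (Subgroup.inclusion (mlte_Gamma0_le (N * q) q) β)) := by
    intro β
    have h1 := DFunLike.congr_fun hxyz (Additive.ofMul β)
    rw [mlteXiHom_apply, AddMonoidHom.zero_apply] at h1
    show -(z (Additive.ofMul (lraDeg N q hq.out.ne_zero (lraDeg (N * q) q hq.out.ne_zero β))))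
      = x (Additive.ofMul (Subgroup.inclusion (t2f5_Gamma0_le N q)
            (Subgroup.inclusion (mlte_Gamma0_le (N * q) q) β)))
        + y (Additive.ofMul (lraDeg N q hq.out.ne_zero
            (Subgroup.inclusion (mlte_Gamma0_le (N * q) q) β)))
    linear_combination -h1
  obtain ⟨F, hF, hFu, hFv⟩ := mlte_qsq_step hp2 hpq hNq u v hupar hvpar hcompat
  -- the error terms are Eisenstein
  have e1 : E' (u - Res F) = 0 := by
    apply mlteEHom_eisenstein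
    intro γ hγ
    rw [AddMonoidHom.sub_apply, hFu γ (mlte_cast_one_of_mul hγ)]
    exact sub_self _
  have e2 : E' (v - Deg F) = 0 := by
    apply mlteEHom_eisenstein
    intro γ hγ
    rw [AddMonoidHom.sub_apply, hFv γ (mlte_cast_one_of_mul hγ)]
    exact sub_self _
  have I1 : Res (E F) = -(Deg (E z)) := by
    rw [map_sub, sub_eq_zero, hu, map_neg, hDegE, hResE] at e1
    exact e1.symm
  have I2 : Res (E x) + Deg (E y) = Deg (E F) := by
    rw [map_sub, sub_eq_zero, hv, map_add, hDegE, hDegE, hResE] at e2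
    exact e2
  -- step 2: Ihara's lemma for `N → N q`, twice
  have hc1 : ∀ γ : Gamma0 (N * q),
      (E F) (Additive.ofMul ⟨γ.1, lraCast_mem_lraA.1 (lraC_le_lraA (lraCast_mem_lraC.2 γ.2))⟩) =
        (-(E z)) (Additive.ofMul (lraDeg N q hq.out.ne_zero γ)) := by
    intro γ
    have := DFunLike.congr_fun I1 (Additive.ofMul γ)
    exact this
  obtain ⟨k₁, k₂⟩ := lri_ihara hp2 hpq hN hNq (E F) (-(E z)) (hEpar hF)
    (fun δ hδ => by rw [AddMonoidHom.neg_apply, hEpar hz δ hδ, neg_zero]) hc1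
  have hEEF : E (E F) = 0 := mlteEHom_eisenstein N ℓ hℓ hℓN (E F) k₁
  have hEEz : E (E z) = 0 := by
    apply mlteEHom_eisenstein
    intro γ hγ
    have := k₂ γ hγ
    rwa [AddMonoidHom.neg_apply, neg_eq_zero] at this
  have hc2 : ∀ γ : Gamma0 (N * q),
      (E x) (Additive.ofMul ⟨γ.1, lraCast_mem_lraA.1 (lraC_le_lraA (lraCast_mem_lraC.2 γ.2))⟩) =
        (E F - E y) (Additive.ofMul (lraDeg N q hq.out.ne_zero γ)) := by
    intro γ
    have h1 := DFunLike.congr_fun I2 (Additive.ofMul γ)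
    have h2 : (Res (E x)) (Additive.ofMul γ) + (Deg (E y)) (Additive.ofMul γ)
        = (Deg (E F)) (Additive.ofMul γ) := h1
    have h3 : (Res (E x)) (Additive.ofMul γ) = (E x) (Additive.ofMul
        ⟨γ.1, lraCast_mem_lraA.1 (lraC_le_lraA (lraCast_mem_lraC.2 γ.2))⟩) := rfl
    have h4 : ∀ φ : Additive (Gamma0 N) →+ ZMod p, (Deg φ) (Additive.ofMul γ)
        = φ (Additive.ofMul (lraDeg N q hq.out.ne_zero γ)) := fun φ => rfl
    rw [AddMonoidHom.sub_apply, ← h3, ← h4, ← h4]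
    linear_combination h2
  obtain ⟨k₃, k₄⟩ := lri_ihara hp2 hpq hN hNq (E x) (E F - E y) (hEpar hx)
    (fun δ hδ => by rw [AddMonoidHom.sub_apply, hEpar hF δ hδ, hEpar hy δ hδ, sub_zero]) hc2
  have hEEx : E (E x) = 0 := mlteEHom_eisenstein N ℓ hℓ hℓN (E x) k₃
  have hEEFy : E (E F - E y) = 0 := mlteEHom_eisenstein N ℓ hℓ hℓN _ k₄
  refine ⟨hEEx, ?_, hEEz⟩
  rw [map_sub, hEEF, zero_sub, neg_eq_zero] at hEEFy
  exact hEEFy

end Main

/-! ### General coefficients of characteristic `p` -/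

section Coeff

theorem mlteEHom_comp (M : ℕ) [NeZero M] (ℓ : ℕ) (hℓ : ℓ.Prime) (hℓM : ¬ ℓ ∣ M)
    {A B : Type*} [AddCommGroup A] [AddCommGroup B] (f : A →+ B)
    (φ : Additive (Gamma0 M) →+ A) :
    mlteEHom M ℓ hℓ hℓM B (f.comp φ) = f.comp (mlteEHom M ℓ hℓ hℓM A φ) := by
  rw [mlteEHom_apply, mlteEHom_apply, tdmCosetSys.hom_comp]
  refine AddMonoidHom.ext fun δ => ?_
  simp only [AddMonoidHom.sub_apply, AddMonoidHom.comp_apply, AddMonoidHom.smul_apply, map_sub,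
    map_nsmul]

theorem mlteXiHom_comp (N q : ℕ) [NeZero N] [hq : Fact q.Prime]
    {A B : Type*} [AddCommGroup A] [AddCommGroup B] (f : A →+ B)
    (x y z : Additive (Gamma0 N) →+ A) :
    mlteXiHom N q B (f.comp x) (f.comp y) (f.comp z) = f.comp (mlteXiHom N q A x y z) := by
  refine AddMonoidHom.ext fun δ' => ?_
  obtain ⟨δ, rfl⟩ := Additive.ofMul.surjective δ'
  rw [mlteXiHom_apply]
  show _ = f (mlteXiHom N q A x y z (Additive.ofMul δ))
  rw [mlteXiHom_apply, map_add, map_add]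
  rfl

variable {N q p : ℕ} [NeZero N] [hq : Fact q.Prime] [hpp : Fact p.Prime]

/-- **Ihara's lemma for `N → N q²`**, coefficients in an abelian group killed by `p` -/
theorem mlte_ihara_sq_mod (hp2 : p ≠ 2) (hpq : p ≠ q) (h : ¬ q ∣ N)
    {ℓ : ℕ} (hℓ : ℓ.Prime) (hℓN : ¬ ℓ ∣ N) (hℓq : ℓ ≠ q)
    {A : Type*} [AddCommGroup A] (hA : ∀ a : A, p • a = 0)
    (x y z : Additive (Gamma0 N) →+ A)
    (hx : IsParabolicHom (Gamma0 N) x) (hy : IsParabolicHom (Gamma0 N) y)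
    (hz : IsParabolicHom (Gamma0 N) z)
    (hxyz : mlteXiHom N q A x y z = 0) :
    mlteEHom N ℓ hℓ hℓN A (mlteEHom N ℓ hℓ hℓN A x) = 0 ∧
    mlteEHom N ℓ hℓ hℓN A (mlteEHom N ℓ hℓ hℓN A y) = 0 ∧
    mlteEHom N ℓ hℓ hℓN A (mlteEHom N ℓ hℓ hℓN A z) = 0 := by
  letI instM : Module (ZMod p) A := AddCommGroup.zmodModule hA
  have key : ∀ lam : A →ₗ[ZMod p] ZMod p,
      mlteEHom N ℓ hℓ hℓN (ZMod p) (mlteEHom N ℓ hℓ hℓN (ZMod p)
        (lam.toAddMonoidHom.comp x)) = 0 ∧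
      mlteEHom N ℓ hℓ hℓN (ZMod p) (mlteEHom N ℓ hℓ hℓN (ZMod p)
        (lam.toAddMonoidHom.comp y)) = 0 ∧
      mlteEHom N ℓ hℓ hℓN (ZMod p) (mlteEHom N ℓ hℓ hℓN (ZMod p)
        (lam.toAddMonoidHom.comp z)) = 0 := by
    intro lam
    refine mlte_ihara_sq_hom hp2 hpq h hℓ hℓN hℓq _ _ _ ?_ ?_ ?_ ?_
    · intro δ hδ
      rw [AddMonoidHom.comp_apply, hx δ hδ, map_zero]
    · intro δ hδ
      rw [AddMonoidHom.comp_apply, hy δ hδ, map_zero]
    · intro δ hδ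
      rw [AddMonoidHom.comp_apply, hz δ hδ, map_zero]
    · rw [mlteXiHom_comp, hxyz, AddMonoidHom.comp_zero]
  haveI instF : Module.Free (ZMod p) A := Module.Free.of_divisionRing (ZMod p) A
  haveI instP : Module.Projective (ZMod p) A := @Module.Projective.of_free (ZMod p) _ A _ instM instF
  have fin : ∀ w : Additive (Gamma0 N) →+ A,
      (∀ lam : A →ₗ[ZMod p] ZMod p, mlteEHom N ℓ hℓ hℓN (ZMod p) (mlteEHom N ℓ hℓ hℓN (ZMod p)
        (lam.toAddMonoidHom.comp w)) = 0) →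
      mlteEHom N ℓ hℓ hℓN A (mlteEHom N ℓ hℓ hℓN A w) = 0 := by
    intro w hw
    refine AddMonoidHom.ext fun δ => ?_
    rw [AddMonoidHom.zero_apply]
    refine (@Module.forall_dual_apply_eq_zero_iff A _ (ZMod p) _ instM instP
      (mlteEHom N ℓ hℓ hℓN A (mlteEHom N ℓ hℓ hℓN A w) δ)).mp ?_
    intro lam
    have h1 := hw lam
    rw [mlteEHom_comp, mlteEHom_comp] at h1
    exact DFunLike.congr_fun h1 δ
  exact ⟨fin x fun lam => (key lam).1, fin y fun lam => (key lam).2.1,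
    fin z fun lam => (key lam).2.2⟩

/-- **Ihara's lemma for `N → N q²`**, reduction form: `f : R →+ A` with `A` killed by `p`; if
`ξ(x, y, z)` has values in `ker f` then so do `E_ℓ² x, E_ℓ² y, E_ℓ² z`. -/
theorem mlte_ihara_sq_red (hp2 : p ≠ 2) (hpq : p ≠ q) (h : ¬ q ∣ N)
    {ℓ : ℕ} (hℓ : ℓ.Prime) (hℓN : ¬ ℓ ∣ N) (hℓq : ℓ ≠ q)
    {R A : Type*} [AddCommGroup R] [AddCommGroup A] (hA : ∀ a : A, p • a = 0) (f : R →+ A)
    (x y z : Additive (Gamma0 N) →+ R)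
    (hx : IsParabolicHom (Gamma0 N) x) (hy : IsParabolicHom (Gamma0 N) y)
    (hz : IsParabolicHom (Gamma0 N) z)
    (hxyz : ∀ β, f (mlteXiHom N q R x y z β) = 0) :
    (∀ γ, f (mlteEHom N ℓ hℓ hℓN R (mlteEHom N ℓ hℓ hℓN R x) γ) = 0) ∧
    (∀ γ, f (mlteEHom N ℓ hℓ hℓN R (mlteEHom N ℓ hℓ hℓN R y) γ) = 0) ∧
    (∀ γ, f (mlteEHom N ℓ hℓ hℓN R (mlteEHom N ℓ hℓ hℓN R z) γ) = 0) := by
  obtain ⟨h1, h2, h3⟩ := mlte_ihara_sq_mod hp2 hpq h hℓ hℓN hℓq hA (f.comp x) (f.comp y) (f.comp z)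
    (fun δ hδ => by rw [AddMonoidHom.comp_apply, hx δ hδ, map_zero])
    (fun δ hδ => by rw [AddMonoidHom.comp_apply, hy δ hδ, map_zero])
    (fun δ hδ => by rw [AddMonoidHom.comp_apply, hz δ hδ, map_zero])
    (by
      rw [mlteXiHom_comp]
      refine AddMonoidHom.ext fun β => ?_
      exact hxyz β)
  rw [mlteEHom_comp, mlteEHom_comp] at h1 h2 h3
  exact ⟨fun γ => DFunLike.congr_fun h1 γ, fun γ => DFunLike.congr_fun h2 γ,
    fun γ => DFunLike.congr_fun h3 γ⟩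

end Coeff

/-! ### The lattice form: contract (E1) -/

section Lattice

theorem mlteE_coe (N : ℕ) [NeZero N] (ℓ : ℕ) (hℓ : ℓ.Prime) (hℓN : ¬ ℓ ∣ N) (x : ↥(tdmL N)) :
    ((mlteE N ℓ hℓ hℓN x : ↥(tdmL N)) : Additive (Gamma0 N) →+ ℤ)
      = mlteEHom N ℓ hℓ hℓN ℤ x.1 := by
  refine AddMonoidHom.ext fun δ => ?_
  show (tdmSysT N ℓ hℓ hℓN).hom ℤ x.1 δ - ((ℓ : ℤ) + 1) • x.1 δ
    = (tdmSysT N ℓ hℓ hℓN).hom ℤ x.1 δ - (ℓ + 1) • x.1 δ
  rw [smul_eq_mul, nsmul_eq_mul]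
  push_cast
  ring

theorem mlteXi_coe (N q : ℕ) [NeZero N] [Fact q.Prime] (x y z : ↥(tdmL N)) :
    ((mlteXi N q x y z : ↥(tdmL (N * q * q))) : Additive (Gamma0 (N * q * q)) →+ ℤ)
      = mlteXiHom N q ℤ x.1 y.1 z.1 := rfl

/-- **contract (E1)**: Ihara's lemma for `N → N q²` on the Betti lattices -/
theorem mlte_iharaSq : MltEtaIharaSq := by
  intro N q p _ hq hpp hp2 hpq h ℓ hℓ hℓN hℓq x y z hw
  obtain ⟨w, hw⟩ := hw
  have hxyz : ∀ β, Int.castAddHom (ZMod p) (mlteXiHom N q ℤ x.1 y.1 z.1 β) = 0 := by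
    intro β
    rw [← mlteXi_coe, hw]
    show (((p : ℤ) • w.1 β : ℤ) : ZMod p) = 0
    rw [smul_eq_mul]
    push_cast
    rw [ZMod.natCast_self, zero_mul]
  obtain ⟨h1, h2, h3⟩ := mlte_ihara_sq_red hp2 hpq h hℓ hℓN hℓq
    (fun a : ZMod p => by rw [nsmul_eq_mul, ZMod.natCast_self, zero_mul])
    (Int.castAddHom (ZMod p)) x.1 y.1 z.1
    (mem_parabolicHoms_iff.1 x.2) (mem_parabolicHoms_iff.1 y.2) (mem_parabolicHoms_iff.1 z.2) hxyz
  have fin : ∀ u : ↥(tdmL N),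
      (∀ γ, Int.castAddHom (ZMod p)
        (mlteEHom N ℓ hℓ hℓN ℤ (mlteEHom N ℓ hℓ hℓN ℤ u.1) γ) = 0) →
      ∃ u' : ↥(tdmL N), mlteE N ℓ hℓ hℓN (mlteE N ℓ hℓ hℓN u) = (p : ℤ) • u' := by
    intro u hu
    apply lrj_div hpp.out.ne_zero
    intro δ
    rw [mlteE_coe, mlteE_coe, ← ZMod.intCast_zmod_eq_zero_iff_dvd]
    exact hu (Additive.ofMul δ)
  exact ⟨fin x h1, fin y h2, fin z h3⟩

end Lattice

end Fermat.Agent.MLT
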