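/-
MLT / stream Eta (helper1): **adjoints for the Poincaré pairing `lrdBN`** on the lattices `L_M`, and the
twisted pairing `[x, y]_M = ⟨x, w_M y⟩` for which all Hecke operators `T_ℓ`, `U_s` are self-adjoint.

* abstract lemmas `mlte_abs_*` (res/cor adjunction + `Deg = w' ∘ res ∘ w` + isometric involutions);
* `mlteResS, mlteCorS, mlteDegS` : restriction, transfer (`s ∣ M`) and second degeneracy on the lattices;
* `mlte_lrdBN_resS_corS` : the adjunction for `s ∣ M`; `mlte_lrdBN_U_adj : ⟨U_s x, y⟩ = ⟨x, w U_s w y⟩`;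
  `mlte_lrdBN_T_adj : ⟨T_ℓ x, y⟩ = ⟨x, w T_ℓ w y⟩`;
* `mlte_lrdBN_nondeg`, `mlte_T_W_comm : T_ℓ w = w T_ℓ`;
* `mltePairZ M`, alternating, unimodular, `T_ℓ`, `U_s` self-adjoint.
-/
import Mathlib
import Fermat.Agent.Lib.MLT.Eta.CorS
import Fermat.Agent.Lib.MLT.Eta.IharaSq

set_option autoImplicit false
set_option linter.unusedSectionVars false
set_option linter.unusedVariables false
set_option linter.style.haveILetI false

open Matrix MatrixGroups CongruenceSubgroup Fermat.Agent.T1 Fermat.Agent.T2 ModularCurve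
  ModularCurve.Period Fermat.Agent.LR

namespace Fermat.Agent.MLT

noncomputable section

/-! ### Abstract adjunction lemmas -/

section Abstract

variable {L L' : Type*} [AddCommGroup L] [AddCommGroup L']
  (B : L →ₗ[ℤ] L →ₗ[ℤ] ℤ) (B' : L' →ₗ[ℤ] L' →ₗ[ℤ] ℤ)
  (res : L →ₗ[ℤ] L') (cor : L' →ₗ[ℤ] L) (w : L →ₗ[ℤ] L) (w' : L' →ₗ[ℤ] L') (deg : L →ₗ[ℤ] L')
  (hBalt : ∀ x, B x x = 0) (hB'alt : ∀ x, B' x x = 0)
  (hadj : ∀ x y, B' (res x) y = B x (cor y))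
  (hw : ∀ x y, B (w x) (w y) = B x y) (hww : ∀ x, w (w x) = x)
  (hw' : ∀ x y, B' (w' x) (w' y) = B' x y) (hww' : ∀ x, w' (w' x) = x)
  (hdeg : ∀ x, deg x = w' (res (w x)))

include hBalt hB'alt hadj in
theorem mlte_abs_adj_flip (y : L') (x : L) : B (cor y) x = B' y (res x) := by
  rw [lrh_skew_of_alt B hBalt, ← hadj, lrh_skew_of_alt B' hB'alt, neg_neg]

include hw hww in
theorem mlte_abs_w_adj (x y : L) : B (w x) y = B x (w y) := by
  have := hw x (w y)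
  rw [hww] at this
  exact this

include hadj hw hww hw' hww' hdeg in
theorem mlte_abs_deg_adj (x : L) (y : L') : B' (deg x) y = B x (w (cor (w' y))) := by
  rw [hdeg, mlte_abs_w_adj B' w' hw' hww', hadj, mlte_abs_w_adj B w hw hww]

include hBalt hB'alt hadj hw hww hw' hww' hdeg in
/-- `S* = cor ∘ Deg` has adjoint `w S* w` -/
theorem mlte_abs_star (x y : L) : B (cor (deg x)) y = B x (w (cor (deg (w y)))) := by
  rw [mlte_abs_adj_flip B B' res cor hBalt hB'alt hadj,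
    mlte_abs_deg_adj B B' res cor w w' deg hadj hw hww hw' hww' hdeg, hdeg (w y), hww]

include hBalt hB'alt hadj hw hww hw' hww' hdeg in
/-- `S = w S* w` has adjoint `S* = w S w` -/
theorem mlte_abs_star' (x y : L) : B (w (cor (deg (w x)))) y = B x (cor (deg y)) := by
  rw [mlte_abs_w_adj B w hw hww,
    mlte_abs_star B B' res cor w w' deg hBalt hB'alt hadj hw hww hw' hww' hdeg, hww, hw]

end Abstract

/-! ### The lattice operators -/

section Lattice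

variable (M s : ℕ) [NeZero M] [NeZero s]

/-- restriction `L_M → L_{M s}` -/
abbrev mlteResS : ↥(tdmL M) →ₗ[ℤ] ↥(tdmL (M * s)) := t2fResPar (mlte_Gamma0_mul_le M s) ℤ ℤ

/-- transfer `L_{M s} → L_M`, `s ∣ M` -/
abbrev mlteCorS (hs : s ∣ M) : ↥(tdmL (M * s)) →ₗ[ℤ] ↥(tdmL M) := (mlteSysC M s hs).corPar ℤ ℤ

/-- second degeneracy `L_M → L_{M s}` -/
abbrev mlteDegS : ↥(tdmL M) →ₗ[ℤ] ↥(tdmL (M * s)) := mlteDeg M s (NeZero.ne s)

theorem mlteDegS_eq (x : ↥(tdmL M)) :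
    mlteDegS M s x = mlteW (M * s) (mlteResS M s (mlteW M x)) :=
  Subtype.ext (mlteDegHom_eq_W_res_W M s x.1)

/-- **res / cor adjunction for `s ∣ M`** -/
theorem mlte_lrdBN_resS_corS (hs : s ∣ M) (x : ↥(tdmL M)) (y : ↥(tdmL (M * s))) :
    lrdBN (M * s) (mlteResS M s x) y = lrdBN M x (mlteCorS M s hs y) := by
  letI : Fintype (SL(2, ℤ) ⧸ Gamma0 M) := Subgroup.fintypeQuotientOfFiniteIndex
  letI : Fintype (SL(2, ℤ) ⧸ Gamma0 (M * s)) := Subgroup.fintypeQuotientOfFiniteIndex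
  haveI : Nonempty (Fin s) := ⟨⟨0, Nat.pos_of_ne_zero (NeZero.ne s)⟩⟩
  exact lrdr_res_cor (mlte_Gamma0_mul_le M s) (lrdzSys (M * s)) (lrdzSys M) (mlteSysC M s hs)
    (fun i => ⟨(mlteRepC M s i : SL(2, ℤ)), (mlteRepC M s i).2, rfl⟩) x y

/-- `U_s = w ∘ cor ∘ Deg ∘ w` on the lattice, `s ∣ M` -/
theorem mlte_lrhU_eq (hs : s ∣ M) (x : ↥(tdmL M)) :
    lrhU M s hs (NeZero.ne s) x = mlteW M (mlteCorS M s hs (mlteDegS M s (mlteW M x))) := by
  apply Subtype.ext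
  have h1 := mlte_U_W M s hs (mlteWHom M ℤ x.1)
  rw [mlteWHom_invol] at h1
  exact h1

/-- **the adjoint of `U_s` is `w U_s w`** (`s ∣ M`) -/
theorem mlte_lrdBN_U_adj (hs : s ∣ M) (x y : ↥(tdmL M)) :
    lrdBN M (lrhU M s hs (NeZero.ne s) x) y
      = lrdBN M x (mlteW M (lrhU M s hs (NeZero.ne s) (mlteW M y))) := by
  rw [mlte_lrhU_eq M s hs x, mlte_lrhU_eq M s hs (mlteW M y), mlteWPar_invol, mlteWPar_invol]
  exact mlte_abs_star' (lrdBN M) (lrdBN (M * s)) (mlteResS M s) (mlteCorS M s hs) (mlteW M)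
    (mlteW (M * s)) (mlteDegS M s) (lrdBN_alt M) (lrdBN_alt (M * s))
    (mlte_lrdBN_resS_corS M s hs) (mlte_lrdBN_W M) (mlteWPar_invol M ℤ ℤ)
    (mlte_lrdBN_W (M * s)) (mlteWPar_invol (M * s) ℤ ℤ) (mlteDegS_eq M s) x y

end Lattice

section LatticeT

variable (M : ℕ) [NeZero M] (ℓ : ℕ) [hℓ : Fact ℓ.Prime] (h : ¬ ℓ ∣ M)

instance mlte_neZero_of_prime : NeZero ℓ := ⟨hℓ.out.ne_zero⟩

/-- `T_ℓ = cor ∘ Deg` on the lattice, `ℓ ∤ M` -/
theorem mlte_lrhT_eq (x : ↥(tdmL M)) :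
    lrhT M ℓ hℓ.out h x = lrhCor M ℓ h (mlteDegS M ℓ x) := by
  rw [← lrh_cor_W_res M ℓ h x]
  congr 1
  apply Subtype.ext
  exact (mlteDegHom_eq_W_res M ℓ h x.1).symm

/-- **the adjoint of `T_ℓ` is `w T_ℓ w`** (`ℓ ∤ M`) -/
theorem mlte_lrdBN_T_adj (x y : ↥(tdmL M)) :
    lrdBN M (lrhT M ℓ hℓ.out h x) y
      = lrdBN M x (mlteW M (lrhT M ℓ hℓ.out h (mlteW M y))) := by
  rw [mlte_lrhT_eq M ℓ h x, mlte_lrhT_eq M ℓ h (mlteW M y)]
  exact mlte_abs_star (lrdBN M) (lrdBN (M * ℓ)) (lrhRes M ℓ) (lrhCor M ℓ h) (mlteW M)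
    (mlteW (M * ℓ)) (mlteDegS M ℓ) (lrdBN_alt M) (lrdBN_alt (M * ℓ))
    (lrdBN_res_cor M ℓ h) (mlte_lrdBN_W M) (mlteWPar_invol M ℤ ℤ)
    (mlte_lrdBN_W (M * ℓ)) (mlteWPar_invol (M * ℓ) ℤ ℤ) (mlteDegS_eq M ℓ) x y

end LatticeT

/-! ### Nondegeneracy -/

section Nondeg

/-- a unimodular bilinear form on a finite free module is injective -/
theorem mlte_injective_of_unimodular {R L : Type*} [CommRing R] [AddCommGroup L] [Module R L]
    [Module.Free R L] [Module.Finite R L] (B : L →ₗ[R] L →ₗ[R] R)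
    (h : ∀ f : L →ₗ[R] R, ∃ x, ∀ y, B x y = f y) : Function.Injective B := by
  have hsurj : Function.Surjective B := by
    intro f
    obtain ⟨x, hx⟩ := h f
    exact ⟨x, LinearMap.ext hx⟩
  let b := Module.Free.chooseBasis R L
  exact OrzechProperty.injective_of_surjective_of_injective
    (M := Module.Dual R L) b.toDualEquiv.toLinearMap B b.toDualEquiv.injective hsurj

variable (M : ℕ) [NeZero M]

theorem mlte_lrdBN_nondeg (x : ↥(tdmL M)) (hx : ∀ y, lrdBN M x y = 0) : x = 0 := by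
  have hinj := mlte_injective_of_unimodular (lrdBN M) (lrdBN_unimodular M)
  apply hinj
  rw [map_zero]
  exact LinearMap.ext hx

theorem mlte_lrdBN_nondeg' (y : ↥(tdmL M)) (hy : ∀ x, lrdBN M x y = 0) : y = 0 := by
  apply mlte_lrdBN_nondeg M y
  intro x
  rw [lrh_skew_of_alt (lrdBN M) (lrdBN_alt M), hy, neg_zero]

theorem mlte_lrdBN_skew (x y : ↥(tdmL M)) : lrdBN M x y = -lrdBN M y x :=
  lrh_skew_of_alt (lrdBN M) (lrdBN_alt M) x y

end Nondeg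

/-! ### `T_ℓ` commutes with the Fricke involution -/

section TW

variable (M : ℕ) [NeZero M] (ℓ : ℕ) [hℓ : Fact ℓ.Prime] (h : ¬ ℓ ∣ M)

/-- `T_ℓ` is self-adjoint for the Poincaré pairing -/
theorem mlte_lrdBN_T_selfadj (x y : ↥(tdmL M)) :
    lrdBN M (lrhT M ℓ hℓ.out h x) y = lrdBN M x (lrhT M ℓ hℓ.out h y) :=
  lrh_T_selfadj_of M ℓ h (lrdBN M) (lrdBN (M * ℓ)) (lrdBN_alt M) (lrdBN_alt (M * ℓ))
    (lrdBN_res_cor M ℓ h) (lrdBN_w M ℓ h) x y

/-- **`T_ℓ ∘ w_M = w_M ∘ T_ℓ`** on the lattice -/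
theorem mlte_T_W_comm (y : ↥(tdmL M)) :
    lrhT M ℓ hℓ.out h (mlteW M y) = mlteW M (lrhT M ℓ hℓ.out h y) := by
  have key : ∀ z : ↥(tdmL M),
      lrhT M ℓ hℓ.out h z = mlteW M (lrhT M ℓ hℓ.out h (mlteW M z)) := by
    intro z
    rw [← sub_eq_zero]
    apply mlte_lrdBN_nondeg' M
    intro x
    rw [map_sub, sub_eq_zero, ← mlte_lrdBN_T_adj M ℓ h x z, mlte_lrdBN_T_selfadj M ℓ h x z]
  rw [key (mlteW M y), mlteWPar_invol]

end TW

/-! ### The twisted pairing -/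

section Pair

variable (M : ℕ) [NeZero M]

/-- **the twisted pairing** `[x, y]_M = ⟨x, w_M y⟩` on `L_M` -/
def mltePairZ : ↥(tdmL M) →ₗ[ℤ] ↥(tdmL M) →ₗ[ℤ] ℤ := (lrdBN M).compl₂ (mlteW M)

theorem mltePairZ_apply (x y : ↥(tdmL M)) : mltePairZ M x y = lrdBN M x (mlteW M y) := rfl

theorem mltePairZ_alt (x : ↥(tdmL M)) : mltePairZ M x x = 0 := by
  rw [mltePairZ_apply]
  have h1 : lrdBN M x (mlteW M x) = lrdBN M (mlteW M x) x := (mlte_lrdBN_W_adj M x x).symm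
  have h2 := mlte_lrdBN_skew M x (mlteW M x)
  rw [← h1] at h2
  omega

theorem mltePairZ_skew (x y : ↥(tdmL M)) : mltePairZ M x y = -mltePairZ M y x :=
  lrh_skew_of_alt (mltePairZ M) (mltePairZ_alt M) x y

theorem mltePairZ_unimodular (f : ↥(tdmL M) →ₗ[ℤ] ℤ) : ∃ x, ∀ y, mltePairZ M x y = f y := by
  obtain ⟨x, hx⟩ := lrdBN_unimodular M (f.comp (mlteW M))
  refine ⟨x, fun y => ?_⟩
  rw [mltePairZ_apply, hx, LinearMap.comp_apply, mlteWPar_invol]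

theorem mltePairZ_W (x y : ↥(tdmL M)) : mltePairZ M (mlteW M x) (mlteW M y) = mltePairZ M x y := by
  rw [mltePairZ_apply, mltePairZ_apply, mlte_lrdBN_W]

/-- `T_ℓ` is self-adjoint for the twisted pairing -/
theorem mltePairZ_T (ℓ : ℕ) [hℓ : Fact ℓ.Prime] (h : ¬ ℓ ∣ M) (x y : ↥(tdmL M)) :
    mltePairZ M (lrhT M ℓ hℓ.out h x) y = mltePairZ M x (lrhT M ℓ hℓ.out h y) := by
  rw [mltePairZ_apply, mltePairZ_apply, mlte_lrdBN_T_adj M ℓ h, mlteWPar_invol]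

/-- `U_s` is self-adjoint for the twisted pairing -/
theorem mltePairZ_U (s : ℕ) [NeZero s] (hs : s ∣ M) (x y : ↥(tdmL M)) :
    mltePairZ M (lrhU M s hs (NeZero.ne s) x) y = mltePairZ M x (lrhU M s hs (NeZero.ne s) y) := by
  rw [mltePairZ_apply, mltePairZ_apply, mlte_lrdBN_U_adj M s hs, mlteWPar_invol]

end Pair

end

end Fermat.Agent.MLT
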