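/-
MLT / stream Eta (helper1): **the second degeneracy `Deg : Hom(Γ₀(M), A) → Hom(Γ₀(M q), A)` commutes with
the Hecke operators prime to `q`** — for EVERY level `M` (also `q ∣ M`):

* `mlte_deg_twist`  : the abstract coset lemma (`D = diag(q, 1)`, `D · rep i = u i · rep' (π i) · D`);
* `mlteDegHom_U`    : `Deg ∘ U_s = U_s ∘ Deg` for `s ∣ M`, `gcd(s, q) = 1`;
* `mlteDegHom_T'`   : `Deg ∘ T_ℓ = T_ℓ ∘ Deg` for `ℓ ∤ M q` prime.
-/
import Mathlib
import Fermat.Agent.Lib.MLT.Eta.CorS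

set_option autoImplicit false
set_option linter.unusedSectionVars false
set_option linter.unusedVariables false
set_option linter.style.haveILetI false

open Matrix MatrixGroups CongruenceSubgroup Fermat.Agent.T1 Fermat.Agent.T2 ModularCurve
  ModularCurve.Period Fermat.Agent.LR

namespace Fermat.Agent.MLT

noncomputable section

section Twist

variable (M q : ℕ) [NeZero M] [NeZero q] {ι ι' : Type} [Fintype ι] [Fintype ι']
  (S : tdmCosetSys (Gamma0 (M * q)) ι) (S' : tdmCosetSys (Gamma0 M) ι') (π : ι ≃ ι')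
  (u : ι → Gamma0 M)
  (hu : ∀ i, !![(q : ℤ), 0; 0, 1] * S.rep i
    = ((u i : SL(2, ℤ)) : Matrix (Fin 2) (Fin 2) ℤ) * S'.rep (π i) * !![(q : ℤ), 0; 0, 1])

include hu

theorem mlte_deg_twist_eps (δ : Gamma0 (M * q)) (i : ι) :
    S'.eps (lraDeg M q (NeZero.ne q) δ) (π i)
      = (u i)⁻¹ * lraDeg M q (NeZero.ne q) (S.eps δ i) * u (S.sigma δ i)
    ∧ S'.sigma (lraDeg M q (NeZero.ne q) δ) (π i) = π (S.sigma δ i) := by
  set Dm : Matrix (Fin 2) (Fin 2) ℤ := !![(q : ℤ), 0; 0, 1] with hDm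
  have hdetD : Dm.det ≠ 0 := by
    rw [hDm, Matrix.det_fin_two_of]
    simpa using NeZero.ne q
  set ε := S.eps δ i with hε
  set j := S.sigma δ i with hj
  set dm := ((δ : SL(2, ℤ)) : Matrix (Fin 2) (Fin 2) ℤ) with hdm
  set em := ((ε : SL(2, ℤ)) : Matrix (Fin 2) (Fin 2) ℤ) with hem
  set Ld := (((lraDeg M q (NeZero.ne q) δ : Gamma0 M) : SL(2, ℤ)) : Matrix (Fin 2) (Fin 2) ℤ)
    with hLd
  set Le := (((lraDeg M q (NeZero.ne q) ε : Gamma0 M) : SL(2, ℤ)) : Matrix (Fin 2) (Fin 2) ℤ)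
    with hLe
  set ui := ((u i : SL(2, ℤ)) : Matrix (Fin 2) (Fin 2) ℤ) with hui
  set uj := ((u j : SL(2, ℤ)) : Matrix (Fin 2) (Fin 2) ℤ) with huj
  have h0 : S.rep i * dm = em * S.rep j := S.rep_mul δ i
  have hDδ : Dm * dm = Ld * Dm := mlte_lraDeg_rel M q δ
  have hDε : Dm * em = Le * Dm := mlte_lraDeg_rel M q ε
  have hui' : Dm * S.rep i = ui * S'.rep (π i) * Dm := hu i
  have huj' : Dm * S.rep j = uj * S'.rep (π j) * Dm := hu j
  have h1 : ui * (S'.rep (π i) * Ld) * Dm = Le * uj * S'.rep (π j) * Dm := by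
    calc ui * (S'.rep (π i) * Ld) * Dm = ui * S'.rep (π i) * (Ld * Dm) := by
          simp only [Matrix.mul_assoc]
      _ = (ui * S'.rep (π i) * Dm) * dm := by rw [← hDδ]; simp only [Matrix.mul_assoc]
      _ = Dm * (S.rep i * dm) := by rw [← hui']; simp only [Matrix.mul_assoc]
      _ = (Dm * em) * S.rep j := by rw [h0]; simp only [Matrix.mul_assoc]
      _ = Le * (Dm * S.rep j) := by rw [hDε]; simp only [Matrix.mul_assoc]
      _ = Le * uj * S'.rep (π j) * Dm := by rw [huj']; simp only [Matrix.mul_assoc]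
  have h2 := tdm_mul_right_cancel hdetD h1
  have hinv : (((u i)⁻¹ : Gamma0 M) : SL(2, ℤ)).1 * ui = 1 := by
    rw [hui, ← Matrix.SpecialLinearGroup.coe_mul, ← Subgroup.coe_mul, inv_mul_cancel]
    rfl
  have h3 : S'.rep (π i) * Ld
      = ((((u i)⁻¹ * lraDeg M q (NeZero.ne q) ε * u j : Gamma0 M) : SL(2, ℤ)) :
          Matrix (Fin 2) (Fin 2) ℤ) * S'.rep (π j) := by
    have h4 := congrArg (fun X => (((u i)⁻¹ : Gamma0 M) : SL(2, ℤ)).1 * X) h2
    simp only [← Matrix.mul_assoc] at h4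
    rw [hinv, Matrix.one_mul] at h4
    rw [Subgroup.coe_mul, Subgroup.coe_mul, Matrix.SpecialLinearGroup.coe_mul,
      Matrix.SpecialLinearGroup.coe_mul]
    rw [h4]
  obtain ⟨e1, e2⟩ := S'.eq_of_rep_mul h3
  exact ⟨e2.symm, e1.symm⟩

/-- the abstract coset lemma: `Deg ∘ S' = S ∘ Deg` -/
theorem mlte_deg_twist {A : Type*} [AddCommGroup A] (φ : Additive (Gamma0 M) →+ A) :
    mlteDegHom M q (NeZero.ne q) A (S'.hom A φ) = S.hom A (mlteDegHom M q (NeZero.ne q) A φ) := by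
  refine AddMonoidHom.ext fun δ' => ?_
  obtain ⟨δ, rfl⟩ := Additive.ofMul.surjective δ'
  rw [mlteDegHom_apply, tdmCosetSys.hom_apply, tdmCosetSys.hom_apply, ← Equiv.sum_comp π]
  have h1 : ∀ i, φ (Additive.ofMul (S'.eps (lraDeg M q (NeZero.ne q) δ) (π i)))
      = (mlteDegHom M q (NeZero.ne q) A φ (Additive.ofMul (S.eps δ i))
          + φ (Additive.ofMul (u (S.sigma δ i)))) - φ (Additive.ofMul (u i)) := by
    intro i
    rw [(mlte_deg_twist_eps M q S S' π u hu δ i).1, ofMul_mul, ofMul_mul, ofMul_inv, map_add,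
      map_add, map_neg, mlteDegHom_apply]
    abel
  rw [Finset.sum_congr rfl fun i _ => h1 i, Finset.sum_sub_distrib, Finset.sum_add_distrib,
    Equiv.sum_comp (S.sigma δ) (fun i => φ (Additive.ofMul (u i))), add_sub_cancel_right]

end Twist

/-! ### Multiplication by `q` on `Fin s` -/

section Perm

/-- multiplication by `q` on `Fin s`, `gcd(q, s) = 1` -/
def mlteMulPerm (s q : ℕ) [NeZero s] (hc : Nat.Coprime q s) : Fin s ≃ Fin s :=
  Equiv.ofBijective (fun j => ⟨(q * (j : ℕ)) % s, Nat.mod_lt _ (Nat.pos_of_ne_zero (NeZero.ne s))⟩)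
    (Finite.injective_iff_bijective.mp (by
      intro j j' hjj
      have h1 : (q * (j : ℕ)) % s = (q * (j' : ℕ)) % s := congrArg Fin.val hjj
      have h2 : (j : ℕ) ≡ (j' : ℕ) [MOD s] :=
        Nat.ModEq.cancel_left_of_coprime (Nat.Coprime.symm hc) h1
      exact Fin.ext (Nat.ModEq.eq_of_lt_of_lt h2 j.2 j'.2)))

theorem mlteMulPerm_coe (s q : ℕ) [NeZero s] (hc : Nat.Coprime q s) (j : Fin s) :
    ((mlteMulPerm s q hc j : Fin s) : ℕ) = (q * (j : ℕ)) % s := rfl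

/-- `diag(q, 1) [[1, j], [0, s]] = [[1, k], [0, 1]] [[1, q j mod s], [0, s]] diag(q, 1)` -/
theorem mlte_diag_mul_aff (s q : ℕ) (j : ℕ) :
    !![(q : ℤ), 0; 0, 1] * !![1, (j : ℤ); 0, (s : ℤ)]
      = !![1, (((q * j) / s : ℕ) : ℤ); 0, 1] * !![1, (((q * j) % s : ℕ) : ℤ); 0, (s : ℤ)]
        * !![(q : ℤ), 0; 0, 1] := by
  have h1 : ((q * j : ℕ) : ℤ) = (((q * j) % s : ℕ) : ℤ) + (s : ℤ) * (((q * j) / s : ℕ) : ℤ) := by
    exact_mod_cast (Nat.mod_add_div (q * j) s).symm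
  push_cast at h1
  ext a b
  fin_cases a <;> fin_cases b <;> simp [Matrix.mul_apply, Fin.sum_univ_two]
  push_cast
  linear_combination h1

end Perm

/-! ### `Deg` commutes with `U_s` and `T_ℓ` -/

section Comm

variable (M q : ℕ) [NeZero M] [NeZero q] {A : Type*} [AddCommGroup A]

/-- **`Deg ∘ U_s = U_s ∘ Deg`** for `s ∣ M`, `gcd(q, s) = 1` -/
theorem mlteDegHom_U (s : ℕ) [NeZero s] (hs : s ∣ M) (hc : Nat.Coprime q s)
    (φ : Additive (Gamma0 M) →+ A) :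
    mlteDegHom M q (NeZero.ne q) A ((tdmSysU M s hs (NeZero.ne s)).hom A φ)
      = (tdmSysU (M * q) s (Dvd.dvd.mul_right hs q) (NeZero.ne s)).hom A
          (mlteDegHom M q (NeZero.ne q) A φ) := by
  refine mlte_deg_twist M q _ _ (mlteMulPerm s q hc)
    (fun j => mlteTr M (((q * (j : ℕ)) / s : ℕ) : ℤ)) (fun j => ?_) φ
  rw [tdmSysU_rep, tdmSysU_rep, tdmRepU, tdmRepU, mlteTr_coe, mlteMulPerm_coe]
  exact mlte_diag_mul_aff s q (j : ℕ)

/-- **`Deg ∘ T_ℓ = T_ℓ ∘ Deg`** for `ℓ ∤ M q` (every level `M`) -/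
theorem mlteDegHom_T' (ℓ : ℕ) (hℓ : ℓ.Prime) (hℓM : ¬ ℓ ∣ M) (hℓMq : ¬ ℓ ∣ M * q)
    (φ : Additive (Gamma0 M) →+ A) :
    mlteDegHom M q (NeZero.ne q) A ((tdmSysT M ℓ hℓ hℓM).hom A φ)
      = (tdmSysT (M * q) ℓ hℓ hℓMq).hom A (mlteDegHom M q (NeZero.ne q) A φ) := by
  haveI : NeZero ℓ := ⟨hℓ.ne_zero⟩
  have hc : Nat.Coprime q ℓ := by
    rw [Nat.coprime_comm, Nat.Prime.coprime_iff_not_dvd hℓ]
    exact fun hd => hℓMq (Dvd.dvd.mul_left hd M)
  refine mlte_deg_twist M q _ _ (Equiv.optionCongr (mlteMulPerm ℓ q hc))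
    (fun i => match i with
      | none => 1
      | some b => mlteTr M (((q * (b : ℕ)) / ℓ : ℕ) : ℤ)) (fun i => ?_) φ
  rw [tdmSysT_rep, tdmSysT_rep]
  rcases i with _ | b
  · show !![(q : ℤ), 0; 0, 1] * !![(ℓ : ℤ), 0; 0, 1]
      = (((1 : Gamma0 M) : SL(2, ℤ)) : Matrix (Fin 2) (Fin 2) ℤ) * !![(ℓ : ℤ), 0; 0, 1]
        * !![(q : ℤ), 0; 0, 1]
    rw [Subgroup.coe_one, Matrix.SpecialLinearGroup.coe_one, Matrix.one_mul]
    ext a b
    fin_cases a <;> fin_cases b <;> simp [Matrix.mul_apply, Fin.sum_univ_two, mul_comm]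
  · show !![(q : ℤ), 0; 0, 1] * !![1, ((b : ℕ) : ℤ); 0, (ℓ : ℤ)]
      = (((mlteTr M (((q * (b : ℕ)) / ℓ : ℕ) : ℤ) : Gamma0 M) : SL(2, ℤ)) :
          Matrix (Fin 2) (Fin 2) ℤ)
        * !![1, (((mlteMulPerm ℓ q hc b : Fin ℓ) : ℕ) : ℤ); 0, (ℓ : ℤ)] * !![(q : ℤ), 0; 0, 1]
    rw [mlteTr_coe, mlteMulPerm_coe]
    exact mlte_diag_mul_aff ℓ q (b : ℕ)

end Comm

end

end Fermat.Agent.MLT
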