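/-
MLT / stream Eta (helper1): **(E2) the Gram matrix of `ξ` and (E3) `U_q ξ_v = 0`**, on the lattices.

Levels `N` (`q ∤ N`), `N q`, `N q q`.  `r_i` = restriction, `d_i` = second degeneracy, `c₁` = transfer
`N q → N` (`t2fSysC`), `c₂` = transfer `N q q → N q` (`mlteSysC`), `w, w₁, w₂` Fricke involutions.
-/
import Mathlib
import Fermat.Agent.Lib.MLT.Eta.Adjoint
import Fermat.Agent.Lib.MLT.Contracts.Eta
import Fermat.Agent.Lib.Ihara.H4.Betti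

set_option autoImplicit false
set_option linter.unusedSectionVars false
set_option linter.unusedVariables false
set_option linter.style.haveILetI false

open Matrix MatrixGroups CongruenceSubgroup Fermat.Agent.T1 Fermat.Agent.T2 ModularCurve
  ModularCurve.Period Fermat.Agent.LR Fermat.Agent.Ihara

namespace Fermat.Agent.MLT

noncomputable section

section Levels

variable (N q : ℕ) [NeZero N] [hq : Fact q.Prime] (h : ¬ q ∣ N)

/-- `q ∣ N q` -/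
theorem mlte_dvd_mul : q ∣ N * q := Dvd.intro_left N rfl

/-- transfer `L_{N q q} → L_{N q}` -/
abbrev mlteC2 : ↥(tdmL (N * q * q)) →ₗ[ℤ] ↥(tdmL (N * q)) := mlteCorS (N * q) q (mlte_dvd_mul N q)

/-! #### the basic identities -/

theorem mlte_c1_r1 (x : ↥(tdmL N)) : lrhCor N q h (lrhRes N q x) = ((q : ℤ) + 1) • x :=
  lrh_cor_res N q h x

theorem mlte_c1_d1 (x : ↥(tdmL N)) :
    lrhCor N q h (mlteDeg N q hq.out.ne_zero x) = lrhT N q hq.out h x :=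
  (mlte_lrhT_eq N q h x).symm

theorem mlte_c2_r2 (y : ↥(tdmL (N * q))) : mlteC2 N q (lrhRes (N * q) q y) = (q : ℤ) • y := by
  apply Subtype.ext
  show (mlteSysC (N * q) q (mlte_dvd_mul N q)).cor ℤ
    (t2fRes (mlte_Gamma0_mul_le (N * q) q) ℤ (y : Additive (Gamma0 (N * q)) →+ ℤ)) = _
  rw [mlte_corS_res, Submodule.coe_smul, natCast_zsmul]

theorem mlte_w1_r1 (x : ↥(tdmL N)) :
    mlteW (N * q) (lrhRes N q x) = mlteDeg N q hq.out.ne_zero (mlteW N x) :=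
  Subtype.ext (mlteWHom_res N q x.1)

theorem mlte_w1_d1 (x : ↥(tdmL N)) :
    mlteW (N * q) (mlteDeg N q hq.out.ne_zero x) = lrhRes N q (mlteW N x) :=
  Subtype.ext (mlteWHom_deg N q x.1)

theorem mlte_w2_r2 (y : ↥(tdmL (N * q))) :
    mlteW (N * q * q) (lrhRes (N * q) q y) = mlteDeg (N * q) q hq.out.ne_zero (mlteW (N * q) y) :=
  Subtype.ext (mlteWHom_res (N * q) q y.1)

theorem mlte_w2_d2 (y : ↥(tdmL (N * q))) :
    mlteW (N * q * q) (mlteDeg (N * q) q hq.out.ne_zero y) = lrhRes (N * q) q (mlteW (N * q) y) :=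
  Subtype.ext (mlteWHom_deg (N * q) q y.1)

/-- `U_q ∘ Deg = q · res` at level `N q` -/
theorem mlte_U1_d1 (x : ↥(tdmL N)) :
    lrhU (N * q) q (mlte_dvd_mul N q) hq.out.ne_zero (mlteDeg N q hq.out.ne_zero x)
      = (q : ℤ) • lrhRes N q x := by
  apply Subtype.ext
  show (tdmSysU (N * q) q (mlte_dvd_mul N q) hq.out.ne_zero).hom ℤ
    (mlteDegHom N q hq.out.ne_zero ℤ x.1) = _
  rw [mlte_U_deg N q x.1, Submodule.coe_smul, natCast_zsmul]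
  rfl

/-- `U_q ∘ Deg = q · res` at level `N q q` -/
theorem mlte_U2_d2 (y : ↥(tdmL (N * q))) :
    lrhU (N * q * q) q (Dvd.intro_left (N * q) rfl) hq.out.ne_zero
        (mlteDeg (N * q) q hq.out.ne_zero y)
      = (q : ℤ) • lrhRes (N * q) q y := by
  apply Subtype.ext
  show (tdmSysU (N * q * q) q (Dvd.intro_left (N * q) rfl) hq.out.ne_zero).hom ℤ
    (mlteDegHom (N * q) q hq.out.ne_zero ℤ y.1) = _
  rw [mlte_U_deg (N * q) q y.1, Submodule.coe_smul, natCast_zsmul]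
  rfl

/-- `c₂ ∘ d₂ = w₁ U_q w₁` at level `N q` -/
theorem mlte_c2_d2 (y : ↥(tdmL (N * q))) :
    mlteC2 N q (mlteDeg (N * q) q hq.out.ne_zero y)
      = mlteW (N * q) (lrhU (N * q) q (mlte_dvd_mul N q) hq.out.ne_zero (mlteW (N * q) y)) := by
  have h1 := mlte_lrhU_eq (N * q) q (mlte_dvd_mul N q) (mlteW (N * q) y)
  rw [mlteWPar_invol] at h1
  rw [h1, mlteWPar_invol]

/-- `U_q ∘ res = res ∘ T_q - Deg` at level `N q` -/
theorem mlte_U1_r1 (x : ↥(tdmL N)) :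
    lrhU (N * q) q (mlte_dvd_mul N q) hq.out.ne_zero (lrhRes N q x)
      = lrhRes N q (lrhT N q hq.out h x) - mlteDeg N q hq.out.ne_zero x := by
  have h1 := ih4_U_α (ih4_deg N q h ℤ ℤ) x
  rw [h1]
  congr 1
  apply Subtype.ext
  exact (mlteDegHom_eq_W_res N q h x.1).symm

theorem mlte_T_w (x : ↥(tdmL N)) :
    lrhT N q hq.out h (mlteW N x) = mlteW N (lrhT N q hq.out h x) :=
  mlte_T_W_comm N q h x

/-! #### adjunctions -/

local notation "r₁" => lrhRes N q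
local notation "r₂" => lrhRes (N * q) q
local notation "d₁" => mlteDeg N q hq.out.ne_zero
local notation "d₂" => mlteDeg (N * q) q hq.out.ne_zero
local notation "c₁" => lrhCor N q h
local notation "c₂" => mlteC2 N q
local notation "w₀" => mlteW N
local notation "w₁" => mlteW (N * q)
local notation "w₂" => mlteW (N * q * q)
local notation "Tq" => lrhT N q hq.out h
local notation "U₁" => lrhU (N * q) q (mlte_dvd_mul N q) hq.out.ne_zero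

theorem mlte_adj_r1 (x : ↥(tdmL N)) (y : ↥(tdmL (N * q))) :
    lrdBN (N * q) (r₁ x) y = lrdBN N x (c₁ y) := lrdBN_res_cor N q h x y

theorem mlte_adj_r2 (x : ↥(tdmL (N * q))) (y : ↥(tdmL (N * q * q))) :
    lrdBN (N * q * q) (r₂ x) y = lrdBN (N * q) x (c₂ y) :=
  mlte_lrdBN_resS_corS (N * q) q (mlte_dvd_mul N q) x y

theorem mlte_adj_d1 (x : ↥(tdmL N)) (y : ↥(tdmL (N * q))) :
    lrdBN (N * q) (d₁ x) y = lrdBN N x (w₀ (c₁ (w₁ y))) :=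
  mlte_abs_deg_adj (lrdBN N) (lrdBN (N * q)) r₁ c₁ w₀ w₁ d₁ (mlte_adj_r1 N q h)
    (mlte_lrdBN_W N) (mlteWPar_invol N ℤ ℤ) (mlte_lrdBN_W (N * q)) (mlteWPar_invol (N * q) ℤ ℤ)
    (mlteDegS_eq N q) x y

theorem mlte_adj_d2 (x : ↥(tdmL (N * q))) (y : ↥(tdmL (N * q * q))) :
    lrdBN (N * q * q) (d₂ x) y = lrdBN (N * q) x (w₁ (c₂ (w₂ y))) :=
  mlte_abs_deg_adj (lrdBN (N * q)) (lrdBN (N * q * q)) r₂ c₂ w₁ w₂ d₂ (mlte_adj_r2 N q)
    (mlte_lrdBN_W (N * q)) (mlteWPar_invol (N * q) ℤ ℤ) (mlte_lrdBN_W (N * q * q))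
    (mlteWPar_invol (N * q * q) ℤ ℤ) (mlteDegS_eq (N * q) q) x y

theorem mlte_adj_B1 (x : ↥(tdmL N)) (Y : ↥(tdmL (N * q * q))) :
    lrdBN (N * q * q) (mlteB1 N q x) Y = lrdBN N x (c₁ (c₂ Y)) := by
  show lrdBN (N * q * q) (r₂ (r₁ x)) Y = _
  rw [mlte_adj_r2, mlte_adj_r1 N q h]

theorem mlte_adj_Bq (x : ↥(tdmL N)) (Y : ↥(tdmL (N * q * q))) :
    lrdBN (N * q * q) (mlteBq N q x) Y = lrdBN N x (w₀ (c₁ (w₁ (c₂ Y)))) := by
  show lrdBN (N * q * q) (r₂ (d₁ x)) Y = _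
  rw [mlte_adj_r2, mlte_adj_d1 N q h]

theorem mlte_adj_Bqq (x : ↥(tdmL N)) (Y : ↥(tdmL (N * q * q))) :
    lrdBN (N * q * q) (mlteBqq N q x) Y = lrdBN N x (w₀ (c₁ (c₂ (w₂ Y)))) := by
  show lrdBN (N * q * q) (d₂ (d₁ x)) Y = _
  rw [mlte_adj_d2, mlte_adj_d1 N q h, mlteWPar_invol]

/-! #### the nine entries -/

theorem mlte_G11 (b : ↥(tdmL N)) :
    c₁ (c₂ (mlteB1 N q b)) = ((q : ℤ) * ((q : ℤ) + 1)) • b := by
  show c₁ (c₂ (r₂ (r₁ b))) = _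
  rw [mlte_c2_r2, map_smul, mlte_c1_r1, smul_smul]

theorem mlte_G12 (b : ↥(tdmL N)) : c₁ (c₂ (mlteBq N q b)) = (q : ℤ) • Tq b := by
  show c₁ (c₂ (r₂ (d₁ b))) = _
  rw [mlte_c2_r2, map_smul, mlte_c1_d1]

theorem mlte_G13 (b : ↥(tdmL N)) :
    c₁ (c₂ (mlteBqq N q b)) = Tq (Tq b) - ((q : ℤ) + 1) • b := by
  show c₁ (c₂ (d₂ (d₁ b))) = _
  rw [mlte_c2_d2, mlte_w1_d1, mlte_U1_r1 N q h, map_sub, mlte_w1_r1, mlte_w1_d1, map_sub,
    mlte_c1_d1, mlte_c1_r1]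
  simp only [mlte_T_w N q h, mlteWPar_invol]

theorem mlte_G21 (b : ↥(tdmL N)) :
    w₀ (c₁ (w₁ (c₂ (mlteB1 N q b)))) = (q : ℤ) • Tq b := by
  show w₀ (c₁ (w₁ (c₂ (r₂ (r₁ b))))) = _
  rw [mlte_c2_r2, map_smul, mlte_w1_r1, map_smul, mlte_c1_d1, map_smul, mlte_T_w N q h,
    mlteWPar_invol]

theorem mlte_G22 (b : ↥(tdmL N)) :
    w₀ (c₁ (w₁ (c₂ (mlteBq N q b)))) = ((q : ℤ) * ((q : ℤ) + 1)) • b := by
  show w₀ (c₁ (w₁ (c₂ (r₂ (d₁ b))))) = _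
  rw [mlte_c2_r2, map_smul, mlte_w1_d1, map_smul, mlte_c1_r1, map_smul, map_smul,
    mlteWPar_invol, smul_smul]

theorem mlte_G23 (b : ↥(tdmL N)) :
    w₀ (c₁ (w₁ (c₂ (mlteBqq N q b)))) = (q : ℤ) • Tq b := by
  show w₀ (c₁ (w₁ (c₂ (d₂ (d₁ b))))) = _
  rw [mlte_c2_d2, mlteWPar_invol, mlte_w1_d1, mlte_U1_r1 N q h, map_sub, mlte_c1_r1, mlte_c1_d1,
    mlte_T_w N q h, map_sub, map_smul, mlteWPar_invol]
  rw [add_smul, one_smul]
  abel

theorem mlte_G31 (b : ↥(tdmL N)) :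
    w₀ (c₁ (c₂ (w₂ (mlteB1 N q b)))) = Tq (Tq b) - ((q : ℤ) + 1) • b := by
  show w₀ (c₁ (c₂ (w₂ (r₂ (r₁ b))))) = _
  rw [mlte_w2_r2, mlte_c2_d2, mlteWPar_invol, mlte_U1_r1 N q h, map_sub, mlte_w1_r1, mlte_w1_d1,
    map_sub, mlte_c1_d1, mlte_c1_r1, map_sub, map_smul, mlteWPar_invol, mlte_T_w N q h,
    mlteWPar_invol]

theorem mlte_G32 (b : ↥(tdmL N)) :
    w₀ (c₁ (c₂ (w₂ (mlteBq N q b)))) = (q : ℤ) • Tq b := by
  show w₀ (c₁ (c₂ (w₂ (r₂ (d₁ b))))) = _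
  rw [mlte_w2_r2, mlte_c2_d2, mlteWPar_invol, mlte_U1_d1, map_smul, mlte_w1_r1, map_smul,
    mlte_c1_d1, map_smul, mlte_T_w N q h, mlteWPar_invol]

theorem mlte_G33 (b : ↥(tdmL N)) :
    w₀ (c₁ (c₂ (w₂ (mlteBqq N q b)))) = ((q : ℤ) * ((q : ℤ) + 1)) • b := by
  show w₀ (c₁ (c₂ (w₂ (d₂ (d₁ b))))) = _
  rw [mlte_w2_d2, mlte_c2_r2, map_smul, mlte_w1_d1, map_smul, mlte_c1_r1]
  simp only [map_smul, mlteWPar_invol, smul_smul]

end Levels

/-- **contract (E2)**: the Gram matrix of `ξ` for the Poincaré pairings -/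
theorem mlte_gram : MltEtaGram := by
  intro N q _ hq h a b
  have e : ∀ c : Fin 3 → ↥(tdmL N), mlteXi3 N q c
      = mlteB1 N q (c 0) + mlteBq N q (c 1) + mlteBqq N q (c 2) := fun c => rfl
  rw [e a, e b]
  simp only [map_add, LinearMap.add_apply, mlte_adj_B1 N q h, mlte_adj_Bq N q h,
    mlte_adj_Bqq N q h, mlte_G11 N q h, mlte_G12 N q h, mlte_G13 N q h, mlte_G21 N q h,
    mlte_G22 N q h, mlte_G23 N q h, mlte_G31 N q h, mlte_G32 N q h, mlte_G33 N q h]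
  rw [Fin.sum_univ_three, Fin.sum_univ_three, Fin.sum_univ_three, Fin.sum_univ_three]
  have g00 : ∀ x, mlteGramEntry N q h 0 0 x = ((q : ℤ) * ((q : ℤ) + 1)) • x := fun x => rfl
  have g11 : ∀ x, mlteGramEntry N q h 1 1 x = ((q : ℤ) * ((q : ℤ) + 1)) • x := fun x => rfl
  have g22 : ∀ x, mlteGramEntry N q h 2 2 x = ((q : ℤ) * ((q : ℤ) + 1)) • x := fun x => rfl
  have g01 : ∀ x, mlteGramEntry N q h 0 1 x = (q : ℤ) • lrhT N q hq.out h x := fun x => rfl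
  have g10 : ∀ x, mlteGramEntry N q h 1 0 x = (q : ℤ) • lrhT N q hq.out h x := fun x => rfl
  have g12 : ∀ x, mlteGramEntry N q h 1 2 x = (q : ℤ) • lrhT N q hq.out h x := fun x => rfl
  have g21 : ∀ x, mlteGramEntry N q h 2 1 x = (q : ℤ) • lrhT N q hq.out h x := fun x => rfl
  have g02 : ∀ x, mlteGramEntry N q h 0 2 x
      = lrhT N q hq.out h (lrhT N q hq.out h x) - ((q : ℤ) + 1) • x := fun x => rfl
  have g20 : ∀ x, mlteGramEntry N q h 2 0 x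
      = lrhT N q hq.out h (lrhT N q hq.out h x) - ((q : ℤ) + 1) • x := fun x => rfl
  rw [g00, g11, g22, g01, g10, g12, g21, g02, g20]
  ring

end

end Fermat.Agent.MLT
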