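/-
MLT / stream Eta (helper1): **(E3) the action of `U_q`, `T_ℓ`, `U_s` on `ξ`**, homomorphism level, arbitrary
coefficients `A`.  Levels `N` (`q ∤ N`), `N q`, `N q q`.

* `mlte_Uq_xi`  : `U_q ξ(x, y, z) = ξ(T_q x + q y, q z - x, 0)`;
* `mlte_Uq_xiV` : `U_q ξ(q x, -T_q x, x) = 0`;
* `mlte_T_xi`, `mlte_U_xi` : `ξ` commutes with `T_ℓ` (`ℓ ∤ N q`) and `U_s` (`s ∣ N`).
-/
import Mathlib
import Fermat.Agent.Lib.MLT.Eta.DegComm
import Fermat.Agent.Lib.MLT.Eta.IharaSq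

set_option autoImplicit false
set_option linter.unusedSectionVars false
set_option linter.unusedVariables false
set_option linter.style.haveILetI false

open Matrix MatrixGroups CongruenceSubgroup Fermat.Agent.T1 Fermat.Agent.T2 ModularCurve
  ModularCurve.Period Fermat.Agent.LR

namespace Fermat.Agent.MLT

noncomputable section

section Uq

variable (N q : ℕ) [NeZero N] [hq : Fact q.Prime] (h : ¬ q ∣ N) {A : Type*} [AddCommGroup A]

instance mlte_neZero_of_fact : NeZero q := ⟨hq.out.ne_zero⟩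

local notation "r₁" => t2fRes (t2f5_Gamma0_le N q) A
local notation "r₂" => t2fRes (t2f5_Gamma0_le (N * q) q) A
local notation "d₁" => mlteDegHom N q hq.out.ne_zero A
local notation "d₂" => mlteDegHom (N * q) q hq.out.ne_zero A
local notation "Tq" => tdmCosetSys.hom (tdmSysT N q hq.out h) A
local notation "U₁" => tdmCosetSys.hom (tdmSysU (N * q) q (Dvd.intro_left N rfl) hq.out.ne_zero) A
local notation "U₂" =>
  tdmCosetSys.hom (tdmSysU (N * q * q) q (Dvd.intro_left (N * q) rfl) hq.out.ne_zero) A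

include h in
/-- `U_q ∘ res = res ∘ T_q - Deg` at level `N q` -/
theorem mlte_hom_U1_r1 (φ : Additive (Gamma0 N) →+ A) : U₁ (r₁ φ) = r₁ (Tq φ) - d₁ φ := by
  have h1 := t2f5_res_cor N q h ((t2fSysW N q h).hom A (r₁ φ))
  rw [lrh_cor_w_res, t2fSysW_hom_hom, ← mlteDegHom_eq_W_res N q h φ] at h1
  rw [h1]
  abel

/-- `U_q ∘ Deg = q · res` at level `N q` -/
theorem mlte_hom_U1_d1 (φ : Additive (Gamma0 N) →+ A) : U₁ (d₁ φ) = q • r₁ φ :=
  mlte_U_deg N q φ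

/-- `U_q ∘ Deg = q · res` at level `N q q` -/
theorem mlte_hom_U2_d2 (ψ : Additive (Gamma0 (N * q)) →+ A) : U₂ (d₂ ψ) = q • r₂ ψ :=
  mlte_U_deg (N * q) q ψ

/-- `U_q ∘ res = res ∘ U_q` from level `N q` to level `N q q` -/
theorem mlte_hom_U2_r2 (ψ : Additive (Gamma0 (N * q)) →+ A) : U₂ (r₂ ψ) = r₂ (U₁ ψ) :=
  (lrh_res_U (N * q) q q (Dvd.intro_left N rfl) hq.out.ne_zero ψ).symm

include h in
/-- **`U_q ξ(x, y, z) = ξ(T_q x + q y, q z - x, 0)`** -/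
theorem mlte_Uq_xi (x y z : Additive (Gamma0 N) →+ A) :
    U₂ (mlteXiHom N q A x y z) = mlteXiHom N q A (Tq x + q • y) (q • z - x) 0 := by
  unfold mlteXiHom
  rw [map_add, map_add, mlte_hom_U2_r2, mlte_hom_U2_r2, mlte_hom_U2_d2, mlte_hom_U1_r1 N q h,
    mlte_hom_U1_d1]
  simp only [map_add, map_sub, map_nsmul, map_zero]
  abel

include h in
/-- **`U_q ξ(q x, -T_q x, x) = 0`** -/
theorem mlte_Uq_xiV (x : Additive (Gamma0 N) →+ A) :
    U₂ (mlteXiHom N q A (q • x) (-(Tq x)) x) = 0 := by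
  rw [mlte_Uq_xi N q h]
  have e1 : Tq (q • x) + q • -(Tq x) = 0 := by
    rw [map_nsmul, smul_neg, add_neg_cancel]
  have e2 : q • x - q • x = 0 := sub_self _
  rw [e1, e2]
  unfold mlteXiHom
  simp only [map_zero, add_zero]

end Uq

section Equivariance

variable (N q : ℕ) [NeZero N] [hq : Fact q.Prime] (h : ¬ q ∣ N) {A : Type*} [AddCommGroup A]

theorem mlte_not_dvd_mul {ℓ : ℕ} (hℓ : ℓ.Prime) (hℓN : ¬ ℓ ∣ N) (hℓq : ℓ ≠ q) : ¬ ℓ ∣ N * q :=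
  fun hd => (hℓ.dvd_mul.1 hd).elim hℓN
    (fun hd' => hℓq ((Nat.prime_dvd_prime_iff_eq hℓ hq.out).1 hd'))

/-- **`ξ` commutes with `T_ℓ`** (`ℓ ∤ N q`) -/
theorem mlte_T_xi (ℓ : ℕ) (hℓ : ℓ.Prime) (hℓN : ¬ ℓ ∣ N) (hℓq : ℓ ≠ q)
    (x y z : Additive (Gamma0 N) →+ A) :
    (tdmSysT (N * q * q) ℓ hℓ (mlte_not_dvd_mul (N * q) q hℓ
        (mlte_not_dvd_mul N q hℓ hℓN hℓq) hℓq)).hom A (mlteXiHom N q A x y z)
      = mlteXiHom N q A ((tdmSysT N ℓ hℓ hℓN).hom A x) ((tdmSysT N ℓ hℓ hℓN).hom A y)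
          ((tdmSysT N ℓ hℓ hℓN).hom A z) := by
  have h1 := mlte_not_dvd_mul N q hℓ hℓN hℓq
  have h2 := mlte_not_dvd_mul (N * q) q hℓ h1 hℓq
  unfold mlteXiHom
  rw [map_add, map_add, t2f5_res_T N q ℓ hℓ h1 hℓN, t2f5_res_T (N * q) q ℓ hℓ h2 h1,
    mlteDegHom_T' N q ℓ hℓ hℓN h1, t2f5_res_T (N * q) q ℓ hℓ h2 h1,
    mlteDegHom_T' N q ℓ hℓ hℓN h1, mlteDegHom_T' (N * q) q ℓ hℓ h1 h2]

include h in
/-- **`ξ` commutes with `U_s`** (`s ∣ N`, `s` prime) -/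
theorem mlte_U_xi (s : ℕ) (hs : s.Prime) (hsN : s ∣ N)
    (x y z : Additive (Gamma0 N) →+ A) :
    (tdmSysU (N * q * q) s (Dvd.dvd.mul_right (Dvd.dvd.mul_right hsN q) q) hs.ne_zero).hom A
        (mlteXiHom N q A x y z)
      = mlteXiHom N q A ((tdmSysU N s hsN hs.ne_zero).hom A x)
          ((tdmSysU N s hsN hs.ne_zero).hom A y) ((tdmSysU N s hsN hs.ne_zero).hom A z) := by
  haveI : NeZero s := ⟨hs.ne_zero⟩
  have hc : Nat.Coprime q s := by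
    rw [Nat.coprime_comm, Nat.Prime.coprime_iff_not_dvd hs]
    intro hd
    have := (Nat.prime_dvd_prime_iff_eq hs hq.out).1 hd
    exact h (this ▸ hsN)
  unfold mlteXiHom
  rw [map_add, map_add, lrh_res_U N q s hsN hs.ne_zero, lrh_res_U (N * q) q s
    (Dvd.dvd.mul_right hsN q) hs.ne_zero, mlteDegHom_U N q s hsN hc,
    lrh_res_U (N * q) q s (Dvd.dvd.mul_right hsN q) hs.ne_zero, mlteDegHom_U N q s hsN hc,
    mlteDegHom_U (N * q) q s (Dvd.dvd.mul_right hsN q) hc]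

end Equivariance

end

end Fermat.Agent.MLT
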