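/-
MLT / stream Eta (helper1): **lattice forms**: contract (E3) `mlte_uq : MltEtaUq`, the action of the
Fricke involution on `ξ`, and the twisted Gram value

  `[ξ_v x, ξ_v y]_{N q q} = [x, c_q(T_q) y]_N`,   `c_q(T) = (q - 1) ((q + 1)² - T²)`.
-/
import Mathlib
import Fermat.Agent.Lib.MLT.Eta.Gram
import Fermat.Agent.Lib.MLT.Eta.Uq

set_option autoImplicit false
set_option linter.unusedSectionVars false
set_option linter.unusedVariables false
set_option linter.style.haveILetI false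

open Matrix MatrixGroups CongruenceSubgroup Fermat.Agent.T1 Fermat.Agent.T2 ModularCurve
  ModularCurve.Period Fermat.Agent.LR

namespace Fermat.Agent.MLT

noncomputable section

section E3

theorem mlteXiV_coe (N q : ℕ) [NeZero N] [hq : Fact q.Prime] (h : ¬ q ∣ N) (x : ↥(tdmL N)) :
    ((mlteXiV N q h x : ↥(tdmL (N * q * q))) : Additive (Gamma0 (N * q * q)) →+ ℤ)
      = mlteXiHom N q ℤ (q • x.1) (-((tdmSysT N q hq.out h).hom ℤ x.1)) x.1 := by
  unfold mlteXiV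
  rw [mlteXi_coe, Submodule.coe_smul, natCast_zsmul]
  rfl

/-- **contract (E3)** -/
theorem mlte_uq : MltEtaUq := by
  intro N q _ hq h
  refine ⟨fun x => ?_, fun ℓ hℓ hℓN hℓNqq x y z => ?_⟩
  · apply Subtype.ext
    show (tdmSysU (N * q * q) q (Dvd.intro_left (N * q) rfl) hq.out.ne_zero).hom ℤ
      ((mlteXiV N q h x : ↥(tdmL (N * q * q))) : Additive (Gamma0 (N * q * q)) →+ ℤ) = 0
    rw [mlteXiV_coe, mlte_Uq_xiV N q h]
  · have hℓq : ℓ ≠ q := by
      rintro rfl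
      exact hℓNqq (Dvd.intro_left (N * ℓ) rfl)
    apply Subtype.ext
    show (tdmSysT (N * q * q) ℓ hℓ hℓNqq).hom ℤ
      ((mlteXi N q x y z : ↥(tdmL (N * q * q))) : Additive (Gamma0 (N * q * q)) →+ ℤ) = _
    rw [mlteXi_coe, mlte_T_xi N q ℓ hℓ hℓN hℓq]
    rfl

end E3

/-! ### The Fricke involution on `ξ` and the twisted Gram value -/

section GV

variable (N q : ℕ) [NeZero N] [hq : Fact q.Prime] (h : ¬ q ∣ N)

/-- `Deg ∘ res = res ∘ Deg` (`N → N q q`) -/
theorem mlte_d2_r1 (x : ↥(tdmL N)) :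
    mlteDeg (N * q) q hq.out.ne_zero (lrhRes N q x) = mlteBq N q x := rfl

/-- `w ξ(x, y, z) = ξ(w z, w y, w x)` -/
theorem mlte_W_xi (x y z : ↥(tdmL N)) :
    mlteW (N * q * q) (mlteXi N q x y z) = mlteXi N q (mlteW N z) (mlteW N y) (mlteW N x) := by
  unfold mlteXi
  rw [map_add, map_add]
  have e1 : mlteW (N * q * q) (mlteB1 N q x) = mlteBqq N q (mlteW N x) := by
    show mlteW (N * q * q) (lrhRes (N * q) q (lrhRes N q x)) = _
    rw [mlte_w2_r2, mlte_w1_r1]
    rfl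
  have e2 : mlteW (N * q * q) (mlteBq N q y) = mlteBq N q (mlteW N y) := by
    show mlteW (N * q * q) (lrhRes (N * q) q (mlteDeg N q hq.out.ne_zero y)) = _
    rw [mlte_w2_r2, mlte_w1_d1, mlte_d2_r1]
  have e3 : mlteW (N * q * q) (mlteBqq N q z) = mlteB1 N q (mlteW N z) := by
    show mlteW (N * q * q) (mlteDeg (N * q) q hq.out.ne_zero (mlteDeg N q hq.out.ne_zero z)) = _
    rw [mlte_w2_d2, mlte_w1_d1]
    rfl
  rw [e1, e2, e3]
  abel

/-- `c_q(T_q) = (q - 1) ((q + 1)² - T_q²)` on `L_N` -/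
def mlteCq : ↥(tdmL N) →ₗ[ℤ] ↥(tdmL N) :=
  ((q : ℤ) - 1) • ((((q : ℤ) + 1) ^ 2) • LinearMap.id
    - (lrhT N q hq.out h).comp (lrhT N q hq.out h))

theorem mlteCq_apply (y : ↥(tdmL N)) :
    mlteCq N q h y = ((q : ℤ) - 1) • ((((q : ℤ) + 1) ^ 2) • y
      - lrhT N q hq.out h (lrhT N q hq.out h y)) := rfl

/-- the Poincaré Gram of `ξ_v` against `ξ(y, -T y, q y)` -/
theorem mlte_gram_V (x y : ↥(tdmL N)) :
    lrdBN (N * q * q) (mlteXiV N q h x)
        (mlteXi N q y (-(lrhT N q hq.out h y)) ((q : ℤ) • y))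
      = lrdBN N x (mlteCq N q h y) := by
  have hG := mlte_gram N q h ![(q : ℤ) • x, -(lrhT N q hq.out h x), x]
    ![y, -(lrhT N q hq.out h y), (q : ℤ) • y]
  have e1 : mlteXi3 N q ![(q : ℤ) • x, -(lrhT N q hq.out h x), x] = mlteXiV N q h x := rfl
  have e2 : mlteXi3 N q ![y, -(lrhT N q hq.out h y), (q : ℤ) • y]
      = mlteXi N q y (-(lrhT N q hq.out h y)) ((q : ℤ) • y) := rfl
  rw [e1, e2] at hG
  rw [hG, Fin.sum_univ_three, Fin.sum_univ_three, Fin.sum_univ_three, Fin.sum_univ_three]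
  have g00 : ∀ x, mlteGramEntry N q h 0 0 x = ((q : ℤ) * ((q : ℤ) + 1)) • x := fun x => rfl
  have g11 : ∀ x, mlteGramEntry N q h 1 1 x = ((q : ℤ) * ((q : ℤ) + 1)) • x := fun x => rfl
  have g22 : ∀ x, mlteGramEntry N q h 2 2 x = ((q : ℤ) * ((q : ℤ) + 1)) • x := fun x => rfl
  have g01 : ∀ x, mlteGramEntry N q h 0 1 x = (q : ℤ) • lrhT N q hq.out h x := fun x => rfl
  have g10 : ∀ x, mlteGramEntry N q h 1 0 x = (q : ℤ) • lrhT N q hq.out h x := fun x => rfl
  have g12 : ∀ x, mlteGramEntry N q h 1 2 x = (q : ℤ) • lrhT N q hq.out h x := fun x => rfl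
  have g21 : ∀ x, mlteGramEntry N q h 2 1 x = (q : ℤ) • lrhT N q hq.out h x := fun x => rfl
  have g02 : ∀ x, mlteGramEntry N q h 0 2 x
      = lrhT N q hq.out h (lrhT N q hq.out h x) - ((q : ℤ) + 1) • x := fun x => rfl
  have g20 : ∀ x, mlteGramEntry N q h 2 0 x
      = lrhT N q hq.out h (lrhT N q hq.out h x) - ((q : ℤ) + 1) • x := fun x => rfl
  rw [g00, g11, g22, g01, g10, g12, g21, g02, g20]
  simp only [Matrix.cons_val_zero, Matrix.cons_val_one, Matrix.cons_val_two, Matrix.head_cons,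
    Matrix.tail_cons]
  -- move everything to the second argument
  set T := lrhT N q hq.out h with hT
  have hsa : ∀ u v, lrdBN N (T u) v = lrdBN N u (T v) := mlte_lrdBN_T_selfadj N q h
  rw [mlteCq_apply]
  simp only [map_neg, map_smul, map_sub, map_add, LinearMap.neg_apply, LinearMap.smul_apply,
    LinearMap.sub_apply, LinearMap.add_apply, hsa, smul_eq_mul]
  ring

theorem mlteCq_W (y : ↥(tdmL N)) : mlteCq N q h (mlteW N y) = mlteW N (mlteCq N q h y) := by
  rw [mlteCq_apply, mlteCq_apply, mlte_T_w N q h, mlte_T_w N q h]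
  simp only [map_smul, map_sub]

/-- **the twisted Gram value**: `[ξ_v x, ξ_v y]_{N q q} = [x, c_q(T_q) y]_N` -/
theorem mltePairZ_xiV (x y : ↥(tdmL N)) :
    mltePairZ (N * q * q) (mlteXiV N q h x) (mlteXiV N q h y)
      = mltePairZ N x (mlteCq N q h y) := by
  rw [mltePairZ_apply, mltePairZ_apply]
  have e : mlteW (N * q * q) (mlteXiV N q h y)
      = mlteXi N q (mlteW N y) (-(lrhT N q hq.out h (mlteW N y))) ((q : ℤ) • mlteW N y) := by
    unfold mlteXiV
    rw [mlte_W_xi, map_neg, map_smul, mlte_T_w N q h]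
  rw [e, mlte_gram_V, mlteCq_W]

end GV

end

end Fermat.Agent.MLT
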