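/-
MLT / stream Eta (helper1): **the twisted Poincaré pairing with coefficients in `O`**.

`O` a domain of characteristic zero.  Through `tdmBC M O : O ⊗ L_M ≃ Hom_par(Γ₀(M), O)` the twisted
pairing `mltePairZ M` gives `mltePairO O M`, a skew, unimodular `O`-bilinear form on
`Ih4H O O M = Hom_par(Γ₀(M), O)`, for which all the Hecke operators `ih4Op O M ℓ` are self-adjoint.

* generic base change lemmas `mlte_bc_form`, `mlte_bc_skew`, `mlte_bc_unimodular`;
* `mltePairO O M`, `mltePairO_skew`, `mltePairO_unimodular`, `mltePairO_op`;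
* `mlteXiVO O N q h : Ih4H O O N →ₗ[O] Ih4H O O (N q q)`, `x ↦ ξ(q x, -T_q x, x)`, and
  `mltePairO_xiV : [ξ_v x, ξ_v y]_{N q q} = [x, c_q(T_q) y]_N`.
-/
import Mathlib
import Fermat.Agent.Lib.MLT.Eta.UqLat
import Fermat.Agent.Lib.Ihara.H4.TwBetti

set_option autoImplicit false
set_option linter.unusedSectionVars false
set_option linter.unusedVariables false
set_option linter.style.haveILetI false

open Matrix MatrixGroups CongruenceSubgroup Fermat.Agent.T1 Fermat.Agent.T2 ModularCurve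
  ModularCurve.Period Fermat.Agent.LR Fermat.Agent.Ihara TensorProduct

namespace Fermat.Agent.MLT

noncomputable section

/-! ### Generic base change of bilinear forms -/

section BC

variable (O : Type*) [CommRing O] {L L' : Type*} [AddCommGroup L] [AddCommGroup L']

/-- an identity `B'(f x, f' y) = B(x, g y)` survives base change -/
theorem mlte_bc_form (B : LinearMap.BilinForm ℤ L) (B' : LinearMap.BilinForm ℤ L')
    (f f' : L →ₗ[ℤ] L') (g : L →ₗ[ℤ] L) (h : ∀ x y, B' (f x) (f' y) = B x (g y))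
    (s t : O ⊗[ℤ] L) :
    B'.baseChange O (f.baseChange O s) (f'.baseChange O t)
      = B.baseChange O s (g.baseChange O t) := by
  induction s using TensorProduct.induction_on with
  | zero => simp
  | add s₁ s₂ h₁ h₂ => rw [map_add, map_add, LinearMap.add_apply, map_add, LinearMap.add_apply,
      h₁, h₂]
  | tmul a x =>
    induction t using TensorProduct.induction_on with
    | zero => simp
    | add t₁ t₂ h₁ h₂ => rw [map_add, map_add, map_add, map_add, h₁, h₂]
    | tmul b y =>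
      rw [LinearMap.baseChange_tmul, LinearMap.baseChange_tmul, LinearMap.baseChange_tmul,
        LinearMap.BilinForm.baseChange_tmul, LinearMap.BilinForm.baseChange_tmul, h]

/-- skew-symmetry survives base change -/
theorem mlte_bc_skew (B : LinearMap.BilinForm ℤ L) (h : ∀ x y, B x y = -B y x)
    (s t : O ⊗[ℤ] L) : B.baseChange O s t = -B.baseChange O t s := by
  induction s using TensorProduct.induction_on with
  | zero => simp
  | add s₁ s₂ h₁ h₂ => rw [map_add, LinearMap.add_apply, map_add, h₁, h₂, neg_add]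
  | tmul a x =>
    induction t using TensorProduct.induction_on with
    | zero => simp
    | add t₁ t₂ h₁ h₂ => rw [map_add, map_add, LinearMap.add_apply, h₁, h₂, neg_add]
    | tmul b y =>
      rw [LinearMap.BilinForm.baseChange_tmul, LinearMap.BilinForm.baseChange_tmul, h x y,
        neg_smul, mul_comm]

/-- right-unimodularity survives base change -/
theorem mlte_bc_unimodular [Module.Free ℤ L] [Module.Finite ℤ L] (B : LinearMap.BilinForm ℤ L)
    (h : ∀ f : L →ₗ[ℤ] ℤ, ∃ m, ∀ y, B y m = f y) (F : O ⊗[ℤ] L →ₗ[O] O) :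
    ∃ m, ∀ y, B.baseChange O y m = F y := by
  classical
  let b := Module.Free.chooseBasis ℤ L
  choose m hm using fun i => h (b.coord i)
  refine ⟨∑ i, F (1 ⊗ₜ[ℤ] b i) ⊗ₜ[ℤ] m i, fun y => ?_⟩
  have key : LinearMap.flip (B.baseChange O) (∑ i, F (1 ⊗ₜ[ℤ] b i) ⊗ₜ[ℤ] m i) = F := by
    refine (Algebra.TensorProduct.basis O b).ext fun j => ?_
    rw [Algebra.TensorProduct.basis_apply, LinearMap.flip_apply, map_sum]
    have : ∀ i, B.baseChange O (1 ⊗ₜ[ℤ] b j) (F (1 ⊗ₜ[ℤ] b i) ⊗ₜ[ℤ] m i)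
        = if i = j then F (1 ⊗ₜ[ℤ] b j) else 0 := by
      intro i
      rw [LinearMap.BilinForm.baseChange_tmul, hm, Module.Basis.coord_apply,
        Module.Basis.repr_self, Finsupp.single_apply]
      by_cases hij : j = i
      · subst hij; simp
      · rw [if_neg hij, if_neg (Ne.symm hij), zero_smul]
    rw [Finset.sum_congr rfl fun i _ => this i, Finset.sum_ite_eq' Finset.univ j]
    simp
  have := LinearMap.congr_fun key y
  rwa [LinearMap.flip_apply] at this

end BC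

/-! ### The pairing on `Hom_par(Γ₀(M), O)` -/

section Pair

variable (O : Type*) [CommRing O] [IsDomain O] [CharZero O] (M : ℕ) [NeZero M]

/-- the two-level version of `tdmBCmap_baseChange` -/
theorem mlte_tdmBC_baseChange (M' : ℕ) [NeZero M'] (s : ↥(tdmL M) →ₗ[ℤ] ↥(tdmL M'))
    (sO : Ih4H O O M →ₗ[O] Ih4H O O M')
    (h : ∀ φ : ↥(tdmL M), sO (tdmCastL M O φ) = tdmCastL M' O (s φ)) (x : O ⊗[ℤ] ↥(tdmL M)) :
    tdmBC M' O (s.baseChange O x) = sO (tdmBC M O x) := by
  induction x using TensorProduct.induction_on with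
  | zero => simp
  | tmul a φ =>
    rw [LinearMap.baseChange_tmul, tdmBC_tmul, tdmBC_tmul, map_smul, h]
  | add x y hx hy => rw [map_add, map_add, hx, hy, map_add, map_add]

/-- the twisted pairing on `O ⊗ L_M` -/
def mltePairT : LinearMap.BilinForm O (O ⊗[ℤ] ↥(tdmL M)) :=
  LinearMap.BilinForm.baseChange O (mltePairZ M)

/-- **the twisted pairing** on `Hom_par(Γ₀(M), O)` -/
def mltePairO : LinearMap.BilinForm O (Ih4H O O M) :=
  LinearMap.BilinForm.congr (tdmBC M O) (mltePairT O M)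

theorem mltePairO_bc (s t : O ⊗[ℤ] ↥(tdmL M)) :
    mltePairO O M (tdmBC M O s) (tdmBC M O t) = mltePairT O M s t := by
  unfold mltePairO
  rw [LinearMap.BilinForm.congr_apply, LinearEquiv.symm_apply_apply, LinearEquiv.symm_apply_apply]

theorem mltePairZ_unimodular_right (f : ↥(tdmL M) →ₗ[ℤ] ℤ) :
    ∃ m, ∀ y, mltePairZ M y m = f y := by
  obtain ⟨x, hx⟩ := mltePairZ_unimodular M f
  refine ⟨-x, fun y => ?_⟩
  rw [map_neg, mltePairZ_skew M y x, neg_neg, hx]

theorem mltePairO_skew (x y : Ih4H O O M) : mltePairO O M x y = -mltePairO O M y x := by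
  obtain ⟨s, rfl⟩ := (tdmBC M O).surjective x
  obtain ⟨t, rfl⟩ := (tdmBC M O).surjective y
  rw [mltePairO_bc, mltePairO_bc]
  exact mlte_bc_skew O (mltePairZ M) (mltePairZ_skew M) s t

/-- the pairing is (right-)unimodular -/
theorem mltePairO_unimodular (F : Ih4H O O M →ₗ[O] O) : ∃ m, ∀ y, mltePairO O M y m = F y := by
  obtain ⟨m, hm⟩ := mlte_bc_unimodular O (mltePairZ M) (mltePairZ_unimodular_right M)
    (F.comp (tdmBC M O).toLinearMap)
  refine ⟨tdmBC M O m, fun y => ?_⟩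
  obtain ⟨s, rfl⟩ := (tdmBC M O).surjective y
  rw [mltePairO_bc]
  exact hm s

/-- the pairing is non-degenerate -/
theorem mltePairO_nondeg (m : Ih4H O O M) (hm : ∀ y, mltePairO O M y m = 0) : m = 0 := by
  classical
  obtain ⟨t, rfl⟩ := (tdmBC M O).surjective m
  suffices t = 0 by rw [this, map_zero]
  -- coordinates in a basis of `O ⊗ L`
  let b := Algebra.TensorProduct.basis O (Module.Free.chooseBasis ℤ ↥(tdmL M))
  apply b.ext_elem
  intro i
  obtain ⟨m', hm'⟩ := mlte_bc_unimodular O (mltePairZ M) (mltePairZ_unimodular_right M)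
    (b.coord i)
  -- use skew-symmetry to move `t` to the left
  obtain ⟨m'', hm''⟩ : ∃ m'', ∀ y, mltePairT O M m'' y = b.coord i y := by
    refine ⟨-m', fun y => ?_⟩
    have := mlte_bc_skew O (mltePairZ M) (mltePairZ_skew M) m' y
    unfold mltePairT
    rw [map_neg, LinearMap.neg_apply, this, neg_neg]
    exact hm' y
  have h1 := hm (tdmBC M O m'')
  rw [mltePairO_bc, hm''] at h1
  rw [map_zero, Finsupp.coe_zero, Pi.zero_apply]
  exact h1

/-- transport of an adjunction from the lattice to `O`-coefficients -/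
theorem mltePairO_adj (s s' : ↥(tdmL M) →ₗ[ℤ] ↥(tdmL M))
    (sO sO' : Ih4H O O M →ₗ[O] Ih4H O O M)
    (h : ∀ φ : ↥(tdmL M), sO (tdmCastL M O φ) = tdmCastL M O (s φ))
    (h' : ∀ φ : ↥(tdmL M), sO' (tdmCastL M O φ) = tdmCastL M O (s' φ))
    (hadj : ∀ x y, mltePairZ M (s x) y = mltePairZ M x (s' y)) (x y : Ih4H O O M) :
    mltePairO O M (sO x) y = mltePairO O M x (sO' y) := by
  obtain ⟨a, rfl⟩ := (tdmBC M O).surjective x
  obtain ⟨b, rfl⟩ := (tdmBC M O).surjective y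
  rw [← mlte_tdmBC_baseChange O M M s sO h, ← mlte_tdmBC_baseChange O M M s' sO' h',
    mltePairO_bc, mltePairO_bc]
  have := mlte_bc_form O (mltePairZ M) (mltePairZ M) s LinearMap.id s' hadj a b
  rw [LinearMap.baseChange_id, LinearMap.id_apply] at this
  exact this

theorem mlte_homPar_castL {ι : Type} [Fintype ι] (S : tdmCosetSys (Gamma0 M) ι)
    (φ : ↥(tdmL M)) : S.homPar O O (tdmCastL M O φ) = tdmCastL M O (S.homPar ℤ ℤ φ) := by
  apply Subtype.ext
  rw [tdmCosetSys.homPar_coe, tdmCastL_coe, tdmCastL_coe, tdmCosetSys.homPar_coe]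
  exact S.hom_comp (Int.castAddHom O) φ.1

/-- `T_ℓ` is self-adjoint -/
theorem mltePairO_T (ℓ : ℕ) (hℓ : ℓ.Prime) (h : ¬ ℓ ∣ M) (x y : Ih4H O O M) :
    mltePairO O M (ih4T O O M ℓ hℓ h x) y = mltePairO O M x (ih4T O O M ℓ hℓ h y) := by
  haveI : Fact ℓ.Prime := ⟨hℓ⟩
  exact mltePairO_adj O M (lrhT M ℓ hℓ h) (lrhT M ℓ hℓ h) _ _
    (mlte_homPar_castL O M _) (mlte_homPar_castL O M _) (mltePairZ_T M ℓ h) x y

/-- `U_s` is self-adjoint -/
theorem mltePairO_U (s : ℕ) (hs : s ∣ M) (hs0 : s ≠ 0) (x y : Ih4H O O M) :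
    mltePairO O M (ih4U O O M s hs hs0 x) y = mltePairO O M x (ih4U O O M s hs hs0 y) := by
  haveI : NeZero s := ⟨hs0⟩
  exact mltePairO_adj O M (lrhU M s hs hs0) (lrhU M s hs hs0) _ _
    (mlte_homPar_castL O M _) (mlte_homPar_castL O M _) (mltePairZ_U M s hs) x y

/-- **all the Hecke operators are self-adjoint** -/
theorem mltePairO_op (ℓ : ℕ) (x y : Ih4H O O M) :
    mltePairO O M (ih4Op O M ℓ x) y = mltePairO O M x (ih4Op O M ℓ y) := by
  by_cases hℓ : ℓ.Prime
  swap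
  · rw [ih4Op_of_not_prime O M hℓ]; simp
  by_cases h1 : ℓ ∣ M
  · rw [ih4Op_of_dvd O M hℓ h1]
    exact mltePairO_U O M ℓ h1 hℓ.ne_zero x y
  · rw [ih4Op_of_not_dvd O M hℓ h1]
    exact mltePairO_T O M ℓ hℓ h1 x y

end Pair

/-! ### The map `ξ_v` with coefficients in `O` -/

section XiV

/-- the second degeneracy map on parabolic homomorphisms -/
def mlteDegPar (M q : ℕ) (hq : q ≠ 0) (R : Type*) [Semiring R] (A : Type*) [AddCommGroup A]
    [Module R A] : ↥(parabolicHoms R (Gamma0 M) A) →ₗ[R] ↥(parabolicHoms R (Gamma0 (M * q)) A) where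
  toFun φ := ⟨mlteDegHom M q hq A φ.1, mlteDegHom_parabolic M q hq φ.2⟩
  map_add' _ _ := rfl
  map_smul' _ _ := rfl

@[simp] theorem mlteDegPar_coe (M q : ℕ) (hq : q ≠ 0) (R : Type*) [Semiring R] (A : Type*)
    [AddCommGroup A] [Module R A] (φ : ↥(parabolicHoms R (Gamma0 M) A)) :
    ((mlteDegPar M q hq R A φ : ↥(parabolicHoms R (Gamma0 (M * q)) A)) :
      Additive (Gamma0 (M * q)) →+ A) = mlteDegHom M q hq A φ.1 := rfl

variable (O : Type*) [CommRing O] (N q : ℕ) [NeZero N] [hq : Fact q.Prime] (h : ¬ q ∣ N)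

/-- `ξ_v = q B_1 - B_q T_q + B_{q²}` on the lattice, as a linear map -/
def mlteXiVL : ↥(tdmL N) →ₗ[ℤ] ↥(tdmL (N * q * q)) :=
  (q : ℤ) • mlteB1 N q - (mlteBq N q).comp (lrhT N q hq.out h) + mlteBqq N q

theorem mlteXiVL_apply (x : ↥(tdmL N)) : mlteXiVL N q h x = mlteXiV N q h x := by
  unfold mlteXiVL mlteXiV mlteXi
  simp only [LinearMap.add_apply, LinearMap.sub_apply, LinearMap.smul_apply, LinearMap.comp_apply,
    map_smul, map_neg]
  abel

/-- `ξ_v = q B_1 - B_q T_q + B_{q²}` on `Hom_par(Γ₀(N), O)` -/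
def mlteXiVO : Ih4H O O N →ₗ[O] Ih4H O O (N * q * q) :=
  ((q : ℕ) : O) • (t2fResPar (t2f5_Gamma0_le (N * q) q) O O).comp
      (t2fResPar (t2f5_Gamma0_le N q) O O)
    - ((t2fResPar (t2f5_Gamma0_le (N * q) q) O O).comp
        (mlteDegPar N q hq.out.ne_zero O O)).comp (ih4T O O N q hq.out h)
    + (mlteDegPar (N * q) q hq.out.ne_zero O O).comp (mlteDegPar N q hq.out.ne_zero O O)

theorem mlteXiVO_coe (x : Ih4H O O N) :
    ((mlteXiVO O N q h x : Ih4H O O (N * q * q)) : Additive (Gamma0 (N * q * q)) →+ O)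
      = mlteXiHom N q O (q • x.1) (-((tdmSysT N q hq.out h).hom O x.1)) x.1 := by
  unfold mlteXiVO mlteXiHom
  simp only [LinearMap.add_apply, LinearMap.sub_apply, LinearMap.smul_apply, LinearMap.comp_apply,
    Submodule.coe_add, Submodule.coe_sub, AddSubmonoidClass.coe_nsmul, t2fResPar_coe,
    mlteDegPar_coe, tdmCosetSys.homPar_coe, map_neg, map_nsmul, Nat.cast_smul_eq_nsmul]
  abel

end XiV

/-! ### The Gram value with coefficients in `O` -/

section GV

variable (O : Type*) [CommRing O] [IsDomain O] [CharZero O]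
  (N q : ℕ) [NeZero N] [hq : Fact q.Prime] (h : ¬ q ∣ N)

theorem mlteXiVO_castL (φ : ↥(tdmL N)) :
    mlteXiVO O N q h (tdmCastL N O φ) = tdmCastL (N * q * q) O (mlteXiVL N q h φ) := by
  apply Subtype.ext
  rw [mlteXiVO_coe, tdmCastL_coe, tdmCastL_coe, mlteXiVL_apply]
  show _ = (Int.castAddHom O).comp
    ((mlteXiV N q h φ : ↥(tdmL (N * q * q))) : Additive (Gamma0 (N * q * q)) →+ ℤ)
  rw [mlteXiV_coe, ← mlteXiHom_comp]
  have e1 : q • tdmCastHom N O φ.1 = (Int.castAddHom O).comp (q • φ.1) := by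
    refine AddMonoidHom.ext fun γ => ?_
    simp
  have e2 : -((tdmSysT N q hq.out h).hom O (tdmCastHom N O φ.1))
      = (Int.castAddHom O).comp (-((tdmSysT N q hq.out h).hom ℤ φ.1)) := by
    have := (tdmSysT N q hq.out h).hom_comp (Int.castAddHom O) φ.1
    refine AddMonoidHom.ext fun γ => ?_
    have h2 := DFunLike.congr_fun this γ
    simp only [AddMonoidHom.neg_apply, AddMonoidHom.comp_apply, map_neg] at h2 ⊢
    rw [← h2]
    rfl
  rw [e1, e2]
  rfl

theorem mlteXiVO_bc (t : O ⊗[ℤ] ↥(tdmL N)) :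
    tdmBC (N * q * q) O ((mlteXiVL N q h).baseChange O t) = mlteXiVO O N q h (tdmBC N O t) :=
  mlte_tdmBC_baseChange O N (N * q * q) _ _ (mlteXiVO_castL O N q h) t

/-- `c_q(T_q) = (q - 1) ((q + 1)² - T_q²)` on `Hom_par(Γ₀(N), O)` -/
def mlteCqO : Ih4H O O N →ₗ[O] Ih4H O O N :=
  ((((q : ℕ) : O)) - 1) • (((((q : ℕ) : O)) + 1) ^ 2 • LinearMap.id
    - (ih4T O O N q hq.out h).comp (ih4T O O N q hq.out h))

theorem mlteCqO_apply (y : Ih4H O O N) :
    mlteCqO O N q h y = ((((q : ℕ) : O)) - 1) • (((((q : ℕ) : O)) + 1) ^ 2 • y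
      - ih4T O O N q hq.out h (ih4T O O N q hq.out h y)) := rfl

theorem mlteCqO_castL (φ : ↥(tdmL N)) :
    mlteCqO O N q h (tdmCastL N O φ) = tdmCastL N O (mlteCq N q h φ) := by
  have e1 : ∀ (z : ℤ) (v : Ih4H O O N), z • v = ((z : ℤ) : O) • v :=
    fun z v => (Int.cast_smul_eq_zsmul O z v).symm
  rw [mlteCqO_apply, mlteCq_apply, mlte_homPar_castL, mlte_homPar_castL, map_zsmul, map_sub,
    map_zsmul, e1, e1]
  push_cast
  rfl

theorem mlteCqO_bc (t : O ⊗[ℤ] ↥(tdmL N)) :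
    tdmBC N O ((mlteCq N q h).baseChange O t) = mlteCqO O N q h (tdmBC N O t) :=
  mlte_tdmBC_baseChange O N N _ _ (mlteCqO_castL O N q h) t

/-- **the Gram value**: `[ξ_v x, ξ_v y]_{N q q} = [x, c_q(T_q) y]_N` -/
theorem mltePairO_xiV (x y : Ih4H O O N) :
    mltePairO O (N * q * q) (mlteXiVO O N q h x) (mlteXiVO O N q h y)
      = mltePairO O N x (mlteCqO O N q h y) := by
  obtain ⟨a, rfl⟩ := (tdmBC N O).surjective x
  obtain ⟨b, rfl⟩ := (tdmBC N O).surjective y
  rw [← mlteXiVO_bc, ← mlteXiVO_bc, ← mlteCqO_bc, mltePairO_bc, mltePairO_bc]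
  refine mlte_bc_form O (mltePairZ N) (mltePairZ (N * q * q)) (mlteXiVL N q h) (mlteXiVL N q h)
    (mlteCq N q h) (fun x y => ?_) a b
  rw [mlteXiVL_apply, mlteXiVL_apply]
  exact mltePairZ_xiV N q h x y

end GV

/-! ### Hecke equivariance of `ξ_v` with coefficients in `O` -/

section Equivariance

variable (O : Type*) [CommRing O] [IsDomain O] [CharZero O]
  (N q : ℕ) [NeZero N] [hq : Fact q.Prime] (h : ¬ q ∣ N)

/-- **`U_q ξ_v = 0`** -/
theorem mlteXiVO_Uq (x : Ih4H O O N) : ih4Op O (N * q * q) q (mlteXiVO O N q h x) = 0 := by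
  rw [ih4Op_of_dvd O (N * q * q) hq.out (Dvd.intro_left (N * q) rfl)]
  apply Subtype.ext
  rw [tdmCosetSys.homPar_coe, mlteXiVO_coe]
  exact mlte_Uq_xiV N q h x.1

/-- **`ξ_v` commutes with the Hecke operators away from `q`** -/
theorem mlteXiVO_op (ℓ : ℕ) (hℓq : ℓ ≠ q) (x : Ih4H O O N) :
    ih4Op O (N * q * q) ℓ (mlteXiVO O N q h x) = mlteXiVO O N q h (ih4Op O N ℓ x) := by
  by_cases hℓ : ℓ.Prime
  swap
  · rw [ih4Op_of_not_prime O N hℓ, ih4Op_of_not_prime O (N * q * q) hℓ]; simp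
  have hcomm := LinearMap.congr_fun (ih4Op_commute O N ℓ q).eq x
  rw [Module.End.mul_apply, Module.End.mul_apply, ih4Op_of_not_dvd O N hq.out h] at hcomm
  by_cases h1 : ℓ ∣ N
  · have h2 : ℓ ∣ N * q * q := Dvd.dvd.mul_right (Dvd.dvd.mul_right h1 q) q
    rw [ih4Op_of_dvd O N hℓ h1] at hcomm ⊢
    rw [ih4Op_of_dvd O (N * q * q) hℓ h2]
    apply Subtype.ext
    rw [tdmCosetSys.homPar_coe, mlteXiVO_coe, mlteXiVO_coe, mlte_U_xi N q h ℓ hℓ h1, map_nsmul,
      map_neg]
    have hc := congrArg Subtype.val hcomm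
    rw [tdmCosetSys.homPar_coe, tdmCosetSys.homPar_coe, tdmCosetSys.homPar_coe,
      tdmCosetSys.homPar_coe] at hc
    rw [tdmCosetSys.homPar_coe, hc]
  · have h2 : ¬ ℓ ∣ N * q * q :=
      mlte_not_dvd_mul (N * q) q hℓ (mlte_not_dvd_mul N q hℓ h1 hℓq) hℓq
    rw [ih4Op_of_not_dvd O N hℓ h1] at hcomm ⊢
    rw [ih4Op_of_not_dvd O (N * q * q) hℓ h2]
    apply Subtype.ext
    rw [tdmCosetSys.homPar_coe, mlteXiVO_coe, mlteXiVO_coe, mlte_T_xi N q ℓ hℓ h1 hℓq, map_nsmul,
      map_neg]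
    have hc := congrArg Subtype.val hcomm
    rw [tdmCosetSys.homPar_coe, tdmCosetSys.homPar_coe, tdmCosetSys.homPar_coe,
      tdmCosetSys.homPar_coe] at hc
    rw [tdmCosetSys.homPar_coe, hc]

end Equivariance

end

end Fermat.Agent.MLT
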