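/-
MLT / stream Eta (helper1): **the two-level Gram matrix** (levels `N`, `N q`, `q ∤ N` any prime) of the
two degeneracy maps for the twisted pairing, and the map `j_λ = Deg - λ res` (the `U_q`-eigenvector of
eigenvalue `λ` attached to a `T_q`-eigenvector, `λ² - a_q λ + q = 0`).

* `mltePairZ_r_r … mltePairZ_d_d` : `[r x, r y] = [d x, d y] = [x, T_q y]`,
  `[r x, d y] = [d x, r y] = (q + 1) [x, y]` on the lattices;
* `mlteResO`, `mlteDegO`, `mltePairO_r_r … mltePairO_d_d` : the same with coefficients in `O`;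
* `mlteJLam O N q lam = Deg - lam • res`, `mlteJLam_Uq` (`U_q j_λ x = λ j_λ x`), `mlteJLam_op`,
  `mltePairO_jLam` : `[j_λ x, j_λ y]_{N q} = ((1 + λ²) a_q - 2 λ (q + 1)) [x, y]_N`;
* `mlteCpVal_mul` : `λ ((1 + λ²) a_q - 2 λ (q + 1)) = (λ² - 1)(λ² - q)`.
-/
import Mathlib
import Fermat.Agent.Lib.MLT.Eta.PairO
import Fermat.Agent.Lib.MLT.Eta.Gram

set_option autoImplicit false
set_option linter.unusedSectionVars false
set_option linter.unusedVariables false
set_option linter.style.haveILetI false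

open Matrix MatrixGroups CongruenceSubgroup Fermat.Agent.T1 Fermat.Agent.T2 ModularCurve
  ModularCurve.Period Fermat.Agent.LR Fermat.Agent.Ihara TensorProduct

namespace Fermat.Agent.MLT

noncomputable section

/-! ### The lattice identities -/

section Lattice

variable (N q : ℕ) [NeZero N] [hq : Fact q.Prime] (h : ¬ q ∣ N)

theorem mltePairZ_r_r (x y : ↥(tdmL N)) :
    mltePairZ (N * q) (lrhRes N q x) (lrhRes N q y)
      = mltePairZ N x (lrhT N q hq.out h y) := by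
  rw [mltePairZ_apply, mltePairZ_apply, mlte_w1_r1, mlte_adj_r1 N q h, mlte_c1_d1 N q h,
    mlte_T_w N q h]

include h in
theorem mltePairZ_r_d (x y : ↥(tdmL N)) :
    mltePairZ (N * q) (lrhRes N q x) (mlteDeg N q hq.out.ne_zero y)
      = ((q : ℤ) + 1) * mltePairZ N x y := by
  rw [mltePairZ_apply, mltePairZ_apply, mlte_w1_d1, mlte_adj_r1 N q h, mlte_c1_r1 N q h,
    map_smul, smul_eq_mul]

include h in
theorem mltePairZ_d_r (x y : ↥(tdmL N)) :
    mltePairZ (N * q) (mlteDeg N q hq.out.ne_zero x) (lrhRes N q y)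
      = ((q : ℤ) + 1) * mltePairZ N x y := by
  rw [mltePairZ_apply, mltePairZ_apply, mlte_w1_r1, mlte_adj_d1 N q h, mlte_w1_d1,
    mlteWPar_invol, mlte_c1_r1 N q h, map_smul, map_smul, smul_eq_mul]

theorem mltePairZ_d_d (x y : ↥(tdmL N)) :
    mltePairZ (N * q) (mlteDeg N q hq.out.ne_zero x) (mlteDeg N q hq.out.ne_zero y)
      = mltePairZ N x (lrhT N q hq.out h y) := by
  rw [mltePairZ_apply, mltePairZ_apply, mlte_w1_d1, mlte_adj_d1 N q h, mlte_w1_r1,
    mlteWPar_invol, mlte_c1_d1 N q h]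

end Lattice

/-! ### Coefficients in `O` -/

section CoeffO

variable (O : Type*) [CommRing O] (N q : ℕ) [NeZero N] [hq : Fact q.Prime] (h : ¬ q ∣ N)

/-- restriction `Hom_par(Γ₀(N), O) → Hom_par(Γ₀(N q), O)` -/
def mlteResO : Ih4H O O N →ₗ[O] Ih4H O O (N * q) := t2fResPar (t2f5_Gamma0_le N q) O O

/-- the second degeneracy map `Hom_par(Γ₀(N), O) → Hom_par(Γ₀(N q), O)` -/
def mlteDegO : Ih4H O O N →ₗ[O] Ih4H O O (N * q) := mlteDegPar N q hq.out.ne_zero O O

theorem mlteResO_coe (x : Ih4H O O N) :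
    ((mlteResO O N q x : Ih4H O O (N * q)) : Additive (Gamma0 (N * q)) →+ O)
      = t2fRes (t2f5_Gamma0_le N q) O x.1 := rfl

theorem mlteDegO_coe (x : Ih4H O O N) :
    ((mlteDegO O N q x : Ih4H O O (N * q)) : Additive (Gamma0 (N * q)) →+ O)
      = mlteDegHom N q hq.out.ne_zero O x.1 := rfl

theorem mlteResO_castL (φ : ↥(tdmL N)) :
    mlteResO O N q (tdmCastL N O φ) = tdmCastL (N * q) O (lrhRes N q φ) := rfl

theorem mlteDegO_castL (φ : ↥(tdmL N)) :
    mlteDegO O N q (tdmCastL N O φ) = tdmCastL (N * q) O (mlteDeg N q hq.out.ne_zero φ) := rfl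

end CoeffO

section GramO

variable (O : Type*) [CommRing O] [IsDomain O] [CharZero O]
  (N q : ℕ) [NeZero N] [hq : Fact q.Prime] (h : ¬ q ∣ N)

theorem mlteResO_bc (t : O ⊗[ℤ] ↥(tdmL N)) :
    tdmBC (N * q) O ((lrhRes N q).baseChange O t) = mlteResO O N q (tdmBC N O t) :=
  mlte_tdmBC_baseChange O N (N * q) _ _ (mlteResO_castL O N q) t

theorem mlteDegO_bc (t : O ⊗[ℤ] ↥(tdmL N)) :
    tdmBC (N * q) O ((mlteDeg N q hq.out.ne_zero).baseChange O t) = mlteDegO O N q (tdmBC N O t) :=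
  mlte_tdmBC_baseChange O N (N * q) _ _ (mlteDegO_castL O N q) t

theorem mlteTO_bc (t : O ⊗[ℤ] ↥(tdmL N)) :
    tdmBC N O ((lrhT N q hq.out h).baseChange O t) = ih4T O O N q hq.out h (tdmBC N O t) :=
  mlte_tdmBC_baseChange O N N _ _ (mlte_homPar_castL O N _) t

theorem mltePairO_r_r (x y : Ih4H O O N) :
    mltePairO O (N * q) (mlteResO O N q x) (mlteResO O N q y)
      = mltePairO O N x (ih4T O O N q hq.out h y) := by
  obtain ⟨a, rfl⟩ := (tdmBC N O).surjective x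
  obtain ⟨b, rfl⟩ := (tdmBC N O).surjective y
  rw [← mlteResO_bc, ← mlteResO_bc, ← mlteTO_bc O N q h, mltePairO_bc, mltePairO_bc]
  exact mlte_bc_form O (mltePairZ N) (mltePairZ (N * q)) (lrhRes N q) (lrhRes N q)
    (lrhT N q hq.out h) (mltePairZ_r_r N q h) a b

theorem mltePairO_d_d (x y : Ih4H O O N) :
    mltePairO O (N * q) (mlteDegO O N q x) (mlteDegO O N q y)
      = mltePairO O N x (ih4T O O N q hq.out h y) := by
  obtain ⟨a, rfl⟩ := (tdmBC N O).surjective x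
  obtain ⟨b, rfl⟩ := (tdmBC N O).surjective y
  rw [← mlteDegO_bc, ← mlteDegO_bc, ← mlteTO_bc O N q h, mltePairO_bc, mltePairO_bc]
  exact mlte_bc_form O (mltePairZ N) (mltePairZ (N * q)) (mlteDeg N q hq.out.ne_zero)
    (mlteDeg N q hq.out.ne_zero) (lrhT N q hq.out h) (mltePairZ_d_d N q h) a b

include h in
theorem mltePairO_r_d (x y : Ih4H O O N) :
    mltePairO O (N * q) (mlteResO O N q x) (mlteDegO O N q y)
      = (((q : ℕ) : O) + 1) * mltePairO O N x y := by
  obtain ⟨a, rfl⟩ := (tdmBC N O).surjective x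
  obtain ⟨b, rfl⟩ := (tdmBC N O).surjective y
  rw [← mlteResO_bc, ← mlteDegO_bc, mltePairO_bc, mltePairO_bc]
  have key := mlte_bc_form O (mltePairZ N) (mltePairZ (N * q)) (lrhRes N q)
    (mlteDeg N q hq.out.ne_zero) ((((q : ℤ) + 1)) • LinearMap.id)
    (fun x y => by
      rw [mltePairZ_r_d N q h, LinearMap.smul_apply, LinearMap.id_apply, map_smul, smul_eq_mul]) a b
  unfold mltePairT
  rw [key, LinearMap.baseChange_smul, LinearMap.baseChange_id, LinearMap.smul_apply,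
    LinearMap.id_apply, map_zsmul, zsmul_eq_mul]
  push_cast
  rfl

include h in
theorem mltePairO_d_r (x y : Ih4H O O N) :
    mltePairO O (N * q) (mlteDegO O N q x) (mlteResO O N q y)
      = (((q : ℕ) : O) + 1) * mltePairO O N x y := by
  obtain ⟨a, rfl⟩ := (tdmBC N O).surjective x
  obtain ⟨b, rfl⟩ := (tdmBC N O).surjective y
  rw [← mlteResO_bc, ← mlteDegO_bc, mltePairO_bc, mltePairO_bc]
  have key := mlte_bc_form O (mltePairZ N) (mltePairZ (N * q)) (mlteDeg N q hq.out.ne_zero)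
    (lrhRes N q) ((((q : ℤ) + 1)) • LinearMap.id)
    (fun x y => by
      rw [mltePairZ_d_r N q h, LinearMap.smul_apply, LinearMap.id_apply, map_smul, smul_eq_mul]) a b
  unfold mltePairT
  rw [key, LinearMap.baseChange_smul, LinearMap.baseChange_id, LinearMap.smul_apply,
    LinearMap.id_apply, map_zsmul, zsmul_eq_mul]
  push_cast
  rfl

end GramO

/-! ### Hecke equivariance of the two degeneracy maps -/

section Equivariance

variable (O : Type*) [CommRing O] [IsDomain O] [CharZero O]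
  (N q : ℕ) [NeZero N] [hq : Fact q.Prime] (h : ¬ q ∣ N)

/-- `U_q ∘ Deg = q · res` -/
theorem mlteDegO_Uq (x : Ih4H O O N) :
    ih4Op O (N * q) q (mlteDegO O N q x) = ((q : ℕ) : O) • mlteResO O N q x := by
  rw [ih4Op_of_dvd O (N * q) hq.out (Dvd.intro_left N rfl)]
  apply Subtype.ext
  rw [tdmCosetSys.homPar_coe, mlteDegO_coe, mlte_hom_U1_d1 N q x.1, Submodule.coe_smul,
    mlteResO_coe, Nat.cast_smul_eq_nsmul]

include h in
/-- `U_q ∘ res = res ∘ T_q - Deg` -/
theorem mlteResO_Uq (x : Ih4H O O N) :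
    ih4Op O (N * q) q (mlteResO O N q x)
      = mlteResO O N q (ih4Op O N q x) - mlteDegO O N q x := by
  rw [ih4Op_of_dvd O (N * q) hq.out (Dvd.intro_left N rfl), ih4Op_of_not_dvd O N hq.out h]
  apply Subtype.ext
  rw [tdmCosetSys.homPar_coe, mlteResO_coe, mlte_hom_U1_r1 N q h x.1, Submodule.coe_sub,
    mlteResO_coe, mlteDegO_coe, tdmCosetSys.homPar_coe]

include h in
/-- the degeneracy maps commute with the Hecke operators away from `q` -/
theorem mlteResO_op (ℓ : ℕ) (hℓq : ℓ ≠ q) (x : Ih4H O O N) :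
    ih4Op O (N * q) ℓ (mlteResO O N q x) = mlteResO O N q (ih4Op O N ℓ x) := by
  by_cases hℓ : ℓ.Prime
  swap
  · rw [ih4Op_of_not_prime O N hℓ, ih4Op_of_not_prime O (N * q) hℓ]; simp
  by_cases h1 : ℓ ∣ N
  · have h2 : ℓ ∣ N * q := Dvd.dvd.mul_right h1 q
    rw [ih4Op_of_dvd O N hℓ h1, ih4Op_of_dvd O (N * q) hℓ h2]
    apply Subtype.ext
    rw [tdmCosetSys.homPar_coe, mlteResO_coe, mlteResO_coe, tdmCosetSys.homPar_coe,
      lrh_res_U N q ℓ h1 hℓ.ne_zero]
  · have h2 : ¬ ℓ ∣ N * q := mlte_not_dvd_mul N q hℓ h1 hℓq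
    rw [ih4Op_of_not_dvd O N hℓ h1, ih4Op_of_not_dvd O (N * q) hℓ h2]
    apply Subtype.ext
    rw [tdmCosetSys.homPar_coe, mlteResO_coe, mlteResO_coe, tdmCosetSys.homPar_coe,
      t2f5_res_T N q ℓ hℓ h2 h1]

include h in
theorem mlteDegO_op (ℓ : ℕ) (hℓq : ℓ ≠ q) (x : Ih4H O O N) :
    ih4Op O (N * q) ℓ (mlteDegO O N q x) = mlteDegO O N q (ih4Op O N ℓ x) := by
  by_cases hℓ : ℓ.Prime
  swap
  · rw [ih4Op_of_not_prime O N hℓ, ih4Op_of_not_prime O (N * q) hℓ]; simp
  by_cases h1 : ℓ ∣ N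
  · have h2 : ℓ ∣ N * q := Dvd.dvd.mul_right h1 q
    haveI : NeZero ℓ := ⟨hℓ.ne_zero⟩
    have hc : Nat.Coprime q ℓ := by
      rw [Nat.coprime_comm, Nat.Prime.coprime_iff_not_dvd hℓ]
      intro hd
      have := (Nat.prime_dvd_prime_iff_eq hℓ hq.out).1 hd
      exact hℓq this
    rw [ih4Op_of_dvd O N hℓ h1, ih4Op_of_dvd O (N * q) hℓ h2]
    apply Subtype.ext
    rw [tdmCosetSys.homPar_coe, mlteDegO_coe, mlteDegO_coe, tdmCosetSys.homPar_coe]
    exact (mlteDegHom_U N q ℓ h1 hc x.1).symm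
  · have h2 : ¬ ℓ ∣ N * q := mlte_not_dvd_mul N q hℓ h1 hℓq
    rw [ih4Op_of_not_dvd O N hℓ h1, ih4Op_of_not_dvd O (N * q) hℓ h2]
    apply Subtype.ext
    rw [tdmCosetSys.homPar_coe, mlteDegO_coe, mlteDegO_coe, tdmCosetSys.homPar_coe]
    exact (mlteDegHom_T' N q ℓ hℓ h1 h2 x.1).symm

end Equivariance

/-! ### The map `j_λ` -/

section JLam

variable (O : Type*) [CommRing O] [IsDomain O] [CharZero O]
  (N q : ℕ) [NeZero N] [hq : Fact q.Prime] (h : ¬ q ∣ N)

/-- `j_λ = Deg - λ res` -/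
def mlteJLam (lam : O) : Ih4H O O N →ₗ[O] Ih4H O O (N * q) :=
  mlteDegO O N q - lam • mlteResO O N q

theorem mlteJLam_apply (lam : O) (x : Ih4H O O N) :
    mlteJLam O N q lam x = mlteDegO O N q x - lam • mlteResO O N q x := rfl

theorem mlteJLam_coe (lam : O) (x : Ih4H O O N) :
    ((mlteJLam O N q lam x : Ih4H O O (N * q)) : Additive (Gamma0 (N * q)) →+ O)
      = t2fRes (t2f5_Gamma0_le N q) O ((-lam) • x.1) + mlteDegHom N q hq.out.ne_zero O x.1 := by
  rw [mlteJLam_apply, Submodule.coe_sub, Submodule.coe_smul, mlteDegO_coe, mlteResO_coe]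
  refine AddMonoidHom.ext fun δ => ?_
  simp only [AddMonoidHom.sub_apply, AddMonoidHom.add_apply, AddMonoidHom.smul_apply]
  show _ = (-lam) • x.1 _ + _
  rw [neg_smul]
  abel

/-- the Gram constant of `j_λ` -/
def mlteCpVal (q : ℕ) (aq lam : O) : O := (1 + lam ^ 2) * aq - 2 * lam * (((q : ℕ) : O) + 1)

omit [IsDomain O] [CharZero O] in
theorem mlteCpVal_mul (q : ℕ) (aq lam : O) (hlam : lam * aq = lam ^ 2 + ((q : ℕ) : O)) :
    lam * mlteCpVal O q aq lam = (lam ^ 2 - 1) * (lam ^ 2 - ((q : ℕ) : O)) := by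
  unfold mlteCpVal
  linear_combination (1 + lam ^ 2) * hlam

include h in
/-- **`U_q j_λ x = λ j_λ x`** when `T_q x = a_q x` and `λ a_q = λ² + q` -/
theorem mlteJLam_Uq (aq lam : O) (hlam : lam * aq = lam ^ 2 + ((q : ℕ) : O)) (x : Ih4H O O N)
    (hx : ih4Op O N q x = aq • x) :
    ih4Op O (N * q) q (mlteJLam O N q lam x) = lam • mlteJLam O N q lam x := by
  rw [mlteJLam_apply, map_sub, map_smul, mlteDegO_Uq, mlteResO_Uq O N q h, hx, map_smul]
  have e : ((q : ℕ) : O) = lam * aq - lam ^ 2 := by rw [hlam]; ring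
  rw [e]
  module

include h in
/-- `j_λ` commutes with the Hecke operators away from `q` -/
theorem mlteJLam_op (lam : O) (ℓ : ℕ) (hℓq : ℓ ≠ q) (x : Ih4H O O N) :
    ih4Op O (N * q) ℓ (mlteJLam O N q lam x) = mlteJLam O N q lam (ih4Op O N ℓ x) := by
  rw [mlteJLam_apply, mlteJLam_apply, map_sub, map_smul, mlteDegO_op O N q h ℓ hℓq,
    mlteResO_op O N q h ℓ hℓq]

include h in
/-- **the Gram value of `j_λ`** -/
theorem mltePairO_jLam (aq lam : O) (x y : Ih4H O O N) (hy : ih4Op O N q y = aq • y) :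
    mltePairO O (N * q) (mlteJLam O N q lam x) (mlteJLam O N q lam y)
      = mlteCpVal O q aq lam * mltePairO O N x y := by
  rw [ih4Op_of_not_dvd O N hq.out h] at hy
  rw [mlteJLam_apply, mlteJLam_apply, map_sub, map_sub, LinearMap.sub_apply, LinearMap.sub_apply,
    map_smul, map_smul, map_smul, LinearMap.smul_apply, LinearMap.smul_apply,
    mltePairO_d_d O N q h, mltePairO_d_r O N q h, mltePairO_r_d O N q h, mltePairO_r_r O N q h,
    hy, map_smul]
  unfold mlteCpVal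
  simp only [smul_eq_mul]
  ring

end JLam

end

end Fermat.Agent.MLT
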