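/-
MLT / stream Eta (helper1): **the pairing on the `θ`-part of the Betti module**.

Generic part (`Mathlib` + `Lib/Ihara/H4/Part`): for a bilinear form `B` on a finite module over a
Noetherian local ring and a family `S` of self-adjoint endomorphisms, the `θ`-part `ih4pNil 𝔪 S` is
orthogonal to the complementary part `ih4pInv S` (Krull), hence a unimodular form restricts to a
unimodular form on the `θ`-part.

Specialisation: `mltePartPair O M Ps θ`, the restriction of `mltePairO O M` to `ih4Part O M Ps θ`: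
skew, unimodular, all `ih4Op` self-adjoint; `ih4Part` is saturated, finite and free.
-/
import Mathlib
import Fermat.Agent.Lib.MLT.Eta.PairO

set_option autoImplicit false
set_option linter.unusedSectionVars false
set_option linter.unusedVariables false
set_option linter.style.haveILetI false

open Fermat.Agent.T1 ModularCurve.Period Fermat.Agent.Ihara CongruenceSubgroup

namespace Fermat.Agent.MLT

noncomputable section

/-! ### Generic part -/

section Generic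

variable {O : Type*} [CommRing O] {H : Type*} [AddCommGroup H] [Module O H]
  (B : LinearMap.BilinForm O H)

theorem mlte_form_mem_of_mem_smul (𝔞 : Ideal O) {z : H} (hz : z ∈ 𝔞 • (⊤ : Submodule O H))
    (w : H) : B z w ∈ 𝔞 := by
  refine Submodule.smul_induction_on hz (fun a ha m _ => ?_) (fun x y hx hy => ?_)
  · rw [map_smul, LinearMap.smul_apply, smul_eq_mul]
    exact Ideal.mul_mem_right _ _ ha
  · rw [map_add, LinearMap.add_apply]
    exact Ideal.add_mem _ hx hy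

theorem mlte_selfadj_pow {S : Module.End O H} (hS : ∀ x y, B (S x) y = B x (S y)) (n : ℕ)
    (x y : H) : B ((S ^ n) x) y = B x ((S ^ n) y) := by
  induction n generalizing x y with
  | zero => simp
  | succ k ih =>
    rw [pow_succ, Module.End.mul_apply, Module.End.mul_apply, ih, hS]
    congr 1
    rw [← Module.End.mul_apply, ← Module.End.mul_apply, ← pow_succ, ← pow_succ']

variable [IsLocalRing O] [IsNoetherianRing O] {ι : Type*} (S : ι → Module.End O H)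

/-- **the `θ`-part is orthogonal to the complementary part** -/
theorem mlte_nil_ortho_inv (hS : ∀ i x y, B (S i x) y = B x (S i y)) {x : H}
    (hx : x ∈ ih4pNil (IsLocalRing.maximalIdeal O) S) {y : H} (hy : y ∈ ih4pInv S) :
    B x y = 0 := by
  have h1 : ∀ i, ∀ y ∈ ih4pInv1 (S i), B x y = 0 := by
    intro i y hy
    have hmem : B x y ∈ ⨅ n : ℕ, (IsLocalRing.maximalIdeal O) ^ n := by
      rw [Submodule.mem_iInf]
      intro n
      obtain ⟨N, hN⟩ := ih4p_mem_nil.1 hx i n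
      obtain ⟨z, rfl⟩ := ih4p_mem_inv1.1 hy N
      rw [← mlte_selfadj_pow B (hS i)]
      exact mlte_form_mem_of_mem_smul B _ hN z
    rw [Ideal.iInf_pow_eq_bot_of_isLocalRing _ (IsLocalRing.maximalIdeal.isMaximal O).ne_top] at hmem
    exact hmem
  unfold ih4pInv at hy
  refine Submodule.iSup_induction (fun i => ih4pInv1 (S i)) (motive := fun y => B x y = 0) hy
    (fun i y hy => h1 i y hy) (by simp) (fun y z hy hz => by rw [map_add, hy, hz, add_zero])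

end Generic

section Restrict

variable {O : Type*} [CommRing O] {H : Type*} [AddCommGroup H] [Module O H]
  (B : LinearMap.BilinForm O H)

/-- a unimodular form restricts to a unimodular form on an orthogonal direct summand -/
theorem mlte_restrict_unimodular (H₀ K : Submodule O H) (hc : IsCompl H₀ K)
    (hort : ∀ x ∈ H₀, ∀ y ∈ K, B x y = 0)
    (hB : ∀ F : H →ₗ[O] O, ∃ m, ∀ y, B y m = F y) (f : ↥H₀ →ₗ[O] O) :
    ∃ m : ↥H₀, ∀ y : ↥H₀, B.restrict H₀ y m = f y := by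
  obtain ⟨m, hm⟩ := hB (f.comp (Submodule.projectionOnto H₀ K hc))
  obtain ⟨u, hu, v, hv, rfl⟩ : ∃ u ∈ H₀, ∃ v ∈ K, u + v = m := by
    have : m ∈ H₀ ⊔ K := by rw [hc.sup_eq_top]; exact Submodule.mem_top
    exact Submodule.mem_sup.1 this
  refine ⟨⟨u, hu⟩, fun y => ?_⟩
  have h1 := hm y
  rw [LinearMap.comp_apply, Submodule.projectionOnto_apply_left, map_add, hort y y.2 v hv,
    add_zero] at h1
  rw [LinearMap.BilinForm.restrict_apply]
  exact h1

/-- a direct summand of a torsion-free module is saturated -/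
theorem mlte_saturated_of_isCompl [IsDomain O] [Module.IsTorsionFree O H]
    (H₀ K : Submodule O H) (hc : IsCompl H₀ K) (a : O) (m : H) (ha : a ≠ 0) (hm : a • m ∈ H₀) :
    m ∈ H₀ := by
  obtain ⟨u, hu, v, hv, rfl⟩ : ∃ u ∈ H₀, ∃ v ∈ K, u + v = m := by
    have : m ∈ H₀ ⊔ K := by rw [hc.sup_eq_top]; exact Submodule.mem_top
    exact Submodule.mem_sup.1 this
  have h3 : a • v ∈ H₀ := by
    have : a • v = a • (u + v) - a • u := by rw [smul_add]; abel
    rw [this]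
    exact H₀.sub_mem hm (H₀.smul_mem a hu)
  have h4 : a • v ∈ H₀ ⊓ K := ⟨h3, K.smul_mem a hv⟩
  rw [hc.inf_eq_bot, Submodule.mem_bot] at h4
  have h5 : v = 0 := (smul_eq_zero.1 h4).resolve_left ha
  rw [h5, add_zero]
  exact hu

end Restrict

/-! ### The `θ`-part of the Betti module -/

section Part

variable (𝒪 : Type) [CommRing 𝒪] [IsDomain 𝒪] [IsDiscreteValuationRing 𝒪] [CharZero 𝒪]
  [IsAdicComplete (IsLocalRing.maximalIdeal 𝒪) 𝒪] (M : ℕ) [NeZero M] (Ps : Set ℕ) (θ : ℕ → 𝒪)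

instance mlte_torsionFree_betti : Module.IsTorsionFree 𝒪 (Ih4H 𝒪 𝒪 M) := by
  haveI := tdm_isTorsionFree_homG (G := Gamma0 M) 𝒪
  infer_instance

instance mlte_free_betti : Module.Free 𝒪 (Ih4H 𝒪 𝒪 M) :=
  Module.free_of_finite_type_torsion_free'

/-- shortcut instance (the generic path through `Submodule.addCommGroup` is too deep for nested
instance problems such as `HasQuotient`) -/
instance mlte_addCommGroup_part : AddCommGroup ↥(ih4Part 𝒪 M Ps θ) := Submodule.addCommGroup _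

instance mlte_finite_part : Module.Finite 𝒪 ↥(ih4Part 𝒪 M Ps θ) := by
  haveI : IsNoetherian 𝒪 (Ih4H 𝒪 𝒪 M) := isNoetherian_of_isNoetherianRing_of_finite 𝒪 _
  infer_instance

instance mlte_free_part : Module.Free 𝒪 ↥(ih4Part 𝒪 M Ps θ) :=
  Module.free_of_finite_type_torsion_free' (R := 𝒪) (M := ↥(ih4Part 𝒪 M Ps θ))

/-- the operators cutting out the `θ`-part are self-adjoint -/
theorem mltePairO_cut (ℓ : ℕ) (x y : Ih4H 𝒪 𝒪 M) :
    mltePairO 𝒪 M ((ih4Op 𝒪 M ℓ - algebraMap 𝒪 (Module.End 𝒪 (Ih4H 𝒪 𝒪 M)) (θ ℓ)) x) y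
      = mltePairO 𝒪 M x ((ih4Op 𝒪 M ℓ - algebraMap 𝒪 (Module.End 𝒪 (Ih4H 𝒪 𝒪 M)) (θ ℓ)) y) := by
  rw [LinearMap.sub_apply, LinearMap.sub_apply, map_sub, map_sub, LinearMap.sub_apply,
    mltePairO_op, Module.algebraMap_end_apply, Module.algebraMap_end_apply, map_smul, map_smul,
    LinearMap.smul_apply]

/-- the `θ`-part is orthogonal to the complementary part -/
theorem mlte_part_ortho {x y : Ih4H 𝒪 𝒪 M} (hx : x ∈ ih4Part 𝒪 M Ps θ)
    (hy : y ∈ ih4pInv (fun ℓ : Ps => ih4Op 𝒪 M ℓ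
      - algebraMap 𝒪 (Module.End 𝒪 (Ih4H 𝒪 𝒪 M)) (θ ℓ))) :
    mltePairO 𝒪 M x y = 0 :=
  mlte_nil_ortho_inv (mltePairO 𝒪 M) (fun ℓ : Ps => ih4Op 𝒪 M ℓ
      - algebraMap 𝒪 (Module.End 𝒪 (Ih4H 𝒪 𝒪 M)) (θ ℓ))
    (fun i x y => mltePairO_cut 𝒪 M θ i x y) hx hy

/-- the `θ`-part is saturated -/
theorem mlte_part_saturated (a : 𝒪) (m : Ih4H 𝒪 𝒪 M) (ha : a ≠ 0)
    (hm : a • m ∈ ih4Part 𝒪 M Ps θ) : m ∈ ih4Part 𝒪 M Ps θ :=
  mlte_saturated_of_isCompl _ _ (ih4Part_isCompl 𝒪 M Ps θ) a m ha hm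

/-- **the pairing on the `θ`-part** -/
def mltePartPair : LinearMap.BilinForm 𝒪 ↥(ih4Part 𝒪 M Ps θ) :=
  (mltePairO 𝒪 M).restrict (ih4Part 𝒪 M Ps θ)

theorem mltePartPair_apply (x y : ↥(ih4Part 𝒪 M Ps θ)) :
    mltePartPair 𝒪 M Ps θ x y = mltePairO 𝒪 M (x : Ih4H 𝒪 𝒪 M) (y : Ih4H 𝒪 𝒪 M) := rfl

theorem mltePartPair_skew (x y : ↥(ih4Part 𝒪 M Ps θ)) :
    mltePartPair 𝒪 M Ps θ x y = -mltePartPair 𝒪 M Ps θ y x :=
  mltePairO_skew 𝒪 M _ _

/-- the pairing on the `θ`-part is unimodular -/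
theorem mltePartPair_unimodular (f : ↥(ih4Part 𝒪 M Ps θ) →ₗ[𝒪] 𝒪) :
    ∃ m, ∀ y, mltePartPair 𝒪 M Ps θ y m = f y :=
  mlte_restrict_unimodular (mltePairO 𝒪 M) _ _ (ih4Part_isCompl 𝒪 M Ps θ)
    (fun x hx y hy => mlte_part_ortho 𝒪 M Ps θ hx hy) (mltePairO_unimodular 𝒪 M) f

/-- the pairing on the `θ`-part is non-degenerate -/
theorem mltePartPair_nondeg (m : ↥(ih4Part 𝒪 M Ps θ))
    (hm : ∀ y, mltePartPair 𝒪 M Ps θ y m = 0) : m = 0 := by
  apply Subtype.ext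
  refine mltePairO_nondeg 𝒪 M m.1 fun y => ?_
  have hc := ih4Part_isCompl 𝒪 M Ps θ
  obtain ⟨u, hu, v, hv, rfl⟩ : ∃ u ∈ ih4Part 𝒪 M Ps θ, ∃ v ∈ ih4pInv (fun ℓ : Ps => ih4Op 𝒪 M ℓ
      - algebraMap 𝒪 (Module.End 𝒪 (Ih4H 𝒪 𝒪 M)) (θ ℓ)), u + v = y := by
    have : y ∈ ih4Part 𝒪 M Ps θ ⊔ ih4pInv (fun ℓ : Ps => ih4Op 𝒪 M ℓ
      - algebraMap 𝒪 (Module.End 𝒪 (Ih4H 𝒪 𝒪 M)) (θ ℓ)) := by
      rw [hc.sup_eq_top]; exact Submodule.mem_top
    exact Submodule.mem_sup.1 this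
  rw [map_add, LinearMap.add_apply]
  have h1 := hm ⟨u, hu⟩
  rw [mltePartPair_apply] at h1
  rw [h1, zero_add, mltePairO_skew, mlte_part_ortho 𝒪 M Ps θ m.2 hv, neg_zero]

/-- the Hecke operators on the `θ`-part -/
def mltePartOp (ℓ : ℕ) : Module.End 𝒪 ↥(ih4Part 𝒪 M Ps θ) :=
  (ih4Op 𝒪 M ℓ).restrict fun _ hx => ih4Op_mem_part 𝒪 ℓ hx

@[simp] theorem mltePartOp_coe (ℓ : ℕ) (x : ↥(ih4Part 𝒪 M Ps θ)) :
    ((mltePartOp 𝒪 M Ps θ ℓ x : ↥(ih4Part 𝒪 M Ps θ)) : Ih4H 𝒪 𝒪 M) = ih4Op 𝒪 M ℓ x.1 := rfl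

/-- the Hecke operators on the `θ`-part are self-adjoint -/
theorem mltePartPair_op (ℓ : ℕ) (x y : ↥(ih4Part 𝒪 M Ps θ)) :
    mltePartPair 𝒪 M Ps θ (mltePartOp 𝒪 M Ps θ ℓ x) y
      = mltePartPair 𝒪 M Ps θ x (mltePartOp 𝒪 M Ps θ ℓ y) := by
  rw [mltePartPair_apply, mltePartPair_apply, mltePartOp_coe, mltePartOp_coe, mltePairO_op]

end Part

end

end Fermat.Agent.MLT
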