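/-
MLT / stream Eta (helper1): **(E5) the growth of the congruence module `Ω` from level `N` to level
`N q²`**, ring-free form.

`𝒪` a complete DVR of characteristic zero and residue characteristic `p` (odd, `≠ q`), `q ∤ N`.
`H = ih4Part 𝒪 N Ps θ`, `H' = ih4Part 𝒪 (N q²) Ps' θ'` (`θ' q = 0`, `θ' = θ` elsewhere),
`X = mlteEig … G a ⊆ H` the common eigenspace of `ih4Op ℓ` (`ℓ ∈ G`) with eigenvalues `a ℓ`,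
`X' ⊆ H'` the same at level `N q²` for `G' ⊆ G \ {q}`.  Then, if `a` is not Eisenstein, `B|_X` is
non-degenerate, `rank X' ≤ rank X` and `c = (q - 1)((q + 1)² - a_q²) ≠ 0`:

  `length (H' / (X' + X'^⊥)) = length (H / (X + X^⊥)) + rank X · length (𝒪 / c)`

and `ξ_v : X → X'` is bijective (`mlte_omega_growth`, `mlte_eig_bij`).
-/
import Mathlib
import Fermat.Agent.Lib.MLT.Eta.PartPair
import Fermat.Agent.Lib.MLT.Eta.GrowthAbs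

set_option autoImplicit false
set_option linter.unusedSectionVars false
set_option linter.unusedVariables false
set_option linter.style.haveILetI false

open Fermat.Agent.T1 Fermat.Agent.T2 ModularCurve.Period Fermat.Agent.Ihara CongruenceSubgroup
  IsLocalRing

namespace Fermat.Agent.MLT

noncomputable section

section Div

variable {O : Type*} [CommRing O] [IsDomain O]

/-- divide a homomorphism with values in `ϖ O` by `ϖ` -/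
theorem mlte_hom_div {G : Type*} [AddZeroClass G] (φ : G →+ O) (ϖ : O) (hϖ : ϖ ≠ 0)
    (h : ∀ g, ϖ ∣ φ g) : ∃ ψ : G →+ O, ∀ g, φ g = ϖ * ψ g := by
  choose c hc using h
  refine ⟨{ toFun := c, map_zero' := ?_, map_add' := ?_ }, hc⟩
  · apply mul_left_cancel₀ hϖ
    rw [← hc, map_zero, mul_zero]
  · intro g g'
    apply mul_left_cancel₀ hϖ
    rw [← hc, map_add, hc g, hc g', mul_add]

end Div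

/-! ### The eigenspaces -/

section Eig

variable (𝒪 : Type) [CommRing 𝒪] [IsDomain 𝒪] [IsDiscreteValuationRing 𝒪] [CharZero 𝒪]
  [IsAdicComplete (maximalIdeal 𝒪) 𝒪] (M : ℕ) [NeZero M] (Ps : Set ℕ) (θ : ℕ → 𝒪)

/-- the common eigenspace, inside the `θ`-part, of the Hecke operators at the primes of `G` with
eigenvalues `a` -/
def mlteEig (G : Set ℕ) (a : ℕ → 𝒪) : Submodule 𝒪 ↥(ih4Part 𝒪 M Ps θ) where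
  carrier := {x | ∀ ℓ ∈ G, ih4Op 𝒪 M ℓ x.1 = a ℓ • x.1}
  add_mem' := by
    intro x y hx hy ℓ hℓ
    rw [Submodule.coe_add, map_add, hx ℓ hℓ, hy ℓ hℓ, smul_add]
  zero_mem' := by
    intro ℓ hℓ
    rw [Submodule.coe_zero, map_zero, smul_zero]
  smul_mem' := by
    intro c x hx ℓ hℓ
    rw [Submodule.coe_smul, map_smul, hx ℓ hℓ, smul_comm]

variable {𝒪 M Ps θ}

theorem mlte_mem_eig {G : Set ℕ} {a : ℕ → 𝒪} {x : ↥(ih4Part 𝒪 M Ps θ)} :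
    x ∈ mlteEig 𝒪 M Ps θ G a ↔ ∀ ℓ ∈ G, ih4Op 𝒪 M ℓ x.1 = a ℓ • x.1 := Iff.rfl

/-- the eigenspaces are saturated -/
theorem mlteEig_saturated (G : Set ℕ) (a : ℕ → 𝒪) (c : 𝒪) (m : ↥(ih4Part 𝒪 M Ps θ)) (hc : c ≠ 0)
    (hm : c • m ∈ mlteEig 𝒪 M Ps θ G a) : m ∈ mlteEig 𝒪 M Ps θ G a := by
  intro ℓ hℓ
  have h1 := hm ℓ hℓ
  rw [Submodule.coe_smul, map_smul, smul_comm] at h1
  exact smul_right_injective _ hc h1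

end Eig

/-! ### The map `ξ_v` on the `θ`-parts -/

section Main

variable {𝒪 : Type} [CommRing 𝒪] [IsDomain 𝒪] [IsDiscreteValuationRing 𝒪] [CharZero 𝒪]
  [IsAdicComplete (maximalIdeal 𝒪) 𝒪]
  (N q : ℕ) [NeZero N] [hq : Fact q.Prime] (h : ¬ q ∣ N)
  (Ps Ps' : Set ℕ) (θ θ' : ℕ → 𝒪)

/-- `ξ_v` maps the `θ`-part of level `N` to the `θ'`-part of level `N q²` -/
theorem mlteXiVO_mem_part (hPs : ∀ ℓ ∈ Ps', ℓ ≠ q → ℓ ∈ Ps ∧ θ' ℓ = θ ℓ)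
    (hθq : q ∈ Ps' → θ' q = 0) {x : Ih4H 𝒪 𝒪 N} (hx : x ∈ ih4Part 𝒪 N Ps θ) :
    mlteXiVO 𝒪 N q h x ∈ ih4Part 𝒪 (N * q * q) Ps' θ' := by
  rw [ih4_mem_part] at hx ⊢
  intro ℓ hℓ
  by_cases hℓq : ℓ = q
  · subst hℓq
    intro n
    refine ⟨1, ?_⟩
    rw [pow_one, LinearMap.sub_apply, mlteXiVO_Uq, hθq hℓ, map_zero, LinearMap.zero_apply,
      sub_zero]
    exact Submodule.zero_mem _
  · obtain ⟨h1, h2⟩ := hPs ℓ hℓ hℓq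
    refine ih4pNil1_map (f := mlteXiVO 𝒪 N q h) (fun y => ?_) (hx ℓ h1)
    rw [LinearMap.sub_apply, LinearMap.sub_apply, map_sub, mlteXiVO_op 𝒪 N q h ℓ hℓq, h2,
      Module.algebraMap_end_apply, Module.algebraMap_end_apply, map_smul]

/-- `ξ_v : H → H'` -/
def mlteJ (hPs : ∀ ℓ ∈ Ps', ℓ ≠ q → ℓ ∈ Ps ∧ θ' ℓ = θ ℓ) (hθq : q ∈ Ps' → θ' q = 0) :
    ↥(ih4Part 𝒪 N Ps θ) →ₗ[𝒪] ↥(ih4Part 𝒪 (N * q * q) Ps' θ') :=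
  (mlteXiVO 𝒪 N q h).restrict fun x hx => mlteXiVO_mem_part N q h Ps Ps' θ θ' hPs hθq hx

theorem mlteJ_coe (hPs : ∀ ℓ ∈ Ps', ℓ ≠ q → ℓ ∈ Ps ∧ θ' ℓ = θ ℓ) (hθq : q ∈ Ps' → θ' q = 0)
    (x : ↥(ih4Part 𝒪 N Ps θ)) :
    ((mlteJ N q h Ps Ps' θ θ' hPs hθq x : ↥(ih4Part 𝒪 (N * q * q) Ps' θ')) :
      Ih4H 𝒪 𝒪 (N * q * q)) = mlteXiVO 𝒪 N q h x.1 := rfl

/-- `ξ_v` maps eigenspaces to eigenspaces -/
theorem mlteJ_mem_eig (hPs : ∀ ℓ ∈ Ps', ℓ ≠ q → ℓ ∈ Ps ∧ θ' ℓ = θ ℓ) (hθq : q ∈ Ps' → θ' q = 0)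
    (G G' : Set ℕ) (hG' : ∀ ℓ ∈ G', ℓ ∈ G ∧ ℓ ≠ q) (a : ℕ → 𝒪)
    (x : ↥(ih4Part 𝒪 N Ps θ)) (hx : x ∈ mlteEig 𝒪 N Ps θ G a) :
    mlteJ N q h Ps Ps' θ θ' hPs hθq x ∈ mlteEig 𝒪 (N * q * q) Ps' θ' G' a := by
  intro ℓ hℓ
  obtain ⟨h1, h2⟩ := hG' ℓ hℓ
  rw [mlteJ_coe, mlteXiVO_op 𝒪 N q h ℓ h2, hx ℓ h1, map_smul]

end Main

/-! ### Ihara's lemma: injectivity of `ξ_v` modulo `𝔪` on non-Eisenstein eigenvectors -/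

section StepA

variable {𝒪 : Type} [CommRing 𝒪] [IsDomain 𝒪] [IsDiscreteValuationRing 𝒪] [CharZero 𝒪]
  [IsAdicComplete (maximalIdeal 𝒪) 𝒪]
  (N q p : ℕ) [NeZero N] [hq : Fact q.Prime] [hpp : Fact p.Prime] (h : ¬ q ∣ N)

/-- if `ξ_v x ∈ 𝔪 H'` for a non-Eisenstein eigenvector `x` of `T_ℓ`, then `x` takes its values
in `𝔪` -/
theorem mlte_xiV_mod (hp2 : p ≠ 2) (hpq : p ≠ q) (hp : ((p : ℕ) : 𝒪) ∈ maximalIdeal 𝒪)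
    {ℓ : ℕ} (hℓ : ℓ.Prime) (hℓN : ¬ ℓ ∣ N) (hℓq : ℓ ≠ q) (u : 𝒪) (hu : IsUnit u)
    (x : Ih4H 𝒪 𝒪 N) (hx : ih4Op 𝒪 N ℓ x = (u + (((ℓ : ℕ) : 𝒪) + 1)) • x)
    (ϖ : 𝒪) (hϖ : ϖ ∈ maximalIdeal 𝒪) (m : Ih4H 𝒪 𝒪 (N * q * q))
    (hm : mlteXiVO 𝒪 N q h x = ϖ • m) (γ : Additive (Gamma0 N)) :
    x.1 γ ∈ maximalIdeal 𝒪 := by
  have hA : ∀ a : ResidueField 𝒪, p • a = 0 := by
    intro a
    rw [nsmul_eq_mul]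
    have : ((p : ℕ) : ResidueField 𝒪) = 0 := by
      have := (residue_eq_zero_iff ((p : ℕ) : 𝒪)).2 hp
      rwa [map_natCast] at this
    rw [this, zero_mul]
  have hT : (tdmSysT N ℓ hℓ hℓN).hom 𝒪 x.1 = (u + (((ℓ : ℕ) : 𝒪) + 1)) • x.1 := by
    have := congrArg Subtype.val hx
    rw [ih4Op_of_not_dvd 𝒪 N hℓ hℓN] at this
    exact this
  have hsm : ∀ (c : 𝒪) (φ : Additive (Gamma0 N) →+ 𝒪),
      (tdmSysT N ℓ hℓ hℓN).hom 𝒪 (c • φ) = c • (tdmSysT N ℓ hℓ hℓN).hom 𝒪 φ := fun c φ =>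
    ((tdmSysT N ℓ hℓ hℓN).homLin 𝒪 𝒪).map_smul c φ
  have hE : mlteEHom N ℓ hℓ hℓN 𝒪 x.1 = u • x.1 := by
    rw [mlteEHom_apply, hT]
    refine AddMonoidHom.ext fun δ => ?_
    simp only [AddMonoidHom.sub_apply, AddMonoidHom.smul_apply, smul_eq_mul, nsmul_eq_mul]
    push_cast
    ring
  have hEE : mlteEHom N ℓ hℓ hℓN 𝒪 (mlteEHom N ℓ hℓ hℓN 𝒪 x.1) = u • u • x.1 := by
    rw [hE, mlteEHom_apply, hsm, hT]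
    refine AddMonoidHom.ext fun δ => ?_
    simp only [AddMonoidHom.sub_apply, AddMonoidHom.smul_apply, smul_eq_mul, nsmul_eq_mul]
    push_cast
    ring
  have hxyz : ∀ β, ((residue 𝒪 : 𝒪 →+* ResidueField 𝒪) : 𝒪 →+ ResidueField 𝒪)
      (mlteXiHom N q 𝒪 (q • x.1) (-((tdmSysT N q hq.out h).hom 𝒪 x.1)) x.1 β) = 0 := by
    intro β
    rw [← mlteXiVO_coe, hm]
    show residue 𝒪 (ϖ * m.1 β) = 0
    rw [residue_eq_zero_iff]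
    exact Ideal.mul_mem_right _ _ hϖ
  have hpar1 : IsParabolicHom (Gamma0 N) (q • x.1) := by
    intro δ hδ
    rw [AddMonoidHom.smul_apply, x.2 δ hδ, smul_zero]
  have hpar2 : IsParabolicHom (Gamma0 N) (-((tdmSysT N q hq.out h).hom 𝒪 x.1)) := by
    intro δ hδ
    rw [AddMonoidHom.neg_apply, (tdmSysT N q hq.out h).hom_parabolic x.2 δ hδ, neg_zero]
  have key := (mlte_ihara_sq_red (p := p) hp2 hpq h hℓ hℓN hℓq hA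
    ((residue 𝒪 : 𝒪 →+* ResidueField 𝒪) : 𝒪 →+ ResidueField 𝒪)
    (q • x.1) (-((tdmSysT N q hq.out h).hom 𝒪 x.1)) x.1 hpar1 hpar2 x.2 hxyz).2.2 γ
  rw [hEE] at key
  have key' : residue 𝒪 (u * (u * x.1 γ)) = 0 := key
  rw [residue_eq_zero_iff] at key'
  have h1 := (Ideal.unit_mul_mem_iff_mem _ hu).1 key'
  exact (Ideal.unit_mul_mem_iff_mem _ hu).1 h1

end StepA

/-! ### Saturation of `ξ_v` on the eigenspaces -/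

section StepC

variable {𝒪 : Type} [CommRing 𝒪] [IsDomain 𝒪] [IsDiscreteValuationRing 𝒪] [CharZero 𝒪]
  [IsAdicComplete (maximalIdeal 𝒪) 𝒪]
  (N q p : ℕ) [NeZero N] [hq : Fact q.Prime] [hpp : Fact p.Prime] (h : ¬ q ∣ N)
  (Ps Ps' : Set ℕ) (θ θ' : ℕ → 𝒪)
  (hPs : ∀ ℓ ∈ Ps', ℓ ≠ q → ℓ ∈ Ps ∧ θ' ℓ = θ ℓ) (hθq : q ∈ Ps' → θ' q = 0)
  (G : Set ℕ) (a : ℕ → 𝒪)

include hPs hθq in
/-- one division by a uniformiser -/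
theorem mlte_eig_div (hp2 : p ≠ 2) (hpq : p ≠ q) (hp : ((p : ℕ) : 𝒪) ∈ maximalIdeal 𝒪)
    (hnonEis : ∃ ℓ ∈ G, ℓ.Prime ∧ ¬ ℓ ∣ N ∧ ℓ ≠ q ∧ IsUnit (a ℓ - (((ℓ : ℕ) : 𝒪) + 1)))
    (ϖ : 𝒪) (hirr : Irreducible ϖ) (x : ↥(ih4Part 𝒪 N Ps θ)) (hx : x ∈ mlteEig 𝒪 N Ps θ G a)
    (m : ↥(ih4Part 𝒪 (N * q * q) Ps' θ')) (hm : mlteJ N q h Ps Ps' θ θ' hPs hθq x = ϖ • m) :
    ∃ x₁ ∈ mlteEig 𝒪 N Ps θ G a, x = ϖ • x₁ := by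
  obtain ⟨ℓ, hℓG, hℓ, hℓN, hℓq, hu⟩ := hnonEis
  have hϖ : ϖ ∈ maximalIdeal 𝒪 := (mem_maximalIdeal ϖ).2 hirr.not_isUnit
  have hval : ∀ γ, x.1.1 γ ∈ maximalIdeal 𝒪 :=
    mlte_xiV_mod N q p h hp2 hpq hp hℓ hℓN hℓq (a ℓ - (((ℓ : ℕ) : 𝒪) + 1)) hu x.1
      (by rw [hx ℓ hℓG]; congr 1; ring) ϖ hϖ m.1 (congrArg Subtype.val hm)
  have hdiv : ∀ γ, ϖ ∣ x.1.1 γ := fun γ => by
    have := hval γ
    rw [hirr.maximalIdeal_eq, Ideal.mem_span_singleton] at this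
    exact this
  obtain ⟨ψ, hψ⟩ := mlte_hom_div x.1.1 ϖ hirr.ne_zero hdiv
  have hψpar : IsParabolicHom (Gamma0 N) ψ := fun δ hδ => by
    have := hψ (Additive.ofMul δ)
    rw [x.1.2 δ hδ] at this
    exact (mul_eq_zero.1 this.symm).resolve_left hirr.ne_zero
  have hx₀ : x.1 = ϖ • (⟨ψ, hψpar⟩ : Ih4H 𝒪 𝒪 N) :=
    Subtype.ext (AddMonoidHom.ext fun γ => hψ γ)
  have hx₀part : (⟨ψ, hψpar⟩ : Ih4H 𝒪 𝒪 N) ∈ ih4Part 𝒪 N Ps θ :=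
    mlte_part_saturated 𝒪 N Ps θ ϖ _ hirr.ne_zero (hx₀ ▸ x.2)
  have e : ϖ • (⟨⟨ψ, hψpar⟩, hx₀part⟩ : ↥(ih4Part 𝒪 N Ps θ)) = x := Subtype.ext hx₀.symm
  refine ⟨⟨⟨ψ, hψpar⟩, hx₀part⟩, mlteEig_saturated G a ϖ _ hirr.ne_zero ?_, e.symm⟩
  rw [e]
  exact hx

include hPs hθq in
/-- division by a power of a uniformiser -/
theorem mlte_eig_div_pow (hp2 : p ≠ 2) (hpq : p ≠ q) (hp : ((p : ℕ) : 𝒪) ∈ maximalIdeal 𝒪)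
    (hnonEis : ∃ ℓ ∈ G, ℓ.Prime ∧ ¬ ℓ ∣ N ∧ ℓ ≠ q ∧ IsUnit (a ℓ - (((ℓ : ℕ) : 𝒪) + 1)))
    (ϖ : 𝒪) (hirr : Irreducible ϖ) (n : ℕ) :
    ∀ x ∈ mlteEig 𝒪 N Ps θ G a, ∀ m : ↥(ih4Part 𝒪 (N * q * q) Ps' θ'),
      mlteJ N q h Ps Ps' θ θ' hPs hθq x = ϖ ^ n • m →
      ∃ x₁ ∈ mlteEig 𝒪 N Ps θ G a, x = ϖ ^ n • x₁ := by
  induction n with
  | zero =>
    intro x hx m hm
    exact ⟨x, hx, by rw [pow_zero, one_smul]⟩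
  | succ n ih =>
    intro x hx m hm
    obtain ⟨x₀, hx₀, rfl⟩ := mlte_eig_div N q p h Ps Ps' θ θ' hPs hθq G a hp2 hpq hp hnonEis ϖ hirr
      x hx (ϖ ^ n • m) (by rw [hm, pow_succ', mul_smul])
    have h2 : mlteJ N q h Ps Ps' θ θ' hPs hθq x₀ = ϖ ^ n • m := by
      have : ϖ • mlteJ N q h Ps Ps' θ θ' hPs hθq x₀ = ϖ • (ϖ ^ n • m) := by
        rw [← map_smul, hm, pow_succ', mul_smul]
      exact smul_right_injective _ hirr.ne_zero this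
    obtain ⟨x₁, hx₁, rfl⟩ := ih x₀ hx₀ m h2
    exact ⟨x₁, hx₁, by rw [pow_succ', mul_smul]⟩

include hPs hθq in
/-- **`ξ_v` is saturated on the non-Eisenstein eigenspaces** (Ihara's lemma) -/
theorem mlte_eig_sat (hp2 : p ≠ 2) (hpq : p ≠ q) (hp : ((p : ℕ) : 𝒪) ∈ maximalIdeal 𝒪)
    (hnonEis : ∃ ℓ ∈ G, ℓ.Prime ∧ ¬ ℓ ∣ N ∧ ℓ ≠ q ∧ IsUnit (a ℓ - (((ℓ : ℕ) : 𝒪) + 1))) :
    ∀ x ∈ mlteEig 𝒪 N Ps θ G a, ∀ (α : 𝒪) (m : ↥(ih4Part 𝒪 (N * q * q) Ps' θ')), ¬ IsUnit α →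
      mlteJ N q h Ps Ps' θ θ' hPs hθq x = α • m → ∃ x₁ ∈ mlteEig 𝒪 N Ps θ G a, x = α • x₁ := by
  intro x hx α m hα hm
  obtain ⟨ϖ, hirr⟩ := IsDiscreteValuationRing.exists_irreducible 𝒪
  have hϖ : ϖ ∈ maximalIdeal 𝒪 := (mem_maximalIdeal ϖ).2 hirr.not_isUnit
  by_cases hα0 : α = 0
  · subst hα0
    refine ⟨0, Submodule.zero_mem _, ?_⟩
    rw [zero_smul] at hm ⊢
    apply Subtype.ext
    apply Subtype.ext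
    refine AddMonoidHom.ext fun γ => ?_
    have hmem : x.1.1 γ ∈ ⨅ n : ℕ, (maximalIdeal 𝒪) ^ n := by
      rw [Submodule.mem_iInf]
      intro n
      obtain ⟨x₁, -, hx₁⟩ := mlte_eig_div_pow N q p h Ps Ps' θ θ' hPs hθq G a hp2 hpq hp hnonEis
        ϖ hirr n x hx 0 (by rw [hm, smul_zero])
      rw [hx₁]
      show ϖ ^ n * x₁.1.1 γ ∈ _
      exact Ideal.mul_mem_right _ _ (Ideal.pow_mem_pow hϖ n)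
    rw [Ideal.iInf_pow_eq_bot_of_isLocalRing _ (maximalIdeal.isMaximal 𝒪).ne_top] at hmem
    exact hmem
  · obtain ⟨n, u, rfl⟩ := IsDiscreteValuationRing.eq_unit_mul_pow_irreducible hα0 hirr
    obtain ⟨x₁, hx₁, rfl⟩ := mlte_eig_div_pow N q p h Ps Ps' θ θ' hPs hθq G a hp2 hpq hp hnonEis
      ϖ hirr n x hx ((u : 𝒪) • m) (by rw [hm, mul_comm (u : 𝒪), mul_smul])
    refine ⟨((u⁻¹ : 𝒪ˣ) : 𝒪) • x₁, Submodule.smul_mem _ _ hx₁, ?_⟩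
    rw [smul_smul, mul_comm (u : 𝒪), mul_assoc, Units.mul_inv, mul_one]

end StepC

/-! ### The growth formula -/

section Final

variable {𝒪 : Type} [CommRing 𝒪] [IsDomain 𝒪] [IsDiscreteValuationRing 𝒪] [CharZero 𝒪]
  [IsAdicComplete (maximalIdeal 𝒪) 𝒪]
  (N q p : ℕ) [NeZero N] [hq : Fact q.Prime] [hpp : Fact p.Prime] (h : ¬ q ∣ N)
  (Ps Ps' : Set ℕ) (θ θ' : ℕ → 𝒪)
  (hPs : ∀ ℓ ∈ Ps', ℓ ≠ q → ℓ ∈ Ps ∧ θ' ℓ = θ ℓ) (hθq : q ∈ Ps' → θ' q = 0)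
  (G G' : Set ℕ) (a : ℕ → 𝒪)

/-- the constant `c_q(a) = (q - 1) ((q + 1)² - a_q²)` -/
def mlteCqVal (q : ℕ) (aq : 𝒪) : 𝒪 := (((q : ℕ) : 𝒪) - 1) * ((((q : ℕ) : 𝒪) + 1) ^ 2 - aq ^ 2)

include hPs hθq in
/-- `ξ_v` multiplies the pairing by `c_q(a)` on the eigenspaces -/
theorem mlteJ_pair (hqG : q ∈ G) (x : ↥(ih4Part 𝒪 N Ps θ)) (hx : x ∈ mlteEig 𝒪 N Ps θ G a)
    (y : ↥(ih4Part 𝒪 N Ps θ)) (hy : y ∈ mlteEig 𝒪 N Ps θ G a) :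
    mltePartPair 𝒪 (N * q * q) Ps' θ' (mlteJ N q h Ps Ps' θ θ' hPs hθq x)
        (mlteJ N q h Ps Ps' θ θ' hPs hθq y)
      = mlteCqVal q (a q) * mltePartPair 𝒪 N Ps θ x y := by
  have hT : ih4T 𝒪 𝒪 N q hq.out h y.1 = a q • y.1 := by
    rw [← ih4Op_of_not_dvd 𝒪 N hq.out h]
    exact hy q hqG
  have hC : mlteCqO 𝒪 N q h y.1 = mlteCqVal q (a q) • y.1 := by
    rw [mlteCqO_apply, hT, map_smul, hT]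
    unfold mlteCqVal
    module
  rw [mltePartPair_apply, mltePartPair_apply, mlteJ_coe, mlteJ_coe, mltePairO_xiV, hC, map_smul,
    smul_eq_mul]

include hPs hθq in
/-- **`ξ_v : X → X'` is bijective** -/
theorem mlte_eig_bij (hp2 : p ≠ 2) (hpq : p ≠ q) (hp : ((p : ℕ) : 𝒪) ∈ maximalIdeal 𝒪)
    (hG' : ∀ ℓ ∈ G', ℓ ∈ G ∧ ℓ ≠ q) (hqG : q ∈ G)
    (hnonEis : ∃ ℓ ∈ G, ℓ.Prime ∧ ¬ ℓ ∣ N ∧ ℓ ≠ q ∧ IsUnit (a ℓ - (((ℓ : ℕ) : 𝒪) + 1)))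
    (hXnd : ∀ x ∈ mlteEig 𝒪 N Ps θ G a,
      (∀ y ∈ mlteEig 𝒪 N Ps θ G a, mltePartPair 𝒪 N Ps θ y x = 0) → x = 0)
    (hrank : Module.finrank 𝒪 ↥(mlteEig 𝒪 (N * q * q) Ps' θ' G' a)
      ≤ Module.finrank 𝒪 ↥(mlteEig 𝒪 N Ps θ G a))
    (hc : mlteCqVal q (a q) ≠ 0) :
    Function.Bijective ((mlteJ N q h Ps Ps' θ θ' hPs hθq).restrict
      (mlteJ_mem_eig N q h Ps Ps' θ θ' hPs hθq G G' hG' a)) :=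
  mlte_growth_bij (mltePartPair 𝒪 N Ps θ) (mltePartPair 𝒪 (N * q * q) Ps' θ')
    (mlteEig 𝒪 N Ps θ G a) (mlteEig 𝒪 (N * q * q) Ps' θ' G' a) hXnd
    (mlteJ N q h Ps Ps' θ θ' hPs hθq) (mlteJ_mem_eig N q h Ps Ps' θ θ' hPs hθq G G' hG' a)
    (mlte_eig_sat N q p h Ps Ps' θ θ' hPs hθq G a hp2 hpq hp hnonEis) hrank
    (mlteCqVal q (a q)) hc (mlteJ_pair N q h Ps Ps' θ θ' hPs hθq G a hqG)

include h hPs hθq in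
/-- **(E5) the growth of the congruence module from level `N` to level `N q²`** -/
theorem mlte_omega_growth (hp2 : p ≠ 2) (hpq : p ≠ q) (hp : ((p : ℕ) : 𝒪) ∈ maximalIdeal 𝒪)
    (hG' : ∀ ℓ ∈ G', ℓ ∈ G ∧ ℓ ≠ q) (hqG : q ∈ G)
    (hnonEis : ∃ ℓ ∈ G, ℓ.Prime ∧ ¬ ℓ ∣ N ∧ ℓ ≠ q ∧ IsUnit (a ℓ - (((ℓ : ℕ) : 𝒪) + 1)))
    (hXnd : ∀ x ∈ mlteEig 𝒪 N Ps θ G a,
      (∀ y ∈ mlteEig 𝒪 N Ps θ G a, mltePartPair 𝒪 N Ps θ y x = 0) → x = 0)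
    (hrank : Module.finrank 𝒪 ↥(mlteEig 𝒪 (N * q * q) Ps' θ' G' a)
      ≤ Module.finrank 𝒪 ↥(mlteEig 𝒪 N Ps θ G a))
    (hc : mlteCqVal q (a q) ≠ 0) :
    Module.length 𝒪 (↥(ih4Part 𝒪 (N * q * q) Ps' θ') ⧸
        (mlteEig 𝒪 (N * q * q) Ps' θ' G' a
          ⊔ (mltePartPair 𝒪 (N * q * q) Ps' θ').orthogonal (mlteEig 𝒪 (N * q * q) Ps' θ' G' a)))
      = Module.length 𝒪 (↥(ih4Part 𝒪 N Ps θ) ⧸
          (mlteEig 𝒪 N Ps θ G a ⊔ (mltePartPair 𝒪 N Ps θ).orthogonal (mlteEig 𝒪 N Ps θ G a)))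
        + (Module.finrank 𝒪 ↥(mlteEig 𝒪 N Ps θ G a) : ℕ∞)
          * Module.length 𝒪 (𝒪 ⧸ Ideal.span {mlteCqVal q (a q)}) :=
  mlte_growth_abs (mltePartPair 𝒪 N Ps θ) (mltePartPair 𝒪 (N * q * q) Ps' θ')
    (mlteEig 𝒪 N Ps θ G a) (mlteEig 𝒪 (N * q * q) Ps' θ' G' a)
    (mltePartPair_unimodular 𝒪 N Ps θ) (mltePartPair_unimodular 𝒪 (N * q * q) Ps' θ')
    (fun c m hc hm => mlteEig_saturated G a c m hc hm)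
    (fun c m hc hm => mlteEig_saturated G' a c m hc hm) hXnd
    (mlteJ N q h Ps Ps' θ θ' hPs hθq) (mlteJ_mem_eig N q h Ps Ps' θ θ' hPs hθq G G' hG' a)
    (mlte_eig_sat N q p h Ps Ps' θ θ' hPs hθq G a hp2 hpq hp hnonEis) hrank
    (mlteCqVal q (a q)) hc (mlteJ_pair N q h Ps Ps' θ θ' hPs hθq G a hqG)

include h hPs hθq in
/-- **(E5a) level raising on the eigenspaces**: `rank X ≤ rank X'` (no hypothesis on `c_q`) -/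
theorem mlte_eig_finrank_le (hp2 : p ≠ 2) (hpq : p ≠ q) (hp : ((p : ℕ) : 𝒪) ∈ maximalIdeal 𝒪)
    (hG' : ∀ ℓ ∈ G', ℓ ∈ G ∧ ℓ ≠ q)
    (hnonEis : ∃ ℓ ∈ G, ℓ.Prime ∧ ¬ ℓ ∣ N ∧ ℓ ≠ q ∧ IsUnit (a ℓ - (((ℓ : ℕ) : 𝒪) + 1))) :
    Module.finrank 𝒪 ↥(mlteEig 𝒪 N Ps θ G a)
      ≤ Module.finrank 𝒪 ↥(mlteEig 𝒪 (N * q * q) Ps' θ' G' a) := by
  refine LinearMap.finrank_le_finrank_of_injective
    (f := (mlteJ N q h Ps Ps' θ θ' hPs hθq).restrict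
      (mlteJ_mem_eig N q h Ps Ps' θ θ' hPs hθq G G' hG' a)) ?_
  rw [injective_iff_map_eq_zero]
  intro x hx
  have hx' : mlteJ N q h Ps Ps' θ θ' hPs hθq x.1 = (0 : 𝒪) • 0 := by
    rw [smul_zero]
    exact congrArg Subtype.val hx
  obtain ⟨x₁, -, hx₁⟩ := mlte_eig_sat N q p h Ps Ps' θ θ' hPs hθq G a hp2 hpq hp hnonEis x.1 x.2 0 0
    not_isUnit_zero hx'
  apply Subtype.ext
  rw [hx₁, zero_smul]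
  rfl

end Final

/-! ### The same with an arbitrary name `N'` for the level `N q²` -/

section Transport

variable {𝒪 : Type} [CommRing 𝒪] [IsDomain 𝒪] [IsDiscreteValuationRing 𝒪] [CharZero 𝒪]
  [IsAdicComplete (maximalIdeal 𝒪) 𝒪]

theorem mlte_eig_finrank_le' (N N' q p : ℕ) [NeZero N] [NeZero N'] [hq : Fact q.Prime]
    [hpp : Fact p.Prime] (hN' : N' = N * q * q) (h : ¬ q ∣ N)
    (Ps Ps' : Set ℕ) (θ θ' : ℕ → 𝒪)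
    (hPs : ∀ ℓ ∈ Ps', ℓ ≠ q → ℓ ∈ Ps ∧ θ' ℓ = θ ℓ) (hθq : q ∈ Ps' → θ' q = 0)
    (G G' : Set ℕ) (a : ℕ → 𝒪)
    (hp2 : p ≠ 2) (hpq : p ≠ q) (hp : ((p : ℕ) : 𝒪) ∈ maximalIdeal 𝒪)
    (hG' : ∀ ℓ ∈ G', ℓ ∈ G ∧ ℓ ≠ q)
    (hnonEis : ∃ ℓ ∈ G, ℓ.Prime ∧ ¬ ℓ ∣ N ∧ ℓ ≠ q ∧ IsUnit (a ℓ - (((ℓ : ℕ) : 𝒪) + 1))) :
    Module.finrank 𝒪 ↥(mlteEig 𝒪 N Ps θ G a)
      ≤ Module.finrank 𝒪 ↥(mlteEig 𝒪 N' Ps' θ' G' a) := by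
  subst hN'
  exact mlte_eig_finrank_le N q p h Ps Ps' θ θ' hPs hθq G G' a hp2 hpq hp hG' hnonEis

theorem mlte_omega_growth' (N N' q p : ℕ) [NeZero N] [NeZero N'] [hq : Fact q.Prime]
    [hpp : Fact p.Prime] (hN' : N' = N * q * q) (h : ¬ q ∣ N)
    (Ps Ps' : Set ℕ) (θ θ' : ℕ → 𝒪)
    (hPs : ∀ ℓ ∈ Ps', ℓ ≠ q → ℓ ∈ Ps ∧ θ' ℓ = θ ℓ) (hθq : q ∈ Ps' → θ' q = 0)
    (G G' : Set ℕ) (a : ℕ → 𝒪)
    (hp2 : p ≠ 2) (hpq : p ≠ q) (hp : ((p : ℕ) : 𝒪) ∈ maximalIdeal 𝒪)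
    (hG' : ∀ ℓ ∈ G', ℓ ∈ G ∧ ℓ ≠ q) (hqG : q ∈ G)
    (hnonEis : ∃ ℓ ∈ G, ℓ.Prime ∧ ¬ ℓ ∣ N ∧ ℓ ≠ q ∧ IsUnit (a ℓ - (((ℓ : ℕ) : 𝒪) + 1)))
    (hXnd : ∀ x ∈ mlteEig 𝒪 N Ps θ G a,
      (∀ y ∈ mlteEig 𝒪 N Ps θ G a, mltePartPair 𝒪 N Ps θ y x = 0) → x = 0)
    (hrank : Module.finrank 𝒪 ↥(mlteEig 𝒪 N' Ps' θ' G' a)
      ≤ Module.finrank 𝒪 ↥(mlteEig 𝒪 N Ps θ G a))
    (hc : mlteCqVal q (a q) ≠ 0) :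
    Module.length 𝒪 (↥(ih4Part 𝒪 N' Ps' θ') ⧸
        (mlteEig 𝒪 N' Ps' θ' G' a
          ⊔ (mltePartPair 𝒪 N' Ps' θ').orthogonal (mlteEig 𝒪 N' Ps' θ' G' a)))
      = Module.length 𝒪 (↥(ih4Part 𝒪 N Ps θ) ⧸
          (mlteEig 𝒪 N Ps θ G a ⊔ (mltePartPair 𝒪 N Ps θ).orthogonal (mlteEig 𝒪 N Ps θ G a)))
        + (Module.finrank 𝒪 ↥(mlteEig 𝒪 N Ps θ G a) : ℕ∞)
          * Module.length 𝒪 (𝒪 ⧸ Ideal.span {mlteCqVal q (a q)}) := by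
  subst hN'
  exact mlte_omega_growth N q p h Ps Ps' θ θ' hPs hθq G G' a hp2 hpq hp hG' hqG hnonEis hXnd hrank hc

end Transport

end

end Fermat.Agent.MLT
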