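/-
MLT / stream Eta (helper1): **Ihara's lemma for the level `N → N q`, for every odd `p`, the case
`p = q` included**.

In `Lib/LR/CSP/Ihara.lean` the hypothesis `p ≠ q` is used in exactly one lemma (`lri_kills_conj`:
`Φ` kills `g x⁺(N) g⁻¹` because its `q^{2k}`-th power is an integral parabolic element).  For `p = q`
the same conclusion holds because `g x⁺(N) g⁻¹ = (g x⁺(N/q) g⁻¹)^q` with `g x⁺(N/q) g⁻¹ ∈ Γ₀(N)[1/q]`.
The rest of the wiring is repeated verbatim.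

* `mlte_ihara_one`     : the lemma for `𝔽_p`-valued classes (all odd `p`);
* `mlte_ihara_one_hom` : `res x + Deg y = 0 ⇒ E_ℓ x = E_ℓ y = 0`;
* `mlte_ihara_one_mod`, `mlte_ihara_one_red` : coefficients killed by `p`, reduction form.
-/
import Mathlib
import Fermat.Agent.Lib.LR.CSP.IharaMain
import Fermat.Agent.Lib.MLT.Eta.IharaSq

set_option autoImplicit false
set_option linter.unusedSectionVars false
set_option linter.unusedVariables false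

open Matrix MatrixGroups CongruenceSubgroup Fermat.Agent.T1 Fermat.Agent.T2 ModularCurve
  ModularCurve.Period Fermat.Agent.LR

namespace Fermat.Agent.MLT

noncomputable section

section Conj

/-- the `q`-th root `g x⁺(N/q) g⁻¹` of `g x⁺(N) g⁻¹` lies in `Γ₀(N)[1/q]` -/
theorem mlte_conj_root_mem {N q : ℕ} (hq : q ≠ 0) {g : SL(2, ℚ)} (hg : g ∈ lraDelta 1 q) :
    g * lrsXp ((N : ℚ) / (q : ℚ)) * g⁻¹ ∈ lraDelta N q := by
  obtain ⟨k, M, hM, -⟩ := hg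
  have hq' : (q : ℚ) ≠ 0 := Nat.cast_ne_zero.2 hq
  rw [lri_conj_eq]
  refine ⟨2 * k + 1, !![(q : ℤ) ^ (2 * k + 1) - N * M 0 0 * M 1 0, N * M 0 0 ^ 2;
    -(N * M 1 0 ^ 2), (q : ℤ) ^ (2 * k + 1) + N * M 0 0 * M 1 0], ?_, ⟨-(M 1 0 ^ 2), by simp⟩⟩
  have h00 : ((M 0 0 : ℤ) : ℚ) = g 0 0 * (q : ℚ) ^ k := (hM 0 0).symm
  have h10 : ((M 1 0 : ℤ) : ℚ) = g 1 0 * (q : ℚ) ^ k := (hM 1 0).symm
  intro i j
  fin_cases i <;> fin_cases j <;> simp [lriU] <;> simp only [h00, h10] <;> field_simp <;> ring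

theorem mlte_conj_root_pow {N q : ℕ} (hq : q ≠ 0) (g : SL(2, ℚ)) :
    (g * lrsXp ((N : ℚ) / (q : ℚ)) * g⁻¹) ^ q = g * lrsXp (N : ℚ) * g⁻¹ := by
  have hq' : (q : ℚ) ≠ 0 := Nat.cast_ne_zero.2 hq
  rw [lri_conj_eq, lri_conj_eq, lriU_pow]
  congr 1
  field_simp

end Conj

section wiring

variable {N q p : ℕ} [hqp : Fact q.Prime] [hpp : Fact p.Prime]

variable (Φ : Additive ↥(lraDelta N q) →+ ZMod p)
  (hpar : ∀ γ : Gamma0 N, ((γ : SL(2, ℤ)) : Matrix (Fin 2) (Fin 2) ℤ).trace ^ 2 = 4 →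
    Φ (Additive.ofMul ⟨lraCast γ.1, lraCast_mem_lraDelta γ⟩) = 0)
include hpar

/-- `Φ` kills the `Γ`-conjugates of `x⁺(N)`, for every `p` -/
theorem mlte_kills_conj {g : SL(2, ℚ)} (hg : g ∈ lraDelta 1 q) :
    Φ (Additive.ofMul ⟨g * lrsXp (N : ℚ) * g⁻¹, lri_conj_mem hg⟩) = 0 := by
  by_cases hpq : p = q
  · have h1 : (⟨g * lrsXp ((N : ℚ) / (q : ℚ)) * g⁻¹, mlte_conj_root_mem hqp.out.ne_zero hg⟩ :
        ↥(lraDelta N q)) ^ q = ⟨g * lrsXp (N : ℚ) * g⁻¹, lri_conj_mem hg⟩ :=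
      Subtype.ext (mlte_conj_root_pow hqp.out.ne_zero g)
    have hq0 : ((q : ℕ) : ZMod p) = 0 := by
      have : ((p : ℕ) : ZMod p) = 0 := CharP.cast_eq_zero _ _
      rw [← this]; exact congrArg _ hpq.symm
    rw [← h1, ofMul_pow, map_nsmul, nsmul_eq_mul, hq0, zero_mul]
  · exact lri_kills_conj Φ hpar hpq hg

variable {G' : Type*} [Group G'] (ι : G' →* SL(2, ℚ)) (hι : ∀ g, ι g ∈ lraDelta 1 q)
  (x₀ : G') (hx₀ : ι x₀ = lrsXp (N : ℚ))
include hι hx₀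

/-- `Φ` kills the normal closure of `x⁺(N)` in `Γ` -/
theorem mlte_kills_normalClosure (x : G') (hx : x ∈ Subgroup.normalClosure {x₀}) :
    ∃ h : ι x ∈ lraDelta N q, Φ (Additive.ofMul ⟨ι x, h⟩) = 0 := by
  rw [Subgroup.normalClosure] at hx
  induction hx using Subgroup.closure_induction with
  | mem x hx =>
    rw [Group.mem_conjugatesOfSet_iff] at hx
    obtain ⟨a, ha, hax⟩ := hx
    rw [Set.mem_singleton_iff] at ha
    subst ha
    obtain ⟨c, rfl⟩ := isConj_iff.1 hax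
    have e : ι (c * a * c⁻¹) = ι c * lrsXp (N : ℚ) * (ι c)⁻¹ := by
      rw [map_mul, map_mul, map_inv, hx₀]
    have hm : ι (c * a * c⁻¹) ∈ lraDelta N q := by rw [e]; exact lri_conj_mem (hι c)
    refine ⟨hm, ?_⟩
    have := mlte_kills_conj Φ hpar (hι c)
    have e' : (⟨ι (c * a * c⁻¹), hm⟩ : ↥(lraDelta N q)) =
        ⟨ι c * lrsXp (N : ℚ) * (ι c)⁻¹, lri_conj_mem (hι c)⟩ := Subtype.ext e
    rw [e']; exact this
  | one => exact ⟨by rw [map_one]; exact one_mem _, by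
      have : (⟨ι 1, by rw [map_one]; exact one_mem _⟩ : ↥(lraDelta N q)) = 1 :=
        Subtype.ext (map_one ι)
      rw [this, ofMul_one, map_zero]⟩
  | mul x y _ _ ihx ihy =>
    obtain ⟨hx', ex⟩ := ihx
    obtain ⟨hy', ey⟩ := ihy
    have hm : ι (x * y) ∈ lraDelta N q := by rw [map_mul]; exact mul_mem hx' hy'
    refine ⟨hm, ?_⟩
    have : (⟨ι (x * y), hm⟩ : ↥(lraDelta N q)) = ⟨ι x, hx'⟩ * ⟨ι y, hy'⟩ :=
      Subtype.ext (map_mul ι x y)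
    rw [this, ofMul_mul, map_add, ex, ey, add_zero]
  | inv x _ ihx =>
    obtain ⟨hx', ex⟩ := ihx
    have hm : ι x⁻¹ ∈ lraDelta N q := by rw [map_inv]; exact inv_mem hx'
    refine ⟨hm, ?_⟩
    have : (⟨ι x⁻¹, hm⟩ : ↥(lraDelta N q)) = (⟨ι x, hx'⟩ : ↥(lraDelta N q))⁻¹ :=
      Subtype.ext (map_inv ι x)
    rw [this, ofMul_inv, map_neg, ex, neg_zero]

/-- if every element of `GN` has a power prime to `p` in the normal closure, `Φ` kills `GN` -/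
theorem mlte_kills_GN (GN : Subgroup G')
    (hord : ∀ g ∈ GN, ∃ m : ℕ, ¬ p ∣ m ∧ g ^ m ∈ Subgroup.normalClosure {x₀})
    (g : G') (hg : g ∈ GN) (h : ι g ∈ lraDelta N q) :
    Φ (Additive.ofMul ⟨ι g, h⟩) = 0 := by
  obtain ⟨m, hm, hgm⟩ := hord g hg
  obtain ⟨h', e⟩ := mlte_kills_normalClosure Φ hpar ι hι x₀ hx₀ _ hgm
  have : (⟨ι (g ^ m), h'⟩ : ↥(lraDelta N q)) = (⟨ι g, h⟩ : ↥(lraDelta N q)) ^ m :=
    Subtype.ext (by simp)
  rw [this, ofMul_pow, map_nsmul] at e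
  exact lri_smul_eq_zero hm e

end wiring

section ihara

variable {N q p : ℕ} [hqp : Fact q.Prime] [hpp : Fact p.Prime]

/-- Ihara's lemma (abstract form), without `p ≠ q` -/
theorem mlte_ihara_abs (hN : N ≠ 0) (hNq : N.Coprime q)
    {G' : Type*} [Group G'] (ι : G' →* SL(2, ℚ)) (hι : ∀ g, ι g ∈ lraDelta 1 q)
    (hsurj : ∀ x ∈ lraDelta 1 q, ∃ g, ι g = x)
    (x₀ : G') (hx₀ : ι x₀ = lrsXp (N : ℚ))
    (GN : Subgroup G')
    (hGN : ∀ g : G', LriCong N q (ι g) → g ∈ GN)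
    (hord : ∀ g ∈ GN, ∃ m : ℕ, ¬ p ∣ m ∧ g ^ m ∈ Subgroup.normalClosure {x₀})
    (φ₁ φ₂ : Additive ↥(Gamma0 N) →+ ZMod p)
    (h₁ : IsParabolicHom (Gamma0 N) φ₁) (h₂ : IsParabolicHom (Gamma0 N) φ₂)
    (hcompat : ∀ γ : Gamma0 (N * q),
      φ₁ (Additive.ofMul ⟨γ.1, lraCast_mem_lraA.1 (lraC_le_lraA (lraCast_mem_lraC.2 γ.2))⟩) =
        φ₂ (Additive.ofMul (lraDeg N q hqp.out.ne_zero γ))) :
    (∀ γ : Gamma0 N, ((γ.1 1 1 : ℤ) : ZMod N) = 1 → φ₁ (Additive.ofMul γ) = 0) ∧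
    (∀ γ : Gamma0 N, ((γ.1 1 1 : ℤ) : ZMod N) = 1 → φ₂ (Additive.ofMul γ) = 0) := by
  have hq := hqp.out.ne_zero
  obtain ⟨Φ, ⟨hΦ1, hΦ2⟩, -⟩ := lra_glue_add hN hNq φ₁ φ₂ hcompat
  have hpar : ∀ γ : Gamma0 N, ((γ : SL(2, ℤ)) : Matrix (Fin 2) (Fin 2) ℤ).trace ^ 2 = 4 →
      Φ (Additive.ofMul ⟨lraCast γ.1, lraCast_mem_lraDelta γ⟩) = 0 := by
    intro γ hγ
    rw [hΦ1]; exact h₁ γ hγ
  have h01 : ∀ γ : SL(2, ℤ), γ ∈ Gamma0 1 := fun γ => by
    rw [lra_Gamma0_mem_iff_dvd]; simp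
  constructor
  · refine lri_gamma1_of_gamma φ₁ h₁ ?_
    intro γ hγ
    have hmem1 : lraCast γ.1 ∈ lraDelta 1 q := lraCast_mem_lraDelta ⟨γ.1, h01 _⟩
    obtain ⟨g, hg⟩ := hsurj _ hmem1
    have hc : LriCong N q (ι g) := by rw [hg]; exact lri_cong_cast hγ
    have hm : ι g ∈ lraDelta N q := by rw [hg]; exact lraCast_mem_lraDelta γ
    have := mlte_kills_GN Φ hpar ι hι x₀ hx₀ GN hord g (hGN _ hc) hm
    rw [← hΦ1, ← this]
    congr 2
    exact Subtype.ext hg.symm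
  · refine lri_gamma1_of_gamma φ₂ h₂ ?_
    intro γ hγ
    have hmem1 : (lraConj q hq).symm (lraCast γ.1) ∈ lraDelta 1 q :=
      lraConjCast_mem_lraDelta hq ⟨γ.1, h01 _⟩
    obtain ⟨g, hg⟩ := hsurj _ hmem1
    have hc : LriCong N q (ι g) := by rw [hg]; exact lri_cong_conj hq hγ
    have hm : ι g ∈ lraDelta N q := by rw [hg]; exact lraConjCast_mem_lraDelta hq γ
    have := mlte_kills_GN Φ hpar ι hι x₀ hx₀ GN hord g (hGN _ hc) hm
    rw [← hΦ2, ← this]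
    congr 2
    exact Subtype.ext hg.symm

/-- **Ihara's lemma for every odd `p`** (`p = q` allowed).  `N` prime to the prime `q`.  If two
parabolic classes `φ₁, φ₂ : Γ₀(N) → 𝔽_p` agree on `Γ₀(Nq)` through the two degeneracy maps, then
both vanish on `{γ ∈ Γ₀(N) : d ≡ 1 mod N}`. -/
theorem mlte_ihara_one (hp2 : p ≠ 2) (hN : N ≠ 0) (hNq : N.Coprime q)
    (φ₁ φ₂ : Additive ↥(Gamma0 N) →+ ZMod p)
    (h₁ : IsParabolicHom (Gamma0 N) φ₁) (h₂ : IsParabolicHom (Gamma0 N) φ₂)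
    (hcompat : ∀ γ : Gamma0 (N * q),
      φ₁ (Additive.ofMul ⟨γ.1, lraCast_mem_lraA.1 (lraC_le_lraA (lraCast_mem_lraC.2 γ.2))⟩) =
        φ₂ (Additive.ofMul (lraDeg N q hqp.out.ne_zero γ))) :
    (∀ γ : Gamma0 N, ((γ.1 1 1 : ℤ) : ZMod N) = 1 → φ₁ (Additive.ofMul γ) = 0) ∧
    (∀ γ : Gamma0 N, ((γ.1 1 1 : ℤ) : ZMod N) = 1 → φ₂ (Additive.ofMul γ) = 0) :=
  mlte_ihara_abs hN hNq (lriIota q) lriIota_mem (fun _ hx => lriIota_surj hx)
    (lrgXp ((N : ℕ) : ↥(lrgR q))) (lriIota_XpN N q)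
    (lrgGammaN (N := N) hqp.out.ne_zero hNq)
    (fun g hg => lri_mem_gammaN hqp.out.ne_zero hNq g hg)
    (fun g hg => lri_ord hp2 hN hNq g hg) φ₁ φ₂ h₁ h₂ hcompat

end ihara

/-! ### Homomorphism form, general coefficients -/

section homForm

variable {N q p : ℕ} [NeZero N] [hq : Fact q.Prime] [hpp : Fact p.Prime]

/-- **Ihara's lemma for the level `N → N q`** (`ℤ/p`-coefficients, every odd `p`): if
`res x + Deg y = 0` on `Γ₀(N q)` then `E_ℓ x = E_ℓ y = 0`. -/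
theorem mlte_ihara_one_hom (hp2 : p ≠ 2) (h : ¬ q ∣ N)
    {ℓ : ℕ} (hℓ : ℓ.Prime) (hℓN : ¬ ℓ ∣ N)
    (x y : Additive (Gamma0 N) →+ ZMod p)
    (hx : IsParabolicHom (Gamma0 N) x) (hy : IsParabolicHom (Gamma0 N) y)
    (hxy : t2fRes (t2f5_Gamma0_le N q) (ZMod p) x + mlteDegHom N q hq.out.ne_zero (ZMod p) y = 0) :
    mlteEHom N ℓ hℓ hℓN (ZMod p) x = 0 ∧ mlteEHom N ℓ hℓ hℓN (ZMod p) y = 0 := by
  have hN : N ≠ 0 := NeZero.ne N
  have hNq : N.Coprime q := ((Nat.Prime.coprime_iff_not_dvd hq.out).2 h).symm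
  have hc : ∀ γ : Gamma0 (N * q),
      x (Additive.ofMul ⟨γ.1, lraCast_mem_lraA.1 (lraC_le_lraA (lraCast_mem_lraC.2 γ.2))⟩) =
        (-y) (Additive.ofMul (lraDeg N q hq.out.ne_zero γ)) := by
    intro γ
    have h1 := DFunLike.congr_fun hxy (Additive.ofMul γ)
    have h2 : x (Additive.ofMul ⟨γ.1, lraCast_mem_lraA.1 (lraC_le_lraA (lraCast_mem_lraC.2 γ.2))⟩)
        + y (Additive.ofMul (lraDeg N q hq.out.ne_zero γ)) = 0 := h1
    rw [AddMonoidHom.neg_apply]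
    linear_combination h2
  obtain ⟨k₁, k₂⟩ := mlte_ihara_one hp2 hN hNq x (-y) hx
    (fun δ hδ => by rw [AddMonoidHom.neg_apply, hy δ hδ, neg_zero]) hc
  refine ⟨mlteEHom_eisenstein N ℓ hℓ hℓN x k₁, ?_⟩
  apply mlteEHom_eisenstein
  intro γ hγ
  have := k₂ γ hγ
  rwa [AddMonoidHom.neg_apply, neg_eq_zero] at this

/-- **Ihara's lemma for `N → N q`**, coefficients in an abelian group killed by `p` -/
theorem mlte_ihara_one_mod (hp2 : p ≠ 2) (h : ¬ q ∣ N)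
    {ℓ : ℕ} (hℓ : ℓ.Prime) (hℓN : ¬ ℓ ∣ N)
    {A : Type*} [AddCommGroup A] (hA : ∀ a : A, p • a = 0)
    (x y : Additive (Gamma0 N) →+ A)
    (hx : IsParabolicHom (Gamma0 N) x) (hy : IsParabolicHom (Gamma0 N) y)
    (hxy : t2fRes (t2f5_Gamma0_le N q) A x + mlteDegHom N q hq.out.ne_zero A y = 0) :
    mlteEHom N ℓ hℓ hℓN A x = 0 ∧ mlteEHom N ℓ hℓ hℓN A y = 0 := by
  let instM : Module (ZMod p) A := AddCommGroup.zmodModule hA
  have key : ∀ lam : A →ₗ[ZMod p] ZMod p,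
      mlteEHom N ℓ hℓ hℓN (ZMod p) (lam.toAddMonoidHom.comp x) = 0 ∧
      mlteEHom N ℓ hℓ hℓN (ZMod p) (lam.toAddMonoidHom.comp y) = 0 := by
    intro lam
    refine mlte_ihara_one_hom hp2 h hℓ hℓN _ _ ?_ ?_ ?_
    · intro δ hδ
      rw [AddMonoidHom.comp_apply, hx δ hδ, map_zero]
    · intro δ hδ
      rw [AddMonoidHom.comp_apply, hy δ hδ, map_zero]
    · refine AddMonoidHom.ext fun δ' => ?_
      obtain ⟨δ, rfl⟩ := Additive.ofMul.surjective δ'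
      have h1 := DFunLike.congr_fun hxy (Additive.ofMul δ)
      have h2 : x (Additive.ofMul (Subgroup.inclusion (t2f5_Gamma0_le N q) δ))
          + y (Additive.ofMul (lraDeg N q hq.out.ne_zero δ)) = 0 := h1
      have h3 := congrArg lam.toAddMonoidHom h2
      rw [map_add, map_zero] at h3
      exact h3
  have instF : Module.Free (ZMod p) A := Module.Free.of_divisionRing (ZMod p) A
  have instP : Module.Projective (ZMod p) A := @Module.Projective.of_free (ZMod p) _ A _ instM instF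
  have fin : ∀ w : Additive (Gamma0 N) →+ A,
      (∀ lam : A →ₗ[ZMod p] ZMod p, mlteEHom N ℓ hℓ hℓN (ZMod p)
        (lam.toAddMonoidHom.comp w) = 0) →
      mlteEHom N ℓ hℓ hℓN A w = 0 := by
    intro w hw
    refine AddMonoidHom.ext fun δ => ?_
    rw [AddMonoidHom.zero_apply]
    refine (@Module.forall_dual_apply_eq_zero_iff A _ (ZMod p) _ instM instP
      (mlteEHom N ℓ hℓ hℓN A w δ)).mp ?_
    intro lam
    have h1 := hw lam
    rw [mlteEHom_comp] at h1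
    exact DFunLike.congr_fun h1 δ
  exact ⟨fin x fun lam => (key lam).1, fin y fun lam => (key lam).2⟩

/-- **Ihara's lemma for `N → N q`**, reduction form: `f : R →+ A` with `A` killed by `p`; if
`res x + Deg y` has values in `ker f` then so do `E_ℓ x, E_ℓ y`. -/
theorem mlte_ihara_one_red (hp2 : p ≠ 2) (h : ¬ q ∣ N)
    {ℓ : ℕ} (hℓ : ℓ.Prime) (hℓN : ¬ ℓ ∣ N)
    {R A : Type*} [AddCommGroup R] [AddCommGroup A] (hA : ∀ a : A, p • a = 0) (f : R →+ A)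
    (x y : Additive (Gamma0 N) →+ R)
    (hx : IsParabolicHom (Gamma0 N) x) (hy : IsParabolicHom (Gamma0 N) y)
    (hxy : ∀ β, f ((t2fRes (t2f5_Gamma0_le N q) R x + mlteDegHom N q hq.out.ne_zero R y) β) = 0) :
    (∀ γ, f (mlteEHom N ℓ hℓ hℓN R x γ) = 0) ∧ (∀ γ, f (mlteEHom N ℓ hℓ hℓN R y γ) = 0) := by
  obtain ⟨h1, h2⟩ := mlte_ihara_one_mod hp2 h hℓ hℓN hA (f.comp x) (f.comp y)
    (fun δ hδ => by rw [AddMonoidHom.comp_apply, hx δ hδ, map_zero])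
    (fun δ hδ => by rw [AddMonoidHom.comp_apply, hy δ hδ, map_zero])
    (by
      refine AddMonoidHom.ext fun β' => ?_
      obtain ⟨β, rfl⟩ := Additive.ofMul.surjective β'
      have := hxy (Additive.ofMul β)
      have h2 : f (x (Additive.ofMul (Subgroup.inclusion (t2f5_Gamma0_le N q) β))
          + y (Additive.ofMul (lraDeg N q hq.out.ne_zero β))) = 0 := this
      show f (x (Additive.ofMul (Subgroup.inclusion (t2f5_Gamma0_le N q) β)))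
          + f (y (Additive.ofMul (lraDeg N q hq.out.ne_zero β))) = 0
      rw [← map_add, h2])
  rw [mlteEHom_comp] at h1 h2
  exact ⟨fun γ => DFunLike.congr_fun h1 γ, fun γ => DFunLike.congr_fun h2 γ⟩

end homForm

end

end Fermat.Agent.MLT
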