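/-
MLT / stream Eta (helper1): **the growth of the congruence module `Ω` from level `N` to level `N q`
along the `U_q`-eigenvalue `λ`** (the Hecke side of the step at `p`: `q = p` is allowed), ring-free.

`𝒪` a complete DVR of characteristic zero and odd residue characteristic `p`, `q ∤ N` a prime.
`X = mlteEig 𝒪 N Ps θ G a ⊆ H = ih4Part 𝒪 N Ps θ` on which `T_q` is the scalar `a_q`,
`λ a_q = λ² + q`, `X' = mlteEig 𝒪 (N q) Ps' θ' G' a' ⊆ H'` (`a' = a` away from `q`, `a' q = λ`,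
`θ' q ≡ λ`).  Then `j_λ = Deg - λ res` maps `X` to `X'`, it is saturated (Ihara's lemma for
`N → N q`, all odd `p`), and if `a` is not Eisenstein, `B|_X` is non-degenerate,
`rank X' ≤ rank X` and `c = (1 + λ²) a_q - 2 λ (q + 1) ≠ 0`:

  `length (H' / (X' + X'^⊥)) = length (H / (X + X^⊥)) + rank X · length (𝒪 / c)`

(`mlte_omega_growthP`), and `j_λ : X → X'` is bijective (`mlte_eig_bijP`).  Moreover
`λ c = (λ² - 1)(λ² - q)` (`mlteCpVal_mul`), so `(c) = (λ² - 1)` when `λ` is a unit and `q ∈ 𝔪`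
(`mlteCpVal_span`).
-/
import Mathlib
import Fermat.Agent.Lib.MLT.Eta.Growth
import Fermat.Agent.Lib.MLT.Eta.GramP
import Fermat.Agent.Lib.MLT.Eta.IharaP

set_option autoImplicit false
set_option linter.unusedSectionVars false
set_option linter.unusedVariables false
set_option linter.style.haveILetI false

open Fermat.Agent.T1 Fermat.Agent.T2 ModularCurve.Period Fermat.Agent.Ihara CongruenceSubgroup
  IsLocalRing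

namespace Fermat.Agent.MLT

noncomputable section

/-! ### The abstract growth formula for a map defined on `X` only -/

section Abstract

variable {O : Type*} [CommRing O] [IsDomain O] [IsPrincipalIdealRing O]
  {M M' : Type*} [AddCommGroup M] [Module O M] [Module.Free O M] [Module.Finite O M]
  [AddCommGroup M'] [Module O M'] [Module.Free O M'] [Module.Finite O M']
  (B : LinearMap.BilinForm O M) (B' : LinearMap.BilinForm O M')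
  (X : Submodule O M) (X' : Submodule O M')

/-- `j : X → X'` is bijective -/
theorem mlte_growth_bijX
    (hXnd : ∀ x ∈ X, (∀ y ∈ X, B y x = 0) → x = 0)
    (j : ↥X →ₗ[O] ↥X')
    (hjsat : ∀ x : ↥X, ∀ (a : O) (m : M'), ¬ IsUnit a → ((j x : ↥X') : M') = a • m →
      ∃ x₁ : ↥X, x = a • x₁)
    (hrank : Module.finrank O X' ≤ Module.finrank O X)
    (c : O) (hc : c ≠ 0) (hBj : ∀ x y : ↥X, B' (j x) (j y) = c * B x y) :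
    Function.Bijective j := by
  have hinj : Function.Injective j := by
    rw [injective_iff_map_eq_zero]
    intro x hx
    apply Subtype.ext
    apply hXnd x x.2
    intro y hy
    have h1 := hBj ⟨y, hy⟩ x
    rw [hx, Submodule.coe_zero, map_zero] at h1
    exact (mul_eq_zero.mp h1.symm).resolve_left hc
  refine ⟨hinj, ?_⟩
  intro x'
  set R := LinearMap.range j with hR
  have h1 := Submodule.finrank_quotient_add_finrank R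
  rw [LinearMap.finrank_range_of_inj hinj] at h1
  have h2 : Module.finrank O (↥X' ⧸ R) = 0 := by omega
  have h3 := Module.finrank_eq_zero_iff_isTorsion.mp h2
  obtain ⟨a, ha⟩ := @h3 (Submodule.Quotient.mk x')
  have ha0 : (a : O) ≠ 0 := nonZeroDivisors.ne_zero a.2
  have ha' : (a : O) • x' ∈ R := by
    rw [← Submodule.Quotient.mk_eq_zero, Submodule.Quotient.mk_smul]
    exact ha
  obtain ⟨x, hx⟩ := ha'
  have hx' : ((j x : ↥X') : M') = (a : O) • (x' : M') := congrArg Subtype.val hx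
  by_cases hu : IsUnit (a : O)
  · obtain ⟨u, hu⟩ := hu
    refine ⟨(↑u⁻¹ : O) • x, ?_⟩
    rw [map_smul, hx, ← hu, smul_smul, Units.inv_mul, one_smul]
  · obtain ⟨x₁, hxx⟩ := hjsat x (a : O) (x' : M') hu hx'
    refine ⟨x₁, ?_⟩
    apply Subtype.ext
    rw [hxx, map_smul, Submodule.coe_smul] at hx'
    exact smul_right_injective M' ha0 hx'

/-- **the growth of the congruence module**, for a map `j : X → X'` -/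
theorem mlte_growth_absX
    (hB : ∀ f : M →ₗ[O] O, ∃ m, ∀ y, B y m = f y)
    (hB' : ∀ f : M' →ₗ[O] O, ∃ m, ∀ y, B' y m = f y)
    (hX : ∀ (a : O) (m : M), a ≠ 0 → a • m ∈ X → m ∈ X)
    (hX' : ∀ (a : O) (m : M'), a ≠ 0 → a • m ∈ X' → m ∈ X')
    (hXnd : ∀ x ∈ X, (∀ y ∈ X, B y x = 0) → x = 0)
    (j : ↥X →ₗ[O] ↥X')
    (hjsat : ∀ x : ↥X, ∀ (a : O) (m : M'), ¬ IsUnit a → ((j x : ↥X') : M') = a • m →
      ∃ x₁ : ↥X, x = a • x₁)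
    (hrank : Module.finrank O X' ≤ Module.finrank O X)
    (c : O) (hc : c ≠ 0) (hBj : ∀ x y : ↥X, B' (j x) (j y) = c * B x y) :
    Module.length O (M' ⧸ (X' ⊔ B'.orthogonal X'))
      = Module.length O (M ⧸ (X ⊔ B.orthogonal X))
        + (Module.finrank O X : ℕ∞) * Module.length O (O ⧸ Ideal.span {c}) := by
  have hbij := mlte_growth_bijX B B' X X' hXnd j hjsat hrank c hc hBj
  let J : X ≃ₗ[O] X' := LinearEquiv.ofBijective j hbij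
  have hJ : ∀ x : X, J x = j x := fun x => rfl
  set β := mlteBeta B X with hβ
  set β' := mlteBeta B' X' with hβ'
  have hβinj : Function.Injective β := by
    rw [injective_iff_map_eq_zero]
    intro x hx
    apply Subtype.ext
    apply hXnd x x.2
    intro y hy
    exact LinearMap.congr_fun hx ⟨y, hy⟩
  have hkey : ∀ x : X, J.dualMap (β' (J x)) = c • β x := by
    intro x
    ext y
    rw [LinearEquiv.dualMap_apply, mlteBeta_apply, LinearMap.smul_apply, mlteBeta_apply, hJ, hJ,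
      hBj y x, smul_eq_mul]
  have hmap : (LinearMap.range β').map (J.dualMap : Module.Dual O X' →ₗ[O] Module.Dual O X)
      = (LinearMap.range β).map (LinearMap.lsmul O (Module.Dual O X) c) := by
    ext l
    simp only [Submodule.mem_map, LinearMap.mem_range]
    constructor
    · rintro ⟨_, ⟨x', rfl⟩, rfl⟩
      obtain ⟨x, rfl⟩ := J.surjective x'
      exact ⟨β x, ⟨x, rfl⟩, (hkey x).symm⟩
    · rintro ⟨_, ⟨x, rfl⟩, rfl⟩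
      exact ⟨β' (J x), ⟨J x, rfl⟩, hkey x⟩
  haveI : Module.Free O (LinearMap.range β) :=
    Module.Free.of_equiv (LinearEquiv.ofInjective β hβinj)
  haveI : Module.Finite O (LinearMap.range β) :=
    Module.Finite.equiv (LinearEquiv.ofInjective β hβinj)
  rw [mlte_omega_length B' X' hB' hX', mlte_omega_length B X hB hX,
    (Submodule.Quotient.equiv _ _ J.dualMap hmap).length_eq, mlte_length_quot_smul,
    mlte_length_quot_smul_top (↥(LinearMap.range β)) c, LinearMap.finrank_range_of_inj hβinj,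
    add_comm]

end Abstract

/-! ### `j_λ` on the `θ`-parts and on the eigenspaces -/

section Main

variable {𝒪 : Type} [CommRing 𝒪] [IsDomain 𝒪] [IsDiscreteValuationRing 𝒪] [CharZero 𝒪]
  [IsAdicComplete (maximalIdeal 𝒪) 𝒪]
  (N q : ℕ) [NeZero N] [hq : Fact q.Prime] (h : ¬ q ∣ N)
  (Ps Ps' : Set ℕ) (θ θ' : ℕ → 𝒪) (aq lam : 𝒪)

include h in
/-- the powers of `U_q - θ'_q` on `j_λ x` -/
theorem mlteJLam_pow (hlam : lam * aq = lam ^ 2 + ((q : ℕ) : 𝒪)) (c : 𝒪)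
    {x : Ih4H 𝒪 𝒪 N} (hxq : ih4Op 𝒪 N q x = aq • x) (k : ℕ) :
    ((ih4Op 𝒪 (N * q) q - algebraMap 𝒪 (Module.End 𝒪 (Ih4H 𝒪 𝒪 (N * q))) c) ^ k)
        (mlteJLam 𝒪 N q lam x) = (lam - c) ^ k • mlteJLam 𝒪 N q lam x := by
  induction k with
  | zero => simp
  | succ k ih =>
    rw [pow_succ', Module.End.mul_apply, ih, map_smul, LinearMap.sub_apply,
      mlteJLam_Uq 𝒪 N q h aq lam hlam x hxq, Module.algebraMap_end_apply, pow_succ]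
    module

include h in
/-- `j_λ` maps the `T_q`-eigenvectors of the `θ`-part of level `N` into the `θ'`-part of level
`N q` -/
theorem mlteJLam_mem_part (hPs : ∀ ℓ ∈ Ps', ℓ ≠ q → ℓ ∈ Ps ∧ θ' ℓ = θ ℓ)
    (hθq : q ∈ Ps' → lam - θ' q ∈ maximalIdeal 𝒪)
    (hlam : lam * aq = lam ^ 2 + ((q : ℕ) : 𝒪))
    {x : Ih4H 𝒪 𝒪 N} (hx : x ∈ ih4Part 𝒪 N Ps θ) (hxq : ih4Op 𝒪 N q x = aq • x) :
    mlteJLam 𝒪 N q lam x ∈ ih4Part 𝒪 (N * q) Ps' θ' := by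
  rw [ih4_mem_part] at hx ⊢
  intro ℓ hℓ
  by_cases hℓq : ℓ = q
  · subst hℓq
    intro n
    refine ⟨n, ?_⟩
    rw [mlteJLam_pow N ℓ h aq lam hlam (θ' ℓ) hxq n]
    exact Submodule.smul_mem_smul (Ideal.pow_mem_pow (hθq hℓ) n) Submodule.mem_top
  · obtain ⟨h1, h2⟩ := hPs ℓ hℓ hℓq
    refine ih4pNil1_map (f := mlteJLam 𝒪 N q lam) (fun y => ?_) (hx ℓ h1)
    rw [LinearMap.sub_apply, LinearMap.sub_apply, map_sub, mlteJLam_op 𝒪 N q h lam ℓ hℓq, h2,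
      Module.algebraMap_end_apply, Module.algebraMap_end_apply, map_smul]

variable (G G' : Set ℕ) (a a' : ℕ → 𝒪)
  (hPs : ∀ ℓ ∈ Ps', ℓ ≠ q → ℓ ∈ Ps ∧ θ' ℓ = θ ℓ)
  (hθq : q ∈ Ps' → lam - θ' q ∈ maximalIdeal 𝒪)
  (hlam : lam * aq = lam ^ 2 + ((q : ℕ) : 𝒪))
  (hG' : ∀ ℓ ∈ G', ℓ ≠ q → ℓ ∈ G ∧ a' ℓ = a ℓ) (hqG' : q ∈ G' → a' q = lam)
  (hTq : ∀ x ∈ mlteEig 𝒪 N Ps θ G a, ih4Op 𝒪 N q x.1 = aq • x.1)

include h hlam hG' hqG' in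
/-- `j_λ` maps eigenvectors to eigenvectors -/
theorem mlteJLam_eig {x : Ih4H 𝒪 𝒪 N} (hxq : ih4Op 𝒪 N q x = aq • x)
    (hx : ∀ ℓ ∈ G, ih4Op 𝒪 N ℓ x = a ℓ • x) :
    ∀ ℓ ∈ G', ih4Op 𝒪 (N * q) ℓ (mlteJLam 𝒪 N q lam x) = a' ℓ • mlteJLam 𝒪 N q lam x := by
  intro ℓ hℓ
  by_cases hℓq : ℓ = q
  · subst hℓq
    rw [mlteJLam_Uq 𝒪 N ℓ h aq lam hlam x hxq, hqG' hℓ]
  · obtain ⟨h1, h2⟩ := hG' ℓ hℓ hℓq
    rw [mlteJLam_op 𝒪 N q h lam ℓ hℓq, hx ℓ h1, map_smul, h2]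

/-- **`j_λ : X → X'`** -/
def mlteJP : ↥(mlteEig 𝒪 N Ps θ G a) →ₗ[𝒪] ↥(mlteEig 𝒪 (N * q) Ps' θ' G' a') where
  toFun x := ⟨⟨mlteJLam 𝒪 N q lam x.1.1,
      mlteJLam_mem_part N q h Ps Ps' θ θ' aq lam hPs hθq hlam x.1.2 (hTq x.1 x.2)⟩,
    mlteJLam_eig N q h aq lam G G' a a' hlam hG' hqG' (hTq x.1 x.2) x.2⟩
  map_add' x y := by
    apply Subtype.ext
    apply Subtype.ext
    simp only [Submodule.coe_add, map_add]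
  map_smul' c x := by
    apply Subtype.ext
    apply Subtype.ext
    simp only [Submodule.coe_smul, map_smul, RingHom.id_apply]

theorem mlteJP_coe (x : ↥(mlteEig 𝒪 N Ps θ G a)) :
    (((mlteJP N q h Ps Ps' θ θ' aq lam G G' a a' hPs hθq hlam hG' hqG' hTq x :
        ↥(mlteEig 𝒪 (N * q) Ps' θ' G' a')) : ↥(ih4Part 𝒪 (N * q) Ps' θ')) : Ih4H 𝒪 𝒪 (N * q))
      = mlteJLam 𝒪 N q lam x.1.1 := rfl

end Main

/-! ### Ihara's lemma: injectivity of `j_λ` modulo `𝔪` on non-Eisenstein eigenvectors -/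

section StepA

variable {𝒪 : Type} [CommRing 𝒪] [IsDomain 𝒪] [IsDiscreteValuationRing 𝒪] [CharZero 𝒪]
  [IsAdicComplete (maximalIdeal 𝒪) 𝒪]
  (N q p : ℕ) [NeZero N] [hq : Fact q.Prime] [hpp : Fact p.Prime] (h : ¬ q ∣ N)

include h in
/-- if `j_λ x ∈ 𝔪 H'` for a non-Eisenstein eigenvector `x` of `T_ℓ`, then `x` takes its values
in `𝔪` (`p = q` allowed) -/
theorem mlte_jLam_mod (hp2 : p ≠ 2) (hp : ((p : ℕ) : 𝒪) ∈ maximalIdeal 𝒪) (lam : 𝒪)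
    {ℓ : ℕ} (hℓ : ℓ.Prime) (hℓN : ¬ ℓ ∣ N) (u : 𝒪) (hu : IsUnit u)
    (x : Ih4H 𝒪 𝒪 N) (hx : ih4Op 𝒪 N ℓ x = (u + (((ℓ : ℕ) : 𝒪) + 1)) • x)
    (ϖ : 𝒪) (hϖ : ϖ ∈ maximalIdeal 𝒪) (m : Ih4H 𝒪 𝒪 (N * q))
    (hm : mlteJLam 𝒪 N q lam x = ϖ • m) (γ : Additive (Gamma0 N)) :
    x.1 γ ∈ maximalIdeal 𝒪 := by
  have hA : ∀ a : ResidueField 𝒪, p • a = 0 := by
    intro a
    rw [nsmul_eq_mul]
    have : ((p : ℕ) : ResidueField 𝒪) = 0 := by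
      have := (residue_eq_zero_iff ((p : ℕ) : 𝒪)).2 hp
      rwa [map_natCast] at this
    rw [this, zero_mul]
  have hT : (tdmSysT N ℓ hℓ hℓN).hom 𝒪 x.1 = (u + (((ℓ : ℕ) : 𝒪) + 1)) • x.1 := by
    have := congrArg Subtype.val hx
    rw [ih4Op_of_not_dvd 𝒪 N hℓ hℓN] at this
    exact this
  have hE : mlteEHom N ℓ hℓ hℓN 𝒪 x.1 = u • x.1 := by
    rw [mlteEHom_apply, hT]
    refine AddMonoidHom.ext fun δ => ?_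
    simp only [AddMonoidHom.sub_apply, AddMonoidHom.smul_apply, smul_eq_mul, nsmul_eq_mul]
    push_cast
    ring
  have hxy : ∀ β, ((residue 𝒪 : 𝒪 →+* ResidueField 𝒪) : 𝒪 →+ ResidueField 𝒪)
      ((t2fRes (t2f5_Gamma0_le N q) 𝒪 ((-lam) • x.1)
        + mlteDegHom N q hq.out.ne_zero 𝒪 x.1) β) = 0 := by
    intro β
    rw [← mlteJLam_coe, hm]
    show residue 𝒪 (ϖ * m.1 β) = 0
    rw [residue_eq_zero_iff]
    exact Ideal.mul_mem_right _ _ hϖ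
  have hpar1 : IsParabolicHom (Gamma0 N) ((-lam) • x.1) := by
    intro δ hδ
    rw [AddMonoidHom.smul_apply, x.2 δ hδ, smul_zero]
  have key := (mlte_ihara_one_red (p := p) hp2 h hℓ hℓN hA
    ((residue 𝒪 : 𝒪 →+* ResidueField 𝒪) : 𝒪 →+ ResidueField 𝒪)
    ((-lam) • x.1) x.1 hpar1 x.2 hxy).2 γ
  rw [hE] at key
  have key' : residue 𝒪 (u * x.1 γ) = 0 := key
  rw [residue_eq_zero_iff] at key'
  exact (Ideal.unit_mul_mem_iff_mem _ hu).1 key'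

end StepA

/-! ### Saturation of `j_λ` on the eigenspaces -/

section StepC

variable {𝒪 : Type} [CommRing 𝒪] [IsDomain 𝒪] [IsDiscreteValuationRing 𝒪] [CharZero 𝒪]
  [IsAdicComplete (maximalIdeal 𝒪) 𝒪]
  (N q p : ℕ) [NeZero N] [hq : Fact q.Prime] [hpp : Fact p.Prime] (h : ¬ q ∣ N)
  (Ps : Set ℕ) (θ : ℕ → 𝒪) (lam : 𝒪) (G : Set ℕ) (a : ℕ → 𝒪)

include h in
/-- one division by a uniformiser -/
theorem mlte_eig_divP (hp2 : p ≠ 2) (hp : ((p : ℕ) : 𝒪) ∈ maximalIdeal 𝒪)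
    (hnonEis : ∃ ℓ ∈ G, ℓ.Prime ∧ ¬ ℓ ∣ N ∧ IsUnit (a ℓ - (((ℓ : ℕ) : 𝒪) + 1)))
    (ϖ : 𝒪) (hirr : Irreducible ϖ) (x : ↥(ih4Part 𝒪 N Ps θ)) (hx : x ∈ mlteEig 𝒪 N Ps θ G a)
    (m : Ih4H 𝒪 𝒪 (N * q)) (hm : mlteJLam 𝒪 N q lam x.1 = ϖ • m) :
    ∃ x₁ ∈ mlteEig 𝒪 N Ps θ G a, x = ϖ • x₁ := by
  obtain ⟨ℓ, hℓG, hℓ, hℓN, hu⟩ := hnonEis
  have hϖ : ϖ ∈ maximalIdeal 𝒪 := (mem_maximalIdeal ϖ).2 hirr.not_isUnit
  have hval : ∀ γ, x.1.1 γ ∈ maximalIdeal 𝒪 :=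
    mlte_jLam_mod N q p h hp2 hp lam hℓ hℓN (a ℓ - (((ℓ : ℕ) : 𝒪) + 1)) hu x.1
      (by rw [hx ℓ hℓG]; congr 1; ring) ϖ hϖ m hm
  have hdiv : ∀ γ, ϖ ∣ x.1.1 γ := fun γ => by
    have := hval γ
    rw [hirr.maximalIdeal_eq, Ideal.mem_span_singleton] at this
    exact this
  obtain ⟨ψ, hψ⟩ := mlte_hom_div x.1.1 ϖ hirr.ne_zero hdiv
  have hψpar : IsParabolicHom (Gamma0 N) ψ := fun δ hδ => by
    have := hψ (Additive.ofMul δ)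
    rw [x.1.2 δ hδ] at this
    exact (mul_eq_zero.1 this.symm).resolve_left hirr.ne_zero
  have hx₀ : x.1 = ϖ • (⟨ψ, hψpar⟩ : Ih4H 𝒪 𝒪 N) :=
    Subtype.ext (AddMonoidHom.ext fun γ => hψ γ)
  have hx₀part : (⟨ψ, hψpar⟩ : Ih4H 𝒪 𝒪 N) ∈ ih4Part 𝒪 N Ps θ :=
    mlte_part_saturated 𝒪 N Ps θ ϖ _ hirr.ne_zero (hx₀ ▸ x.2)
  have e : ϖ • (⟨⟨ψ, hψpar⟩, hx₀part⟩ : ↥(ih4Part 𝒪 N Ps θ)) = x := Subtype.ext hx₀.symm
  refine ⟨⟨⟨ψ, hψpar⟩, hx₀part⟩, mlteEig_saturated G a ϖ _ hirr.ne_zero ?_, e.symm⟩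
  rw [e]
  exact hx

include h in
/-- division by a power of a uniformiser -/
theorem mlte_eig_div_powP (hp2 : p ≠ 2) (hp : ((p : ℕ) : 𝒪) ∈ maximalIdeal 𝒪)
    (hnonEis : ∃ ℓ ∈ G, ℓ.Prime ∧ ¬ ℓ ∣ N ∧ IsUnit (a ℓ - (((ℓ : ℕ) : 𝒪) + 1)))
    (ϖ : 𝒪) (hirr : Irreducible ϖ) (n : ℕ) :
    ∀ x ∈ mlteEig 𝒪 N Ps θ G a, ∀ m : Ih4H 𝒪 𝒪 (N * q),
      mlteJLam 𝒪 N q lam x.1 = ϖ ^ n • m →
      ∃ x₁ ∈ mlteEig 𝒪 N Ps θ G a, x = ϖ ^ n • x₁ := by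
  induction n with
  | zero =>
    intro x hx m hm
    exact ⟨x, hx, by rw [pow_zero, one_smul]⟩
  | succ n ih =>
    intro x hx m hm
    obtain ⟨x₀, hx₀, rfl⟩ := mlte_eig_divP N q p h Ps θ lam G a hp2 hp hnonEis ϖ hirr
      x hx (ϖ ^ n • m) (by rw [hm, pow_succ', mul_smul])
    have h2 : mlteJLam 𝒪 N q lam x₀.1 = ϖ ^ n • m := by
      have : ϖ • mlteJLam 𝒪 N q lam x₀.1 = ϖ • (ϖ ^ n • m) := by
        rw [← map_smul, ← Submodule.coe_smul, hm, pow_succ', mul_smul]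
      exact smul_right_injective _ hirr.ne_zero this
    obtain ⟨x₁, hx₁, rfl⟩ := ih x₀ hx₀ m h2
    exact ⟨x₁, hx₁, by rw [pow_succ', mul_smul]⟩

include h in
/-- **`j_λ` is saturated on the non-Eisenstein eigenspaces** (Ihara's lemma) -/
theorem mlte_eig_satP (hp2 : p ≠ 2) (hp : ((p : ℕ) : 𝒪) ∈ maximalIdeal 𝒪)
    (hnonEis : ∃ ℓ ∈ G, ℓ.Prime ∧ ¬ ℓ ∣ N ∧ IsUnit (a ℓ - (((ℓ : ℕ) : 𝒪) + 1))) :
    ∀ x ∈ mlteEig 𝒪 N Ps θ G a, ∀ (α : 𝒪) (m : Ih4H 𝒪 𝒪 (N * q)), ¬ IsUnit α →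
      mlteJLam 𝒪 N q lam x.1 = α • m → ∃ x₁ ∈ mlteEig 𝒪 N Ps θ G a, x = α • x₁ := by
  intro x hx α m hα hm
  obtain ⟨ϖ, hirr⟩ := IsDiscreteValuationRing.exists_irreducible 𝒪
  have hϖ : ϖ ∈ maximalIdeal 𝒪 := (mem_maximalIdeal ϖ).2 hirr.not_isUnit
  by_cases hα0 : α = 0
  · subst hα0
    refine ⟨0, Submodule.zero_mem _, ?_⟩
    rw [zero_smul] at hm ⊢
    apply Subtype.ext
    apply Subtype.ext
    refine AddMonoidHom.ext fun γ => ?_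
    have hmem : x.1.1 γ ∈ ⨅ n : ℕ, (maximalIdeal 𝒪) ^ n := by
      rw [Submodule.mem_iInf]
      intro n
      obtain ⟨x₁, -, hx₁⟩ := mlte_eig_div_powP N q p h Ps θ lam G a hp2 hp hnonEis
        ϖ hirr n x hx 0 (by rw [hm, smul_zero])
      rw [hx₁]
      show ϖ ^ n * x₁.1.1 γ ∈ _
      exact Ideal.mul_mem_right _ _ (Ideal.pow_mem_pow hϖ n)
    rw [Ideal.iInf_pow_eq_bot_of_isLocalRing _ (maximalIdeal.isMaximal 𝒪).ne_top] at hmem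
    exact hmem
  · obtain ⟨n, u, rfl⟩ := IsDiscreteValuationRing.eq_unit_mul_pow_irreducible hα0 hirr
    obtain ⟨x₁, hx₁, rfl⟩ := mlte_eig_div_powP N q p h Ps θ lam G a hp2 hp hnonEis
      ϖ hirr n x hx ((u : 𝒪) • m) (by rw [hm, mul_comm (u : 𝒪), mul_smul])
    refine ⟨((u⁻¹ : 𝒪ˣ) : 𝒪) • x₁, Submodule.smul_mem _ _ hx₁, ?_⟩
    rw [smul_smul, mul_comm (u : 𝒪), mul_assoc, Units.mul_inv, mul_one]

end StepC

/-! ### The growth formula -/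

section Final

variable {𝒪 : Type} [CommRing 𝒪] [IsDomain 𝒪] [IsDiscreteValuationRing 𝒪] [CharZero 𝒪]
  [IsAdicComplete (maximalIdeal 𝒪) 𝒪]
  (N q p : ℕ) [NeZero N] [hq : Fact q.Prime] [hpp : Fact p.Prime] (h : ¬ q ∣ N)
  (Ps Ps' : Set ℕ) (θ θ' : ℕ → 𝒪) (aq lam : 𝒪) (G G' : Set ℕ) (a a' : ℕ → 𝒪)
  (hPs : ∀ ℓ ∈ Ps', ℓ ≠ q → ℓ ∈ Ps ∧ θ' ℓ = θ ℓ)
  (hθq : q ∈ Ps' → lam - θ' q ∈ maximalIdeal 𝒪)
  (hlam : lam * aq = lam ^ 2 + ((q : ℕ) : 𝒪))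
  (hG' : ∀ ℓ ∈ G', ℓ ≠ q → ℓ ∈ G ∧ a' ℓ = a ℓ) (hqG' : q ∈ G' → a' q = lam)
  (hTq : ∀ x ∈ mlteEig 𝒪 N Ps θ G a, ih4Op 𝒪 N q x.1 = aq • x.1)

/-- `j_λ` multiplies the pairing by `c = (1 + λ²) a_q - 2 λ (q + 1)` on the eigenspaces -/
theorem mlteJP_pair (x y : ↥(mlteEig 𝒪 N Ps θ G a)) :
    mltePartPair 𝒪 (N * q) Ps' θ'
        (mlteJP N q h Ps Ps' θ θ' aq lam G G' a a' hPs hθq hlam hG' hqG' hTq x).1
        (mlteJP N q h Ps Ps' θ θ' aq lam G G' a a' hPs hθq hlam hG' hqG' hTq y).1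
      = mlteCpVal 𝒪 q aq lam * mltePartPair 𝒪 N Ps θ x.1 y.1 := by
  rw [mltePartPair_apply, mltePartPair_apply, mlteJP_coe, mlteJP_coe,
    mltePairO_jLam 𝒪 N q h aq lam x.1.1 y.1.1 (hTq y.1 y.2)]

/-- the saturation of `j_λ : X → X'` -/
theorem mlteJP_sat (hp2 : p ≠ 2) (hp : ((p : ℕ) : 𝒪) ∈ maximalIdeal 𝒪)
    (hnonEis : ∃ ℓ ∈ G, ℓ.Prime ∧ ¬ ℓ ∣ N ∧ IsUnit (a ℓ - (((ℓ : ℕ) : 𝒪) + 1)))
    (x : ↥(mlteEig 𝒪 N Ps θ G a)) (α : 𝒪) (m : ↥(ih4Part 𝒪 (N * q) Ps' θ')) (hα : ¬ IsUnit α)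
    (hm : ((mlteJP N q h Ps Ps' θ θ' aq lam G G' a a' hPs hθq hlam hG' hqG' hTq x :
      ↥(mlteEig 𝒪 (N * q) Ps' θ' G' a')) : ↥(ih4Part 𝒪 (N * q) Ps' θ')) = α • m) :
    ∃ x₁ : ↥(mlteEig 𝒪 N Ps θ G a), x = α • x₁ := by
  have hm' : mlteJLam 𝒪 N q lam x.1.1 = α • m.1 := by
    rw [← mlteJP_coe N q h Ps Ps' θ θ' aq lam G G' a a' hPs hθq hlam hG' hqG' hTq, hm]
    rfl
  obtain ⟨x₁, hx₁, hxx⟩ := mlte_eig_satP N q p h Ps θ lam G a hp2 hp hnonEis x.1 x.2 α m.1 hα hm'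
  exact ⟨⟨x₁, hx₁⟩, Subtype.ext hxx⟩

/-- **`j_λ : X → X'` is bijective** -/
theorem mlte_eig_bijP (hp2 : p ≠ 2) (hp : ((p : ℕ) : 𝒪) ∈ maximalIdeal 𝒪)
    (hnonEis : ∃ ℓ ∈ G, ℓ.Prime ∧ ¬ ℓ ∣ N ∧ IsUnit (a ℓ - (((ℓ : ℕ) : 𝒪) + 1)))
    (hXnd : ∀ x ∈ mlteEig 𝒪 N Ps θ G a,
      (∀ y ∈ mlteEig 𝒪 N Ps θ G a, mltePartPair 𝒪 N Ps θ y x = 0) → x = 0)
    (hrank : Module.finrank 𝒪 ↥(mlteEig 𝒪 (N * q) Ps' θ' G' a')
      ≤ Module.finrank 𝒪 ↥(mlteEig 𝒪 N Ps θ G a))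
    (hc : mlteCpVal 𝒪 q aq lam ≠ 0) :
    Function.Bijective (mlteJP N q h Ps Ps' θ θ' aq lam G G' a a' hPs hθq hlam hG' hqG' hTq) :=
  mlte_growth_bijX (mltePartPair 𝒪 N Ps θ) (mltePartPair 𝒪 (N * q) Ps' θ')
    (mlteEig 𝒪 N Ps θ G a) (mlteEig 𝒪 (N * q) Ps' θ' G' a') hXnd
    (mlteJP N q h Ps Ps' θ θ' aq lam G G' a a' hPs hθq hlam hG' hqG' hTq)
    (mlteJP_sat N q p h Ps Ps' θ θ' aq lam G G' a a' hPs hθq hlam hG' hqG' hTq hp2 hp hnonEis)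
    hrank (mlteCpVal 𝒪 q aq lam) hc
    (mlteJP_pair N q h Ps Ps' θ θ' aq lam G G' a a' hPs hθq hlam hG' hqG' hTq)

include h hPs hθq hlam hG' hqG' hTq in
/-- **the growth of the congruence module from level `N` to level `N q` along `λ`** -/
theorem mlte_omega_growthP (hp2 : p ≠ 2) (hp : ((p : ℕ) : 𝒪) ∈ maximalIdeal 𝒪)
    (hnonEis : ∃ ℓ ∈ G, ℓ.Prime ∧ ¬ ℓ ∣ N ∧ IsUnit (a ℓ - (((ℓ : ℕ) : 𝒪) + 1)))
    (hXnd : ∀ x ∈ mlteEig 𝒪 N Ps θ G a,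
      (∀ y ∈ mlteEig 𝒪 N Ps θ G a, mltePartPair 𝒪 N Ps θ y x = 0) → x = 0)
    (hrank : Module.finrank 𝒪 ↥(mlteEig 𝒪 (N * q) Ps' θ' G' a')
      ≤ Module.finrank 𝒪 ↥(mlteEig 𝒪 N Ps θ G a))
    (hc : mlteCpVal 𝒪 q aq lam ≠ 0) :
    Module.length 𝒪 (↥(ih4Part 𝒪 (N * q) Ps' θ') ⧸
        (mlteEig 𝒪 (N * q) Ps' θ' G' a'
          ⊔ (mltePartPair 𝒪 (N * q) Ps' θ').orthogonal (mlteEig 𝒪 (N * q) Ps' θ' G' a')))
      = Module.length 𝒪 (↥(ih4Part 𝒪 N Ps θ) ⧸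
          (mlteEig 𝒪 N Ps θ G a ⊔ (mltePartPair 𝒪 N Ps θ).orthogonal (mlteEig 𝒪 N Ps θ G a)))
        + (Module.finrank 𝒪 ↥(mlteEig 𝒪 N Ps θ G a) : ℕ∞)
          * Module.length 𝒪 (𝒪 ⧸ Ideal.span {mlteCpVal 𝒪 q aq lam}) :=
  mlte_growth_absX (mltePartPair 𝒪 N Ps θ) (mltePartPair 𝒪 (N * q) Ps' θ')
    (mlteEig 𝒪 N Ps θ G a) (mlteEig 𝒪 (N * q) Ps' θ' G' a')
    (mltePartPair_unimodular 𝒪 N Ps θ) (mltePartPair_unimodular 𝒪 (N * q) Ps' θ')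
    (fun c m hc hm => mlteEig_saturated G a c m hc hm)
    (fun c m hc hm => mlteEig_saturated G' a' c m hc hm) hXnd
    (mlteJP N q h Ps Ps' θ θ' aq lam G G' a a' hPs hθq hlam hG' hqG' hTq)
    (mlteJP_sat N q p h Ps Ps' θ θ' aq lam G G' a a' hPs hθq hlam hG' hqG' hTq hp2 hp hnonEis)
    hrank (mlteCpVal 𝒪 q aq lam) hc
    (mlteJP_pair N q h Ps Ps' θ θ' aq lam G G' a a' hPs hθq hlam hG' hqG' hTq)

include h hPs hθq hlam hG' hqG' hTq in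
/-- **old vectors**: `rank X ≤ rank X'` (no hypothesis on `c`) -/
theorem mlte_eig_finrank_leP (hp2 : p ≠ 2) (hp : ((p : ℕ) : 𝒪) ∈ maximalIdeal 𝒪)
    (hnonEis : ∃ ℓ ∈ G, ℓ.Prime ∧ ¬ ℓ ∣ N ∧ IsUnit (a ℓ - (((ℓ : ℕ) : 𝒪) + 1))) :
    Module.finrank 𝒪 ↥(mlteEig 𝒪 N Ps θ G a)
      ≤ Module.finrank 𝒪 ↥(mlteEig 𝒪 (N * q) Ps' θ' G' a') := by
  refine LinearMap.finrank_le_finrank_of_injective
    (f := mlteJP N q h Ps Ps' θ θ' aq lam G G' a a' hPs hθq hlam hG' hqG' hTq) ?_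
  rw [injective_iff_map_eq_zero]
  intro x hx
  have hx' : ((mlteJP N q h Ps Ps' θ θ' aq lam G G' a a' hPs hθq hlam hG' hqG' hTq x :
      ↥(mlteEig 𝒪 (N * q) Ps' θ' G' a')) : ↥(ih4Part 𝒪 (N * q) Ps' θ')) = (0 : 𝒪) • 0 := by
    rw [smul_zero, hx]
    rfl
  obtain ⟨x₁, hx₁⟩ := mlteJP_sat N q p h Ps Ps' θ θ' aq lam G G' a a' hPs hθq hlam hG' hqG' hTq
    hp2 hp hnonEis x 0 0 not_isUnit_zero hx'
  rw [hx₁, zero_smul]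

end Final

/-! ### The constant -/

section Const

variable {𝒪 : Type} [CommRing 𝒪] [IsDomain 𝒪] [IsDiscreteValuationRing 𝒪]

/-- `(c) = (λ² - 1)` when `λ` is a unit and `q ∈ 𝔪` -/
theorem mlteCpVal_span (q : ℕ) (aq lam : 𝒪) (hlam : lam * aq = lam ^ 2 + ((q : ℕ) : 𝒪))
    (hu : IsUnit lam) (hq : ((q : ℕ) : 𝒪) ∈ maximalIdeal 𝒪) :
    Ideal.span {mlteCpVal 𝒪 q aq lam} = Ideal.span {lam ^ 2 - 1} := by
  have h1 := mlteCpVal_mul 𝒪 q aq lam hlam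
  have hu2 : IsUnit (lam ^ 2 - ((q : ℕ) : 𝒪)) := by
    by_contra hnu
    have hm : lam ^ 2 - ((q : ℕ) : 𝒪) ∈ maximalIdeal 𝒪 := (mem_maximalIdeal _).2 hnu
    have : lam ^ 2 ∈ maximalIdeal 𝒪 := by
      have := Ideal.add_mem _ hm hq
      rwa [sub_add_cancel] at this
    exact ((mem_maximalIdeal _).1 this) (hu.pow 2)
  rw [Ideal.span_singleton_eq_span_singleton]
  obtain ⟨u, rfl⟩ := hu
  obtain ⟨v, hv⟩ := hu2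
  refine ⟨u * v⁻¹, ?_⟩
  have h2 : mlteCpVal 𝒪 q aq (u : 𝒪) * (u : 𝒪) = ((u : 𝒪) ^ 2 - 1) * (v : 𝒪) := by
    rw [hv, mul_comm]; exact h1
  calc mlteCpVal 𝒪 q aq (u : 𝒪) * ((u * v⁻¹ : 𝒪ˣ) : 𝒪)
      = (mlteCpVal 𝒪 q aq (u : 𝒪) * (u : 𝒪)) * ((v⁻¹ : 𝒪ˣ) : 𝒪) := by
        rw [Units.val_mul]; ring
    _ = ((u : 𝒪) ^ 2 - 1) * ((v : 𝒪) * ((v⁻¹ : 𝒪ˣ) : 𝒪)) := by rw [h2]; ring
    _ = (u : 𝒪) ^ 2 - 1 := by rw [Units.mul_inv, mul_one]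

/-- `c ≠ 0` when `λ` is a unit, `q ∈ 𝔪` and `λ² ≠ 1` -/
theorem mlteCpVal_ne_zero (q : ℕ) (aq lam : 𝒪) (hlam : lam * aq = lam ^ 2 + ((q : ℕ) : 𝒪))
    (hu : IsUnit lam) (hq : ((q : ℕ) : 𝒪) ∈ maximalIdeal 𝒪) (h1 : lam ^ 2 ≠ 1) :
    mlteCpVal 𝒪 q aq lam ≠ 0 := by
  intro h0
  have := mlteCpVal_span q aq lam hlam hu hq
  rw [h0, Ideal.span_singleton_eq_span_singleton] at this
  obtain ⟨u, hu'⟩ := this
  rw [zero_mul] at hu'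
  exact h1 (sub_eq_zero.1 hu'.symm)

end Const

/-! ### The same with an arbitrary name `N'` for the level `N q` -/

section Transport

variable {𝒪 : Type} [CommRing 𝒪] [IsDomain 𝒪] [IsDiscreteValuationRing 𝒪] [CharZero 𝒪]
  [IsAdicComplete (maximalIdeal 𝒪) 𝒪]

theorem mlte_eig_finrank_leP' (N N' q p : ℕ) [NeZero N] [NeZero N'] [hq : Fact q.Prime]
    [hpp : Fact p.Prime] (hN' : N' = N * q) (h : ¬ q ∣ N)
    (Ps Ps' : Set ℕ) (θ θ' : ℕ → 𝒪) (aq lam : 𝒪) (G G' : Set ℕ) (a a' : ℕ → 𝒪)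
    (hPs : ∀ ℓ ∈ Ps', ℓ ≠ q → ℓ ∈ Ps ∧ θ' ℓ = θ ℓ)
    (hθq : q ∈ Ps' → lam - θ' q ∈ maximalIdeal 𝒪)
    (hlam : lam * aq = lam ^ 2 + ((q : ℕ) : 𝒪))
    (hG' : ∀ ℓ ∈ G', ℓ ≠ q → ℓ ∈ G ∧ a' ℓ = a ℓ) (hqG' : q ∈ G' → a' q = lam)
    (hTq : ∀ x ∈ mlteEig 𝒪 N Ps θ G a, ih4Op 𝒪 N q x.1 = aq • x.1)
    (hp2 : p ≠ 2) (hp : ((p : ℕ) : 𝒪) ∈ maximalIdeal 𝒪)
    (hnonEis : ∃ ℓ ∈ G, ℓ.Prime ∧ ¬ ℓ ∣ N ∧ IsUnit (a ℓ - (((ℓ : ℕ) : 𝒪) + 1))) :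
    Module.finrank 𝒪 ↥(mlteEig 𝒪 N Ps θ G a)
      ≤ Module.finrank 𝒪 ↥(mlteEig 𝒪 N' Ps' θ' G' a') := by
  subst hN'
  exact mlte_eig_finrank_leP N q p h Ps Ps' θ θ' aq lam G G' a a' hPs hθq hlam hG' hqG' hTq
    hp2 hp hnonEis

theorem mlte_omega_growthP' (N N' q p : ℕ) [NeZero N] [NeZero N'] [hq : Fact q.Prime]
    [hpp : Fact p.Prime] (hN' : N' = N * q) (h : ¬ q ∣ N)
    (Ps Ps' : Set ℕ) (θ θ' : ℕ → 𝒪) (aq lam : 𝒪) (G G' : Set ℕ) (a a' : ℕ → 𝒪)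
    (hPs : ∀ ℓ ∈ Ps', ℓ ≠ q → ℓ ∈ Ps ∧ θ' ℓ = θ ℓ)
    (hθq : q ∈ Ps' → lam - θ' q ∈ maximalIdeal 𝒪)
    (hlam : lam * aq = lam ^ 2 + ((q : ℕ) : 𝒪))
    (hG' : ∀ ℓ ∈ G', ℓ ≠ q → ℓ ∈ G ∧ a' ℓ = a ℓ) (hqG' : q ∈ G' → a' q = lam)
    (hTq : ∀ x ∈ mlteEig 𝒪 N Ps θ G a, ih4Op 𝒪 N q x.1 = aq • x.1)
    (hp2 : p ≠ 2) (hp : ((p : ℕ) : 𝒪) ∈ maximalIdeal 𝒪)
    (hnonEis : ∃ ℓ ∈ G, ℓ.Prime ∧ ¬ ℓ ∣ N ∧ IsUnit (a ℓ - (((ℓ : ℕ) : 𝒪) + 1)))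
    (hXnd : ∀ x ∈ mlteEig 𝒪 N Ps θ G a,
      (∀ y ∈ mlteEig 𝒪 N Ps θ G a, mltePartPair 𝒪 N Ps θ y x = 0) → x = 0)
    (hrank : Module.finrank 𝒪 ↥(mlteEig 𝒪 N' Ps' θ' G' a')
      ≤ Module.finrank 𝒪 ↥(mlteEig 𝒪 N Ps θ G a))
    (hc : mlteCpVal 𝒪 q aq lam ≠ 0) :
    Module.length 𝒪 (↥(ih4Part 𝒪 N' Ps' θ') ⧸
        (mlteEig 𝒪 N' Ps' θ' G' a'
          ⊔ (mltePartPair 𝒪 N' Ps' θ').orthogonal (mlteEig 𝒪 N' Ps' θ' G' a')))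
      = Module.length 𝒪 (↥(ih4Part 𝒪 N Ps θ) ⧸
          (mlteEig 𝒪 N Ps θ G a ⊔ (mltePartPair 𝒪 N Ps θ).orthogonal (mlteEig 𝒪 N Ps θ G a)))
        + (Module.finrank 𝒪 ↥(mlteEig 𝒪 N Ps θ G a) : ℕ∞)
          * Module.length 𝒪 (𝒪 ⧸ Ideal.span {mlteCpVal 𝒪 q aq lam}) := by
  subst hN'
  exact mlte_omega_growthP N q p h Ps Ps' θ θ' aq lam G G' a a' hPs hθq hlam hG' hqG' hTq
    hp2 hp hnonEis hXnd hrank hc

end Transport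

end

end Fermat.Agent.MLT
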