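/-
MLT / stream Eta (helper1): **glue between the ring-free statements of `Eta/Growth.lean` and the
shared objects** `MltBase`, `B.H Sig`, `IhdT 𝒪 θ` of `Min/Defs.lean`, `Contracts/Step.lean`.

* `mlte_ihd_adjoin_T`   : `IhdT 𝒪 θ` is generated over `𝒪` by the `T_ℓ` when every prime of the level
  is in `S`;
* `mlte_prime_dvd_level`: the primes of `N_Σ` are in `S_Σ`;
* `mlte_eig_sub_mem`    : an eigenvalue of `ih4Op ℓ` on the `θ`-part is `≡ θ ℓ` modulo `𝔪`;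
* `mlte_base_nonEis`    : the non-Eisenstein prime of a valid base datum.
-/
import Mathlib
import Fermat.Agent.Lib.MLT.Eta.Growth
import Fermat.Agent.Lib.MLT.Contracts.Step
import Fermat.Agent.Lib.Ihara.Hm.NonEis

set_option autoImplicit false
set_option linter.unusedSectionVars false
set_option linter.unusedVariables false
set_option linter.style.haveILetI false

open Fermat.Agent.T1 Fermat.Agent.T2 ModularCurve.Period Fermat.Agent.Ihara CongruenceSubgroup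
  IsLocalRing

namespace Fermat.Agent.MLT

noncomputable section

section Adjoin

variable (𝒪 : Type) [CommRing 𝒪] [IsDomain 𝒪] [IsDiscreteValuationRing 𝒪]
  [IsAdicComplete (maximalIdeal 𝒪) 𝒪]
  {N : ℕ} [NeZero N] {S : Set ℕ} (θ : CuspForm.heckeAlgebra N 2 S →+* ResidueField 𝒪)

/-- the generators `T_ℓ` of the local Hecke ring -/
def mlteGenT : Set (IhdT 𝒪 θ) :=
  {t | ∃ (ℓ : ℕ) (hℓ : ℓ.Prime) (hℓN : ¬ ℓ ∣ N) (hℓS : ℓ ∉ S),
    t = ihdPi 𝒪 θ (CuspForm.heckeAlgebra.T hℓ hℓN hℓS)}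

/-- **`IhdT 𝒪 θ` is generated over `𝒪` by the `T_ℓ`** when every prime of the level is in `S` -/
theorem mlte_ihd_adjoin_T (hNS : ∀ q : ℕ, q.Prime → q ∣ N → q ∈ S) :
    Algebra.adjoin 𝒪 (mlteGenT 𝒪 θ) = ⊤ := by
  rw [eq_top_iff, ← ihd_adjoin_range_pi 𝒪 θ]
  apply Algebra.adjoin_le
  rintro _ ⟨⟨t, ht⟩, rfl⟩
  have ht' : t ∈ Algebra.adjoin ℤ (CuspForm.heckeGenerators N 2 S) := ht
  induction ht' using Algebra.adjoin_induction with
  | mem x hx =>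
    rcases hx with ⟨ℓ, hℓ, hℓN, hℓS, rfl⟩ | ⟨q, hqN, hq, hqS, rfl⟩
    · exact Algebra.subset_adjoin ⟨ℓ, hℓ, hℓN, hℓS, rfl⟩
    · exact absurd (hNS q hq hqN) hqS
  | algebraMap r =>
    have : (⟨algebraMap ℤ _ r, ht⟩ : CuspForm.heckeAlgebra N 2 S)
        = algebraMap ℤ (CuspForm.heckeAlgebra N 2 S) r := rfl
    rw [this, eq_intCast, map_intCast]
    exact intCast_mem _ r
  | add x y hx hy ihx ihy =>
    have : (⟨x + y, ht⟩ : CuspForm.heckeAlgebra N 2 S) = ⟨x, hx⟩ + ⟨y, hy⟩ := rfl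
    rw [this, map_add]
    exact Subalgebra.add_mem _ (ihx hx) (ihy hy)
  | mul x y hx hy ihx ihy =>
    have : (⟨x * y, ht⟩ : CuspForm.heckeAlgebra N 2 S) = ⟨x, hx⟩ * ⟨y, hy⟩ := rfl
    rw [this, map_mul]
    exact Subalgebra.mul_mem _ (ihx hx) (ihy hy)

end Adjoin

section Values

variable {𝒪 : Type} [CommRing 𝒪] [IsDomain 𝒪] [IsDiscreteValuationRing 𝒪] [CharZero 𝒪]
  [IsAdicComplete (maximalIdeal 𝒪) 𝒪] (M : ℕ) [NeZero M]

/-- the values of a class in `I • H` lie in `I` -/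
theorem mlte_apply_mem_of_mem_smul (I : Ideal 𝒪) {z : Ih4H 𝒪 𝒪 M}
    (hz : z ∈ I • (⊤ : Submodule 𝒪 (Ih4H 𝒪 𝒪 M))) (γ : Additive (Gamma0 M)) : z.1 γ ∈ I := by
  refine Submodule.smul_induction_on hz (fun r hr m _ => ?_) (fun x y hx hy => ?_)
  · show r * m.1 γ ∈ I
    exact Ideal.mul_mem_right _ _ hr
  · show x.1 γ + y.1 γ ∈ I
    exact Ideal.add_mem _ hx hy

/-- **an eigenvalue of `ih4Op ℓ` on the `θ`-part is congruent to `θ ℓ` modulo `𝔪`** -/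
theorem mlte_eig_sub_mem (Ps : Set ℕ) (θ : ℕ → 𝒪) {ℓ : ℕ} (hℓ : ℓ ∈ Ps) (x : Ih4H 𝒪 𝒪 M)
    (hx : x ∈ ih4Part 𝒪 M Ps θ) (hx0 : x ≠ 0) (a : 𝒪) (hxa : ih4Op 𝒪 M ℓ x = a • x) :
    a - θ ℓ ∈ maximalIdeal 𝒪 := by
  by_contra hu
  have hu' : IsUnit (a - θ ℓ) := by
    by_contra h
    exact hu ((mem_maximalIdeal _).2 h)
  obtain ⟨u, hu''⟩ := hu'
  apply hx0
  have hS : ∀ n : ℕ, ((ih4Op 𝒪 M ℓ - algebraMap 𝒪 (Module.End 𝒪 (Ih4H 𝒪 𝒪 M)) (θ ℓ)) ^ n) x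
      = (a - θ ℓ) ^ n • x := by
    intro n
    induction n with
    | zero => simp
    | succ n ih =>
      rw [pow_succ', Module.End.mul_apply, ih, map_smul, LinearMap.sub_apply, hxa,
        Module.algebraMap_end_apply]
      module
  have hnil := (ih4_mem_part 𝒪).1 hx ℓ hℓ
  apply Subtype.ext
  refine AddMonoidHom.ext fun γ => ?_
  have hmem : x.1 γ ∈ ⨅ n : ℕ, (maximalIdeal 𝒪) ^ n := by
    rw [Submodule.mem_iInf]
    intro n
    obtain ⟨K, hK⟩ := hnil n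
    rw [hS K] at hK
    have h2 : x = ((u⁻¹ : 𝒪ˣ) : 𝒪) ^ K • ((a - θ ℓ) ^ K • x) := by
      rw [smul_smul, ← mul_pow, ← hu'', Units.inv_mul, one_pow, one_smul]
    have h3 : x ∈ (maximalIdeal 𝒪) ^ n • (⊤ : Submodule 𝒪 (Ih4H 𝒪 𝒪 M)) := by
      rw [h2]
      exact Submodule.smul_mem _ _ hK
    exact mlte_apply_mem_of_mem_smul M _ h3 γ
  rw [Ideal.iInf_pow_eq_bot_of_isLocalRing _ (maximalIdeal.isMaximal 𝒪).ne_top] at hmem
  exact hmem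

end Values

section Base

variable {𝒪 : Type} [CommRing 𝒪] [IsDomain 𝒪] [IsDiscreteValuationRing 𝒪] [CharZero 𝒪]
  [IsAdicComplete (maximalIdeal 𝒪) 𝒪] [Finite (ResidueField 𝒪)]
  (B : MltBase 𝒪) (hB : B.Valid) (Sig : Finset ℕ) (hSig : B.IsAux Sig)

include hB hSig in
/-- the primes of the level `N_Σ` are in the bad set `S_Σ` -/
theorem mlte_prime_dvd_level {ℓ : ℕ} (hℓ : ℓ.Prime) (h : ℓ ∣ B.level Sig) : ℓ ∈ B.bad Sig := by
  unfold MltBase.level at h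
  unfold MltBase.bad
  rcases (Nat.Prime.dvd_mul hℓ).1 h with h1 | h1
  · exact Finset.mem_union_left _ (hB.N0_sub ℓ hℓ h1)
  · obtain ⟨q, hq, hℓq⟩ := (Prime.dvd_finsetProd_iff hℓ.prime _).1 h1
    have h2 : ℓ ∣ q := hℓ.dvd_of_dvd_pow hℓq
    have h3 : ℓ = q := (Nat.prime_dvd_prime_iff_eq hℓ (hSig q hq).1).1 h2
    rw [h3]
    exact Finset.mem_union_right _ hq

include hB in
/-- **the non-Eisenstein prime** of a valid base datum, outside any finite set -/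
theorem mlte_base_nonEis (T : Finset ℕ) :
    ∃ ℓ₀ : ℕ, ℓ₀.Prime ∧ ℓ₀ ∉ B.S0 ∧ ℓ₀ ∉ T ∧ IsUnit (B.t ℓ₀ - ((ℓ₀ : 𝒪) + 1)) :=
  ihm_exists_nonEis 𝒪 B.ρbar hB.absIrr B.S0 T B.t hB.frob

end Base

end

end Fermat.Agent.MLT
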