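/-
MLT / stream Eta (helper1): **(pE) the eigenspaces at `p`** (Hecke side of "(8) at `p`"), ring-free.

Levels `N`, `N q` (`q ∤ N` prime, `(q : 𝒪) ∈ 𝔪`, i.e. `q = p`).  `X = mlteEig 𝒪 N Ps θ G a`,
`X' = mlteEig 𝒪 (N q) Ps' θ' G a` (`q ∉ G`, `Ps' ⊇ Ps`, `θ' = θ` on `Ps`, `q ∈ Ps'`, `θ' q ≡ z`).
If `T_q = a_q` on `X` (`z a_q = z² + q`, `z` a unit) and there is no non-zero `q`-new `a`-eigenclass of
level `N q`, then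

* `(U_q - z)(U_q - q / z) = 0` on `X'` (`mlte_quadP`), hence `U_q = z` on `X'` (`mlte_Uq_eq`);
* `cor ∘ w_q : X' → X` is injective, hence `rank X' ≤ rank X` (`mlte_eig_finrank_geP`).
-/
import Mathlib
import Fermat.Agent.Lib.MLT.Eta.GrowthP
import Fermat.Agent.Lib.MLT.Eta.StepGlue

set_option autoImplicit false
set_option linter.unusedSectionVars false
set_option linter.unusedVariables false
set_option linter.style.haveILetI false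

open Fermat.Agent.T1 Fermat.Agent.T2 ModularCurve.Period Fermat.Agent.Ihara CongruenceSubgroup
  IsLocalRing

namespace Fermat.Agent.MLT

noncomputable section

section EigP

variable {𝒪 : Type} [CommRing 𝒪] [IsDomain 𝒪] [IsDiscreteValuationRing 𝒪] [CharZero 𝒪]
  [IsAdicComplete (maximalIdeal 𝒪) 𝒪]
  (N q : ℕ) [NeZero N] [hq : Fact q.Prime] (h : ¬ q ∣ N)
  (Ps Ps' : Set ℕ) (θ θ' : ℕ → 𝒪) (G : Set ℕ) (a : ℕ → 𝒪)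

local notation "β" => ih4Cor N q h 𝒪 𝒪
local notation "W" => ih4W N q h 𝒪 𝒪
local notation "U" => ih4Op 𝒪 (N * q) q

/-- the Hecke operators preserve the eigenspaces -/
theorem mlte_op_mem_eig (M : ℕ) [NeZero M] (Ps : Set ℕ) (θ : ℕ → 𝒪) (G : Set ℕ) (a : ℕ → 𝒪)
    (ℓ : ℕ) {y : Ih4H 𝒪 𝒪 M} (hy : y ∈ ih4Part 𝒪 M Ps θ)
    (hya : ∀ ℓ' ∈ G, ih4Op 𝒪 M ℓ' y = a ℓ' • y) :
    ih4Op 𝒪 M ℓ y ∈ ih4Part 𝒪 M Ps θ ∧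
      ∀ ℓ' ∈ G, ih4Op 𝒪 M ℓ' (ih4Op 𝒪 M ℓ y) = a ℓ' • ih4Op 𝒪 M ℓ y := by
  refine ⟨ih4Op_mem_part 𝒪 ℓ hy, fun ℓ' hℓ' => ?_⟩
  have hc := LinearMap.congr_fun (ih4Op_commute 𝒪 M ℓ' ℓ).eq y
  rw [Module.End.mul_apply, Module.End.mul_apply] at hc
  rw [hc, hya ℓ' hℓ', map_smul]

variable (hPs2 : ∀ ℓ ∈ Ps, ℓ ≠ q ∧ ℓ ∈ Ps' ∧ θ' ℓ = θ ℓ) (hqG : q ∉ G)

include hPs2 in
/-- a map commuting with the Hecke operators away from `q` maps the `θ'`-part of level `N q` into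
the `θ`-part of level `N` -/
theorem mlte_down_mem_part (f : Ih4H 𝒪 𝒪 (N * q) →ₗ[𝒪] Ih4H 𝒪 𝒪 N)
    (hf : ∀ ℓ, ℓ ≠ q → ∀ y, f (ih4Op 𝒪 (N * q) ℓ y) = ih4Op 𝒪 N ℓ (f y))
    {y : Ih4H 𝒪 𝒪 (N * q)} (hy : y ∈ ih4Part 𝒪 (N * q) Ps' θ') : f y ∈ ih4Part 𝒪 N Ps θ := by
  rw [ih4_mem_part] at hy ⊢
  intro ℓ hℓ
  obtain ⟨h1, h2, h3⟩ := hPs2 ℓ hℓ
  refine ih4pNil1_map (f := f) (fun v => ?_) (hy ℓ h2)
  rw [LinearMap.sub_apply, LinearMap.sub_apply, map_sub, hf ℓ h1, h3,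
    Module.algebraMap_end_apply, Module.algebraMap_end_apply, map_smul]

include hqG in
theorem mlte_down_eig (f : Ih4H 𝒪 𝒪 (N * q) →ₗ[𝒪] Ih4H 𝒪 𝒪 N)
    (hf : ∀ ℓ, ℓ ≠ q → ∀ y, f (ih4Op 𝒪 (N * q) ℓ y) = ih4Op 𝒪 N ℓ (f y))
    {y : Ih4H 𝒪 𝒪 (N * q)} (hya : ∀ ℓ ∈ G, ih4Op 𝒪 (N * q) ℓ y = a ℓ • y) :
    ∀ ℓ ∈ G, ih4Op 𝒪 N ℓ (f y) = a ℓ • f y := by
  intro ℓ hℓ
  have hℓq : ℓ ≠ q := fun e => hqG (e ▸ hℓ)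
  rw [← hf ℓ hℓq, hya ℓ hℓ, map_smul]

/-- `cor` commutes with the Hecke operators away from `q` -/
theorem mlte_cor_comm (ℓ : ℕ) (hℓq : ℓ ≠ q) (y : Ih4H 𝒪 𝒪 (N * q)) :
    β (ih4Op 𝒪 (N * q) ℓ y) = ih4Op 𝒪 N ℓ (β y) := ih4Op_cor 𝒪 N q h hℓq y

/-- `cor ∘ w_q` commutes with the Hecke operators away from `q` -/
theorem mlte_corW_comm (ℓ : ℕ) (hℓq : ℓ ≠ q) (y : Ih4H 𝒪 𝒪 (N * q)) :
    (β ∘ₗ W) (ih4Op 𝒪 (N * q) ℓ y) = ih4Op 𝒪 N ℓ ((β ∘ₗ W) y) := by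
  rw [LinearMap.comp_apply, LinearMap.comp_apply, ih4Op_W 𝒪 N q h hℓq, ih4Op_cor 𝒪 N q h hℓq]

/-- `cor (U_q y) = q · cor (w_q y)` -/
theorem mlte_cor_Uq (y : Ih4H 𝒪 𝒪 (N * q)) : β (U y) = ((q : ℕ) : 𝒪) • β (W y) := by
  have hD := ih4_deg_op 𝒪 N q h
  rw [ih4_U_eq hD, map_sub, hD.β_α, add_smul, one_smul]
  abel

/-- `cor (w_q (U_q y)) = T_q (cor (w_q y)) - cor y` -/
theorem mlte_corW_Uq (y : Ih4H 𝒪 𝒪 (N * q)) :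
    β (W (U y)) = ih4Op 𝒪 N q (β (W y)) - β y := by
  have hD := ih4_deg_op 𝒪 N q h
  rw [ih4_U_eq hD, map_sub, map_sub, hD.β_W_α, hD.W_W]

variable (aq z zi : 𝒪) (hz : z * zi = 1) (hlam : z * aq = z ^ 2 + ((q : ℕ) : 𝒪))
  (hTq : ∀ x ∈ mlteEig 𝒪 N Ps θ G a, ih4Op 𝒪 N q x.1 = aq • x.1)
  (hnew : ∀ c : Ih4H 𝒪 𝒪 (N * q), (∀ ℓ ∈ G, ih4Op 𝒪 (N * q) ℓ c = a ℓ • c) →
    c ∈ ih4K (ih4Cor N q h 𝒪 𝒪) (ih4W N q h 𝒪 𝒪) → c = 0)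

include hPs2 hqG hTq in
/-- `T_q = a_q` on `cor y` and on `cor (w_q y)` for `y ∈ X'` -/
theorem mlte_Tq_down (f : Ih4H 𝒪 𝒪 (N * q) →ₗ[𝒪] Ih4H 𝒪 𝒪 N)
    (hf : ∀ ℓ, ℓ ≠ q → ∀ y, f (ih4Op 𝒪 (N * q) ℓ y) = ih4Op 𝒪 N ℓ (f y))
    {y : Ih4H 𝒪 𝒪 (N * q)} (hy : y ∈ ih4Part 𝒪 (N * q) Ps' θ')
    (hya : ∀ ℓ ∈ G, ih4Op 𝒪 (N * q) ℓ y = a ℓ • y) :
    ih4Op 𝒪 N q (f y) = aq • f y :=
  hTq ⟨f y, mlte_down_mem_part N q Ps Ps' θ θ' hPs2 f hf hy⟩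
    (mlte_down_eig N q G a hqG f hf hya)

include hPs2 hqG hTq hnew in
/-- **`U_q² - a_q U_q + q = 0` on `X'`** -/
theorem mlte_quadP {y : Ih4H 𝒪 𝒪 (N * q)} (hy : y ∈ ih4Part 𝒪 (N * q) Ps' θ')
    (hya : ∀ ℓ ∈ G, ih4Op 𝒪 (N * q) ℓ y = a ℓ • y) :
    U (U y) - aq • U y + ((q : ℕ) : 𝒪) • y = 0 := by
  obtain ⟨hy1, hya1⟩ := mlte_op_mem_eig (N * q) Ps' θ' G a q hy hya
  obtain ⟨hy2, hya2⟩ := mlte_op_mem_eig (N * q) Ps' θ' G a q hy1 hya1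
  have hT0 := mlte_Tq_down N q Ps Ps' θ θ' G a hPs2 hqG aq hTq (β ∘ₗ W)
    (mlte_corW_comm N q h) hy hya
  have hT1 := mlte_Tq_down N q Ps Ps' θ θ' G a hPs2 hqG aq hTq (β ∘ₗ W)
    (mlte_corW_comm N q h) hy1 hya1
  rw [LinearMap.comp_apply] at hT0 hT1
  apply hnew
  · intro ℓ hℓ
    rw [map_add, map_sub, map_smul, map_smul, hya2 ℓ hℓ, hya1 ℓ hℓ, hya ℓ hℓ]
    module
  · rw [ih4_mem_K]
    constructor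
    · rw [map_add, map_sub, map_smul, map_smul, mlte_cor_Uq N q h (U y), mlte_corW_Uq N q h y,
        mlte_cor_Uq N q h y, hT0]
      module
    · rw [map_add, map_sub, map_smul, map_smul, map_add, map_sub, map_smul, map_smul,
        mlte_corW_Uq N q h (U y), hT1, mlte_corW_Uq N q h y, hT0, mlte_cor_Uq N q h y]
      module

variable (hqPs' : q ∈ Ps') (hθq : z - θ' q ∈ maximalIdeal 𝒪)
  (hqm : ((q : ℕ) : 𝒪) ∈ maximalIdeal 𝒪)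

include hPs2 hqG hz hlam hTq hnew hqPs' hθq hqm in
/-- **`U_q = z` on `X'`** -/
theorem mlte_Uq_eq {y : Ih4H 𝒪 𝒪 (N * q)} (hy : y ∈ ih4Part 𝒪 (N * q) Ps' θ')
    (hya : ∀ ℓ ∈ G, ih4Op 𝒪 (N * q) ℓ y = a ℓ • y) : U y = z • y := by
  obtain ⟨hy1, hya1⟩ := mlte_op_mem_eig (N * q) Ps' θ' G a q hy hya
  have haq : aq = z + zi * ((q : ℕ) : 𝒪) := by
    have : aq = zi * (z * aq) := by rw [← mul_assoc, mul_comm zi z, hz, one_mul]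
    rw [this, hlam]
    linear_combination z * hz
  set v := U y - z • y with hv
  have hvpart : v ∈ ih4Part 𝒪 (N * q) Ps' θ' :=
    Submodule.sub_mem _ hy1 (Submodule.smul_mem _ _ hy)
  have hva : ∀ ℓ ∈ G, ih4Op 𝒪 (N * q) ℓ v = a ℓ • v := by
    intro ℓ hℓ
    rw [hv, map_sub, map_smul, hya1 ℓ hℓ, hya ℓ hℓ]
    module
  have hquad := mlte_quadP N q h Ps Ps' θ θ' G a hPs2 hqG aq hTq hnew hy hya
  have hUv : U v = (zi * ((q : ℕ) : 𝒪)) • v := by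
    rw [hv, map_sub, map_smul]
    have e : U (U y) = aq • U y - ((q : ℕ) : 𝒪) • y := by
      rw [← sub_eq_zero, ← hquad]
      abel
    rw [e, haq]
    have e2 : ((q : ℕ) : 𝒪) • y = (z * zi * ((q : ℕ) : 𝒪)) • y := by rw [hz, one_mul]
    rw [e2]
    module
  by_contra hne
  have hv0 : v ≠ 0 := fun e => hne (sub_eq_zero.1 e)
  have h1 := mlte_eig_sub_mem (N * q) Ps' θ' hqPs' v hvpart hv0 _ hUv
  have h2 : θ' q ∈ maximalIdeal 𝒪 := by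
    have : θ' q = zi * ((q : ℕ) : 𝒪) - (zi * ((q : ℕ) : 𝒪) - θ' q) := by ring
    rw [this]
    exact Ideal.sub_mem _ (Ideal.mul_mem_left _ _ hqm) h1
  have h3 : z ∈ maximalIdeal 𝒪 := by
    have : z = (z - θ' q) + θ' q := by ring
    rw [this]
    exact Ideal.add_mem _ hθq h2
  exact (mem_maximalIdeal _).1 h3 (IsUnit.of_mul_eq_one _ hz)

/-- `cor ∘ w_q : X' → X` -/
def mlteCorWX : ↥(mlteEig 𝒪 (N * q) Ps' θ' G a) →ₗ[𝒪] ↥(mlteEig 𝒪 N Ps θ G a) where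
  toFun y := ⟨⟨(β ∘ₗ W) y.1.1,
      mlte_down_mem_part N q Ps Ps' θ θ' hPs2 (β ∘ₗ W) (mlte_corW_comm N q h) y.1.2⟩,
    mlte_down_eig N q G a hqG (β ∘ₗ W) (mlte_corW_comm N q h) y.2⟩
  map_add' x y := by
    apply Subtype.ext
    apply Subtype.ext
    simp only [Submodule.coe_add, map_add]
  map_smul' c x := by
    apply Subtype.ext
    apply Subtype.ext
    simp only [Submodule.coe_smul, map_smul, RingHom.id_apply]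

include hPs2 hqG hz hlam hTq hnew hqPs' hθq hqm in
/-- **`rank X' ≤ rank X`**: `cor ∘ w_q` is injective on `X'` -/
theorem mlte_eig_finrank_geP :
    Module.finrank 𝒪 ↥(mlteEig 𝒪 (N * q) Ps' θ' G a)
      ≤ Module.finrank 𝒪 ↥(mlteEig 𝒪 N Ps θ G a) := by
  refine LinearMap.finrank_le_finrank_of_injective
    (f := mlteCorWX N q h Ps Ps' θ θ' G a hPs2 hqG) ?_
  rw [injective_iff_map_eq_zero]
  intro y hy0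
  have h0 : β (W y.1.1) = 0 := congrArg (fun t => (t.1.1 : Ih4H 𝒪 𝒪 N)) hy0
  have hU := mlte_Uq_eq N q h Ps Ps' θ θ' G a hPs2 hqG aq z zi hz hlam hTq hnew hqPs' hθq hqm
    y.1.2 y.2
  have h1 : z • β y.1.1 = 0 := by
    rw [← map_smul, ← hU, mlte_cor_Uq N q h, h0, smul_zero]
  have hz0 : z ≠ 0 := by
    rintro rfl
    rw [zero_mul] at hz
    exact zero_ne_one hz
  have h2 : β y.1.1 = 0 := (smul_eq_zero.1 h1).resolve_left hz0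
  have h3 := hnew y.1.1 y.2 (ih4_mem_K.2 ⟨h2, h0⟩)
  apply Subtype.ext
  apply Subtype.ext
  exact h3

end EigP

/-! ### The statement with arbitrary names for the levels -/

section Transport

variable {𝒪 : Type} [CommRing 𝒪] [IsDomain 𝒪] [IsDiscreteValuationRing 𝒪] [CharZero 𝒪]
  [IsAdicComplete (maximalIdeal 𝒪) 𝒪]

/-- **(pE)**, ring-free: `U_q = z` on `X'` and `rank X' = rank X` -/
theorem mlte_eigP' (N N₁ N' q : ℕ) [NeZero N] [NeZero N₁] [NeZero N'] [hq : Fact q.Prime]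
    (hN₁ : N₁ = N) (hN' : N' = N * q) (h : ¬ q ∣ N)
    (Ps Ps' : Set ℕ) (θ θ' : ℕ → 𝒪) (G : Set ℕ) (a : ℕ → 𝒪) (aq z zi : 𝒪)
    (hPs : ∀ ℓ ∈ Ps', ℓ ≠ q → ℓ ∈ Ps ∧ θ' ℓ = θ ℓ)
    (hPs2 : ∀ ℓ ∈ Ps, ℓ ≠ q ∧ ℓ ∈ Ps' ∧ θ' ℓ = θ ℓ) (hqG : q ∉ G)
    (hz : z * zi = 1) (hlam : z * aq = z ^ 2 + ((q : ℕ) : 𝒪))
    (hTq : ∀ x ∈ mlteEig 𝒪 N₁ Ps θ G a, ih4Op 𝒪 N₁ q x.1 = aq • x.1)
    (hnew : ∀ c : Ih4H 𝒪 𝒪 (N * q), (∀ ℓ ∈ G, ih4Op 𝒪 (N * q) ℓ c = a ℓ • c) →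
      c ∈ ih4K (ih4Cor N q h 𝒪 𝒪) (ih4W N q h 𝒪 𝒪) → c = 0)
    (hqPs' : q ∈ Ps') (hθq : z - θ' q ∈ maximalIdeal 𝒪)
    (hqm : ((q : ℕ) : 𝒪) ∈ maximalIdeal 𝒪) (hq2 : q ≠ 2)
    (hnonEis : ∃ ℓ ∈ G, ℓ.Prime ∧ ¬ ℓ ∣ N₁ ∧ IsUnit (a ℓ - (((ℓ : ℕ) : 𝒪) + 1))) :
    (∀ x ∈ mlteEig 𝒪 N' Ps' θ' G a, ih4Op 𝒪 N' q x.1 = z • x.1) ∧
      Module.finrank 𝒪 ↥(mlteEig 𝒪 N' Ps' θ' G a) = Module.finrank 𝒪 ↥(mlteEig 𝒪 N₁ Ps θ G a) := by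
  subst hN₁
  subst hN'
  refine ⟨fun x hx => mlte_Uq_eq N₁ q h Ps Ps' θ θ' G a hPs2 hqG aq z zi hz hlam hTq hnew hqPs' hθq
    hqm x.2 hx, le_antisymm ?_ ?_⟩
  · exact mlte_eig_finrank_geP N₁ q h Ps Ps' θ θ' G a hPs2 hqG aq z zi hz hlam hTq hnew hqPs' hθq hqm
  · have hlam' : z * aq = z ^ 2 + ((q : ℕ) : 𝒪) := hlam
    exact mlte_eig_finrank_leP N₁ q q h Ps Ps' θ θ' aq z G G a a hPs (fun _ => hθq) hlam'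
      (fun ℓ hℓ _ => ⟨hℓ, rfl⟩) (fun hh => absurd hh hqG) hTq hq2 hqm hnonEis

end Transport

end

end Fermat.Agent.MLT
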