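/-
MLT / stream Eta (helper1): **(E4) the abstract growth of the congruence module** `Ω = M / (X + X^⊥)`.
Pure algebra over a principal ideal domain `O` (Mathlib only).

* `mlteQuotEquivOfSurj`      : `M ⧸ S ≃ P ⧸ f(S)` for `f : M ↠ P`, `ker f ≤ S`;
* `mlte_exists_extend`       : functionals extend from saturated submodules of finite free modules;
* `mlte_length_quot_smul_top`: `length (Q ⧸ c Q) = rank Q · length (O ⧸ c)` for `Q` finite free;
* `mlte_length_quot_smul`    : `length (P ⧸ c Q) = length (P ⧸ Q) + length (Q ⧸ c Q)`;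
* `mlte_omega_length`        : `length (M ⧸ (X ⊔ X^⊥)) = length (X^* ⧸ β(X))`, `β x = B(·, x)|_X`;
* `mlte_growth_abs`          : the growth formula.
-/
import Mathlib

set_option autoImplicit false
set_option linter.unusedSectionVars false
set_option linter.unusedVariables false
set_option linter.style.haveILetI false

namespace Fermat.Agent.MLT

noncomputable section

section General

variable {O : Type*} [CommRing O]

/-- `M ⧸ S ≃ P ⧸ f(S)` for a surjection `f : M → P` with `ker f ≤ S` -/
def mlteQuotEquivOfSurj {M P : Type*} [AddCommGroup M] [Module O M] [AddCommGroup P]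
    [Module O P] (f : M →ₗ[O] P) (hf : Function.Surjective f) (S : Submodule O M)
    (hS : LinearMap.ker f ≤ S) : (M ⧸ S) ≃ₗ[O] (P ⧸ S.map f) :=
  LinearEquiv.ofBijective (S.mapQ (S.map f) f (Submodule.le_comap_map f S)) (by
    constructor
    · rw [injective_iff_map_eq_zero]
      intro x hx
      obtain ⟨m, rfl⟩ := Submodule.Quotient.mk_surjective S x
      rw [Submodule.mapQ_apply, Submodule.Quotient.mk_eq_zero] at hx
      obtain ⟨s, hs, hsm⟩ := hx
      rw [Submodule.Quotient.mk_eq_zero]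
      have h1 : m - s ∈ LinearMap.ker f := by
        rw [LinearMap.mem_ker, map_sub, hsm, sub_self]
      have h2 := S.add_mem (hS h1) hs
      rwa [sub_add_cancel] at h2
    · intro y
      obtain ⟨p, rfl⟩ := Submodule.Quotient.mk_surjective _ y
      obtain ⟨m, rfl⟩ := hf p
      exact ⟨Submodule.Quotient.mk m, rfl⟩)

end General

section PID

variable {O : Type*} [CommRing O] [IsDomain O] [IsPrincipalIdealRing O]

/-- functionals extend from a saturated submodule of a finite free module -/
theorem mlte_exists_extend {M : Type*} [AddCommGroup M] [Module O M] [Module.Free O M]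
    [Module.Finite O M] (X : Submodule O M)
    (hX : ∀ (a : O) (m : M), a ≠ 0 → a • m ∈ X → m ∈ X) (l : X →ₗ[O] O) :
    ∃ l' : M →ₗ[O] O, ∀ x : X, l' x = l x := by
  haveI : Module.IsTorsionFree O (M ⧸ X) := by
    apply Module.IsTorsionFree.of_smul_eq_zero
    intro r y hy
    obtain ⟨m, rfl⟩ := Submodule.Quotient.mk_surjective X y
    by_cases hr : r = 0
    · exact Or.inl hr
    · right
      rw [← Submodule.Quotient.mk_smul, Submodule.Quotient.mk_eq_zero] at hy
      rw [Submodule.Quotient.mk_eq_zero]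
      exact hX r m hr hy
  haveI : Module.Free O (M ⧸ X) := Module.free_of_finite_type_torsion_free'
  obtain ⟨s, hs⟩ := Module.projective_lifting_property X.mkQ (LinearMap.id : (M ⧸ X) →ₗ[O] (M ⧸ X))
    (Submodule.mkQ_surjective X)
  -- the retraction `M → X`
  have hmem : ∀ m : M, m - s (X.mkQ m) ∈ X := by
    intro m
    rw [← Submodule.Quotient.mk_eq_zero, Submodule.Quotient.mk_sub]
    have := LinearMap.congr_fun hs (X.mkQ m)
    rw [LinearMap.comp_apply, LinearMap.id_apply] at this
    rw [← Submodule.mkQ_apply, ← Submodule.mkQ_apply, this, sub_self]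
  let ρ : M →ₗ[O] X :=
    { toFun := fun m => ⟨m - s (X.mkQ m), hmem m⟩
      map_add' := fun a b => by
        apply Subtype.ext
        simp only [map_add, Submodule.coe_add]
        abel
      map_smul' := fun c a => by
        apply Subtype.ext
        simp only [map_smul, RingHom.id_apply, Submodule.coe_smul, smul_sub] }
  refine ⟨l.comp ρ, fun x => ?_⟩
  rw [LinearMap.comp_apply]
  congr 1
  apply Subtype.ext
  show (x : M) - s (X.mkQ (x : M)) = x
  have : X.mkQ (x : M) = 0 := by
    rw [Submodule.mkQ_apply, Submodule.Quotient.mk_eq_zero]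
    exact x.2
  rw [this, map_zero, sub_zero]

/-- `length (Q ⧸ c Q) = rank Q · length (O ⧸ c)` for a finite free module `Q` -/
theorem mlte_length_quot_smul_top (Q : Type*) [AddCommGroup Q] [Module O Q] [Module.Free O Q]
    [Module.Finite O Q] (c : O) :
    Module.length O (Q ⧸ LinearMap.range (LinearMap.lsmul O Q c))
      = (Module.finrank O Q : ℕ∞) * Module.length O (O ⧸ Ideal.span {c}) := by
  classical
  set d := Module.finrank O Q with hd
  let e : Q ≃ₗ[O] (Fin d → O) := (Module.finBasis O Q).equivFun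
  have hmap : (LinearMap.range (LinearMap.lsmul O Q c)).map (e : Q →ₗ[O] (Fin d → O))
      = Submodule.pi Set.univ (fun _ : Fin d => (Ideal.span {c} : Submodule O O)) := by
    ext v
    simp only [Submodule.mem_map, LinearMap.mem_range, Submodule.mem_pi, Set.mem_univ,
      forall_true_left]
    constructor
    · rintro ⟨_, ⟨q, rfl⟩, rfl⟩ i
      rw [LinearMap.lsmul_apply, LinearEquiv.coe_coe, map_smul, Pi.smul_apply, smul_eq_mul]
      exact Ideal.mem_span_singleton'.mpr ⟨e q i, mul_comm _ _⟩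
    · intro hv
      have hv' : ∀ i, ∃ a : O, a * c = v i := fun i => Ideal.mem_span_singleton'.mp (hv i)
      choose a ha using hv'
      refine ⟨c • e.symm a, ⟨e.symm a, rfl⟩, ?_⟩
      rw [LinearEquiv.coe_coe, map_smul, LinearEquiv.apply_symm_apply]
      funext i
      rw [Pi.smul_apply, smul_eq_mul, mul_comm, ha]
  rw [(Submodule.Quotient.equiv _ _ e hmap).length_eq, (Submodule.quotientPi _).length_eq,
    Module.length_pi, ENat.card_eq_coe_fintype_card, Fintype.card_fin]

/-- `length (P ⧸ c Q) = length (P ⧸ Q) + length (Q ⧸ c Q)` -/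
theorem mlte_length_quot_smul {P : Type*} [AddCommGroup P] [Module O P] (Q : Submodule O P)
    (c : O) :
    Module.length O (P ⧸ Q.map (LinearMap.lsmul O P c))
      = Module.length O (Q ⧸ LinearMap.range (LinearMap.lsmul O Q c))
        + Module.length O (P ⧸ Q) := by
  set cQ := Q.map (LinearMap.lsmul O P c) with hcQ
  have hle : cQ ≤ Q := by
    rintro _ ⟨q, hq, rfl⟩
    exact Q.smul_mem c hq
  have hcomap : LinearMap.range (LinearMap.lsmul O Q c) ≤ cQ.comap Q.subtype := by
    rintro _ ⟨q, rfl⟩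
    exact ⟨q.1, q.2, rfl⟩
  let f : (Q ⧸ LinearMap.range (LinearMap.lsmul O Q c)) →ₗ[O] (P ⧸ cQ) :=
    Submodule.mapQ _ cQ Q.subtype hcomap
  let g : (P ⧸ cQ) →ₗ[O] (P ⧸ Q) := Submodule.mapQ cQ Q LinearMap.id (by
    rw [Submodule.comap_id]
    exact hle)
  refine Module.length_eq_add_of_exact f g ?_ ?_ ?_
  · rw [injective_iff_map_eq_zero]
    intro x hx
    obtain ⟨q, rfl⟩ := Submodule.Quotient.mk_surjective _ x
    rw [Submodule.mapQ_apply, Submodule.Quotient.mk_eq_zero] at hx
    obtain ⟨q', hq', hqq⟩ := hx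
    rw [Submodule.Quotient.mk_eq_zero]
    exact ⟨⟨q', hq'⟩, Subtype.ext hqq⟩
  · intro y
    obtain ⟨p, rfl⟩ := Submodule.Quotient.mk_surjective _ y
    exact ⟨Submodule.Quotient.mk p, rfl⟩
  · intro y
    obtain ⟨p, rfl⟩ := Submodule.Quotient.mk_surjective _ y
    constructor
    · intro hy
      rw [Submodule.mapQ_apply, LinearMap.id_apply, Submodule.Quotient.mk_eq_zero] at hy
      exact ⟨Submodule.Quotient.mk ⟨p, hy⟩, rfl⟩
    · rintro ⟨x, hx⟩
      obtain ⟨q, rfl⟩ := Submodule.Quotient.mk_surjective _ x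
      rw [Submodule.mapQ_apply] at hx
      rw [← hx, Submodule.mapQ_apply, LinearMap.id_apply, Submodule.Quotient.mk_eq_zero]
      exact q.2

/-! ### `Ω = M ⧸ (X + X^⊥)` as the cokernel of `X → X^*` -/

section Omega

variable {M : Type*} [AddCommGroup M] [Module O M] (B : LinearMap.BilinForm O M)
  (X : Submodule O M)

/-- `m ↦ B(·, m)|_X` -/
def mlteF : M →ₗ[O] Module.Dual O X := (LinearMap.lcomp O O X.subtype).comp B.flip

theorem mlteF_apply (m : M) (x : X) : mlteF B X m x = B x m := rfl

/-- `x ↦ B(·, x)|_X` on `X` -/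
def mlteBeta : X →ₗ[O] Module.Dual O X := (mlteF B X).comp X.subtype

theorem mlteBeta_apply (x y : X) : mlteBeta B X x y = B y x := rfl

theorem mlteF_ker : LinearMap.ker (mlteF B X) = B.orthogonal X := by
  ext m
  rw [LinearMap.mem_ker, LinearMap.BilinForm.mem_orthogonal_iff]
  constructor
  · intro h x hx
    exact LinearMap.congr_fun h ⟨x, hx⟩
  · intro h
    ext x
    exact h x x.2

variable [Module.Free O M] [Module.Finite O M]

theorem mlteF_surjective (hB : ∀ f : M →ₗ[O] O, ∃ m, ∀ y, B y m = f y)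
    (hX : ∀ (a : O) (m : M), a ≠ 0 → a • m ∈ X → m ∈ X) :
    Function.Surjective (mlteF B X) := by
  intro l
  obtain ⟨l', hl'⟩ := mlte_exists_extend X hX l
  obtain ⟨m, hm⟩ := hB l'
  refine ⟨m, ?_⟩
  ext x
  rw [mlteF_apply, hm, hl']

/-- **`length (M ⧸ (X + X^⊥)) = length (X^* ⧸ β(X))`** -/
theorem mlte_omega_length (hB : ∀ f : M →ₗ[O] O, ∃ m, ∀ y, B y m = f y)
    (hX : ∀ (a : O) (m : M), a ≠ 0 → a • m ∈ X → m ∈ X) :
    Module.length O (M ⧸ (X ⊔ B.orthogonal X))
      = Module.length O (Module.Dual O X ⧸ LinearMap.range (mlteBeta B X)) := by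
  have hker : LinearMap.ker (mlteF B X) ≤ X ⊔ B.orthogonal X := by
    rw [mlteF_ker]
    exact le_sup_right
  have hmap : (X ⊔ B.orthogonal X).map (mlteF B X) = LinearMap.range (mlteBeta B X) := by
    have h0 : (B.orthogonal X).map (mlteF B X) = ⊥ := by
      rw [← mlteF_ker, eq_bot_iff]
      rintro _ ⟨m, hm, rfl⟩
      exact hm
    rw [Submodule.map_sup, h0, sup_bot_eq, mlteBeta, LinearMap.range_comp,
      Submodule.range_subtype]
  rw [(mlteQuotEquivOfSurj (mlteF B X) (mlteF_surjective B X hB hX) _ hker).length_eq, hmap]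

end Omega

/-! ### The growth formula -/

section Growth

variable {M M' : Type*} [AddCommGroup M] [Module O M] [Module.Free O M] [Module.Finite O M]
  [AddCommGroup M'] [Module O M'] [Module.Free O M'] [Module.Finite O M']
  (B : LinearMap.BilinForm O M) (B' : LinearMap.BilinForm O M')
  (X : Submodule O M) (X' : Submodule O M')

/-- the restriction `X → X'` of `j` is bijective -/
theorem mlte_growth_bij
    (hXnd : ∀ x ∈ X, (∀ y ∈ X, B y x = 0) → x = 0)
    (j : M →ₗ[O] M') (hj : ∀ x ∈ X, j x ∈ X')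
    (hjsat : ∀ x ∈ X, ∀ (a : O) (m : M'), ¬ IsUnit a → j x = a • m → ∃ x₁ ∈ X, x = a • x₁)
    (hrank : Module.finrank O X' ≤ Module.finrank O X)
    (c : O) (hc : c ≠ 0) (hBj : ∀ x ∈ X, ∀ y ∈ X, B' (j x) (j y) = c * B x y) :
    Function.Bijective (j.restrict hj) := by
  have hinj : Function.Injective (j.restrict hj) := by
    rw [injective_iff_map_eq_zero]
    intro x hx
    have hx' : j x = 0 := congrArg Subtype.val hx
    apply Subtype.ext
    apply hXnd x x.2
    intro y hy
    have h1 := hBj y hy x x.2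
    rw [hx', map_zero] at h1
    exact (mul_eq_zero.mp h1.symm).resolve_left hc
  refine ⟨hinj, ?_⟩
  intro x'
  -- the quotient `X' ⧸ j(X)` has rank `0`, hence is torsion
  set R := LinearMap.range (j.restrict hj) with hR
  have h1 := Submodule.finrank_quotient_add_finrank R
  rw [LinearMap.finrank_range_of_inj hinj] at h1
  have h2 : Module.finrank O (↥X' ⧸ R) = 0 := by omega
  have h3 := Module.finrank_eq_zero_iff_isTorsion.mp h2
  obtain ⟨a, ha⟩ := @h3 (Submodule.Quotient.mk x')
  have ha0 : (a : O) ≠ 0 := nonZeroDivisors.ne_zero a.2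
  have ha' : (a : O) • x' ∈ R := by
    rw [← Submodule.Quotient.mk_eq_zero, Submodule.Quotient.mk_smul]
    exact ha
  obtain ⟨x, hx⟩ := ha'
  have hx' : j x = (a : O) • (x' : M') := congrArg Subtype.val hx
  by_cases hu : IsUnit (a : O)
  · obtain ⟨u, hu⟩ := hu
    refine ⟨(↑u⁻¹ : O) • x, ?_⟩
    rw [map_smul, hx, ← hu, smul_smul, Units.inv_mul, one_smul]
  · obtain ⟨x₁, hx₁, hxx⟩ := hjsat x x.2 (a : O) (x' : M') hu hx'
    refine ⟨⟨x₁, hx₁⟩, ?_⟩
    apply Subtype.ext
    show j x₁ = (x' : M')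
    rw [hxx, map_smul] at hx'
    exact smul_right_injective M' ha0 hx'

/-- **(E4) the growth of the congruence module** -/
theorem mlte_growth_abs
    (hB : ∀ f : M →ₗ[O] O, ∃ m, ∀ y, B y m = f y)
    (hB' : ∀ f : M' →ₗ[O] O, ∃ m, ∀ y, B' y m = f y)
    (hX : ∀ (a : O) (m : M), a ≠ 0 → a • m ∈ X → m ∈ X)
    (hX' : ∀ (a : O) (m : M'), a ≠ 0 → a • m ∈ X' → m ∈ X')
    (hXnd : ∀ x ∈ X, (∀ y ∈ X, B y x = 0) → x = 0)
    (j : M →ₗ[O] M') (hj : ∀ x ∈ X, j x ∈ X')
    (hjsat : ∀ x ∈ X, ∀ (a : O) (m : M'), ¬ IsUnit a → j x = a • m → ∃ x₁ ∈ X, x = a • x₁)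
    (hrank : Module.finrank O X' ≤ Module.finrank O X)
    (c : O) (hc : c ≠ 0) (hBj : ∀ x ∈ X, ∀ y ∈ X, B' (j x) (j y) = c * B x y) :
    Module.length O (M' ⧸ (X' ⊔ B'.orthogonal X'))
      = Module.length O (M ⧸ (X ⊔ B.orthogonal X))
        + (Module.finrank O X : ℕ∞) * Module.length O (O ⧸ Ideal.span {c}) := by
  have hbij := mlte_growth_bij B B' X X' hXnd j hj hjsat hrank c hc hBj
  let J : X ≃ₗ[O] X' := LinearEquiv.ofBijective (j.restrict hj) hbij
  have hJ : ∀ x : X, ((J x : X') : M') = j x := fun x => rfl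
  set β := mlteBeta B X with hβ
  set β' := mlteBeta B' X' with hβ'
  -- `β` is injective
  have hβinj : Function.Injective β := by
    rw [injective_iff_map_eq_zero]
    intro x hx
    apply Subtype.ext
    apply hXnd x x.2
    intro y hy
    exact LinearMap.congr_fun hx ⟨y, hy⟩
  -- the comparison of the two cokernels
  have hkey : ∀ x : X, J.dualMap (β' (J x)) = c • β x := by
    intro x
    ext y
    rw [LinearEquiv.dualMap_apply, mlteBeta_apply, LinearMap.smul_apply, mlteBeta_apply, hJ, hJ,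
      hBj y y.2 x x.2, smul_eq_mul]
  have hmap : (LinearMap.range β').map (J.dualMap : Module.Dual O X' →ₗ[O] Module.Dual O X)
      = (LinearMap.range β).map (LinearMap.lsmul O (Module.Dual O X) c) := by
    ext l
    simp only [Submodule.mem_map, LinearMap.mem_range]
    constructor
    · rintro ⟨_, ⟨x', rfl⟩, rfl⟩
      obtain ⟨x, rfl⟩ := J.surjective x'
      exact ⟨β x, ⟨x, rfl⟩, (hkey x).symm⟩
    · rintro ⟨_, ⟨x, rfl⟩, rfl⟩
      exact ⟨β' (J x), ⟨J x, rfl⟩, hkey x⟩
  haveI : Module.Free O (LinearMap.range β) :=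
    Module.Free.of_equiv (LinearEquiv.ofInjective β hβinj)
  haveI : Module.Finite O (LinearMap.range β) :=
    Module.Finite.equiv (LinearEquiv.ofInjective β hβinj)
  rw [mlte_omega_length B' X' hB' hX', mlte_omega_length B X hB hX,
    (Submodule.Quotient.equiv _ _ J.dualMap hmap).length_eq, mlte_length_quot_smul,
    mlte_length_quot_smul_top (↥(LinearMap.range β)) c, LinearMap.finrank_range_of_inj hβinj,
    add_comm]

end Growth

end PID

end

end Fermat.Agent.MLT
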