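/-
MLT / stream Eta (helper1): **the two inputs (E5a), (E5b) of the induction on `Σ`**, in the literal
shapes of `Contracts/Step.lean` (helper6):

* `mlte_eigUp   : MltcEigUpAt 𝒪 B`   — `rank X_Σ(a) ≤ rank X_{Σ ∪ q}(a)`;
* `mlte_omegaUp : MltcOmegaUpAt 𝒪 B` — `length Ω_Σ + rank X_Σ(a) · length 𝒪/c_q(a_q) ≤ length Ω_{Σ ∪ q}`
  (in fact an equality).
-/
import Mathlib
import Fermat.Agent.Lib.MLT.Eta.StepGlue
import Fermat.Agent.Lib.MLT.Eta.Trans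
import Fermat.Agent.Lib.MLT.Min.Eta0

set_option autoImplicit false
set_option linter.unusedSectionVars false
set_option linter.unusedVariables false
set_option linter.style.haveILetI false

open Fermat.Agent.T1 Fermat.Agent.T2 ModularCurve.Period Fermat.Agent.Ihara CongruenceSubgroup
  IsLocalRing

namespace Fermat.Agent.MLT

noncomputable section

variable {𝒪 : Type} [CommRing 𝒪] [IsDomain 𝒪] [IsDiscreteValuationRing 𝒪] [CharZero 𝒪]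
  [IsAdicComplete (maximalIdeal 𝒪) 𝒪] [Finite (ResidueField 𝒪)]

section Setup

variable (B : MltBase 𝒪) (Sig : Finset ℕ)

/-- the good primes of level `Σ` -/
def mlteGood : Set ℕ := {ℓ | ℓ.Prime ∧ ℓ ∉ B.bad Sig}

/-- `mltcEig` is `mlteEig` for the good primes -/
theorem mltcEig_eq_mlteEig [NeZero (B.level Sig)] (a : ℕ → 𝒪) :
    mltcEig B Sig a
      = mlteEig 𝒪 (B.level Sig) (B.Ps Sig) (B.theta Sig) (mlteGood B Sig) a :=
  Submodule.ext fun x => ⟨fun h ℓ hℓ => h ℓ hℓ.1 hℓ.2, fun h ℓ h1 h2 => h ℓ ⟨h1, h2⟩⟩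

variable {B Sig} {q : ℕ}

theorem mlte_Ps_insert (hqSig : q ∉ Sig) :
    ∀ ℓ ∈ B.Ps (insert q Sig), ℓ ≠ q →
      ℓ ∈ B.Ps Sig ∧ B.theta (insert q Sig) ℓ = B.theta Sig ℓ := by
  intro ℓ hℓ hℓq
  have hmem : ℓ ∈ insert q Sig ↔ ℓ ∈ Sig := by
    rw [Finset.mem_insert]
    exact ⟨fun h => h.resolve_left hℓq, Or.inr⟩
  refine ⟨?_, ?_⟩
  · rcases hℓ with ⟨h1, h2⟩ | h | h
    · refine Or.inl ⟨h1, fun hb => h2 ?_⟩
      unfold MltBase.bad at hb ⊢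
      rcases Finset.mem_union.1 hb with h | h
      · exact Finset.mem_union_left _ h
      · exact Finset.mem_union_right _ (Finset.mem_insert_of_mem h)
    · exact Or.inr (Or.inl (hmem.1 h))
    · exact Or.inr (Or.inr h)
  · unfold MltBase.theta
    simp only [hmem]

theorem mlte_theta_insert_self : q ∈ B.Ps (insert q Sig) → B.theta (insert q Sig) q = 0 :=
  fun _ => B.theta_of_mem (insert q Sig) (Finset.mem_insert_self q Sig)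

theorem mlte_good_insert :
    ∀ ℓ ∈ mlteGood B (insert q Sig), ℓ ∈ mlteGood B Sig ∧ ℓ ≠ q := by
  rintro ℓ ⟨h1, h2⟩
  refine ⟨⟨h1, fun hb => h2 ?_⟩, fun hℓq => h2 ?_⟩
  · unfold MltBase.bad at hb ⊢
    rcases Finset.mem_union.1 hb with h | h
    · exact Finset.mem_union_left _ h
    · exact Finset.mem_union_right _ (Finset.mem_insert_of_mem h)
  · unfold MltBase.bad
    rw [hℓq]
    exact Finset.mem_union_right _ (Finset.mem_insert_self q Sig)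

theorem mlte_q_good (hq : q.Prime) (hqS0 : q ∉ B.S0) (hqSig : q ∉ Sig) : q ∈ mlteGood B Sig := by
  refine ⟨hq, fun hb => ?_⟩
  unfold MltBase.bad at hb
  rcases Finset.mem_union.1 hb with h | h
  · exact hqS0 h
  · exact hqSig h

end Setup

section NonEis

variable (B : MltBase 𝒪) (hB : B.Valid) (Sig : Finset ℕ) (hSig : B.IsAux Sig)

include hB hSig in
/-- a good prime does not divide the level -/
theorem mlte_good_not_dvd {ℓ : ℕ} (hℓ : ℓ ∈ mlteGood B Sig) : ¬ ℓ ∣ B.level Sig :=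
  fun hd => hℓ.2 (mlte_prime_dvd_level B hB Sig hSig hℓ.1 hd)

include hB hSig in
/-- **the non-Eisenstein prime for an eigensystem occurring in `H_Σ`** -/
theorem mlte_nonEis_a [NeZero (B.level Sig)] (q : ℕ) (a : ℕ → 𝒪) (hX : mltcEig B Sig a ≠ ⊥) :
    ∃ ℓ ∈ mlteGood B Sig, ℓ.Prime ∧ ¬ ℓ ∣ B.level Sig ∧ ℓ ≠ q ∧
      IsUnit (a ℓ - (((ℓ : ℕ) : 𝒪) + 1)) := by
  obtain ⟨x, hx, hx0⟩ := Submodule.exists_mem_ne_zero_of_ne_bot hX
  obtain ⟨ℓ, hℓ, hℓS0, hℓT, hu⟩ := mlte_base_nonEis B hB (insert q Sig)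
  have hℓSig : ℓ ∉ Sig := fun h => hℓT (Finset.mem_insert_of_mem h)
  have hℓq : ℓ ≠ q := fun h => hℓT (h ▸ Finset.mem_insert_self q Sig)
  have hℓcut : ℓ ∉ B.cut := fun h => hℓS0 (hB.cut_sub ℓ h).2
  have hℓG : ℓ ∈ mlteGood B Sig := by
    refine ⟨hℓ, fun hb => ?_⟩
    unfold MltBase.bad at hb
    rcases Finset.mem_union.1 hb with h | h
    · exact hℓS0 h
    · exact hℓSig h
  refine ⟨ℓ, hℓG, hℓ, mlte_good_not_dvd B hB Sig hSig hℓG, hℓq, ?_⟩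
  have hx0' : (x : Ih4H 𝒪 𝒪 (B.level Sig)) ≠ 0 := fun h => hx0 (Subtype.ext h)
  have h1 := mlte_eig_sub_mem (B.level Sig) (B.Ps Sig) (B.theta Sig) (ℓ := ℓ)
    (Or.inl ⟨hℓ, hℓG.2⟩) (x : Ih4H 𝒪 𝒪 (B.level Sig)) x.2 hx0' (a ℓ) (hx ℓ hℓ hℓG.2)
  rw [B.theta_of_good Sig hℓSig hℓcut] at h1
  by_contra hnu
  have h2 : a ℓ - (((ℓ : ℕ) : 𝒪) + 1) ∈ maximalIdeal 𝒪 := (mem_maximalIdeal _).2 hnu
  have h3 : B.t ℓ - ((ℓ : 𝒪) + 1) ∈ maximalIdeal 𝒪 := by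
    have : B.t ℓ - ((ℓ : 𝒪) + 1) = (a ℓ - (((ℓ : ℕ) : 𝒪) + 1)) - (a ℓ - B.t ℓ) := by ring
    rw [this]
    exact Ideal.sub_mem _ h2 h1
  exact (mem_maximalIdeal _).1 h3 hu

end NonEis

section E5a

variable (𝒪)

/-- **(E5a)** level raising on the eigenspaces -/
theorem mlte_eigUp (B : MltBase 𝒪) : MltcEigUpAt 𝒪 B := by
  intro hB hp35 hS0 Sig q hSig hq hqS0 hqSig _ _ a
  by_cases hX : mltcEig B Sig a = ⊥
  · rw [hX, finrank_bot]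
    exact Nat.zero_le _
  haveI : Fact q.Prime := ⟨hq⟩
  haveI : Fact B.p.Prime := ⟨hB.prime⟩
  have hN' : B.level (insert q Sig) = B.level Sig * q * q := by
    rw [B.level_insert Sig hqSig]
    ring
  have hqG := mlte_q_good (B := B) hq hqS0 hqSig
  have hpq : B.p ≠ q := fun h => hqS0 (h ▸ hB.Smin_sub hB.p_mem_Smin)
  rw [mltcEig_eq_mlteEig, mltcEig_eq_mlteEig]
  exact mlte_eig_finrank_le' (B.level Sig) (B.level (insert q Sig)) q B.p hN'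
    (mlte_good_not_dvd B hB Sig hSig hqG) (B.Ps Sig) (B.Ps (insert q Sig)) (B.theta Sig)
    (B.theta (insert q Sig)) (mlte_Ps_insert hqSig) mlte_theta_insert_self
    (mlteGood B Sig) (mlteGood B (insert q Sig)) a hB.odd hpq hB.mem mlte_good_insert
    (mlte_nonEis_a B hB Sig hSig q a hX)

end E5a

section E5bGeneric

/-! the translation for an abstract copy `Hs` of the `θ`-part (to be `B.H Sig`) -/

omit [Finite (ResidueField 𝒪)] in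
/-- `H[ker π] = X(a)`, `length Ω` in ring-free terms, and non-degeneracy of the pairing on `X(a)`,
for a module structure of `T = IhdT 𝒪 θ` on (a copy `Hs` of) the `θs`-part of level `N` through
which the `T_ℓ` act as `ih4Op ℓ` -/
theorem mlte_point_generic (N : ℕ) [NeZero N] (Ps : Set ℕ) (θs : ℕ → 𝒪)
    (Hs : Submodule 𝒪 (Ih4H 𝒪 𝒪 N)) (hHs : Hs = ih4Part 𝒪 N Ps θs)
    {S : Finset ℕ} (θ : CuspForm.heckeAlgebra N 2 (↑S : Set ℕ) →+* ResidueField 𝒪)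
    (hNS : ∀ r : ℕ, r.Prime → r ∣ N → r ∈ S)
    [Module (IhdT 𝒪 θ) ↥Hs] [IsScalarTower 𝒪 (IhdT 𝒪 θ) ↥Hs]
    (π : IhdT 𝒪 θ →ₐ[𝒪] 𝒪) (a : ℕ → 𝒪) (G : Set ℕ)
    (hG : ∀ ℓ, ℓ ∈ G ↔ ℓ.Prime ∧ ¬ ℓ ∣ N ∧ ℓ ∉ (↑S : Set ℕ))
    (hπ : ∀ (ℓ : ℕ) (hℓ : ℓ.Prime) (hℓN : ¬ ℓ ∣ N) (hℓS : ℓ ∉ (↑S : Set ℕ)),
      π (ihdPi 𝒪 θ (CuspForm.heckeAlgebra.T hℓ hℓN hℓS)) = a ℓ)
    (hcompat : ∀ (ℓ : ℕ) (hℓ : ℓ.Prime) (hℓN : ¬ ℓ ∣ N) (hℓS : ℓ ∉ (↑S : Set ℕ)) (x : ↥Hs),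
      ((ihdPi 𝒪 θ (CuspForm.heckeAlgebra.T hℓ hℓN hℓS) • x : ↥Hs) : Ih4H 𝒪 𝒪 N)
        = ih4Op 𝒪 N ℓ (x : Ih4H 𝒪 𝒪 N)) :
    mltc_omegaLen π ↥Hs
        = Module.length 𝒪 (↥(ih4Part 𝒪 N Ps θs) ⧸
            (mlteEig 𝒪 N Ps θs G a
              ⊔ (mltePartPair 𝒪 N Ps θs).orthogonal (mlteEig 𝒪 N Ps θs G a))) ∧
      (∀ x ∈ mlteEig 𝒪 N Ps θs G a,
        (∀ y ∈ mlteEig 𝒪 N Ps θs G a, mltePartPair 𝒪 N Ps θs y x = 0) → x = 0) := by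
  subst hHs
  have hgen := mlte_ihd_adjoin_T 𝒪 θ (fun r hr hd => Finset.mem_coe.2 (hNS r hr hd))
  have hη : mltc_eta π ≠ ⊥ := mltm_eta_ne_bot_ihdT θ hNS π
  have hadj : ∀ (t : IhdT 𝒪 θ) (x y : ↥(ih4Part 𝒪 N Ps θs)),
      mltePartPair 𝒪 N Ps θs (t • x) y = mltePartPair 𝒪 N Ps θs x (t • y) := by
    intro t x y
    refine mlte_selfadj_of_gen (mltePartPair 𝒪 N Ps θs) (mlteGenT 𝒪 θ) hgen ?_ t x y
    rintro _ ⟨ℓ, hℓ, hℓN, hℓS, rfl⟩ x y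
    rw [mltePartPair_apply, mltePartPair_apply, hcompat ℓ hℓ hℓN hℓS x, hcompat ℓ hℓ hℓN hℓS y,
      mltePairO_op]
  have hX : mltc_torsP π ↥(ih4Part 𝒪 N Ps θs) = mlteEig 𝒪 N Ps θs G a := by
    ext x
    rw [mlte_mem_torsP_iff_gen π (mlteGenT 𝒪 θ) hgen, mlte_mem_eig]
    constructor
    · intro h ℓ hℓG
      obtain ⟨hℓ, hℓN, hℓS⟩ := (hG ℓ).1 hℓG
      have h1 := h _ ⟨ℓ, hℓ, hℓN, hℓS, rfl⟩
      rw [hπ ℓ hℓ hℓN hℓS] at h1
      rw [← hcompat ℓ hℓ hℓN hℓS x, h1]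
      rfl
    · rintro h _ ⟨ℓ, hℓ, hℓN, hℓS, rfl⟩
      apply Subtype.ext
      rw [hcompat ℓ hℓ hℓN hℓS x, h ℓ ((hG ℓ).2 ⟨hℓ, hℓN, hℓS⟩), hπ ℓ hℓ hℓN hℓS]
      rfl
  refine ⟨mlte_omegaLen_eq π (mltePartPair 𝒪 N Ps θs) hadj (mltePartPair_nondeg 𝒪 N Ps θs) hη _ hX,
    ?_⟩
  have h1 := mlte_torsP_nondeg π (mltePartPair 𝒪 N Ps θs) hadj (mltePartPair_nondeg 𝒪 N Ps θs) hη
  rw [hX] at h1
  exact h1

end E5bGeneric

section E5b

theorem mlte_good_iff (B : MltBase 𝒪) (hB : B.Valid) (Sig : Finset ℕ) (hSig : B.IsAux Sig) (ℓ : ℕ) :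
    ℓ ∈ mlteGood B Sig ↔ ℓ.Prime ∧ ¬ ℓ ∣ B.level Sig ∧ ℓ ∉ (↑(B.bad Sig) : Set ℕ) :=
  ⟨fun h => ⟨h.1, mlte_good_not_dvd B hB Sig hSig h, fun hh => h.2 (Finset.mem_coe.1 hh)⟩,
    fun h => ⟨h.1, fun hh => h.2.2 (Finset.mem_coe.2 hh)⟩⟩

variable (𝒪)

/-- **(E5b)** growth of the congruence module (an equality, in fact) -/
theorem mlte_omegaUp (B : MltBase 𝒪) : MltcOmegaUpAt 𝒪 B := by
  intro hB hp35 hS0 Sig q hSig hq hqS0 hqSig _ _ a θ θ' hθ hθ' π π' hπ hπ' _ _ _ _ hcompat hcompat'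
    hX hc hrank
  haveI : Fact q.Prime := ⟨hq⟩
  haveI : Fact B.p.Prime := ⟨hB.prime⟩
  have hSig' : B.IsAux (insert q Sig) := by
    intro r hr
    rcases Finset.mem_insert.1 hr with rfl | h
    · exact ⟨hq, hqS0⟩
    · exact hSig r h
  have hN' : B.level (insert q Sig) = B.level Sig * q * q := by
    rw [B.level_insert Sig hqSig]
    ring
  have hqG := mlte_q_good (B := B) hq hqS0 hqSig
  have hpq : B.p ≠ q := fun h => hqS0 (h ▸ hB.Smin_sub hB.p_mem_Smin)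
  obtain ⟨e1, hnd⟩ := mlte_point_generic (B.level Sig) (B.Ps Sig) (B.theta Sig) (B.H Sig) rfl θ
    (fun r hr hd => mlte_prime_dvd_level B hB Sig hSig hr hd) π a (mlteGood B Sig)
    (mlte_good_iff B hB Sig hSig) hπ hcompat
  obtain ⟨e2, -⟩ := mlte_point_generic (B.level (insert q Sig)) (B.Ps (insert q Sig))
    (B.theta (insert q Sig)) (B.H (insert q Sig)) rfl θ'
    (fun r hr hd => mlte_prime_dvd_level B hB (insert q Sig) hSig' hr hd) π' a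
    (mlteGood B (insert q Sig)) (mlte_good_iff B hB (insert q Sig) hSig') hπ' hcompat'
  rw [mltcEig_eq_mlteEig, mltcEig_eq_mlteEig] at hrank
  have hc' : mlteCqVal q (a q) ≠ 0 := hc
  have key := mlte_omega_growth' (B.level Sig) (B.level (insert q Sig)) q B.p hN'
    (mlte_good_not_dvd B hB Sig hSig hqG) (B.Ps Sig) (B.Ps (insert q Sig)) (B.theta Sig)
    (B.theta (insert q Sig)) (mlte_Ps_insert hqSig) mlte_theta_insert_self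
    (mlteGood B Sig) (mlteGood B (insert q Sig)) a hB.odd hpq hB.mem mlte_good_insert hqG
    (mlte_nonEis_a B hB Sig hSig q a hX) hnd hrank hc'
  rw [e1, e2, key, mltcEig_eq_mlteEig]
  exact le_of_eq rfl

end E5b

/-- **contract (E5a)** -/
theorem mlte_eigUpContract : MltcEigUpContract := fun 𝒪 _ _ _ _ _ _ B => mlte_eigUp 𝒪 B

/-- **contract (E5b)** -/
theorem mlte_omegaUpContract : MltcOmegaUpContract := fun 𝒪 _ _ _ _ _ _ B => mlte_omegaUp 𝒪 B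

end

end Fermat.Agent.MLT
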