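/-
MLT / stream Eta (helper1): **the two Hecke-side inputs (pE), (pΩ) of the step at `p`**, in the literal
shapes of `Contracts/StepP.lean` (helper6):

* `mlte_eigP   : MltcEigPAt 𝒪 B lamp`   — `U_p = z` on `X^ord(a)` and `rank X^ord(a) = rank X^fl(a)`;
* `mlte_omegaP : MltcOmegaPAt 𝒪 B lamp` — `length Ω^fl + rank X^fl(a) · length 𝒪/(z² - 1) ≤ length Ω^ord`
  (in fact an equality).
-/
import Mathlib
import Fermat.Agent.Lib.MLT.Eta.StepInputs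
import Fermat.Agent.Lib.MLT.Eta.EigP
import Fermat.Agent.Lib.MLT.Contracts.StepP

set_option autoImplicit false
set_option linter.unusedSectionVars false
set_option linter.unusedVariables false
set_option linter.style.haveILetI false

open Fermat.Agent.T1 Fermat.Agent.T2 ModularCurve.Period Fermat.Agent.Ihara CongruenceSubgroup
  IsLocalRing

namespace Fermat.Agent.MLT

noncomputable section

variable {𝒪 : Type} [CommRing 𝒪] [IsDomain 𝒪] [IsDiscreteValuationRing 𝒪] [CharZero 𝒪]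
  [IsAdicComplete (maximalIdeal 𝒪) 𝒪] [Finite (ResidueField 𝒪)]

section Setup

variable (B : MltBase 𝒪) (lamp : 𝒪)

theorem mlte_isAux_empty : B.IsAux ∅ := fun r hr => absurd hr (Finset.notMem_empty r)

/-- the good primes of `B` and of `B.toOrd lamp` are the same -/
theorem mlteGood_toOrd (Sig : Finset ℕ) : mlteGood (B.toOrd lamp) Sig = mlteGood B Sig := rfl

variable {B}

/-- `p ∤ N_∅` for a flat datum -/
theorem mlte_p_not_dvd_level (hB : B.Valid) (hfl : B.flat = true) : ¬ B.p ∣ B.level ∅ := by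
  rw [B.level_empty, hB.N0_dvd_iff B.p hB.prime]
  rintro (⟨-, h⟩ | ⟨-, h⟩ | h)
  · exact h rfl
  · rw [hfl] at h; exact Bool.noConfusion h
  · have := hB.p_mem_cut_iff.1 h
    rw [hfl] at this; exact Bool.noConfusion this

/-- `p` is not a good prime -/
theorem mlte_p_not_good (hB : B.Valid) (Sig : Finset ℕ) : B.p ∉ mlteGood B Sig := by
  rintro ⟨-, h⟩
  exact h (Finset.mem_union_left _ (hB.Smin_sub hB.p_mem_Smin))

/-- `Ps` and `θ` of `B.toOrd lamp` away from `p` -/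
theorem mlte_Ps_toOrd (lamp : 𝒪) :
    ∀ ℓ ∈ (B.toOrd lamp).Ps ∅, ℓ ≠ B.p →
      ℓ ∈ B.Ps ∅ ∧ (B.toOrd lamp).theta ∅ ℓ = B.theta ∅ ℓ := by
  intro ℓ hℓ hℓp
  have hcut : ℓ ∈ (B.toOrd lamp).cut ↔ ℓ ∈ B.cut := by
    rw [MltBase.toOrd_cut, Finset.mem_insert]
    exact ⟨fun h => h.resolve_left hℓp, Or.inr⟩
  refine ⟨?_, ?_⟩
  · rcases hℓ with h | h | h
    · exact Or.inl h
    · exact Or.inr (Or.inl h)
    · exact Or.inr (Or.inr (hcut.1 h))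
  · unfold MltBase.theta
    simp only [hcut, MltBase.toOrd_lam, MltBase.toOrd_t, Function.update_of_ne hℓp]

theorem mlte_Ps_toOrd2 (hB : B.Valid) (hfl : B.flat = true) (lamp : 𝒪) :
    ∀ ℓ ∈ B.Ps ∅, ℓ ≠ B.p ∧ ℓ ∈ (B.toOrd lamp).Ps ∅ ∧
      (B.toOrd lamp).theta ∅ ℓ = B.theta ∅ ℓ := by
  intro ℓ hℓ
  have hℓp : ℓ ≠ B.p := by
    rintro rfl
    rcases hℓ with ⟨-, h⟩ | h | h
    · exact h (Finset.mem_union_left _ (hB.Smin_sub hB.p_mem_Smin))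
    · exact absurd h (Finset.notMem_empty _)
    · have := hB.p_mem_cut_iff.1 h
      rw [hfl] at this; exact Bool.noConfusion this
  have hmem : ℓ ∈ (B.toOrd lamp).Ps ∅ := by
    rcases hℓ with h | h | h
    · exact Or.inl h
    · exact Or.inr (Or.inl h)
    · exact Or.inr (Or.inr (by rw [MltBase.toOrd_cut]; exact Finset.mem_insert_of_mem h))
  exact ⟨hℓp, hmem, (mlte_Ps_toOrd lamp ℓ hmem hℓp).2⟩

theorem mlte_p_mem_Ps_toOrd (lamp : 𝒪) : B.p ∈ (B.toOrd lamp).Ps ∅ :=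
  Or.inr (Or.inr (by rw [MltBase.toOrd_cut]; exact Finset.mem_insert_self _ _))

theorem mlte_theta_toOrd_p (lamp : 𝒪) : (B.toOrd lamp).theta ∅ B.p = lamp := by
  rw [(B.toOrd lamp).theta_of_cut ∅ (Finset.notMem_empty _)
    (by rw [MltBase.toOrd_cut]; exact Finset.mem_insert_self _ _), MltBase.toOrd_lam,
    Function.update_self]

end Setup

section PE

variable (𝒪)

/-- **(pE)** the eigenspaces at `p` -/
theorem mlte_eigP (B : MltBase 𝒪) (lamp : 𝒪) : MltcEigPAt 𝒪 B lamp := by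
  intro hB hlampu hfl _ _ _ _ h a z hzu hzl hz1 hX hT hnew
  obtain ⟨u, rfl⟩ := hzu
  have hz : (u : 𝒪) * ((u⁻¹ : 𝒪ˣ) : 𝒪) = 1 := Units.mul_inv u
  set aq : 𝒪 := ((u⁻¹ : 𝒪ˣ) : 𝒪) * ((u : 𝒪) ^ 2 + ((B.p : ℕ) : 𝒪)) with haq
  have hlam : (u : 𝒪) * aq = (u : 𝒪) ^ 2 + ((B.p : ℕ) : 𝒪) := by
    rw [haq, ← mul_assoc, hz, one_mul]
  rw [mltcEig_eq_mlteEig] at hX hT
  have hTq : ∀ x ∈ mlteEig 𝒪 (B.level ∅) (B.Ps ∅) (B.theta ∅) (mlteGood B ∅) a,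
      ih4Op 𝒪 (B.level ∅) B.p x.1 = aq • x.1 := by
    intro x hx
    have h1 := hT x hx
    have h2 : ih4Op 𝒪 (B.level ∅) B.p x.1
        = ((u⁻¹ : 𝒪ˣ) : 𝒪) • ((u : 𝒪) • ih4Op 𝒪 (B.level ∅) B.p x.1) := by
      rw [smul_smul, Units.inv_mul, one_smul]
    rw [h2, h1, smul_smul]
  have hnew' : ∀ c : Ih4H 𝒪 𝒪 (B.N0 * B.p),
      (∀ ℓ ∈ mlteGood B ∅, ih4Op 𝒪 (B.N0 * B.p) ℓ c = a ℓ • c) →
      c ∈ ih4K (ih4Cor B.N0 B.p h 𝒪 𝒪) (ih4W B.N0 B.p h 𝒪 𝒪) → c = 0 := by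
    intro c hc hcK
    refine hnew c (fun ℓ hℓ hℓS => hc ℓ ⟨hℓ, ?_⟩) hcK
    rw [B.bad_empty]
    exact hℓS
  obtain ⟨ℓ, hℓG, hℓ, hℓN, -, hu⟩ := mlte_nonEis_a B hB ∅ (mlte_isAux_empty B) B.p a
    (by rw [mltcEig_eq_mlteEig]; exact hX)
  have key := mlte_eigP' (𝒪 := 𝒪) B.N0 (B.level ∅) ((B.toOrd lamp).level ∅) B.p B.level_empty
    (B.toOrd_level_empty lamp) h (B.Ps ∅) ((B.toOrd lamp).Ps ∅) (B.theta ∅)
    ((B.toOrd lamp).theta ∅) (mlteGood B ∅) a aq (u : 𝒪) ((u⁻¹ : 𝒪ˣ) : 𝒪)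
    (mlte_Ps_toOrd lamp) (mlte_Ps_toOrd2 hB hfl lamp) (mlte_p_not_good hB ∅) hz hlam hTq hnew'
    (mlte_p_mem_Ps_toOrd lamp) (by rw [mlte_theta_toOrd_p]; exact hzl) hB.mem hB.odd
    ⟨ℓ, hℓG, hℓ, hℓN, hu⟩
  rw [mltcEig_eq_mlteEig, mltcEig_eq_mlteEig, mlteGood_toOrd]
  exact key

end PE

section POmega

variable (𝒪)

/-- **(pΩ)** growth of the congruence module at `p` (an equality, in fact) -/
theorem mlte_omegaP (B : MltBase 𝒪) (lamp : 𝒪) : MltcOmegaPAt 𝒪 B lamp := by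
  intro hB hB' hfl _ _ a θ θ' hθ hθ' π π' hπ hπ' _ _ _ _ hcompat hcompat' z hzu hzl hz1 hX hT hrank
  haveI : Fact B.p.Prime := ⟨hB.prime⟩
  obtain ⟨u, rfl⟩ := hzu
  have hz : (u : 𝒪) * ((u⁻¹ : 𝒪ˣ) : 𝒪) = 1 := Units.mul_inv u
  set aq : 𝒪 := ((u⁻¹ : 𝒪ˣ) : 𝒪) * ((u : 𝒪) ^ 2 + ((B.p : ℕ) : 𝒪)) with haq
  have hlam : (u : 𝒪) * aq = (u : 𝒪) ^ 2 + ((B.p : ℕ) : 𝒪) := by
    rw [haq, ← mul_assoc, hz, one_mul]
  have hSig := mlte_isAux_empty B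
  have hSig' := mlte_isAux_empty (B.toOrd lamp)
  have hX' := hX
  rw [mltcEig_eq_mlteEig] at hX hT
  have hTq : ∀ x ∈ mlteEig 𝒪 (B.level ∅) (B.Ps ∅) (B.theta ∅) (mlteGood B ∅) a,
      ih4Op 𝒪 (B.level ∅) B.p x.1 = aq • x.1 := by
    intro x hx
    have h1 := hT x hx
    have h2 : ih4Op 𝒪 (B.level ∅) B.p x.1
        = ((u⁻¹ : 𝒪ˣ) : 𝒪) • ((u : 𝒪) • ih4Op 𝒪 (B.level ∅) B.p x.1) := by
      rw [smul_smul, Units.inv_mul, one_smul]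
    rw [h2, h1, smul_smul]
  obtain ⟨e1, hnd⟩ := mlte_point_generic (B.level ∅) (B.Ps ∅) (B.theta ∅) (B.H ∅) rfl θ
    (fun r hr hd => mlte_prime_dvd_level B hB ∅ hSig hr hd) π a (mlteGood B ∅)
    (mlte_good_iff B hB ∅ hSig) hπ hcompat
  obtain ⟨e2, -⟩ := mlte_point_generic ((B.toOrd lamp).level ∅) ((B.toOrd lamp).Ps ∅)
    ((B.toOrd lamp).theta ∅) ((B.toOrd lamp).H ∅) rfl θ'
    (fun r hr hd => mlte_prime_dvd_level (B.toOrd lamp) hB' ∅ hSig' hr hd) π' a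
    (mlteGood (B.toOrd lamp) ∅) (mlte_good_iff (B.toOrd lamp) hB' ∅ hSig') hπ' hcompat'
  rw [mltcEig_eq_mlteEig, mltcEig_eq_mlteEig] at hrank
  obtain ⟨ℓ, hℓG, hℓ, hℓN, -, hu⟩ := mlte_nonEis_a B hB ∅ hSig B.p a hX'
  have hu1 : (u : 𝒪) ^ 2 ≠ 1 := fun e => hz1 (sub_eq_zero.2 e)
  have hc := mlteCpVal_ne_zero B.p aq (u : 𝒪) hlam u.isUnit hB.mem hu1
  have key := mlte_omega_growthP' (B.level ∅) ((B.toOrd lamp).level ∅) B.p B.p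
    (B.toOrd_level lamp ∅) (mlte_p_not_dvd_level hB hfl) (B.Ps ∅) ((B.toOrd lamp).Ps ∅)
    (B.theta ∅) ((B.toOrd lamp).theta ∅) aq (u : 𝒪) (mlteGood B ∅) (mlteGood (B.toOrd lamp) ∅)
    a a (mlte_Ps_toOrd lamp) (fun _ => by rw [mlte_theta_toOrd_p]; exact hzl) hlam
    (fun ℓ hℓ _ => ⟨hℓ, rfl⟩) (fun hh => absurd hh (mlte_p_not_good hB ∅)) hTq hB.odd hB.mem
    ⟨ℓ, hℓG, hℓ, hℓN, hu⟩ hnd hrank hc
  rw [e1, e2, key, mlteCpVal_span B.p aq (u : 𝒪) hlam u.isUnit hB.mem, mltcEig_eq_mlteEig]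
  exact le_of_eq rfl

end POmega

/-- **contract (pE)** -/
theorem mlte_eigPContract : MltcEigPContract := fun 𝒪 _ _ _ _ _ _ B lamp => mlte_eigP 𝒪 B lamp

/-- **contract (pΩ)** -/
theorem mlte_omegaPContract : MltcOmegaPContract := fun 𝒪 _ _ _ _ _ _ B lamp => mlte_omegaP 𝒪 B lamp

end

end Fermat.Agent.MLT
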