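/-
MLT / stream Eta (helper1): **translation between the ring-free congruence module
`H / (X + X^⊥)` and Diamond's `Ω = H / (H[p] + H[I])`** (`Contracts/Crit.lean`).

`π : T → O` an augmentation of a commutative `O`-algebra, `p = ker π`, `I = Ann_T p`, `H` a
`T`-module with an `O`-bilinear form `B` for which `T` is self-adjoint.

* `mlte_mem_torsP_iff_gen` : if `G` generates `T` then `H[p] = {x | g x = π(g) x ∀ g ∈ G}`;
* `mlte_selfadj_of_gen`    : if the generators are self-adjoint, all of `T` is;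
* `mlte_torsI_eq_orthogonal`: `H[I] = H[p]^⊥` if `B` is non-degenerate and `η = π(I) ≠ 0`;
* `mlte_torsP_nondeg`      : `B` is non-degenerate on `H[p]`;
* `mlte_omegaLen_eq`       : `length Ω = length (H / (X ⊔ X^⊥))` for `X = H[p]`.
-/
import Mathlib
import Fermat.Agent.Lib.MLT.Contracts.Crit

set_option autoImplicit false
set_option linter.unusedSectionVars false
set_option linter.unusedVariables false

namespace Fermat.Agent.MLT

section Trans

variable {O : Type*} [CommRing O] {T : Type*} [CommRing T] [Algebra O T] (π : T →ₐ[O] O)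
  {H : Type*} [AddCommGroup H] [Module O H] [Module T H] [IsScalarTower O T H]

theorem mlte_mem_torsP {x : H} : x ∈ mltc_torsP π H ↔ ∀ t ∈ RingHom.ker π, t • x = 0 := by
  unfold mltc_torsP
  rw [Submodule.restrictScalars_mem, Submodule.mem_torsionBySet_iff]
  exact ⟨fun h t ht => h ⟨t, ht⟩, fun h t => h t.1 t.2⟩

theorem mlte_mem_torsI {x : H} :
    x ∈ mltc_torsI π H ↔ ∀ t ∈ Submodule.annihilator (RingHom.ker π), t • x = 0 := by
  unfold mltc_torsI
  rw [Submodule.restrictScalars_mem, Submodule.mem_torsionBySet_iff]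
  exact ⟨fun h t ht => h ⟨t, ht⟩, fun h t => h t.1 t.2⟩

/-- on `H[p]` every `t ∈ T` acts through `π` -/
theorem mlte_torsP_smul {x : H} (hx : x ∈ mltc_torsP π H) (t : T) : t • x = π t • x := by
  have h0 : t - algebraMap O T (π t) ∈ RingHom.ker π := by
    rw [RingHom.mem_ker, map_sub, AlgHom.commutes]
    exact sub_self _
  have h1 := (mlte_mem_torsP π).1 hx _ h0
  rw [sub_smul, algebraMap_smul, sub_eq_zero] at h1
  exact h1

/-- **(B)** `H[p]` is the common eigenspace of a set of generators of `T` -/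
theorem mlte_mem_torsP_iff_gen (G : Set T) (hG : Algebra.adjoin O G = ⊤) {x : H} :
    x ∈ mltc_torsP π H ↔ ∀ g ∈ G, g • x = π g • x := by
  refine ⟨fun hx g _ => mlte_torsP_smul π hx g, fun hx => ?_⟩
  have key : ∀ t : T, t • x = π t • x := by
    intro t
    have ht : t ∈ Algebra.adjoin O G := by rw [hG]; exact Algebra.mem_top
    induction ht using Algebra.adjoin_induction with
    | mem g hg => exact hx g hg
    | algebraMap r => rw [algebraMap_smul, AlgHom.commutes]; rfl
    | add s t _ _ hs ht => rw [add_smul, hs, ht, map_add, add_smul]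
    | mul s t _ _ hs ht => rw [mul_smul, ht, smul_comm, hs, smul_smul, map_mul, mul_comm]
  rw [mlte_mem_torsP]
  intro t ht
  rw [key t, (RingHom.mem_ker).1 ht, zero_smul]

variable (B : LinearMap.BilinForm O H)

/-- if the generators of `T` are self-adjoint, all of `T` is -/
theorem mlte_selfadj_of_gen (G : Set T) (hG : Algebra.adjoin O G = ⊤)
    (hadj : ∀ g ∈ G, ∀ x y : H, B (g • x) y = B x (g • y)) (t : T) (x y : H) :
    B (t • x) y = B x (t • y) := by
  have ht : t ∈ Algebra.adjoin O G := by rw [hG]; exact Algebra.mem_top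
  induction ht using Algebra.adjoin_induction generalizing x y with
  | mem g hg => exact hadj g hg x y
  | algebraMap r => rw [algebraMap_smul, algebraMap_smul, map_smul, map_smul, LinearMap.smul_apply]
  | add s t _ _ hs ht => rw [add_smul, add_smul, map_add, map_add, LinearMap.add_apply, hs, ht]
  | mul s t _ _ hs ht => rw [mul_smul, hs, ht, ← mul_smul, mul_comm, mul_smul]

variable [IsDomain O]

theorem mlte_exists_of_eta_ne_bot (hη : mltc_eta π ≠ ⊥) :
    ∃ t ∈ Submodule.annihilator (RingHom.ker π), π t ≠ 0 := by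
  by_contra hcon
  apply hη
  unfold mltc_eta
  rw [Ideal.map_eq_bot_iff_le_ker]
  intro t ht
  rw [RingHom.mem_ker]
  by_contra h
  exact hcon ⟨t, ht, h⟩

/-- `Ann(p) · H ⊆ H[p]` -/
theorem mlte_ann_smul_mem_torsP {t : T} (ht : t ∈ Submodule.annihilator (RingHom.ker π))
    (y : H) : t • y ∈ mltc_torsP π H := by
  rw [mlte_mem_torsP]
  intro s hs
  have h1 : t * s = 0 := by
    have := (Submodule.mem_annihilator.1 ht) s hs
    rwa [smul_eq_mul] at this
  rw [← mul_smul, mul_comm, h1, zero_smul]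

/-- **(D)** `H[I] = H[p]^⊥` -/
theorem mlte_torsI_eq_orthogonal
    (hadj : ∀ (t : T) (x y : H), B (t • x) y = B x (t • y))
    (hnd : ∀ m : H, (∀ y, B y m = 0) → m = 0) (hη : mltc_eta π ≠ ⊥) :
    mltc_torsI π H = B.orthogonal (mltc_torsP π H) := by
  obtain ⟨t₀, ht₀, hπ⟩ := mlte_exists_of_eta_ne_bot π hη
  ext m
  rw [LinearMap.BilinForm.mem_orthogonal_iff]
  constructor
  · intro hm x hx
    show B x m = 0
    have h1 : π t₀ * B x m = 0 := by
      rw [← smul_eq_mul, ← LinearMap.smul_apply, ← map_smul, ← mlte_torsP_smul π hx t₀, hadj,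
        (mlte_mem_torsI π).1 hm t₀ ht₀, map_zero]
    exact (mul_eq_zero.1 h1).resolve_left hπ
  · intro hm
    rw [mlte_mem_torsI]
    intro t ht
    apply hnd
    intro y
    rw [← hadj]
    exact hm _ (mlte_ann_smul_mem_torsP π ht y)

/-- **the pairing is non-degenerate on `H[p]`** -/
theorem mlte_torsP_nondeg
    (hadj : ∀ (t : T) (x y : H), B (t • x) y = B x (t • y))
    (hnd : ∀ m : H, (∀ y, B y m = 0) → m = 0) (hη : mltc_eta π ≠ ⊥) :
    ∀ x ∈ mltc_torsP π H, (∀ y ∈ mltc_torsP π H, B y x = 0) → x = 0 := by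
  obtain ⟨t₀, ht₀, hπ⟩ := mlte_exists_of_eta_ne_bot π hη
  intro x hx hxy
  apply hnd
  intro y
  have h1 := hxy _ (mlte_ann_smul_mem_torsP π ht₀ y)
  rw [hadj, mlte_torsP_smul π hx t₀, map_smul, smul_eq_mul] at h1
  exact (mul_eq_zero.1 h1).resolve_left hπ

/-- **`length Ω = length (H / (X ⊔ X^⊥))`** for `X = H[p]` -/
theorem mlte_omegaLen_eq
    (hadj : ∀ (t : T) (x y : H), B (t • x) y = B x (t • y))
    (hnd : ∀ m : H, (∀ y, B y m = 0) → m = 0) (hη : mltc_eta π ≠ ⊥)
    (X : Submodule O H) (hX : mltc_torsP π H = X) :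
    mltc_omegaLen π H = Module.length O (H ⧸ (X ⊔ B.orthogonal X)) := by
  unfold mltc_omegaLen
  rw [mlte_torsI_eq_orthogonal π B hadj hnd hη, hX]

end Trans

end Fermat.Agent.MLT
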